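import Mathlib
import Fermat.Prelude.Def_AlgebraicCurve_DivisorPushPull
import Fermat.Agent.S24.FundCor

/-!
# Finite extensions of function fields: principal divisors and the fundamental identity

`K` algebraically closed of characteristic zero, `F'/F` a finite extension of function fields of
one variable over `K` (each finite over a rational subfield `K(x)`).

* (`HasPrincipalDivisors K F` is `Fermat.Agent.Lib.FF.Ext.hasPrincipalDivisors` of
  `Lib/FF/ExtPrincipal.lean`.)
* `exists_prime_of_le` : a place whose valuation ring contains a Dedekind domain `C` with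
  fraction field `F` comes from a nonzero prime of `C`.
* `sumRamificationInertia` : `∑_{w | v} e(w|v) f(w|v) = [F' : F]` for every place `v` of `F`
  (the Prelude class `SumRamificationInertia K F F'`, hence `FundamentalIdentity K F F'`).
-/

set_option autoImplicit false

noncomputable section

namespace Fermat.Agent.Lib.FF.ExtNorm

open AlgebraicCurve WithZero IsDedekindDomain IntermediateField
open Fermat.Agent.S24

section Dict

variable {K F : Type*} [Field K] [Field F] [Algebra K F]
variable {C : Type*} [CommRing C] [IsDedekindDomain C] [Algebra C F] [IsFractionRing C F]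

/-- A place of `F` whose valuation ring contains the Dedekind domain `C` (with fraction field
`F`) is the place of a nonzero prime of `C`, namely the centre of the place on `C`. -/
theorem exists_prime_of_le (hK : ∀ a : K, algebraMap K F a ∈ (algebraMap C F).range)
    (w : Place K F) (hC : ∀ c : C, algebraMap C F c ∈ w.toValuationSubring) :
    ∃ P : HeightOneSpectrum C, placeOfPrime hK P = w ∧
      ∀ c : C, c ∈ P.asIdeal ↔ (0 < w.ord (algebraMap C F c) ∨ c = 0) := by
  have hinjCF : Function.Injective (algebraMap C F) := IsFractionRing.injective C F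
  let φ : C →+* w.toValuationSubring :=
    (algebraMap C F).codRestrict w.toValuationSubring.toSubring hC
  have hφ : ∀ c : C, ((φ c : w.toValuationSubring) : F) = algebraMap C F c := fun c => rfl
  let P : Ideal C := (IsLocalRing.maximalIdeal w.toValuationSubring).comap φ
  have hPprime : P.IsPrime := Ideal.comap_isPrime φ _
  have hmemP : ∀ c : C, c ∈ P ↔ 0 < w.ord (algebraMap C F c) ∨ c = 0 := by
    intro c
    show φ c ∈ IsLocalRing.maximalIdeal w.toValuationSubring ↔ _
    rw [IsLocalRing.mem_maximalIdeal, mem_nonunits_iff]
    by_cases hc : c = 0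
    · simp [hc]
    have hcF : algebraMap C F c ≠ 0 := fun h => hc (hinjCF (by rw [h, map_zero]))
    simp only [hc, or_false]
    constructor
    · intro hnu
      by_contra hle
      rw [not_lt] at hle
      have h0 : w.ord (algebraMap C F c) = 0 := le_antisymm hle (ord_nonneg_of_mem w (hC c))
      apply hnu
      have hinv : (algebraMap C F c)⁻¹ ∈ w.toValuationSubring := by
        apply mem_of_ord_nonneg
        rw [w.ord_inv, h0, neg_zero]
      refine IsUnit.of_mul_eq_one ⟨(algebraMap C F c)⁻¹, hinv⟩ ?_
      ext
      simp [hφ, hcF]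
    · rintro hpos ⟨u, hu⟩
      have h0 := w.ord_coe_unit u
      rw [hu, hφ] at h0
      omega
  -- `P ≠ ⊥`: a uniformizer of `w` is a fraction `a / b` and then `a ∈ P`, `a ≠ 0`.
  have hPne : P ≠ ⊥ := by
    obtain ⟨π, hπ⟩ := IsDiscreteValuationRing.exists_irreducible w.toValuationSubring
    have hπ1 : w.ord (π : F) = 1 := w.ord_coe_irreducible hπ
    obtain ⟨a, b, hb, hab⟩ := IsFractionRing.div_surjective (A := C) (π : F)
    have hb0 : b ≠ 0 := nonZeroDivisors.ne_zero hb
    have hbF : algebraMap C F b ≠ 0 := fun h => hb0 (hinjCF (by rw [h, map_zero]))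
    have haF : algebraMap C F a = (π : F) * algebraMap C F b := by
      rw [← hab]; field_simp
    have hπ0 : (π : F) ≠ 0 := by
      intro h; rw [h] at hπ1; simp at hπ1
    have hord : w.ord (algebraMap C F a) = 1 + w.ord (algebraMap C F b) := by
      rw [haF, w.ord_mul hπ0 hbF, hπ1]
    have hbnn := ord_nonneg_of_mem w (hC b)
    have ha0 : a ≠ 0 := by
      rintro rfl
      rw [map_zero] at haF
      exact mul_ne_zero hπ0 hbF haF.symm
    intro hbot
    have : a ∈ P := (hmemP a).2 (Or.inl (by omega))
    rw [hbot, Ideal.mem_bot] at this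
    exact ha0 this
  let Q : HeightOneSpectrum C := ⟨P, hPprime, hPne⟩
  refine ⟨Q, ?_, hmemP⟩
  apply place_eq_of_le
  intro f hf
  rw [mem_placeOfPrime_iff] at hf
  obtain ⟨n, d, hnd⟩ := Q.exists_primeCompl_mul_eq_of_integer f hf
  have hd : (d : C) ∉ P := d.2
  have hd0 : algebraMap C F (d : C) ≠ 0 := by
    intro h
    apply hd
    rw [hmemP]
    exact Or.inr (hinjCF (by rw [h, map_zero]))
  have hdinv : (algebraMap C F (d : C))⁻¹ ∈ w.toValuationSubring := by
    apply mem_of_ord_nonneg
    rw [w.ord_inv]
    have h1 := ord_nonneg_of_mem w (hC (d : C))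
    have h2 : ¬ (0 < w.ord (algebraMap C F (d : C))) := fun h => hd ((hmemP _).2 (Or.inl h))
    omega
  have hf' : f = algebraMap C F n * (algebraMap C F (d : C))⁻¹ := by
    rw [← hnd]
    field_simp
  rw [hf']
  exact mul_mem (hC n) hdinv

/-- Membership in a prime in terms of the order at its place. -/
theorem mem_asIdeal_iff_ord_pos (hK : ∀ a : K, algebraMap K F a ∈ (algebraMap C F).range)
    (P : HeightOneSpectrum C) {c : C} (hc : c ≠ 0) :
    c ∈ P.asIdeal ↔ 0 < (placeOfPrime hK P).ord (algebraMap C F c) := by
  have hinjCF : Function.Injective (algebraMap C F) := IsFractionRing.injective C F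
  have hcF : algebraMap C F c ≠ 0 := fun h => hc (hinjCF (by rw [h, map_zero]))
  have h := P.valuation_lt_one_iff_mem (K := F) c
  have h2 := valuation_eq_exp_neg_ord hK P hcF
  rw [h2, ← exp_zero, exp_lt_exp] at h
  rw [← h]
  omega

/-- The places attached to distinct primes are distinct. -/
theorem placeOfPrime_injective (hK : ∀ a : K, algebraMap K F a ∈ (algebraMap C F).range) :
    Function.Injective (placeOfPrime (K := K) (F := F) (C := C) hK) := by
  intro P Q hPQ
  apply HeightOneSpectrum.ext
  ext c
  by_cases hc : c = 0
  · simp [hc]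
  rw [mem_asIdeal_iff_ord_pos hK P hc, mem_asIdeal_iff_ord_pos hK Q hc, hPQ]

end Dict

section Fund

variable {K F F' : Type*} [Field K] [Field F] [Field F']
  [Algebra K F] [Algebra K F'] [Algebra F F'] [IsScalarTower K F F']
  [Algebra.IsIntegral F F'] [HasPrincipalDivisors K F'] [IsAlgClosed K]

/-- **Fundamental identity over a place `v`**, from a Dedekind domain `C` with fraction field
`F'` which is finite over the valuation ring of `v`. -/
theorem sum_ramificationIndex_of_dedekind (v : Place K F)
    (hres : ∀ a : v.toValuationSubring, ∃ c : K, a - algebraMap K v.toValuationSubring c ∈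
      IsLocalRing.maximalIdeal v.toValuationSubring)
    (hdeg' : ∀ w : Place K F', w.deg = 1)
    (C : Type*) [CommRing C] [IsDedekindDomain C] [Algebra v.toValuationSubring C]
    [Module.Finite v.toValuationSubring C] [Module.IsTorsionFree v.toValuationSubring C]
    [Algebra C F'] [IsFractionRing C F'] [IsScalarTower v.toValuationSubring C F'] :
    ∑ w ∈ v.fiber F', (w.ramificationIndex F : ℤ) * (w.inertiaDeg F : ℤ)
      = (Module.finrank F F' : ℤ) := by
  classical
  set p : Ideal v.toValuationSubring := IsLocalRing.maximalIdeal v.toValuationSubring with hp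
  have hmax : p.IsMaximal := IsLocalRing.maximalIdeal.isMaximal _
  have hp0 : p ≠ ⊥ := IsDiscreteValuationRing.not_a_field v.toValuationSubring
  obtain ⟨π, hπ⟩ := IsDiscreteValuationRing.exists_irreducible v.toValuationSubring
  have hpπ : p = Ideal.span {π} := hπ.maximalIdeal_eq
  have hπ1 : v.ord (π : F) = 1 := v.ord_coe_irreducible hπ
  have hπ0 : (π : F) ≠ 0 := by
    intro h; rw [h] at hπ1; simp at hπ1
  have htower : ∀ a : v.toValuationSubring,
      algebraMap C F' (algebraMap v.toValuationSubring C a) = algebraMap F F' (a : F) := by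
    intro a
    rw [← IsScalarTower.algebraMap_apply v.toValuationSubring C F',
      IsScalarTower.algebraMap_apply v.toValuationSubring F F']
    rfl
  have hK : ∀ a : K, algebraMap K F' a ∈ (algebraMap C F').range := fun a =>
    ⟨algebraMap v.toValuationSubring C (algebraMap K v.toValuationSubring a), by
      rw [htower, IsScalarTower.algebraMap_apply K F F']; rfl⟩
  have hresK : Function.Surjective (algebraMap K (v.toValuationSubring ⧸ p)) := by
    intro y
    obtain ⟨a, rfl⟩ := Ideal.Quotient.mk_surjective y
    obtain ⟨c, hc⟩ := hres a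
    refine ⟨c, ?_⟩
    rw [IsScalarTower.algebraMap_apply K v.toValuationSubring (v.toValuationSubring ⧸ p),
      Ideal.Quotient.algebraMap_eq, eq_comm, Ideal.Quotient.eq]
    exact hc
  have hsum := Ideal.sum_ramification_inertia C F F' hp0
  set S := IsDedekindDomain.primesOverFinset p C with hS
  have hmemS : ∀ P : Ideal C, P ∈ S ↔ P ∈ p.primesOver C :=
    fun P => IsDedekindDomain.mem_primesOverFinset_iff hp0 C
  have hne : ∀ P : {P // P ∈ S}, P.1 ≠ ⊥ := fun P => by
    haveI := ((hmemS P.1).1 P.2).2
    exact Ideal.ne_bot_of_liesOver_of_ne_bot hp0 P.1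
  let hs : {P // P ∈ S} → HeightOneSpectrum C := fun P =>
    ⟨P.1, ((hmemS P.1).1 P.2).1, hne P⟩
  let Φ : {P // P ∈ S} → Place K F' := fun P => placeOfPrime hK (hs P)
  let vp : HeightOneSpectrum v.toValuationSubring := ⟨p, hmax.isPrime, hp0⟩
  have hvp : vp.intValuation π = exp (-1 : ℤ) := vp.intValuation_singleton hπ.ne_zero hpπ
  have hπF'0 : algebraMap F F' (π : F) ≠ 0 := by simpa using hπ0
  -- order of the uniformizer = ramification index
  have hord : ∀ P : {P // P ∈ S},
      (Φ P).ord (algebraMap F F' (π : F)) = (p.ramificationIdx' P.1 : ℤ) := by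
    intro P
    haveI : (hs P).asIdeal.LiesOver vp.asIdeal := ((hmemS P.1).1 P.2).2
    have h1 := HeightOneSpectrum.intValuation_liesOver vp (hs P) π
    have h2 := valuation_eq_exp_neg_ord hK (hs P) hπF'0
    have h3 : (hs P).valuation F' (algebraMap F F' (π : F))
        = exp (-(p.ramificationIdx' P.1 : ℤ)) := by
      rw [← htower, (hs P).valuation_of_algebraMap (K := F')
        (algebraMap v.toValuationSubring C π), ← h1, hvp, ← exp_nsmul]
      change exp ((p.ramificationIdx' P.1) • (-1 : ℤ)) = _
      simp
    rw [h3, exp_inj] at h2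
    have h2' : (placeOfPrime hK (hs P)).ord (algebraMap F F' (π : F))
        = (Φ P).ord (algebraMap F F' (π : F)) := rfl
    omega
  -- the places `Φ P` lie over `v`
  have hrestr : ∀ P : {P // P ∈ S}, (Φ P).restrict F = v := by
    intro P
    refine (place_eq_of_le (v := v) (w := (Φ P).restrict F) ?_).symm
    intro f hf
    rw [Place.mem_restrict_iff]
    show algebraMap F F' f ∈ (placeOfPrime hK (hs P)).toValuationSubring
    rw [mem_placeOfPrime_iff]
    have := htower ⟨f, hf⟩
    rw [← this]
    exact (hs P).valuation_le_one _
  have hram : ∀ P : {P // P ∈ S}, ((Φ P).ramificationIndex F : ℤ) = p.ramificationIdx' P.1 := by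
    intro P
    have h := (Φ P).ord_restrict (F := F) (π : F)
    rw [hrestr P, hπ1, mul_one, hord P] at h
    exact h.symm
  have hdeg : ∀ P : {P // P ∈ S}, p.inertiaDeg' P.1 = 1 := by
    intro P
    haveI : P.1.LiesOver p := ((hmemS P.1).1 P.2).2
    haveI : P.1.IsMaximal := ((hmemS P.1).1 P.2).1.isMaximal (hne P)
    rw [Ideal.inertiaDeg'_algebraMap p P.1]
    exact finrank_quotient_eq_one p hresK P.1
  have hinert : ∀ w : Place K F', w.inertiaDeg F = 1 := by
    intro w
    have h := w.deg_restrict_mul_inertiaDeg (F := F)
    rw [hdeg' w] at h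
    exact Nat.eq_one_of_mul_eq_one_left h
  have hinj : Function.Injective Φ := by
    intro P Q hPQ
    have := placeOfPrime_injective hK hPQ
    apply Subtype.ext
    exact congrArg HeightOneSpectrum.asIdeal this
  have hsurj : ∀ w : Place K F', w.restrict F = v → ∃ P, Φ P = w := by
    intro w hw
    have hOw : ∀ a : v.toValuationSubring,
        algebraMap v.toValuationSubring F' a ∈ w.toValuationSubring := by
      intro a
      have h1 : (a : F) ∈ (w.restrict F).toValuationSubring := by rw [hw]; exact a.2
      rw [Place.mem_restrict_iff] at h1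
      rw [IsScalarTower.algebraMap_apply v.toValuationSubring F F']
      exact h1
    have hC : ∀ c : C, algebraMap C F' c ∈ w.toValuationSubring := by
      intro c
      have hint : IsIntegral v.toValuationSubring c := IsIntegral.of_finite _ c
      have hint' : IsIntegral v.toValuationSubring (algebraMap C F' c) :=
        hint.map (IsScalarTower.toAlgHom v.toValuationSubring C F')
      exact mem_valuationSubring_of_isIntegral w.toValuationSubring hOw hint'
    obtain ⟨Q, hQ, hmemQ⟩ := exists_prime_of_le hK w hC
    have hπQ : algebraMap v.toValuationSubring C π ∈ Q.asIdeal := by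
      rw [hmemQ]
      left
      rw [htower, w.ord_restrict (F := F) (π : F), hw, hπ1, mul_one]
      exact_mod_cast w.ramificationIndex_pos (F := F)
    have hQlies : Q.asIdeal.LiesOver p := by
      constructor
      have hle : p ≤ Q.asIdeal.under v.toValuationSubring := by
        rw [hpπ, Ideal.span_le, Set.singleton_subset_iff]
        exact hπQ
      have hne_top : Q.asIdeal.under v.toValuationSubring ≠ ⊤ :=
        (Ideal.IsPrime.under v.toValuationSubring Q.asIdeal).ne_top
      exact hmax.eq_of_le hne_top hle
    have hQS : Q.asIdeal ∈ S := (hmemS _).2 ⟨Q.isPrime, hQlies⟩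
    refine ⟨⟨Q.asIdeal, hQS⟩, ?_⟩
    have hQeq : hs ⟨Q.asIdeal, hQS⟩ = Q := HeightOneSpectrum.ext rfl
    show placeOfPrime hK (hs ⟨Q.asIdeal, hQS⟩) = w
    rw [hQeq, hQ]
  have hfib : v.fiber F' = Finset.univ.image Φ := by
    ext w
    simp only [Place.mem_fiber, Finset.mem_image, Finset.mem_univ, true_and]
    constructor
    · intro hw
      exact hsurj w hw
    · rintro ⟨P, rfl⟩
      exact hrestr P
  rw [hfib, Finset.sum_image (fun x _ y _ h => hinj h), ← hsum]
  push_cast
  rw [← Finset.sum_coe_sort S]
  refine Finset.sum_congr rfl fun P _ => ?_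
  rw [hram P, hinert, hdeg P]

/-- **Fundamental identity** `∑_{w | v} e(w|v) f(w|v) = [F' : F]` for a finite extension of
function fields over an algebraically closed field of characteristic zero. -/
theorem sumRamificationInertia [CharZero K] [FiniteDimensional F F']
    (x : F) [Algebra.IsAlgebraic K⟮x⟯ F] (x' : F') [Algebra.IsAlgebraic K⟮x'⟯ F'] :
    SumRamificationInertia K F F' := by
  haveI : CharZero F := charZero_of_injective_algebraMap (algebraMap K F).injective
  refine ⟨fun v => ?_⟩
  haveI : IsDedekindDomain (integralClosure v.toValuationSubring F') :=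
    integralClosure.isDedekindDomain v.toValuationSubring F F'
  haveI : IsFractionRing (integralClosure v.toValuationSubring F') F' :=
    integralClosure.isFractionRing_of_finite_extension F F'
  haveI : Module.Finite v.toValuationSubring (integralClosure v.toValuationSubring F') :=
    IsIntegralClosure.finite v.toValuationSubring F F' _
  haveI : Module.IsTorsionFree v.toValuationSubring (integralClosure v.toValuationSubring F') :=
    Subalgebra.instIsTorsionFree (integralClosure v.toValuationSubring F')
  exact sum_ramificationIndex_of_dedekind v (residueTrivial x v)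
    (fun w => deg_eq_one_of_isAlgebraic x' w) (integralClosure v.toValuationSubring F')

end Fund

end Fermat.Agent.Lib.FF.ExtNorm
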