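import Mathlib
import Fermat.Agent.Lib.FF.Ext

/-!
# Finite extensions of function fields: the norm formula

`K` algebraically closed of characteristic zero, `F'/F` a finite extension of function fields of
one variable over `K`.  For a place `v` of `F` and `f ∈ F'ˣ`:
`ord_v (N_{F'/F} f) = ∑_{w | v} ord_w f`  (all inertia degrees are one), i.e. the Prelude
predicate `Divisor.PushforwardNormFormula K F F'`.

* `restrict_placeOfPrime`, `exists_prime_of_restrict_eq` : the places of `F'` over `v` are the
  nonzero primes of a Dedekind domain `C` finite over the valuation ring of `v`.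
* `ord_norm_of_dedekind`, `ord_norm_eq_sum` : the norm formula at `v`.
* `pushforwardNormFormula` : `Divisor.PushforwardNormFormula K F F'`.
-/

set_option autoImplicit false

noncomputable section

namespace Fermat.Agent.Lib.FF.ExtNorm

open AlgebraicCurve WithZero IsDedekindDomain IntermediateField
open Fermat.Agent.S24

section Norm

variable {K F F' : Type*} [Field K] [Field F] [Field F']
  [Algebra K F] [Algebra K F'] [Algebra F F'] [IsScalarTower K F F']

section Dictionary

variable (v : Place K F)
  (C : Type*) [CommRing C] [IsDedekindDomain C] [Algebra v.toValuationSubring C]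
  [Algebra C F'] [IsFractionRing C F'] [IsScalarTower v.toValuationSubring C F']

theorem algebraMap_tower (a : v.toValuationSubring) :
    algebraMap C F' (algebraMap v.toValuationSubring C a) = algebraMap F F' (a : F) := by
  rw [← IsScalarTower.algebraMap_apply v.toValuationSubring C F',
    IsScalarTower.algebraMap_apply v.toValuationSubring F F']
  rfl

include v in
theorem range_of_dedekind (a : K) : algebraMap K F' a ∈ (algebraMap C F').range :=
  ⟨algebraMap v.toValuationSubring C (algebraMap K v.toValuationSubring a), by
    rw [algebraMap_tower, IsScalarTower.algebraMap_apply K F F']; rfl⟩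

variable [Algebra.IsIntegral F F']

/-- Every nonzero prime of `C` gives a place of `F'` over `v`. -/
theorem restrict_placeOfPrime (hK : ∀ a : K, algebraMap K F' a ∈ (algebraMap C F').range)
    (Q : HeightOneSpectrum C) : (placeOfPrime hK Q).restrict F = v := by
  refine (place_eq_of_le (v := v) (w := (placeOfPrime hK Q).restrict F) ?_).symm
  intro f hf
  rw [Place.mem_restrict_iff, mem_placeOfPrime_iff, ← algebraMap_tower v C ⟨f, hf⟩]
  exact Q.valuation_le_one _

/-- Every place of `F'` over `v` comes from a nonzero prime of `C` (for `C` integral over the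
valuation ring of `v`). -/
theorem exists_prime_of_restrict_eq [Algebra.IsIntegral v.toValuationSubring C]
    (hK : ∀ a : K, algebraMap K F' a ∈ (algebraMap C F').range)
    (w : Place K F') (hw : w.restrict F = v) :
    ∃ Q : HeightOneSpectrum C, placeOfPrime hK Q = w := by
  have hOw : ∀ a : v.toValuationSubring,
      algebraMap v.toValuationSubring F' a ∈ w.toValuationSubring := by
    intro a
    have h1 : (a : F) ∈ (w.restrict F).toValuationSubring := by rw [hw]; exact a.2
    rw [Place.mem_restrict_iff] at h1
    rw [IsScalarTower.algebraMap_apply v.toValuationSubring F F']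
    exact h1
  have hC : ∀ c : C, algebraMap C F' c ∈ w.toValuationSubring := by
    intro c
    have hint : IsIntegral v.toValuationSubring c := Algebra.IsIntegral.isIntegral c
    have hint' : IsIntegral v.toValuationSubring (algebraMap C F' c) :=
      hint.map (IsScalarTower.toAlgHom v.toValuationSubring C F')
    exact mem_valuationSubring_of_isIntegral w.toValuationSubring hOw hint'
  obtain ⟨Q, hQ, -⟩ := exists_prime_of_le hK w hC
  exact ⟨Q, hQ⟩

/-- The order at the place of a prime `Q` of an element of `C` is nonnegative. -/
theorem ord_placeOfPrime_nonneg (hK : ∀ a : K, algebraMap K F' a ∈ (algebraMap C F').range)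
    (Q : HeightOneSpectrum C) (c : C) : 0 ≤ (placeOfPrime hK Q).ord (algebraMap C F' c) := by
  apply ord_nonneg_of_mem
  rw [mem_placeOfPrime_iff]
  exact Q.valuation_le_one _

/-- The order at the place of a prime `Q` of an element of `C` outside `Q` is zero. -/
theorem ord_placeOfPrime_eq_zero (hK : ∀ a : K, algebraMap K F' a ∈ (algebraMap C F').range)
    (Q : HeightOneSpectrum C) {c : C} (hc : c ∉ Q.asIdeal) :
    (placeOfPrime hK Q).ord (algebraMap C F' c) = 0 := by
  have hc0 : c ≠ 0 := fun h => hc (h ▸ Q.asIdeal.zero_mem)
  have h1 := ord_placeOfPrime_nonneg C hK Q c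
  have h2 := (mem_asIdeal_iff_ord_pos hK Q hc0).not.1 hc
  omega

/-- The order at the place of the prime `(ϖ)` of its generator is one. -/
theorem ord_placeOfPrime_generator (hK : ∀ a : K, algebraMap K F' a ∈ (algebraMap C F').range)
    (Q : HeightOneSpectrum C) {ϖ : C} (hϖ : ϖ ≠ 0) (hQ : Q.asIdeal = Ideal.span {ϖ}) :
    (placeOfPrime hK Q).ord (algebraMap C F' ϖ) = 1 := by
  have hinj : Function.Injective (algebraMap C F') := IsFractionRing.injective C F'
  have hϖF : algebraMap C F' ϖ ≠ 0 := fun h => hϖ (hinj (by rw [h, map_zero]))
  have h2 := valuation_eq_exp_neg_ord hK Q hϖF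
  rw [Q.valuation_of_algebraMap (K := F') ϖ, Q.intValuation_singleton hϖ hQ, exp_inj] at h2
  omega

end Dictionary

variable [Algebra.IsIntegral F F'] [HasPrincipalDivisors K F'] [IsAlgClosed K]

/-- **Norm formula at a place `v`**, from a Dedekind domain `C` which is the integral closure in
`F'` of the valuation ring of `v`. -/
theorem ord_norm_of_dedekind [FiniteDimensional F F'] (v : Place K F)
    [PerfectField (FractionRing v.toValuationSubring)]
    (hres : ∀ a : v.toValuationSubring, ∃ c : K, a - algebraMap K v.toValuationSubring c ∈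
      IsLocalRing.maximalIdeal v.toValuationSubring)
    (C : Type*) [CommRing C] [IsDedekindDomain C] [Algebra v.toValuationSubring C]
    [Module.Finite v.toValuationSubring C] [Module.IsTorsionFree v.toValuationSubring C]
    [Algebra C F'] [IsFractionRing C F'] [IsScalarTower v.toValuationSubring C F']
    [IsIntegralClosure C v.toValuationSubring F']
    (f : F') (hf : f ≠ 0) :
    v.ord (Algebra.norm F f) = ∑ w ∈ v.fiber F', w.ord f := by
  classical
  haveI : Algebra.IsIntegral v.toValuationSubring C := Algebra.IsIntegral.of_finite _ _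
  set p : Ideal v.toValuationSubring := IsLocalRing.maximalIdeal v.toValuationSubring with hp
  have hmax : p.IsMaximal := IsLocalRing.maximalIdeal.isMaximal _
  obtain ⟨π, hπ⟩ := IsDiscreteValuationRing.exists_irreducible v.toValuationSubring
  have hpπ : p = Ideal.span {π} := hπ.maximalIdeal_eq
  have hπ1 : v.ord (π : F) = 1 := v.ord_coe_irreducible hπ
  have hK : ∀ a : K, algebraMap K F' a ∈ (algebraMap C F').range := range_of_dedekind v C
  have hinj : Function.Injective (algebraMap C F') := IsFractionRing.injective C F'
  have hresK : Function.Surjective (algebraMap K (v.toValuationSubring ⧸ p)) := by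
    intro y
    obtain ⟨a, rfl⟩ := Ideal.Quotient.mk_surjective y
    obtain ⟨c, hc⟩ := hres a
    refine ⟨c, ?_⟩
    rw [IsScalarTower.algebraMap_apply K v.toValuationSubring (v.toValuationSubring ⧸ p),
      Ideal.Quotient.algebraMap_eq, eq_comm, Ideal.Quotient.eq]
    exact hc
  -- the primes of `C` are finite in number and parametrise the fibre
  let Ψ : HeightOneSpectrum C → {w : Place K F' // w ∈ v.fiber F'} := fun Q =>
    ⟨placeOfPrime hK Q, Place.mem_fiber.2 (restrict_placeOfPrime v C hK Q)⟩
  have hΨinj : Function.Injective Ψ := fun Q Q' h =>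
    placeOfPrime_injective hK (congrArg Subtype.val h)
  haveI : Finite (HeightOneSpectrum C) := Finite.of_injective Ψ hΨinj
  letI : Fintype (HeightOneSpectrum C) := Fintype.ofFinite _
  have hfib : v.fiber F' = Finset.univ.image (placeOfPrime (K := K) (F := F') (C := C) hK) := by
    ext w
    simp only [Place.mem_fiber, Finset.mem_image, Finset.mem_univ, true_and]
    constructor
    · intro hw
      exact exists_prime_of_restrict_eq v C hK w hw
    · rintro ⟨Q, rfl⟩
      exact restrict_placeOfPrime v C hK Q
  have hsumfib : ∀ g : F', ∑ w ∈ v.fiber F', w.ord g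
      = ∑ Q : HeightOneSpectrum C, (placeOfPrime hK Q).ord g := by
    intro g
    rw [hfib, Finset.sum_image (fun x _ y _ h => placeOfPrime_injective hK h)]
  -- `C` is a principal ideal domain
  haveI : IsPrincipalIdealRing C := by
    apply IsPrincipalIdealRing.of_finite_primes
    have : {I : Ideal C | I.IsPrime} ⊆
        insert ⊥ (Set.range (HeightOneSpectrum.asIdeal : HeightOneSpectrum C → Ideal C)) := by
      intro I hI
      by_cases hI0 : I = ⊥
      · exact Or.inl hI0
      · exact Or.inr ⟨⟨I, hI, hI0⟩, rfl⟩
    exact ((Set.finite_range _).insert ⊥).subset this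
  -- the norm of an element of `C`
  have hnorm : ∀ c : C, Algebra.norm F (algebraMap C F' c)
      = ((Algebra.intNorm v.toValuationSubring C c : v.toValuationSubring) : F) := fun c =>
    (Algebra.algebraMap_intNorm (A := v.toValuationSubring) (K := F) (L := F') (B := C) c).symm
  -- key claim on `C`
  have key : ∀ c : C, c ≠ 0 → v.ord (Algebra.norm F (algebraMap C F' c))
      = ∑ Q : HeightOneSpectrum C, (placeOfPrime hK Q).ord (algebraMap C F' c) := by
    intro c
    induction c using UniqueFactorizationMonoid.induction_on_prime with
    | h₁ => intro h; exact absurd rfl h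
    | h₂ u hu =>
      intro _
      have h1 : IsUnit (Algebra.intNorm v.toValuationSubring C u) := hu.map _
      rw [hnorm u]
      have h2 : v.ord ((Algebra.intNorm v.toValuationSubring C u : v.toValuationSubring) : F)
          = 0 := by
        have := v.ord_coe_unit h1.unit
        rwa [IsUnit.unit_spec] at this
      rw [h2]
      symm
      refine Finset.sum_eq_zero fun Q _ => ?_
      exact ord_placeOfPrime_eq_zero C hK Q
        (fun hmem => Q.isPrime.ne_top (Ideal.eq_top_of_isUnit_mem _ hmem hu))
    | h₃ a ϖ ha hϖ ih =>
      intro _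
      have hϖ0 : ϖ ≠ 0 := hϖ.ne_zero
      have hϖF : algebraMap C F' ϖ ≠ 0 := fun h => hϖ0 (hinj (by rw [h, map_zero]))
      have haF : algebraMap C F' a ≠ 0 := fun h => ha (hinj (by rw [h, map_zero]))
      -- the prime `(ϖ)`
      have hPprime : (Ideal.span {ϖ} : Ideal C).IsPrime := (Ideal.span_singleton_prime hϖ0).2 hϖ
      have hPne : (Ideal.span {ϖ} : Ideal C) ≠ ⊥ := by
        rw [Ne, Ideal.span_singleton_eq_bot]; exact hϖ0
      let Q₀ : HeightOneSpectrum C := ⟨Ideal.span {ϖ}, hPprime, hPne⟩
      have hPmax : (Ideal.span {ϖ} : Ideal C).IsMaximal := hPprime.isMaximal hPne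
      -- `(ϖ)` lies over `p`
      have hπQ : algebraMap v.toValuationSubring C π ∈ Q₀.asIdeal := by
        have hπC0 : algebraMap v.toValuationSubring C π ≠ 0 := by
          intro h
          have h' := algebraMap_tower (F' := F') v C π
          rw [h, map_zero] at h'
          have : (π : F) = 0 := by
            have := (algebraMap F F').injective (a₁ := (π : F)) (a₂ := 0) (by rw [← h', map_zero])
            exact this
          rw [this] at hπ1
          simp at hπ1
        rw [mem_asIdeal_iff_ord_pos hK Q₀ hπC0, algebraMap_tower (F' := F') v C,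
          (placeOfPrime hK Q₀).ord_restrict (F := F) (π : F), restrict_placeOfPrime v C hK Q₀, hπ1,
          mul_one]
        exact_mod_cast (placeOfPrime hK Q₀).ramificationIndex_pos (F := F)
      haveI hlies : (Ideal.span {ϖ} : Ideal C).LiesOver p := by
        constructor
        have hle : p ≤ (Ideal.span {ϖ} : Ideal C).under v.toValuationSubring := by
          rw [hpπ, Ideal.span_le, Set.singleton_subset_iff]
          exact hπQ
        have hne_top : (Ideal.span {ϖ} : Ideal C).under v.toValuationSubring ≠ ⊤ :=
          (Ideal.IsPrime.under v.toValuationSubring (Ideal.span {ϖ} : Ideal C)).ne_top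
        exact hmax.eq_of_le hne_top hle
      -- norm of `ϖ`
      have hrel := Ideal.relNorm_eq_pow_of_isMaximal (Ideal.span {ϖ} : Ideal C) p
      rw [Ideal.inertiaDeg_eq_of_isMaximal p (Ideal.span {ϖ} : Ideal C),
        finrank_quotient_eq_one p hresK (Ideal.span {ϖ} : Ideal C), pow_one,
        Ideal.relNorm_singleton, hpπ, Ideal.span_singleton_eq_span_singleton] at hrel
      obtain ⟨u, hu⟩ := hrel
      have hNϖ : v.ord (Algebra.norm F (algebraMap C F' ϖ)) = 1 := by
        rw [hnorm ϖ, ← hπ1]
        have h1 : ((π : v.toValuationSubring) : F)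
            = ((Algebra.intNorm v.toValuationSubring C ϖ : v.toValuationSubring) : F)
              * ((u : v.toValuationSubring) : F) := by
          rw [← hu]; rfl
        have hn0 : ((Algebra.intNorm v.toValuationSubring C ϖ : v.toValuationSubring) : F) ≠ 0 := by
          rw [← hnorm ϖ]
          exact Algebra.norm_ne_zero_iff.2 hϖF
        have hu0 : ((u : v.toValuationSubring) : F) ≠ 0 := by
          simp
        rw [h1, v.ord_mul hn0 hu0, v.ord_coe_unit u, add_zero]
      -- orders of `ϖ`
      have hsumϖ : ∑ Q : HeightOneSpectrum C, (placeOfPrime hK Q).ord (algebraMap C F' ϖ) = 1 := by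
        rw [Finset.sum_eq_single Q₀]
        · exact ord_placeOfPrime_generator C hK Q₀ hϖ0 rfl
        · intro Q _ hQ
          refine ord_placeOfPrime_eq_zero C hK Q fun hmem => hQ ?_
          have hle : Q₀.asIdeal ≤ Q.asIdeal := by
            show Ideal.span {ϖ} ≤ Q.asIdeal
            rw [Ideal.span_le, Set.singleton_subset_iff]
            exact hmem
          exact HeightOneSpectrum.ext (hPmax.eq_of_le Q.isPrime.ne_top hle).symm
        · intro h
          exact absurd (Finset.mem_univ _) h
      rw [map_mul, map_mul, v.ord_mul (Algebra.norm_ne_zero_iff.2 hϖF)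
        (Algebra.norm_ne_zero_iff.2 haF), hNϖ, ih ha, ← hsumϖ, ← Finset.sum_add_distrib]
      refine Finset.sum_congr rfl fun Q _ => ?_
      rw [(placeOfPrime hK Q).ord_mul hϖF haF]
  -- general `f`
  obtain ⟨a, b, hb, hab⟩ := IsFractionRing.div_surjective (A := C) f
  have hb0 : b ≠ 0 := nonZeroDivisors.ne_zero hb
  have hbF : algebraMap C F' b ≠ 0 := fun h => hb0 (hinj (by rw [h, map_zero]))
  have ha0 : a ≠ 0 := by
    rintro rfl
    rw [map_zero, zero_div] at hab
    exact hf hab.symm
  have haF : algebraMap C F' a ≠ 0 := fun h => ha0 (hinj (by rw [h, map_zero]))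
  have hNinv : Algebra.norm F (algebraMap C F' b)⁻¹ = (Algebra.norm F (algebraMap C F' b))⁻¹ := by
    apply eq_inv_of_mul_eq_one_left
    rw [← map_mul, inv_mul_cancel₀ hbF, map_one]
  rw [hsumfib, ← hab, div_eq_mul_inv, map_mul, hNinv,
    v.ord_mul (Algebra.norm_ne_zero_iff.2 haF) (inv_ne_zero (Algebra.norm_ne_zero_iff.2 hbF)),
    v.ord_inv, key a ha0, key b hb0, ← sub_eq_add_neg, ← Finset.sum_sub_distrib]
  refine Finset.sum_congr rfl fun Q _ => ?_
  rw [(placeOfPrime hK Q).ord_mul haF (inv_ne_zero hbF), (placeOfPrime hK Q).ord_inv]
  ring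

/-- **Norm formula at a place**: `ord_v (N f) = ∑_{w | v} ord_w f`. -/
theorem ord_norm_eq_sum [CharZero K] [FiniteDimensional F F']
    (x : F) [Algebra.IsAlgebraic K⟮x⟯ F] (v : Place K F) (f : F') (hf : f ≠ 0) :
    v.ord (Algebra.norm F f) = ∑ w ∈ v.fiber F', w.ord f := by
  haveI : CharZero F := charZero_of_injective_algebraMap (algebraMap K F).injective
  haveI : IsDedekindDomain (integralClosure v.toValuationSubring F') :=
    integralClosure.isDedekindDomain v.toValuationSubring F F'
  haveI : IsFractionRing (integralClosure v.toValuationSubring F') F' :=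
    integralClosure.isFractionRing_of_finite_extension F F'
  haveI : Module.Finite v.toValuationSubring (integralClosure v.toValuationSubring F') :=
    IsIntegralClosure.finite v.toValuationSubring F F' _
  haveI : Module.IsTorsionFree v.toValuationSubring (integralClosure v.toValuationSubring F') :=
    Subalgebra.instIsTorsionFree (integralClosure v.toValuationSubring F')
  exact ord_norm_of_dedekind v (residueTrivial x v) (integralClosure v.toValuationSubring F') f hf

/-- **The norm formula** `Divisor.PushforwardNormFormula K F F'` for a finite extension of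
function fields over an algebraically closed field of characteristic zero. -/
theorem pushforwardNormFormula [CharZero K] [FiniteDimensional F F']
    (x : F) [Algebra.IsAlgebraic K⟮x⟯ F] (x' : F') [Algebra.IsAlgebraic K⟮x'⟯ F'] :
    Divisor.PushforwardNormFormula K F F' := by
  classical
  intro f hf D hD v
  rw [ord_norm_eq_sum x v f hf, Divisor.pushforward_apply]
  have hinert : ∀ w : Place K F', w.inertiaDeg F = 1 := by
    intro w
    have h := w.deg_restrict_mul_inertiaDeg (F := F)
    rw [deg_eq_one_of_isAlgebraic x' w] at h
    exact Nat.eq_one_of_mul_eq_one_left h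
  have h1 : ∑ w ∈ D.support, (if w.restrict F = v then D w * (w.inertiaDeg F : ℤ) else 0)
      = ∑ w ∈ D.support.filter (fun w => w.restrict F = v), w.ord f := by
    rw [Finset.sum_filter]
    refine Finset.sum_congr rfl fun w _ => ?_
    rw [hinert w, hD w]
    simp
  rw [h1]
  refine Finset.sum_subset ?_ ?_
  · intro w hw
    rw [Finset.mem_filter] at hw
    exact Place.mem_fiber.2 hw.2
  · intro w hw hnot
    rw [Finset.mem_filter, not_and_or] at hnot
    rcases hnot with h | h
    · rw [Finsupp.mem_support_iff, not_not, hD w] at h
      exact h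
    · exact absurd (Place.mem_fiber.1 hw) h

end Norm

end Fermat.Agent.Lib.FF.ExtNorm
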