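import Mathlib
import Fermat.Agent.S24.ARest

/-!
# FF-EXT (E1): principal divisors of a function field of one variable

`K` algebraically closed of characteristic zero, `F` finite over `K(x)`.
* `finite_ord_ne_zero`: a function has only finitely many zeros and poles;
* `hasPrincipalDivisors`: the Prelude class `AlgebraicCurve.HasPrincipalDivisors K F`;
* `divOf`: the divisor of a function, with `divOf_apply`, `degree_divOf`.
-/

set_option autoImplicit false
set_option linter.style.haveILetI false

namespace Fermat.Agent.Lib.FF.Ext

open AlgebraicCurve IntermediateField Fermat.Agent.S24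

variable {K F : Type*} [Field K] [Field F] [Algebra K F]

/-- A function has finitely many zeros and poles. -/
theorem finite_ord_ne_zero [IsAlgClosed K] [CharZero K] (x : F) [FiniteDimensional K⟮x⟯ F]
    (f : F) : {v : Place K F | v.ord f ≠ 0}.Finite := by
  by_cases hfa : IsAlgebraic K f
  · have h : {v : Place K F | v.ord f ≠ 0} = ∅ := by
      ext v
      simp only [Set.mem_empty_iff_false, iff_false]
      intro hv
      exact hv (DNeZero.ord_eq_zero_of_isAlgebraic v hfa)
    rw [h]
    exact Set.finite_empty
  have hft : Transcendental K f := hfa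
  haveI := Transfer.finiteDimensional_adjoin_of_transcendental (K := K) x hft
  obtain ⟨hZ, -⟩ := zerosOf_finite_sum f hft
  obtain ⟨hP, -⟩ := Transfer.polesOf_finite_sum f hft
  refine (hZ.union hP).subset ?_
  intro v hv
  have hv' : v.ord f ≠ 0 := hv
  rcases lt_or_gt_of_ne hv' with h | h
  · exact Or.inr h
  · exact Or.inl h

/-- The divisor of a function. -/
noncomputable def divOf [IsAlgClosed K] [CharZero K] (x : F) [FiniteDimensional K⟮x⟯ F]
    (f : F) : Divisor K F :=
  Finsupp.onFinset (finite_ord_ne_zero x f).toFinset (fun v => v.ord f)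
    (fun _ hv => (finite_ord_ne_zero x f).mem_toFinset.mpr hv)

@[simp]
theorem divOf_apply [IsAlgClosed K] [CharZero K] (x : F) [FiniteDimensional K⟮x⟯ F]
    (f : F) (v : Place K F) : divOf x f v = v.ord f := rfl

/-- Degree of a divisor when all places have degree one. -/
theorem degree_eq_sum [IsAlgClosed K] (x : F) [Algebra.IsAlgebraic K⟮x⟯ F] (D : Divisor K F) :
    Divisor.degree D = ∑ v ∈ D.support, D v := by
  rw [Divisor.degree, Finsupp.liftAddHom_apply, Finsupp.sum]
  refine Finset.sum_congr rfl (fun v _ => ?_)
  rw [AddMonoidHom.coe_mulRight, ARest.deg_eq_one x v]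
  simp

theorem degree_divOf [IsAlgClosed K] [CharZero K] (x : F) [FiniteDimensional K⟮x⟯ F]
    (f : F) : Divisor.degree (divOf (K := K) x f) = 0 := by
  rw [degree_eq_sum x]
  have h := ARest.sum_ord_eq_zero x f (divOf (K := K) x f).support (fun v hv => by
    rw [Finsupp.mem_support_iff, divOf_apply]; exact hv)
  exact h

/-- **`HasPrincipalDivisors`** for a function field of one variable over an algebraically closed
field of characteristic zero. -/
theorem hasPrincipalDivisors [IsAlgClosed K] [CharZero K] (x : F) [FiniteDimensional K⟮x⟯ F] :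
    HasPrincipalDivisors K F :=
  ⟨fun f _ => ⟨divOf x f, fun v => divOf_apply x f v, degree_divOf x f⟩⟩

end Fermat.Agent.Lib.FF.Ext
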