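import Mathlib
import Fermat.Prelude.Def_AlgebraicCurve_Repartitions
import Fermat.Agent.S24.PlaceBasic

/-!
# Riemann–Roch (H¹-form) on the Prelude's repartitions: local lemmas

Valuation-level lemmas at one place `v` of `F/K` with residue field `K`, and the elementary
repartitions (one nonzero component).
-/

set_option autoImplicit false

noncomputable section

namespace Fermat.Agent.Lib.FF.RR

open AlgebraicCurve WithZero

variable {K F : Type*} [Field K] [Field F] [Algebra K F]

/-- The residue field of the place `v` is `K`
(same proposition as `Fermat.Agent.S24.Diff.ResidueTrivial v`). -/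
def ResK (v : Place K F) : Prop :=
  ∀ a : v.toValuationSubring, ∃ c : K,
    a - algebraMap K v.toValuationSubring c ∈ IsLocalRing.maximalIdeal v.toValuationSubring

section Local

variable (v : Place K F)

theorem val_smul_le (c : K) (f : F) : v.adicValuation (c • f) ≤ v.adicValuation f := by
  rw [Algebra.smul_def, map_mul]
  exact mul_le_of_le_one_left' (v.adicValuation_algebraMap_le_one c)

theorem mem_of_val_le_one {f : F} (hf : v.adicValuation f ≤ 1) : f ∈ v.toValuationSubring := by
  rcases (v.adicValuation_le_one_iff).1 hf with rfl | h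
  · exact zero_mem _
  · exact Fermat.Agent.S24.mem_of_ord_nonneg v h

theorem val_le_exp_neg_one_of_mem_maximalIdeal (a : v.toValuationSubring)
    (ha : a ∈ IsLocalRing.maximalIdeal v.toValuationSubring) :
    v.adicValuation (a : F) ≤ exp (-1 : ℤ) := by
  obtain ⟨π, hπ⟩ := IsDiscreteValuationRing.exists_irreducible v.toValuationSubring
  rw [hπ.maximalIdeal_eq, Ideal.mem_span_singleton] at ha
  obtain ⟨b, rfl⟩ := ha
  have h1 : v.adicValuation ((π * b : v.toValuationSubring) : F)
      = v.adicValuation (π : F) * v.adicValuation (b : F) := by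
    rw [← map_mul]; rfl
  rw [h1, v.adicValuation_coe_irreducible hπ]
  exact mul_le_of_le_one_right' (v.adicValuation_le_one_of_mem b.2)

/-- There is an element of exact valuation `exp n`. -/
theorem exists_val_eq_exp (n : ℤ) : ∃ t : F, v.adicValuation t = exp n := by
  obtain ⟨π, hπ⟩ := IsDiscreteValuationRing.exists_irreducible v.toValuationSubring
  refine ⟨(π : F) ^ (-n), ?_⟩
  rw [map_zpow₀, v.adicValuation_coe_irreducible hπ, ← exp_zsmul]
  simp

/-- Leading-coefficient lemma: modulo a constant multiple of an element `t` of exact valuation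
`exp n`, an element of valuation `≤ exp n` has valuation `≤ exp (n - 1)`. -/
theorem exists_const_sub (hv : ResK v) {n : ℤ} {t f : F} (ht : v.adicValuation t = exp n)
    (hf : v.adicValuation f ≤ exp n) :
    ∃ c : K, v.adicValuation (f - c • t) ≤ exp (n - 1) := by
  have ht0 : t ≠ 0 := by
    intro h
    rw [h, map_zero] at ht
    exact exp_ne_zero ht.symm
  have hq : v.adicValuation (f / t) ≤ 1 := by
    rw [map_div₀, ht]
    exact div_le_one_of_le₀ hf zero_le
  obtain ⟨c, hc⟩ := hv ⟨f / t, mem_of_val_le_one v hq⟩
  refine ⟨c, ?_⟩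
  have h2 := val_le_exp_neg_one_of_mem_maximalIdeal v _ hc
  have h3 : f - c • t = t * (f / t - algebraMap K F c) := by
    rw [Algebra.smul_def]
    field_simp
  have h4 : ((⟨f / t, mem_of_val_le_one v hq⟩ - algebraMap K v.toValuationSubring c :
      v.toValuationSubring) : F) = f / t - algebraMap K F c := rfl
  rw [h4] at h2
  have h5 : (exp (n - 1) : ℤᵐ⁰) = exp n * exp (-1 : ℤ) := by
    rw [← exp_add]; rfl
  rw [h3, map_mul, ht, h5]
  gcongr

end Local

end Fermat.Agent.Lib.FF.RR
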