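import Mathlib
import Fermat.Agent.Lib.FF.RRLocal

/-!
# Riemann–Roch (H¹-form) on the Prelude's repartitions: the one-step lemmas

`Λ(D) = repartitionsOf D`, `L(D) = riemannRochSpace D`, `P = principalRepartitions K F`,
`M(D) = Λ(D) ⊔ P`, so that `H1 D = 𝔸 ⧸ M(D)`.
-/

set_option autoImplicit false

noncomputable section

namespace Fermat.Agent.Lib.FF.RR

open AlgebraicCurve WithZero

variable {K F : Type*} [Field K] [Field F] [Algebra K F]

theorem mem_repartitionsOf {D : Divisor K F} {α : ↥(repartitions K F)} :
    α ∈ repartitionsOf D ↔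
      ∀ v : Place K F, v.adicValuation ((α : Place K F → F) v) ≤ exp (D v) := Iff.rfl

theorem mem_L {D : Divisor K F} {f : F} :
    f ∈ riemannRochSpace D ↔ ∀ v : Place K F, v.adicValuation f ≤ exp (D v) := Iff.rfl

/-- The constant (principal) repartition of `f`. -/
def constRep : F →ₗ[K] ↥(repartitions K F) :=
  (Algebra.linearMap F ↥(repartitions K F)).restrictScalars K

@[simp]
theorem constRep_apply (f : F) (v : Place K F) :
    ((constRep (K := K) f : ↥(repartitions K F)) : Place K F → F) v = f := rfl

theorem constRep_mem_iff {D : Divisor K F} {f : F} :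
    constRep (K := K) f ∈ repartitionsOf D ↔ f ∈ riemannRochSpace D := Iff.rfl

theorem mem_principal_iff {α : ↥(repartitions K F)} :
    α ∈ principalRepartitions K F ↔ ∃ f : F, α = constRep f := by
  rw [mem_principalRepartitions_iff]
  constructor
  · rintro ⟨f, hf⟩
    exact ⟨f, Subtype.ext hf⟩
  · rintro ⟨f, rfl⟩
    exact ⟨f, rfl⟩

theorem constRep_mem_principal (f : F) : constRep (K := K) f ∈ principalRepartitions K F :=
  mem_principal_iff.2 ⟨f, rfl⟩

open Classical in
/-- The repartition with the single nonzero component `t` at `v`. -/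
def singleRep (v : Place K F) (t : F) : ↥(repartitions K F) :=
  ⟨Pi.single v t, mem_repartitions_of_finite ((Set.finite_singleton v).subset (by
    intro w hw
    by_contra hne
    apply hw
    rw [Pi.single_eq_of_ne hne]
    simp))⟩

open Classical in
theorem singleRep_apply (v : Place K F) (t : F) (w : Place K F) :
    ((singleRep v t : ↥(repartitions K F)) : Place K F → F) w = if w = v then t else 0 := by
  show (Pi.single v t : Place K F → F) w = _
  rw [Pi.single_apply]

@[simp]
theorem singleRep_apply_self (v : Place K F) (t : F) :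
    ((singleRep v t : ↥(repartitions K F)) : Place K F → F) v = t := by
  rw [singleRep_apply, if_pos rfl]

theorem singleRep_apply_of_ne (v : Place K F) (t : F) {w : Place K F} (h : w ≠ v) :
    ((singleRep v t : ↥(repartitions K F)) : Place K F → F) w = 0 := by
  rw [singleRep_apply, if_neg h]

theorem coe_sub_smul (α β : ↥(repartitions K F)) (c : K) (w : Place K F) :
    ((α - c • β : ↥(repartitions K F)) : Place K F → F) w
      = (α : Place K F → F) w - c • (β : Place K F → F) w := rfl

/-- The divisor `D + v`. -/
abbrev addPl (D : Divisor K F) (v : Place K F) : Divisor K F := D + Finsupp.single v (1 : ℤ)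

theorem addPl_apply_self (D : Divisor K F) (v : Place K F) :
    addPl D v v = D v + 1 := by
  simp [addPl]

theorem addPl_apply_of_ne (D : Divisor K F) {v w : Place K F} (h : w ≠ v) :
    addPl D v w = D w := by
  simp [addPl, Ne.symm h]

theorem le_addPl (D : Divisor K F) (v : Place K F) : D ≤ addPl D v := by
  refine Finsupp.le_def.mpr fun w => ?_
  by_cases h : w = v
  · subst h
    rw [addPl_apply_self]
    omega
  · rw [addPl_apply_of_ne D h]

/-- `Λ(D + v) = Λ(D) + K · e`: modulo `Λ(D)`, every element of `Λ(D + v)` is a constant multiple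
of the elementary repartition `e = singleRep v t`, `t` of exact valuation `exp (D v + 1)`. -/
theorem exists_sub_smul_singleRep_mem {v : Place K F} (hv : ResK v) (D : Divisor K F) {t : F}
    (ht : v.adicValuation t = exp (D v + 1)) {α : ↥(repartitions K F)}
    (hα : α ∈ repartitionsOf (addPl D v)) :
    ∃ c : K, α - c • singleRep v t ∈ repartitionsOf D := by
  have h1 : v.adicValuation ((α : Place K F → F) v) ≤ exp (D v + 1) := by
    have := hα v
    rwa [addPl_apply_self] at this
  obtain ⟨c, hc⟩ := exists_const_sub v hv ht h1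
  refine ⟨c, fun w => ?_⟩
  rw [coe_sub_smul]
  by_cases h : w = v
  · subst h
    rw [singleRep_apply_self]
    simpa using hc
  · rw [singleRep_apply_of_ne v t h, smul_zero, sub_zero]
    have := hα w
    rwa [addPl_apply_of_ne D h] at this

theorem singleRep_mem {v : Place K F} (D : Divisor K F) {t : F}
    (ht : v.adicValuation t = exp (D v + 1)) :
    singleRep v t ∈ repartitionsOf (addPl D v) := by
  intro w
  by_cases h : w = v
  · subst h
    rw [singleRep_apply_self, addPl_apply_self, ht]
  · rw [singleRep_apply_of_ne v t h, map_zero]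
    exact zero_le

theorem singleRep_notMem {v : Place K F} (D : Divisor K F) {t : F}
    (ht : v.adicValuation t = exp (D v + 1)) :
    singleRep v t ∉ repartitionsOf D := by
  intro h
  have := h v
  rw [singleRep_apply_self, ht, exp_le_exp] at this
  omega


/-! ### Linear algebra -/

section LinAlg

variable {V : Type*} [AddCommGroup V] [Module K V]

/-- Adding one vector outside `W` raises the dimension by one. -/
theorem finite_and_finrank_of_step {W W' : Submodule K V} (hle : W ≤ W') {f : V} (hf : f ∈ W')
    (hf' : f ∉ W) (hgen : ∀ g ∈ W', ∃ c : K, g - c • f ∈ W) [Module.Finite K W] :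
    Module.Finite K W' ∧ Module.finrank K W' = Module.finrank K W + 1 := by
  have hW' : W' = W ⊔ Submodule.span K {f} := by
    apply le_antisymm
    · intro g hg
      obtain ⟨c, hc⟩ := hgen g hg
      have : g = (g - c • f) + c • f := by abel
      rw [this]
      exact Submodule.add_mem_sup hc (Submodule.smul_mem _ _ (Submodule.mem_span_singleton_self f))
    · refine sup_le hle ?_
      rw [Submodule.span_le, Set.singleton_subset_iff]
      exact hf
  have hf0 : f ≠ 0 := fun h => hf' (h ▸ W.zero_mem)
  have hinf : W ⊓ Submodule.span K {f} = ⊥ := by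
    rw [eq_bot_iff]
    rintro g ⟨hg1, hg2⟩
    obtain ⟨c, rfl⟩ := Submodule.mem_span_singleton.1 hg2
    by_cases hc : c = 0
    · simp [hc]
    · exfalso
      apply hf'
      have : f = c⁻¹ • (c • f) := by rw [smul_smul, inv_mul_cancel₀ hc, one_smul]
      rw [this]
      exact W.smul_mem _ hg1
  have : Module.Finite K (Submodule.span K {f}) := Module.Finite.span_singleton K f
  subst hW'
  refine ⟨inferInstance, ?_⟩
  have h := Submodule.finrank_sup_add_finrank_inf_eq W (Submodule.span K {f})
  rw [hinf, finrank_bot, add_zero, finrank_span_singleton hf0] at h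
  exact h

/-- Removing one vector from the denominator raises the codimension by one. -/
theorem finite_and_finrank_quotient_of_step (M : Submodule K V) {e : V} (he : e ∉ M)
    [Module.Finite K (V ⧸ (M ⊔ Submodule.span K {e}))] :
    Module.Finite K (V ⧸ M) ∧
      Module.finrank K (V ⧸ M) = Module.finrank K (V ⧸ (M ⊔ Submodule.span K {e})) + 1 := by
  set N : Submodule K (V ⧸ M) := (Submodule.span K {e}).map M.mkQ with hN
  have hNspan : N = Submodule.span K {M.mkQ e} := by
    rw [hN, Submodule.map_span, Set.image_singleton]
  have hne : M.mkQ e ≠ 0 := by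
    rw [Submodule.mkQ_apply, Ne, Submodule.Quotient.mk_eq_zero]
    exact he
  have : Module.Finite K N := by
    rw [hNspan]
    exact Module.Finite.span_singleton K _
  let φ : ((V ⧸ M) ⧸ N) ≃ₗ[K] V ⧸ (M ⊔ Submodule.span K {e}) :=
    Submodule.quotientQuotientEquivQuotientSup M (Submodule.span K {e})
  have : Module.Finite K ((V ⧸ M) ⧸ N) := Module.Finite.equiv φ.symm
  have : Module.Finite K (V ⧸ M) := Module.Finite.of_submodule_quotient N
  refine ⟨inferInstance, ?_⟩
  have h := N.finrank_quotient_add_finrank
  rw [φ.finrank_eq] at h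
  have h1 : Module.finrank K N = 1 := by
    rw [hNspan]
    exact finrank_span_singleton hne
  omega

end LinAlg

/-! ### The one-step lemmas for `L(D)` and `M(D)` -/

/-- `M(D) = Λ(D) + P`, so that `H1 D = 𝔸 ⧸ M(D)`. -/
def MD (D : Divisor K F) : Submodule K ↥(repartitions K F) :=
  repartitionsOf D ⊔ principalRepartitions K F

theorem H1_eq (D : Divisor K F) : H1 D = (↥(repartitions K F) ⧸ MD D) := rfl

theorem MD_mono {D D' : Divisor K F} (h : D ≤ D') : MD D ≤ MD D' :=
  sup_le_sup_right (repartitionsOf_mono h) _

theorem L_mono {D D' : Divisor K F} (h : D ≤ D') : riemannRochSpace D ≤ riemannRochSpace D' :=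
  fun _ hf v => (hf v).trans (exp_le_exp.mpr (Finsupp.le_def.mp h v))

/-- `M(D + v) = M(D) + K · e`. -/
theorem MD_addPl {v : Place K F} (hv : ResK v) (D : Divisor K F) {t : F}
    (ht : v.adicValuation t = exp (D v + 1)) :
    MD (addPl D v) = MD D ⊔ Submodule.span K {singleRep v t} := by
  apply le_antisymm
  · refine sup_le ?_ (le_sup_of_le_left le_sup_right)
    intro α hα
    obtain ⟨c, hc⟩ := exists_sub_smul_singleRep_mem hv D ht hα
    have : α = (α - c • singleRep v t) + c • singleRep v t := by abel
    rw [this]
    exact Submodule.add_mem_sup (Submodule.mem_sup_left hc)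
      (Submodule.smul_mem _ _ (Submodule.mem_span_singleton_self _))
  · refine sup_le (MD_mono (le_addPl D v)) ?_
    rw [Submodule.span_le, Set.singleton_subset_iff]
    exact Submodule.mem_sup_left (singleRep_mem D ht)

/-- An element of `L(D + v)` not in `L(D)` has exact valuation `exp (D v + 1)` at `v`. -/
theorem val_eq_of_mem_of_notMem {v : Place K F} (D : Divisor K F) {f : F}
    (hf : f ∈ riemannRochSpace (addPl D v)) (hf' : f ∉ riemannRochSpace D) :
    v.adicValuation f = exp (D v + 1) := by
  have h1 : ¬ v.adicValuation f ≤ exp (D v) := by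
    intro h
    apply hf'
    intro w
    by_cases hw : w = v
    · subst hw; exact h
    · have := hf w
      rwa [addPl_apply_of_ne D hw] at this
  have h2 : v.adicValuation f ≤ exp (D v + 1) := by
    have := hf v
    rwa [addPl_apply_self] at this
  have h0 : v.adicValuation f ≠ 0 := by
    intro h
    rw [h] at h1
    exact h1 zero_le
  rw [← exp_log h0] at h1 h2 ⊢
  rw [exp_le_exp] at h1 h2
  congr 1
  omega

/-- Modulo `L(D)`, every element of `L(D + v)` is a constant multiple of a fixed element
of `L(D + v)` outside `L(D)`. -/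
theorem exists_sub_smul_mem_L {v : Place K F} (hv : ResK v) (D : Divisor K F) {f g : F}
    (hf : f ∈ riemannRochSpace (addPl D v)) (hf' : f ∉ riemannRochSpace D)
    (hg : g ∈ riemannRochSpace (addPl D v)) :
    ∃ c : K, g - c • f ∈ riemannRochSpace D := by
  have ht := val_eq_of_mem_of_notMem D hf hf'
  have hg1 : v.adicValuation g ≤ exp (D v + 1) := by
    have := hg v
    rwa [addPl_apply_self] at this
  obtain ⟨c, hc⟩ := exists_const_sub v hv ht hg1
  refine ⟨c, fun w => ?_⟩
  by_cases hw : w = v
  · subst hw
    simpa using hc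
  · have h1 := hg w
    have h2 := hf w
    rw [addPl_apply_of_ne D hw] at h1 h2
    refine (Valuation.map_sub _ _ _).trans (max_le h1 ((val_smul_le w c f).trans h2))

/-- `e ∈ M(D)` iff `L(D + v) ≠ L(D)`. -/
theorem singleRep_mem_MD_iff {v : Place K F} (hv : ResK v) (D : Divisor K F) {t : F}
    (ht : v.adicValuation t = exp (D v + 1)) :
    singleRep v t ∈ MD D ↔
      ∃ f : F, f ∈ riemannRochSpace (addPl D v) ∧ f ∉ riemannRochSpace D := by
  constructor
  · intro h
    obtain ⟨l, hl, p, hp, hlp⟩ := Submodule.mem_sup.1 h
    obtain ⟨f, rfl⟩ := mem_principal_iff.1 hp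
    refine ⟨f, ?_, ?_⟩
    · rw [← constRep_mem_iff]
      have : constRep (K := K) f = singleRep v t - l := by rw [← hlp]; abel
      rw [this]
      exact Submodule.sub_mem _ (singleRep_mem D ht) (repartitionsOf_mono (le_addPl D v) hl)
    · intro hf
      apply singleRep_notMem D ht
      rw [← hlp]
      exact Submodule.add_mem _ hl (constRep_mem_iff.2 hf)
  · rintro ⟨f, hf, hf'⟩
    obtain ⟨c, hc⟩ := exists_sub_smul_singleRep_mem hv D ht (constRep_mem_iff.2 hf)
    have hc0 : c ≠ 0 := by
      rintro rfl
      rw [zero_smul, sub_zero] at hc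
      exact hf' (constRep_mem_iff.1 hc)
    have : singleRep v t = c⁻¹ • (constRep (K := K) f - (constRep f - c • singleRep v t)) := by
      rw [sub_sub_cancel, smul_smul, inv_mul_cancel₀ hc0, one_smul]
    rw [this]
    refine Submodule.smul_mem _ _ (Submodule.sub_mem _ ?_ ?_)
    · exact Submodule.mem_sup_right (constRep_mem_principal f)
    · exact Submodule.mem_sup_left hc

/-- One step for `L`: finite-dimensionality is preserved and the dimension grows by `1` or `0`
according to whether `e ∈ M(D)`. -/
theorem L_step {v : Place K F} (hv : ResK v) (D : Divisor K F) {t : F}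
    (ht : v.adicValuation t = exp (D v + 1)) [Module.Finite K (riemannRochSpace D)] :
    Module.Finite K (riemannRochSpace (addPl D v)) ∧
      ((singleRep v t ∈ MD D ∧
          Module.finrank K (riemannRochSpace (addPl D v))
            = Module.finrank K (riemannRochSpace D) + 1) ∨
        (singleRep v t ∉ MD D ∧
          Module.finrank K (riemannRochSpace (addPl D v))
            = Module.finrank K (riemannRochSpace D))) := by
  by_cases h : singleRep v t ∈ MD D
  · obtain ⟨f, hf, hf'⟩ := (singleRep_mem_MD_iff hv D ht).1 h
    obtain ⟨h1, h2⟩ := finite_and_finrank_of_step (L_mono (le_addPl D v)) hf hf'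
      (fun g hg => exists_sub_smul_mem_L hv D hf hf' hg)
    exact ⟨h1, Or.inl ⟨h, h2⟩⟩
  · have heq : riemannRochSpace (addPl D v) = riemannRochSpace D := by
      apply le_antisymm _ (L_mono (le_addPl D v))
      intro f hf
      by_contra hf'
      exact h ((singleRep_mem_MD_iff hv D ht).2 ⟨f, hf, hf'⟩)
    rw [heq]
    exact ⟨inferInstance, Or.inr ⟨h, rfl⟩⟩

end Fermat.Agent.Lib.FF.RR
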