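import Mathlib
import Fermat.Agent.Lib.FF.RRCore

/-!
# Riemann–Roch (H¹-form) on the Prelude's repartitions: the global argument

Abstract hypotheses: all places have residue field `K`, `HasPrincipalDivisors K F`,
`L(0)` is one-dimensional, and `deg D - dim L(D)` is bounded above (Riemann's inequality).
Conclusion: `H1 D` is finite-dimensional and
`dim L(D) - dim H1(D) = deg D + 1 - genusFF K F` for every divisor `D`.
-/

set_option autoImplicit false

noncomputable section

namespace Fermat.Agent.Lib.FF.RR

open AlgebraicCurve WithZero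

variable {K F : Type*} [Field K] [Field F] [Algebra K F]

/-! ### Induction along chains of divisors -/

/-- Total multiplicity of a divisor (degree with all places counted once). -/
def tot : Divisor K F →+ ℤ := Finsupp.liftAddHom fun _ => AddMonoidHom.id ℤ

theorem tot_single (v : Place K F) (n : ℤ) : tot (Finsupp.single v n) = n := by
  simp [tot]

theorem tot_eq_sum (E : Divisor K F) : tot E = ∑ v ∈ E.support, E v := by
  simp [tot, Finsupp.sum]

theorem eq_zero_of_nonneg_of_tot_eq_zero {E : Divisor K F} (h0 : ∀ v, 0 ≤ E v)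
    (ht : tot E = 0) : E = 0 := by
  rw [tot_eq_sum] at ht
  have h := (Finset.sum_eq_zero_iff_of_nonneg (fun v _ => h0 v)).1 ht
  ext v
  by_cases hv : v ∈ E.support
  · exact h v hv
  · simpa using hv

theorem exists_pos_of_tot_pos {E : Divisor K F} (ht : 0 < tot E) : ∃ v, 0 < E v := by
  by_contra h
  push Not at h
  rw [tot_eq_sum] at ht
  exact absurd ht (not_lt.mpr (Finset.sum_nonpos fun v _ => h v))

theorem tot_nonneg {E : Divisor K F} (h0 : ∀ v, 0 ≤ E v) : 0 ≤ tot E := by
  rw [tot_eq_sum]
  exact Finset.sum_nonneg fun v _ => h0 v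

/-- Upward induction along single-place steps. -/
theorem divisor_induction_up {P : Divisor K F → Prop} (D : Divisor K F) (h0 : P D)
    (hstep : ∀ D' v, D ≤ D' → P D' → P (addPl D' v)) : ∀ D', D ≤ D' → P D' := by
  have key : ∀ n : ℕ, ∀ D', D ≤ D' → tot (D' - D) = n → P D' := by
    intro n
    induction n with
    | zero =>
      intro D' hle ht
      have h1 : D' - D = 0 := eq_zero_of_nonneg_of_tot_eq_zero
        (fun v => by
          have := Finsupp.le_def.mp hle v
          simp only [Finsupp.coe_sub, Pi.sub_apply]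
          omega) (by simpa using ht)
      rw [sub_eq_zero] at h1
      rw [h1]
      exact h0
    | succ n ih =>
      intro D' hle ht
      obtain ⟨v, hv⟩ := exists_pos_of_tot_pos (E := D' - D) (by rw [ht]; positivity)
      simp only [Finsupp.coe_sub, Pi.sub_apply] at hv
      set D'' : Divisor K F := D' - Finsupp.single v (1 : ℤ) with hD''
      have hle' : D ≤ D'' := by
        refine Finsupp.le_def.mpr fun w => ?_
        have hw := Finsupp.le_def.mp hle w
        by_cases hwv : w = v
        · subst hwv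
          simp only [hD'', Finsupp.coe_sub, Pi.sub_apply, Finsupp.single_eq_same]
          omega
        · simp only [hD'', Finsupp.coe_sub, Pi.sub_apply]
          rw [Finsupp.single_eq_of_ne hwv, sub_zero]
          exact hw
      have ht' : tot (D'' - D) = n := by
        have h2 : D'' - D = (D' - D) - Finsupp.single v (1 : ℤ) := by rw [hD'']; abel
        rw [h2, map_sub, ht, tot_single]
        push_cast
        ring
      have h3 := hstep D'' v hle' (ih D'' hle' ht')
      have hadd : addPl D'' v = D' := by simp [addPl, hD'']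
      rwa [hadd] at h3
  intro D' hle
  have hnn : 0 ≤ tot (D' - D) := tot_nonneg fun v => by
    have := Finsupp.le_def.mp hle v
    simp only [Finsupp.coe_sub, Pi.sub_apply]
    omega
  exact key _ D' hle (Int.toNat_of_nonneg hnn).symm

/-- Downward induction along single-place steps. -/
theorem divisor_induction_down {P : Divisor K F → Prop} (D' : Divisor K F) (h0 : P D')
    (hstep : ∀ D v, addPl D v ≤ D' → P (addPl D v) → P D) : ∀ D, D ≤ D' → P D := by
  have key : ∀ n : ℕ, ∀ D, D ≤ D' → tot (D' - D) = n → P D := by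
    intro n
    induction n with
    | zero =>
      intro D hle ht
      have h1 : D' - D = 0 := eq_zero_of_nonneg_of_tot_eq_zero
        (fun v => by
          have := Finsupp.le_def.mp hle v
          simp only [Finsupp.coe_sub, Pi.sub_apply]
          omega) (by simpa using ht)
      rw [sub_eq_zero] at h1
      rw [← h1]
      exact h0
    | succ n ih =>
      intro D hle ht
      obtain ⟨v, hv⟩ := exists_pos_of_tot_pos (E := D' - D) (by rw [ht]; positivity)
      simp only [Finsupp.coe_sub, Pi.sub_apply] at hv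
      have hle' : addPl D v ≤ D' := by
        refine Finsupp.le_def.mpr fun w => ?_
        have hw := Finsupp.le_def.mp hle w
        by_cases hwv : w = v
        · subst hwv
          rw [addPl_apply_self]
          omega
        · rw [addPl_apply_of_ne D hwv]
          exact hw
      have ht' : tot (D' - addPl D v) = n := by
        have h2 : D' - addPl D v = (D' - D) - Finsupp.single v (1 : ℤ) := by
          simp only [addPl]; abel
        rw [h2, map_sub, ht, tot_single]
        push_cast
        ring
      exact hstep D v hle' (ih (addPl D v) hle' ht')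
  intro D hle
  have hnn : 0 ≤ tot (D' - D) := tot_nonneg fun v => by
    have := Finsupp.le_def.mp hle v
    simp only [Finsupp.coe_sub, Pi.sub_apply]
    omega
  exact key _ D hle (Int.toNat_of_nonneg hnn).symm

/-! ### Degrees -/

theorem deg_eq_one {v : Place K F} (hv : ResK v) : v.deg = 1 := by
  show Module.finrank K v.ResidueField = 1
  refine (finrank_eq_one_iff_of_nonzero' (1 : v.ResidueField) one_ne_zero).2 ?_
  intro w
  obtain ⟨a, rfl⟩ := IsLocalRing.residue_surjective w
  obtain ⟨c, hc⟩ := hv a
  refine ⟨c, ?_⟩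
  rw [Algebra.smul_def, mul_one]
  have h1 : algebraMap K v.ResidueField c
      = IsLocalRing.residue v.toValuationSubring (algebraMap K v.toValuationSubring c) := rfl
  rw [h1, eq_comm, ← sub_eq_zero, ← map_sub]
  exact (IsLocalRing.residue_eq_zero_iff _).2 hc

theorem degree_addPl (hres : ∀ v : Place K F, ResK v) (D : Divisor K F) (v : Place K F) :
    Divisor.degree (addPl D v) = Divisor.degree D + 1 := by
  rw [addPl, map_add, Divisor.degree_single, deg_eq_one (hres v)]
  simp

/-! ### Every repartition lies in some `Λ(D)` -/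

theorem exists_divisor_bound [HasPrincipalDivisors K F] (a : Place K F → F)
    (ha : a ∈ repartitions K F) :
    ∃ D : Divisor K F, ∀ v : Place K F, v.adicValuation (a v) ≤ exp (D v) := by
  induction ha using Algebra.adjoin_induction with
  | mem a ha =>
    classical
    have ha' : {v : Place K F | ¬ v.adicValuation (a v) ≤ 1}.Finite := ha
    refine ⟨Finsupp.onFinset ha'.toFinset (fun v => max 0 (log (v.adicValuation (a v)))) ?_, ?_⟩
    · intro v hv
      rw [Set.Finite.mem_toFinset]
      show ¬ _
      intro hle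
      apply hv
      by_cases h0 : v.adicValuation (a v) = 0
      · rw [h0]; simp
      · rw [← exp_log h0, ← exp_zero, exp_le_exp] at hle
        exact max_eq_left hle
    · intro v
      rw [Finsupp.onFinset_apply]
      by_cases h0 : v.adicValuation (a v) = 0
      · rw [h0]; exact zero_le
      · conv_lhs => rw [← exp_log h0]
        exact exp_le_exp.mpr (le_max_right _ _)
  | algebraMap f =>
    by_cases hf : f = 0
    · refine ⟨0, fun v => ?_⟩
      rw [hf, map_zero]
      show v.adicValuation (0 : F) ≤ _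
      rw [map_zero]
      exact zero_le
    · obtain ⟨D, hD, -⟩ := HasPrincipalDivisors.exists_divisor (K := K) f hf
      refine ⟨-D, fun v => ?_⟩
      show v.adicValuation f ≤ _
      rw [v.adicValuation_eq_exp_neg_ord hf, Finsupp.neg_apply, hD v]
  | add a b _ _ iha ihb =>
    obtain ⟨D₁, h₁⟩ := iha
    obtain ⟨D₂, h₂⟩ := ihb
    refine ⟨D₁ ⊔ D₂, fun v => ?_⟩
    rw [Pi.add_apply, Finsupp.sup_apply]
    refine (Valuation.map_add _ _ _).trans (max_le ?_ ?_)
    · exact (h₁ v).trans (exp_le_exp.mpr le_sup_left)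
    · exact (h₂ v).trans (exp_le_exp.mpr le_sup_right)
  | mul a b _ _ iha ihb =>
    obtain ⟨D₁, h₁⟩ := iha
    obtain ⟨D₂, h₂⟩ := ihb
    refine ⟨D₁ + D₂, fun v => ?_⟩
    rw [Pi.mul_apply, map_mul, Finsupp.add_apply, exp_add]
    exact mul_le_mul' (h₁ v) (h₂ v)

theorem exists_divisor_mem [HasPrincipalDivisors K F] (α : ↥(repartitions K F)) :
    ∃ D : Divisor K F, α ∈ repartitionsOf D :=
  exists_divisor_bound (α : Place K F → F) α.2


/-! ### Finite-dimensionality of `L(D)` and the invariant `deg D - dim L(D)` -/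

theorem L_finite (hres : ∀ v : Place K F, ResK v)
    (hL0 : Module.Finite K (riemannRochSpace (0 : Divisor K F))) (D : Divisor K F) :
    Module.Finite K (riemannRochSpace D) := by
  have hup : ∀ D', (0 : Divisor K F) ≤ D' → Module.Finite K (riemannRochSpace D') := by
    refine divisor_induction_up 0 hL0 ?_
    intro D' v _ hfin
    obtain ⟨t, ht⟩ := exists_val_eq_exp v (D' v + 1)
    have := hfin
    exact (L_step (hres v) D' ht).1
  have := hup (D ⊔ 0) le_sup_right
  exact Submodule.finiteDimensional_of_le (L_mono (le_sup_left : D ≤ D ⊔ 0))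

/-- The integer `deg D - dim L(D)`. -/
def cD (D : Divisor K F) : ℤ :=
  Divisor.degree D - (Module.finrank K (riemannRochSpace D) : ℤ)

theorem cD_step (hres : ∀ v : Place K F, ResK v)
    (hL0 : Module.Finite K (riemannRochSpace (0 : Divisor K F))) (D : Divisor K F)
    (v : Place K F) {t : F} (ht : v.adicValuation t = exp (D v + 1)) :
    (singleRep v t ∈ MD D ∧ cD (addPl D v) = cD D) ∨
      (singleRep v t ∉ MD D ∧ cD (addPl D v) = cD D + 1) := by
  have := L_finite hres hL0 D
  rcases (L_step (hres v) D ht).2 with ⟨h1, h2⟩ | ⟨h1, h2⟩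
  · left
    refine ⟨h1, ?_⟩
    unfold cD
    rw [degree_addPl hres, h2]
    push_cast
    ring
  · right
    refine ⟨h1, ?_⟩
    unfold cD
    rw [degree_addPl hres, h2]
    ring

/-- `deg D - dim L(D)` is monotone, and where it is constant `M(D)` is constant. -/
theorem cD_mono_and (hres : ∀ v : Place K F, ResK v)
    (hL0 : Module.Finite K (riemannRochSpace (0 : Divisor K F))) (D : Divisor K F) :
    ∀ D', D ≤ D' → cD D ≤ cD D' ∧ (cD D = cD D' → MD D = MD D') := by
  refine divisor_induction_up D ⟨le_rfl, fun _ => rfl⟩ ?_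
  rintro D' v hle ⟨h1, h2⟩
  obtain ⟨t, ht⟩ := exists_val_eq_exp v (D' v + 1)
  rcases cD_step hres hL0 D' v ht with ⟨hmem, hc⟩ | ⟨hmem, hc⟩
  · refine ⟨by rw [hc]; exact h1, fun heq => ?_⟩
    rw [hc] at heq
    rw [MD_addPl (hres v) D' ht, h2 heq]
    refine (sup_eq_left.2 ?_).symm
    rw [Submodule.span_le, Set.singleton_subset_iff]
    exact hmem
  · refine ⟨by rw [hc]; omega, fun heq => ?_⟩
    omega

theorem cD_mono (hres : ∀ v : Place K F, ResK v)
    (hL0 : Module.Finite K (riemannRochSpace (0 : Divisor K F))) {D D' : Divisor K F}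
    (h : D ≤ D') : cD D ≤ cD D' :=
  (cD_mono_and hres hL0 D D' h).1

/-- Codimension bookkeeping along a chain `D ≤ D'`. -/
theorem H1_chain (hres : ∀ v : Place K F, ResK v)
    (hL0 : Module.Finite K (riemannRochSpace (0 : Divisor K F))) (D' : Divisor K F)
    [Module.Finite K (↥(repartitions K F) ⧸ MD D')] :
    ∀ D, D ≤ D' → Module.Finite K (↥(repartitions K F) ⧸ MD D) ∧
      (Module.finrank K (↥(repartitions K F) ⧸ MD D) : ℤ)
        = Module.finrank K (↥(repartitions K F) ⧸ MD D') + cD D' - cD D := by
  refine divisor_induction_down D' ⟨inferInstance, by ring⟩ ?_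
  rintro D v hle ⟨hfin, hrank⟩
  obtain ⟨t, ht⟩ := exists_val_eq_exp v (D v + 1)
  have hMD := MD_addPl (hres v) D ht
  rcases cD_step hres hL0 D v ht with ⟨hmem, hc⟩ | ⟨hmem, hc⟩
  · have heq : MD (addPl D v) = MD D := by
      rw [hMD]
      refine sup_eq_left.2 ?_
      rw [Submodule.span_le, Set.singleton_subset_iff]
      exact hmem
    rw [heq] at hfin hrank
    exact ⟨hfin, by rw [hrank, hc]⟩
  · rw [hMD] at hfin hrank
    have := hfin
    obtain ⟨h1, h2⟩ := finite_and_finrank_quotient_of_step (MD D) hmem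
    refine ⟨h1, ?_⟩
    rw [h2]
    push_cast
    rw [hrank, hc]
    ring

/-- If `deg D - dim L(D)` is bounded above, it attains its maximum at some `D₀`, and
`M(D') = 𝔸` for all `D' ≥ D₀`. -/
theorem exists_MD_eq_top [HasPrincipalDivisors K F] (hres : ∀ v : Place K F, ResK v)
    (hL0 : Module.Finite K (riemannRochSpace (0 : Divisor K F)))
    (hbdd : ∃ γ : ℤ, ∀ D : Divisor K F, cD D ≤ γ) :
    ∃ D₀ : Divisor K F, (∀ D : Divisor K F, cD D ≤ cD D₀) ∧
      ∀ D' : Divisor K F, D₀ ≤ D' → MD D' = ⊤ := by
  obtain ⟨γ, hγ⟩ := hbdd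
  obtain ⟨m, ⟨D₀, hD₀⟩, hmax⟩ := Int.exists_greatest_of_bdd
    (P := fun z => ∃ D : Divisor K F, cD D = z)
    ⟨γ, fun z ⟨D, hD⟩ => hD ▸ hγ D⟩ ⟨cD (0 : Divisor K F), 0, rfl⟩
  have hmax' : ∀ D, cD D ≤ cD D₀ := fun D => hD₀ ▸ hmax _ ⟨D, rfl⟩
  refine ⟨D₀, hmax', ?_⟩
  have hstab : ∀ D', D₀ ≤ D' → MD D₀ = MD D' := fun D' hle => by
    obtain ⟨h1, h2⟩ := cD_mono_and hres hL0 D₀ D' hle
    exact h2 (le_antisymm h1 (hmax' D'))
  have htop : MD D₀ = ⊤ := by
    rw [eq_top_iff]
    intro α _
    obtain ⟨Dα, hα⟩ := exists_divisor_mem α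
    rw [hstab (Dα ⊔ D₀) le_sup_right]
    exact Submodule.mem_sup_left (repartitionsOf_mono le_sup_left hα)
  intro D' hle
  rw [← hstab D' hle, htop]

/-- **Riemann–Roch, H¹-form**, from Riemann's inequality. -/
theorem riemannRoch_of_bounded [HasPrincipalDivisors K F] (hres : ∀ v : Place K F, ResK v)
    (hL0 : Module.Finite K (riemannRochSpace (0 : Divisor K F)))
    (hL0' : Module.finrank K (riemannRochSpace (0 : Divisor K F)) = 1)
    (hbdd : ∃ γ : ℤ, ∀ D : Divisor K F, cD D ≤ γ) (D : Divisor K F) :
    Module.Finite K (riemannRochSpace D) ∧ Module.Finite K (H1 D) ∧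
      (Module.finrank K (riemannRochSpace D) : ℤ) - Module.finrank K (H1 D)
        = Divisor.degree D + 1 - genusFF K F := by
  obtain ⟨D₀, hmax, htop⟩ := exists_MD_eq_top hres hL0 hbdd
  have key : ∀ D : Divisor K F, Module.Finite K (↥(repartitions K F) ⧸ MD D) ∧
      (Module.finrank K (↥(repartitions K F) ⧸ MD D) : ℤ) = cD D₀ - cD D := by
    intro D
    have ht := htop (D ⊔ D₀) le_sup_right
    have : Subsingleton (↥(repartitions K F) ⧸ MD (D ⊔ D₀)) :=
      Submodule.Quotient.subsingleton_iff.mpr ht
    have : Module.Finite K (↥(repartitions K F) ⧸ MD (D ⊔ D₀)) := inferInstance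
    obtain ⟨h1, h2⟩ := H1_chain hres hL0 (D ⊔ D₀) D le_sup_left
    have h3 : Module.finrank K (↥(repartitions K F) ⧸ MD (D ⊔ D₀)) = 0 :=
      Module.finrank_zero_of_subsingleton
    have h4 : cD (D ⊔ D₀) = cD D₀ := le_antisymm (hmax _) (cD_mono hres hL0 le_sup_right)
    refine ⟨h1, ?_⟩
    rw [h2, h3, h4]
    simp
  have hg : (genusFF K F : ℤ) = cD D₀ + 1 := by
    have h0 := (key 0).2
    have hc0 : cD (0 : Divisor K F) = -1 := by
      unfold cD
      rw [map_zero, hL0']
      simp
    rw [hc0] at h0
    have : (genusFF K F : ℤ) = (Module.finrank K (↥(repartitions K F) ⧸ MD (0 : Divisor K F)) : ℤ) :=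
      rfl
    rw [this, h0]
    ring
  refine ⟨L_finite hres hL0 D, (key D).1, ?_⟩
  have h1 : (Module.finrank K (H1 D) : ℤ) = cD D₀ - cD D := (key D).2
  rw [h1, hg]
  unfold cD
  ring

end Fermat.Agent.Lib.FF.RR
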