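import Mathlib
import Fermat.Agent.Lib.FF.RRMain

/-!
# Riemann's inequality from growth along the multiples of one divisor

If `dim L(l • B) ≥ l * deg B - c₀` for all `l` and `deg B > 0`, then `deg D - dim L(D) ≤ c₀`
for every divisor `D`; hence Riemann–Roch in H¹-form and its usual corollaries.
-/

set_option autoImplicit false

noncomputable section

namespace Fermat.Agent.Lib.FF.RR

open AlgebraicCurve WithZero

variable {K F : Type*} [Field K] [Field F] [Algebra K F]

/-- Multiplication by `f ≠ 0` identifies `L(D)` with `L(D - div f)`. -/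
theorem L_sub_div_eq_map (D Df : Divisor K F) {f : F} (hf : f ≠ 0)
    (hDf : ∀ v : Place K F, Df v = v.ord f) :
    riemannRochSpace (D - Df) = (riemannRochSpace D).map (LinearMap.mulLeft K f) := by
  ext g
  simp only [Submodule.mem_map, LinearMap.mulLeft_apply]
  constructor
  · intro hg
    refine ⟨f⁻¹ * g, fun v => ?_, by rw [← mul_assoc, mul_inv_cancel₀ hf, one_mul]⟩
    have h1 := hg v
    rw [Finsupp.sub_apply, hDf v, sub_eq_add_neg, exp_add] at h1
    rw [map_mul, map_inv₀, v.adicValuation_eq_exp_neg_ord hf]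
    calc (exp (-v.ord f))⁻¹ * v.adicValuation g
        ≤ (exp (-v.ord f))⁻¹ * (exp (D v) * exp (-v.ord f)) := by gcongr
      _ = exp (D v) := by
        rw [mul_comm (exp (D v)), ← mul_assoc, inv_mul_cancel₀ exp_ne_zero, one_mul]
  · rintro ⟨h, hh, rfl⟩ v
    have h1 := hh v
    rw [map_mul, v.adicValuation_eq_exp_neg_ord hf, Finsupp.sub_apply, hDf v, sub_eq_add_neg,
      exp_add, mul_comm]
    gcongr

theorem finrank_L_sub_div (D Df : Divisor K F) {f : F} (hf : f ≠ 0)
    (hDf : ∀ v : Place K F, Df v = v.ord f) :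
    Module.finrank K (riemannRochSpace (D - Df)) = Module.finrank K (riemannRochSpace D) := by
  rw [L_sub_div_eq_map D Df hf hDf]
  have hinj : Function.Injective (LinearMap.mulLeft K f) := by
    intro a b hab
    simpa [hf] using hab
  exact (Submodule.equivMapOfInjective _ hinj (riemannRochSpace D)).finrank_eq.symm

/-- `deg D - dim L(D)` is invariant under linear equivalence. -/
theorem cD_sub_div (D Df : Divisor K F) {f : F} (hf : f ≠ 0)
    (hDf : ∀ v : Place K F, Df v = v.ord f) (hdeg : Divisor.degree Df = 0) :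
    cD (D - Df) = cD D := by
  unfold cD
  rw [finrank_L_sub_div D Df hf hDf, map_sub, hdeg, sub_zero]

/-- **Riemann's inequality** from growth along the multiples of one divisor of positive degree. -/
theorem cD_le_of_growth [HasPrincipalDivisors K F] (hres : ∀ v : Place K F, ResK v)
    (hL0 : Module.Finite K (riemannRochSpace (0 : Divisor K F)))
    (B : Divisor K F) (hB : 0 < Divisor.degree B) (c₀ : ℤ)
    (hgrow : ∀ l : ℕ, (l : ℤ) * Divisor.degree B - c₀
      ≤ Module.finrank K (riemannRochSpace (l • B)))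
    (D : Divisor K F) : cD D ≤ c₀ := by
  have hcB : ∀ l : ℕ, cD (l • B) ≤ c₀ := by
    intro l
    unfold cD
    rw [map_nsmul]
    have := hgrow l
    simp only [nsmul_eq_mul]
    linarith
  set Dp : Divisor K F := D ⊔ 0 with hDp
  set l : ℕ := (Divisor.degree Dp + c₀ + 1).toNat with hl
  have hl1 : Divisor.degree Dp + c₀ + 1 ≤ (l : ℤ) := Int.self_le_toNat _
  have hl2 : (l : ℤ) ≤ (l : ℤ) * Divisor.degree B := by
    have h0 : (0 : ℤ) ≤ (l : ℤ) := Int.natCast_nonneg l
    nlinarith
  set E : Divisor K F := l • B - Dp with hE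
  have hEle : E ≤ l • B := by
    rw [hE]
    refine sub_le_self _ ?_
    exact le_sup_right
  have hcE : cD E ≤ c₀ := (cD_mono hres hL0 hEle).trans (hcB l)
  have hfin := L_finite hres hL0 E
  have hpos : 0 < Module.finrank K (riemannRochSpace E) := by
    unfold cD at hcE
    rw [hE, map_sub, map_nsmul, nsmul_eq_mul] at hcE
    have : (0 : ℤ) < (Module.finrank K (riemannRochSpace (l • B - Dp)) : ℤ) := by linarith
    exact_mod_cast this
  obtain ⟨⟨f, hfE⟩, hf0⟩ := Module.finrank_pos_iff_exists_ne_zero.mp hpos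
  have hf : f ≠ 0 := fun h => hf0 (Subtype.ext h)
  obtain ⟨Df, hDf, hdeg⟩ := HasPrincipalDivisors.exists_divisor (K := K) f hf
  have hle : D - Df ≤ l • B := by
    refine Finsupp.le_def.mpr fun v => ?_
    have h1 := hfE v
    rw [v.adicValuation_eq_exp_neg_ord hf, exp_le_exp, hE, Finsupp.sub_apply, hDp,
      Finsupp.sup_apply] at h1
    rw [Finsupp.sub_apply, hDf v]
    have h2 : D v ≤ D v ⊔ (0 : Divisor K F) v := le_sup_left
    omega
  calc cD D = cD (D - Df) := (cD_sub_div D Df hf hDf hdeg).symm
    _ ≤ cD (l • B) := cD_mono hres hL0 hle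
    _ ≤ c₀ := hcB l

/-- **Riemann–Roch, H¹-form**, from growth along the multiples of one divisor. -/
theorem riemannRoch_of_growth [HasPrincipalDivisors K F] (hres : ∀ v : Place K F, ResK v)
    (hL0 : Module.Finite K (riemannRochSpace (0 : Divisor K F)))
    (hL0' : Module.finrank K (riemannRochSpace (0 : Divisor K F)) = 1)
    (B : Divisor K F) (hB : 0 < Divisor.degree B) (c₀ : ℤ)
    (hgrow : ∀ l : ℕ, (l : ℤ) * Divisor.degree B - c₀
      ≤ Module.finrank K (riemannRochSpace (l • B)))
    (D : Divisor K F) :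
    Module.Finite K (riemannRochSpace D) ∧ Module.Finite K (H1 D) ∧
      (Module.finrank K (riemannRochSpace D) : ℤ) - Module.finrank K (H1 D)
        = Divisor.degree D + 1 - genusFF K F :=
  riemannRoch_of_bounded hres hL0 hL0' ⟨c₀, cD_le_of_growth hres hL0 B hB c₀ hgrow⟩ D

end Fermat.Agent.Lib.FF.RR
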