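import Mathlib
import Fermat.Agent.Lib.FF.RRIneq
import Fermat.Agent.Lib.FF.ExtPrincipal
import Fermat.Agent.S24.ResidueTrivial
import Fermat.Agent.S24.Transfer
import Fermat.Agent.S24.FundId

/-!
# Riemann–Roch (H¹-form) for function fields of one variable, characteristic zero

`K` algebraically closed of characteristic zero, `x : F` transcendental over `K`,
`F` finite over `K(x)`.  All hypotheses of `riemannRoch_of_growth` are verified.
-/

set_option autoImplicit false

noncomputable section

namespace Fermat.Agent.Lib.FF.RR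

open AlgebraicCurve WithZero IntermediateField

variable {K F : Type*} [Field K] [Field F] [Algebra K F]

section Basic

variable [IsAlgClosed K]

/-- All places have residue field `K`. -/
theorem resK_of_isAlgClosed (x : F) [Algebra.IsAlgebraic K⟮x⟯ F] (v : Place K F) : ResK v :=
  Fermat.Agent.S24.Diff.residueTrivial_of_isAlgClosed x v

/-- An element of `F` algebraic over `K` is a constant. -/
theorem exists_algebraMap_eq_of_isAlgebraic {f : F} (hf : IsAlgebraic K f) :
    ∃ c : K, algebraMap K F c = f := by
  have hint : IsIntegral K f := hf.isIntegral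
  have hdeg : (minpoly K f).degree = 1 :=
    IsAlgClosed.degree_eq_one_of_irreducible K (minpoly.irreducible hint)
  exact minpoly.mem_range_of_degree_eq_one K f hdeg

variable [CharZero K]

/-- Functions without poles are constants. -/
theorem exists_algebraMap_eq_of_mem_L_zero (x : F) [FiniteDimensional K⟮x⟯ F] {f : F}
    (hf : f ∈ riemannRochSpace (0 : Divisor K F)) : ∃ c : K, algebraMap K F c = f := by
  by_cases hfa : IsAlgebraic K f
  · exact exists_algebraMap_eq_of_isAlgebraic hfa
  exfalso
  have hft : Transcendental K f := hfa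
  have := Fermat.Agent.S24.Transfer.finiteDimensional_adjoin_of_transcendental (K := K) x hft
  obtain ⟨hP, hPsum⟩ := Fermat.Agent.S24.Transfer.polesOf_finite_sum f hft
  have hempty : hP.toFinset = ∅ := by
    ext v
    simp only [Set.Finite.mem_toFinset, Finset.notMem_empty, iff_false]
    intro hv
    have hv' : v.ord f < 0 := hv
    have h1 := hf v
    rw [Finsupp.zero_apply, exp_zero] at h1
    rcases (v.adicValuation_le_one_iff).1 h1 with h | h
    · rw [h, Place.ord_zero] at hv'
      exact lt_irrefl _ hv'
    · omega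
  rw [hempty, Finset.sum_empty] at hPsum
  have hpos : 0 < Module.finrank K⟮f⟯ F := Module.finrank_pos
  omega

theorem L_zero_eq_range (x : F) [FiniteDimensional K⟮x⟯ F] :
    riemannRochSpace (0 : Divisor K F) = LinearMap.range (Algebra.linearMap K F) := by
  ext f
  constructor
  · intro hf
    obtain ⟨c, hc⟩ := exists_algebraMap_eq_of_mem_L_zero x hf
    exact ⟨c, hc⟩
  · rintro ⟨c, rfl⟩ v
    rw [Finsupp.zero_apply, exp_zero]
    exact v.adicValuation_algebraMap_le_one c

theorem finite_L_zero (x : F) [FiniteDimensional K⟮x⟯ F] :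
    Module.Finite K (riemannRochSpace (0 : Divisor K F)) := by
  rw [L_zero_eq_range x]
  infer_instance

theorem finrank_L_zero (x : F) [FiniteDimensional K⟮x⟯ F] :
    Module.finrank K (riemannRochSpace (0 : Divisor K F)) = 1 := by
  rw [L_zero_eq_range x,
    LinearMap.finrank_range_of_inj (f := Algebra.linearMap K F) (algebraMap K F).injective,
    Module.finrank_self]

end Basic


section Growth

variable [IsAlgClosed K] [CharZero K]

/-- The pole divisor of `x`. -/
def poleDiv (K : Type*) {F : Type*} [Field K] [Field F] [Algebra K F] [IsAlgClosed K]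
    [CharZero K] (x : F) [FiniteDimensional K⟮x⟯ F] : Divisor K F :=
  (-(Ext.divOf (K := K) x x)) ⊔ 0

theorem poleDiv_apply (x : F) [FiniteDimensional K⟮x⟯ F] (v : Place K F) :
    poleDiv K x v = max (-(v.ord x)) 0 := by
  simp [poleDiv, Finsupp.sup_apply]

theorem degree_poleDiv (x : F) (hx : Transcendental K x) [FiniteDimensional K⟮x⟯ F] :
    Divisor.degree (poleDiv K x) = (Module.finrank K⟮x⟯ F : ℤ) := by
  obtain ⟨hP, hPsum⟩ := Fermat.Agent.S24.Transfer.polesOf_finite_sum x hx
  rw [Ext.degree_eq_sum x]
  have hsupp : (poleDiv K x).support = hP.toFinset := by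
    ext v
    rw [Finsupp.mem_support_iff, poleDiv_apply, Set.Finite.mem_toFinset]
    show _ ↔ v.ord x < 0
    omega
  rw [hsupp, ← hPsum]
  refine Finset.sum_congr rfl fun v hv => ?_
  rw [poleDiv_apply]
  have : v.ord x < 0 := hP.mem_toFinset.mp hv
  omega

omit [IsAlgClosed K] [CharZero K] in
/-- `x ^ j * u i` are `K`-linearly independent when the `u i` are `K(x)`-linearly independent
and `x` is transcendental. -/
theorem linearIndependent_pow_mul (x : F) (hx : Transcendental K x) {ι : Type*} (u : ι → F)
    (hu : LinearIndependent K⟮x⟯ u) (k : ℕ) :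
    LinearIndependent K (fun p : Fin k × ι => x ^ (p.1 : ℕ) * u p.2) := by
  have hinj : Function.Injective (Polynomial.aeval (R := K) x) :=
    transcendental_iff_injective.mp hx
  have h1 : LinearIndependent K (fun j : ℕ => x ^ j) := by
    have h2 := (Polynomial.basisMonomials K).linearIndependent.map'
      (Polynomial.aeval (R := K) x).toLinearMap (LinearMap.ker_eq_bot.2 hinj)
    have h3 : (⇑(Polynomial.aeval (R := K) x).toLinearMap ∘ ⇑(Polynomial.basisMonomials K))
        = fun j : ℕ => x ^ j := by
      funext j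
      simp
    rw [h3] at h2
    exact h2
  have hpow : LinearIndependent K
      (fun j : ℕ => (IntermediateField.AdjoinSimple.gen K x) ^ j) := by
    refine LinearIndependent.of_comp (K⟮x⟯.val.toLinearMap) ?_
    have h4 : (⇑(K⟮x⟯.val.toLinearMap) ∘ fun j : ℕ => (IntermediateField.AdjoinSimple.gen K x) ^ j)
        = fun j : ℕ => x ^ j := by
      funext j
      simp
    rw [h4]
    exact h1
  have hpow' : LinearIndependent K
      (fun j : Fin k => (IntermediateField.AdjoinSimple.gen K x) ^ (j : ℕ)) :=
    hpow.comp _ Fin.val_injective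
  have hfam := linearIndependent_smul (R := K) (S := K⟮x⟯) (A := F) hpow' hu
  have h5 : (fun p : Fin k × ι => (IntermediateField.AdjoinSimple.gen K x) ^ (p.1 : ℕ) • u p.2)
      = fun p : Fin k × ι => x ^ (p.1 : ℕ) * u p.2 := by
    funext p
    rw [IntermediateField.smul_def]
    simp
  rw [h5] at hfam
  exact hfam

open scoped IntermediateField.algebraAdjoinAdjoin in
omit [IsAlgClosed K] [CharZero K] in
/-- A `K(x)`-basis of `F` consisting of elements without poles outside the poles of `x`. -/
theorem exists_integral_family (x : F) [FiniteDimensional K⟮x⟯ F] :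
    ∃ u : Fin (Module.finrank K⟮x⟯ F) → F, LinearIndependent K⟮x⟯ u ∧
      ∀ i (v : Place K F), 0 ≤ v.ord x → v.adicValuation (u i) ≤ 1 := by
  classical
  let b := Module.finBasis K⟮x⟯ F
  have halg : Algebra.IsAlgebraic (Algebra.adjoin K {x}) F :=
    (IsFractionRing.comap_isAlgebraic_iff (K := K⟮x⟯)).mpr inferInstance
  have hd : ∀ i, ∃ d : Algebra.adjoin K {x}, d ≠ 0 ∧
      IsIntegral (Algebra.adjoin K {x}) (d • b i) :=
    fun i => (halg.isAlgebraic (b i)).exists_integral_multiple
  choose d hd0 hdint using hd
  have hdK : ∀ i, (d i : F) ∈ K⟮x⟯ := fun i =>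
    (IntermediateField.algebra_adjoin_le_adjoin K _) (d i).2
  have hdK0 : ∀ i, (⟨(d i : F), hdK i⟩ : K⟮x⟯) ≠ 0 := by
    intro i h
    apply hd0 i
    have : (d i : F) = 0 := congrArg Subtype.val h
    exact Subtype.ext this
  refine ⟨fun i => (d i : F) * b i, ?_, ?_⟩
  · have h := b.linearIndependent.units_smul (fun i => Units.mk0 _ (hdK0 i))
    have hu_eq : (fun i => (d i : F) * b i) = (fun i => Units.mk0 _ (hdK0 i)) • ⇑b := by
      funext i
      simp [Units.smul_def, IntermediateField.smul_def]
    rw [hu_eq]
    exact h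
  · intro i v hv
    have hxm : x ∈ v.toValuationSubring := Fermat.Agent.S24.mem_of_ord_nonneg v hv
    have hA : ∀ a : Algebra.adjoin K {x},
        algebraMap (Algebra.adjoin K {x}) F a ∈ v.toValuationSubring := by
      rintro ⟨a, ha⟩
      show a ∈ v.toValuationSubring
      induction ha using Algebra.adjoin_induction with
      | mem y hy =>
        rw [Set.mem_singleton_iff.1 hy]
        exact hxm
      | algebraMap r => exact v.algebraMap_mem' r
      | add y z _ _ hy hz => exact add_mem hy hz
      | mul y z _ _ hy hz => exact mul_mem hy hz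
    have h1 := Fermat.Agent.S24.mem_valuationSubring_of_isIntegral v.toValuationSubring hA
      (hdint i)
    exact v.adicValuation_le_one_of_mem h1

/-- Growth of `dim L(l • B)` along the pole divisor `B` of `x`. -/
theorem exists_growth (x : F) (hx : Transcendental K x) [FiniteDimensional K⟮x⟯ F] :
    ∃ c₀ : ℤ, ∀ l : ℕ, (l : ℤ) * Divisor.degree (poleDiv K x) - c₀
      ≤ Module.finrank K (riemannRochSpace (l • poleDiv K x)) := by
  classical
  have hres : ∀ v : Place K F, ResK v := resK_of_isAlgClosed x
  have hL0 := finite_L_zero (K := K) x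
  set B := poleDiv K x with hB
  set n := Module.finrank K⟮x⟯ F with hn
  have hx0 : x ≠ 0 := fun h => hx (h ▸ isAlgebraic_zero)
  obtain ⟨u, hu_li, hu_mem⟩ := exists_integral_family (K := K) x
  obtain ⟨hP, hPsum⟩ := Fermat.Agent.S24.Transfer.polesOf_finite_sum x hx
  set S := hP.toFinset with hS
  set m : ℕ := (Finset.univ ×ˢ S).sup
    (fun p : Fin n × Place K F => (-(p.2.ord (u p.1))).toNat) with hm_def
  have hm : ∀ i, ∀ v ∈ S, -(v.ord (u i)) ≤ (m : ℤ) := by
    intro i v hv
    have h1 := Finset.le_sup (f := fun p : Fin n × Place K F => (-(p.2.ord (u p.1))).toNat)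
      ((Finset.mem_product (s := Finset.univ) (t := S) (p := (i, v))).2 ⟨Finset.mem_univ i, hv⟩)
    have h2 := Int.self_le_toNat (-(v.ord (u i)))
    exact h2.trans (by exact_mod_cast h1)
  have hBnn : ∀ v : Place K F, 0 ≤ B v := fun v => by
    rw [hB, poleDiv_apply]
    exact le_max_right _ _
  have hu_L : ∀ i (v : Place K F), v.adicValuation (u i) ≤ exp ((m : ℤ) * B v) := by
    intro i v
    by_cases hv : v.ord x < 0
    · have hvS : v ∈ S := hP.mem_toFinset.mpr hv
      have hBv : B v = -(v.ord x) := by
        rw [hB, poleDiv_apply]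
        omega
      by_cases hu0 : u i = 0
      · rw [hu0, map_zero]
        exact zero_le
      rw [v.adicValuation_eq_exp_neg_ord hu0, exp_le_exp, hBv]
      have h1 := hm i v hvS
      have h2 : (0 : ℤ) ≤ (m : ℤ) := Int.natCast_nonneg m
      nlinarith
    · have hBv : B v = 0 := by
        rw [hB, poleDiv_apply]
        omega
      rw [hBv, mul_zero, exp_zero]
      exact hu_mem i v (not_lt.mp hv)
  have hx_L : ∀ (j : ℕ) (v : Place K F), v.adicValuation (x ^ j) ≤ exp ((j : ℤ) * B v) := by
    intro j v
    rw [map_pow, v.adicValuation_eq_exp_neg_ord hx0, ← exp_nsmul, exp_le_exp, hB, poleDiv_apply,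
      nsmul_eq_mul]
    exact mul_le_mul_of_nonneg_left (le_max_left _ _) (Int.natCast_nonneg j)
  refine ⟨((m : ℤ) - 1) * n, fun l => ?_⟩
  rw [degree_poleDiv x hx]
  by_cases hlm : m ≤ l
  · -- the independent family `x ^ j * u i`, `j ≤ l - m`
    have hfam := linearIndependent_pow_mul x hx u hu_li (l - m + 1)
    have hmemL : ∀ p : Fin (l - m + 1) × Fin n,
        x ^ (p.1 : ℕ) * u p.2 ∈ riemannRochSpace (l • B) := by
      intro p v
      have h1 := hx_L (p.1 : ℕ) v
      have h2 := hu_L p.2 v
      rw [map_mul]
      have h3 : (exp (((p.1 : ℕ) : ℤ) * B v) : ℤᵐ⁰) * exp ((m : ℤ) * B v)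
          ≤ exp ((l • B) v) := by
        rw [← exp_add, exp_le_exp, Finsupp.smul_apply, nsmul_eq_mul]
        have h4 : ((p.1 : ℕ) : ℤ) + m ≤ l := by
          have := p.1.2
          omega
        have h5 := hBnn v
        nlinarith
      exact (mul_le_mul' h1 h2).trans h3
    have hw : LinearIndependent K (fun p : Fin (l - m + 1) × Fin n =>
        (⟨x ^ (p.1 : ℕ) * u p.2, hmemL p⟩ : ↥(riemannRochSpace (l • B)))) := by
      refine LinearIndependent.of_comp (riemannRochSpace (l • B)).subtype ?_
      exact hfam
    have hfinL := L_finite hres hL0 (l • B)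
    have hcard := hw.fintype_card_le_finrank
    rw [Fintype.card_prod, Fintype.card_fin, Fintype.card_fin] at hcard
    have hcard' : (((l - m + 1) * n : ℕ) : ℤ)
        ≤ (Module.finrank K (riemannRochSpace (l • B)) : ℤ) := by exact_mod_cast hcard
    have hcast : (((l - m + 1) * n : ℕ) : ℤ) = ((l : ℤ) - m + 1) * n := by
      push_cast [Nat.cast_sub hlm]
      ring
    rw [hcast] at hcard'
    linarith
  · have h1 : (l : ℤ) + 1 ≤ m := by omega
    have h2 : (0 : ℤ) ≤ (n : ℤ) := Int.natCast_nonneg n
    have h3 : (0 : ℤ) ≤ (Module.finrank K (riemannRochSpace (l • B)) : ℤ) :=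
      Int.natCast_nonneg _
    nlinarith

end Growth


section Main

variable [IsAlgClosed K] [CharZero K]

/-- **Riemann–Roch (H¹-form)** for a function field of one variable over an algebraically
closed field of characteristic zero. -/
theorem riemannRoch (x : F) (hx : Transcendental K x) [FiniteDimensional K⟮x⟯ F]
    (D : Divisor K F) :
    Module.Finite K (riemannRochSpace D) ∧ Module.Finite K (H1 D) ∧
      (Module.finrank K (riemannRochSpace D) : ℤ) - Module.finrank K (H1 D)
        = Divisor.degree D + 1 - genusFF K F := by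
  have := Ext.hasPrincipalDivisors (K := K) x
  obtain ⟨c₀, hc₀⟩ := exists_growth x hx
  have hpos : (0 : ℤ) < Divisor.degree (poleDiv K x) := by
    rw [degree_poleDiv x hx]
    exact_mod_cast Module.finrank_pos
  exact riemannRoch_of_growth (resK_of_isAlgClosed x) (finite_L_zero x) (finrank_L_zero x)
    (poleDiv K x) hpos c₀ hc₀ D

theorem finite_L (x : F) (hx : Transcendental K x) [FiniteDimensional K⟮x⟯ F]
    (D : Divisor K F) : Module.Finite K (riemannRochSpace D) :=
  (riemannRoch x hx D).1

theorem finite_H1 (x : F) (hx : Transcendental K x) [FiniteDimensional K⟮x⟯ F]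
    (D : Divisor K F) : Module.Finite K (H1 D) :=
  (riemannRoch x hx D).2.1

/-- **Riemann's inequality** `dim L(D) ≥ deg D + 1 - g`. -/
theorem riemann_le (x : F) (hx : Transcendental K x) [FiniteDimensional K⟮x⟯ F]
    (D : Divisor K F) :
    Divisor.degree D + 1 - genusFF K F ≤ (Module.finrank K (riemannRochSpace D) : ℤ) := by
  have h := (riemannRoch x hx D).2.2
  have h2 : (0 : ℤ) ≤ (Module.finrank K (H1 D) : ℤ) := Int.natCast_nonneg _
  linarith

/-- There is a place. -/
theorem exists_place (x : F) (hx : Transcendental K x) [FiniteDimensional K⟮x⟯ F] :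
    Nonempty (Place K F) := by
  obtain ⟨hP, hPsum⟩ := Fermat.Agent.S24.Transfer.polesOf_finite_sum x hx
  by_contra hne
  rw [not_nonempty_iff] at hne
  have hempty : hP.toFinset = ∅ := by
    ext v
    exact hne.elim v
  rw [hempty, Finset.sum_empty] at hPsum
  have hpos : 0 < Module.finrank K⟮x⟯ F := Module.finrank_pos
  omega

/-- A divisor of degree `≥ g` is linearly equivalent to an effective one: there is `f ≠ 0`
with `div f + D ≥ 0`. -/
theorem exists_ne_zero_of_degree_ge (x : F) (hx : Transcendental K x) [FiniteDimensional K⟮x⟯ F]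
    (D : Divisor K F) (hD : (genusFF K F : ℤ) ≤ Divisor.degree D) :
    ∃ f : F, f ≠ 0 ∧ ∀ P : Place K F, 0 ≤ P.ord f + D P := by
  have h := riemann_le x hx D
  have hfin := finite_L x hx D
  have hpos : 0 < Module.finrank K (riemannRochSpace D) := by
    have : (0 : ℤ) < (Module.finrank K (riemannRochSpace D) : ℤ) := by linarith
    exact_mod_cast this
  obtain ⟨⟨f, hfD⟩, hf0⟩ := Module.finrank_pos_iff_exists_ne_zero.mp hpos
  have hf : f ≠ 0 := fun h => hf0 (Subtype.ext h)
  refine ⟨f, hf, fun P => ?_⟩
  have h1 := hfD P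
  rw [P.adicValuation_eq_exp_neg_ord hf, exp_le_exp] at h1
  omega

/-- The "Riemann–Roch lite" statement used by the rigidity argument of ES-CONG:
every divisor of degree zero becomes effective after adding `g · P₀` and a principal divisor. -/
theorem rrLite (x : F) (hx : Transcendental K x) [FiniteDimensional K⟮x⟯ F] :
    ∃ (g : ℕ) (P₀ : Place K F), ∀ D : Divisor K F, Divisor.degree D = 0 →
      ∃ f : F, f ≠ 0 ∧
        ∀ P : Place K F, 0 ≤ P.ord f + (D + Finsupp.single P₀ (g : ℤ)) P := by
  obtain ⟨P₀⟩ := exists_place (K := K) x hx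
  refine ⟨genusFF K F, P₀, fun D hD => ?_⟩
  refine exists_ne_zero_of_degree_ge x hx _ ?_
  rw [map_add, hD, Divisor.degree_single, deg_eq_one (resK_of_isAlgClosed x P₀)]
  simp

end Main

end Fermat.Agent.Lib.FF.RR
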