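import Mathlib
import Fermat.Agent.Lib.FF.RRFunctionField
import Fermat.Agent.S24.DegTop
import Fermat.Agent.S24.ARest

/-!
# Riemann–Roch (H¹-form) for the modular function fields `ℚ̄(j(q^d) : d ∣ N)`

Instantiation of `Fermat.Agent.Lib.FF.RR.riemannRoch` at `K = ℚ̄`, `F = modularFunctionFieldBar N`,
`x = j` (transcendence and finiteness from S24 `DegTop`).
-/

set_option autoImplicit false

noncomputable section

namespace Fermat.Agent.Lib.FF.RR

open AlgebraicCurve ModularCurve IntermediateField Fermat.Agent.S24

variable (N : ℕ) [NeZero N]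

/-- `HasPrincipalDivisors` for the modular function field over `ℚ̄`. -/
theorem hasPrincipalDivisors_modular :
    HasPrincipalDivisors (AlgebraicClosure ℚ) ↥(modularFunctionFieldBar N) := by
  have := finiteDimensional_jBar N
  exact Ext.hasPrincipalDivisors (K := AlgebraicClosure ℚ) (jBar N)

/-- Every place of the modular function field over `ℚ̄` has degree one. -/
theorem deg_eq_one_modular (P : Place (AlgebraicClosure ℚ) ↥(modularFunctionFieldBar N)) :
    P.deg = 1 := by
  have hfd := finiteDimensional_jBar N
  have : Algebra.IsAlgebraic (AlgebraicClosure ℚ)⟮jBar N⟯ (FN N) :=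
    Algebra.IsAlgebraic.of_finite (AlgebraicClosure ℚ)⟮jBar N⟯ (FN N)
  exact ARest.deg_eq_one (jBar N) P

/-- Every place of the modular function field over `ℚ̄` has residue field `ℚ̄`. -/
theorem resK_modular (P : Place (AlgebraicClosure ℚ) ↥(modularFunctionFieldBar N)) : ResK P := by
  have hfd := finiteDimensional_jBar N
  have : Algebra.IsAlgebraic (AlgebraicClosure ℚ)⟮jBar N⟯ (FN N) :=
    Algebra.IsAlgebraic.of_finite (AlgebraicClosure ℚ)⟮jBar N⟯ (FN N)
  exact resK_of_isAlgClosed (jBar N) P

/-- **Riemann–Roch (H¹-form)** for the modular function field over `ℚ̄`. -/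
theorem riemannRoch_modular
    (D : Divisor (AlgebraicClosure ℚ) ↥(modularFunctionFieldBar N)) :
    Module.Finite (AlgebraicClosure ℚ) (riemannRochSpace D) ∧
      Module.Finite (AlgebraicClosure ℚ) (H1 D) ∧
      (Module.finrank (AlgebraicClosure ℚ) (riemannRochSpace D) : ℤ)
          - Module.finrank (AlgebraicClosure ℚ) (H1 D)
        = Divisor.degree D + 1
          - genusFF (AlgebraicClosure ℚ) ↥(modularFunctionFieldBar N) := by
  have := finiteDimensional_jBar N
  exact riemannRoch (jBar N) (transcendental_jBar N) D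

/-- The statement `Fermat.Agent.ESJ.Cong.RRLite ℚ̄ (modularFunctionFieldBar N)` (unfolded). -/
theorem rrLite_modular :
    ∃ (g : ℕ) (P₀ : Place (AlgebraicClosure ℚ) ↥(modularFunctionFieldBar N)),
      ∀ D : Divisor (AlgebraicClosure ℚ) ↥(modularFunctionFieldBar N), Divisor.degree D = 0 →
        ∃ f : ↥(modularFunctionFieldBar N), f ≠ 0 ∧
          ∀ P : Place (AlgebraicClosure ℚ) ↥(modularFunctionFieldBar N),
            0 ≤ P.ord f + (D + Finsupp.single P₀ (g : ℤ)) P := by
  have := finiteDimensional_jBar N
  exact rrLite (jBar N) (transcendental_jBar N)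

end Fermat.Agent.Lib.FF.RR
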