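import Mathlib
import Fermat.Agent.Lib.FF.RRMain
import Fermat.Agent.Lib.FF.ExtPrincipal
import Fermat.Agent.S24.FundCor
import Fermat.Agent.S24.Transfer

/-!
# The characteristic-free setting of the FF-RR layer

`IsFF1 K F x` packages exactly the facts about a function field of one variable `F/K`
(presented as a finite extension of `K(x)`, all places `K`-rational) that the Riemann–Roch
argument uses.  It is characteristic-free; `isFF1_of_charZero` produces it from the S24 part-A
library when `K` is algebraically closed of characteristic zero.
-/

set_option autoImplicit false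

namespace Fermat.Agent.Lib.FF

open AlgebraicCurve IntermediateField

/-- `F/K` is a function field of one variable, finite over `K(x)`, with all places `K`-rational,
principal divisors of degree zero, at most `[F : K(x)]` poles of `x` (with multiplicity), and
no nonconstant function without poles. -/
structure IsFF1 (K F : Type*) [Field K] [Field F] [Algebra K F] (x : F) : Prop where
  transcendental : Transcendental K x
  finiteDimensional : FiniteDimensional K⟮x⟯ F
  resK : ∀ v : Place K F, RR.ResK v
  hasPrincipalDivisors : HasPrincipalDivisors K F
  poles_le : ∃ hfin : {v : Place K F | v.ord x < 0}.Finite,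
    ∑ v ∈ hfin.toFinset, (-v.ord x) ≤ (Module.finrank K⟮x⟯ F : ℤ)
  const_of_ord_nonneg : ∀ f : F, (∀ v : Place K F, 0 ≤ v.ord f) → ∃ c : K, f = algebraMap K F c

variable {K F : Type*} [Field K] [Field F] [Algebra K F]

/-- An element of `F` algebraic over the algebraically closed field `K` is a constant. -/
theorem exists_eq_algebraMap_of_isAlgebraic [IsAlgClosed K] {f : F} (hf : IsAlgebraic K f) :
    ∃ c : K, f = algebraMap K F c := by
  have hint : IsIntegral K f := hf.isIntegral
  have hdeg := IsAlgClosed.degree_eq_one_of_irreducible K (minpoly.irreducible hint)
  obtain ⟨c, hc⟩ := minpoly.mem_range_of_degree_eq_one K f hdeg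
  exact ⟨c, hc.symm⟩

/-- The S24 part-A setting (algebraically closed constants of characteristic zero) is an
instance of `IsFF1`. -/
theorem isFF1_of_charZero [IsAlgClosed K] [CharZero K] (x : F) (hx : Transcendental K x)
    [FiniteDimensional K⟮x⟯ F] : IsFF1 K F x where
  transcendental := hx
  finiteDimensional := inferInstance
  resK := fun v a => by
    have : Algebra.IsAlgebraic K⟮x⟯ F := Algebra.IsAlgebraic.of_finite _ _
    exact Fermat.Agent.S24.residueTrivial x v a
  hasPrincipalDivisors := Ext.hasPrincipalDivisors x
  poles_le := by
    obtain ⟨hfin, hsum⟩ := Fermat.Agent.S24.Transfer.polesOf_finite_sum x hx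
    exact ⟨hfin, hsum.le⟩
  const_of_ord_nonneg := fun f hf => by
    by_cases hfa : IsAlgebraic K f
    · exact exists_eq_algebraMap_of_isAlgebraic hfa
    · exfalso
      have hft : Transcendental K f := hfa
      have := Fermat.Agent.S24.Transfer.finiteDimensional_adjoin_of_transcendental (K := K) x hft
      obtain ⟨hfin, hsum⟩ := Fermat.Agent.S24.Transfer.polesOf_finite_sum f hft
      have hempty : hfin.toFinset = ∅ := by
        ext v
        rw [Set.Finite.mem_toFinset]
        simp only [Finset.notMem_empty, iff_false]
        exact not_lt.mpr (hf v)
      rw [hempty, Finset.sum_empty] at hsum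
      have hpos : 0 < Module.finrank K⟮f⟯ F := Module.finrank_pos
      omega

end Fermat.Agent.Lib.FF
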