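import Mathlib
import Fermat.Agent.Lib.FF.RRIneq
import Fermat.Agent.Lib.FF.RRFunctionField
import Fermat.Agent.Lib.FF.Setting

/-!
# Riemann–Roch (H¹-form) in the characteristic-free setting `IsFF1 K F x`

`IsFF1 K F x` (`Lib/FF/Setting.lean`) packages: `x` transcendental, `F` finite over `K(x)`,
all places `K`-rational, principal divisors of degree zero, at most `[F : K(x)]` poles of `x`
(with multiplicity), no nonconstant function without poles.  From these facts alone we get
Riemann's inequality and the Riemann–Roch theorem in H¹-form for the Prelude objects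
(`riemannRochSpace`, `H1`, `genusFF`).
-/

set_option autoImplicit false

noncomputable section

namespace Fermat.Agent.Lib.FF

open AlgebraicCurve WithZero IntermediateField

variable {K F : Type*} [Field K] [Field F] [Algebra K F] {x : F}

namespace IsFF1

/-- All places have degree one. -/
theorem deg_eq_one (h : IsFF1 K F x) (v : Place K F) : v.deg = 1 := RR.deg_eq_one (h.resK v)

/-- The degree of a divisor is the sum of its coefficients. -/
theorem degree_eq_sum (h : IsFF1 K F x) (D : Divisor K F) :
    Divisor.degree D = ∑ v ∈ D.support, D v := by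
  rw [Divisor.degree, Finsupp.liftAddHom_apply, Finsupp.sum]
  refine Finset.sum_congr rfl (fun v _ => ?_)
  rw [AddMonoidHom.coe_mulRight, h.deg_eq_one v]
  simp

theorem L_zero_eq_range (h : IsFF1 K F x) :
    riemannRochSpace (0 : Divisor K F) = LinearMap.range (Algebra.linearMap K F) := by
  ext f
  constructor
  · intro hf
    have hord : ∀ v : Place K F, 0 ≤ v.ord f := by
      intro v
      have h1 := hf v
      rw [Finsupp.zero_apply, exp_zero] at h1
      rcases (v.adicValuation_le_one_iff).1 h1 with h0 | h0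
      · rw [h0, Place.ord_zero]
      · exact h0
    obtain ⟨c, hc⟩ := h.const_of_ord_nonneg f hord
    exact ⟨c, hc.symm⟩
  · rintro ⟨c, rfl⟩ v
    rw [Finsupp.zero_apply, exp_zero]
    exact v.adicValuation_algebraMap_le_one c

theorem finite_L_zero (h : IsFF1 K F x) :
    Module.Finite K (riemannRochSpace (0 : Divisor K F)) := by
  rw [h.L_zero_eq_range]
  infer_instance

theorem finrank_L_zero (h : IsFF1 K F x) :
    Module.finrank K (riemannRochSpace (0 : Divisor K F)) = 1 := by
  rw [h.L_zero_eq_range,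
    LinearMap.finrank_range_of_inj (f := Algebra.linearMap K F) (algebraMap K F).injective,
    Module.finrank_self]

/-- The pole divisor of `x`. -/
def poleDiv (h : IsFF1 K F x) : Divisor K F :=
  Finsupp.onFinset h.poles_le.choose.toFinset (fun v => max (-(v.ord x)) 0) (by
    intro v hv
    rw [Set.Finite.mem_toFinset]
    show v.ord x < 0
    by_contra hneg
    exact hv (max_eq_right (by omega)))

theorem poleDiv_apply (h : IsFF1 K F x) (v : Place K F) :
    h.poleDiv v = max (-(v.ord x)) 0 := rfl

theorem poleDiv_nonneg (h : IsFF1 K F x) (v : Place K F) : 0 ≤ h.poleDiv v := by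
  rw [poleDiv_apply]
  exact le_max_right _ _

theorem support_poleDiv (h : IsFF1 K F x) :
    h.poleDiv.support = h.poles_le.choose.toFinset := by
  ext v
  rw [Finsupp.mem_support_iff, poleDiv_apply, Set.Finite.mem_toFinset]
  show _ ↔ v.ord x < 0
  omega

theorem degree_poleDiv_le (h : IsFF1 K F x) :
    Divisor.degree h.poleDiv ≤ (Module.finrank K⟮x⟯ F : ℤ) := by
  rw [h.degree_eq_sum, support_poleDiv]
  refine le_trans (le_of_eq ?_) h.poles_le.choose_spec
  refine Finset.sum_congr rfl fun v hv => ?_
  rw [poleDiv_apply]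
  have : v.ord x < 0 := h.poles_le.choose.mem_toFinset.mp hv
  omega

/-- `x` has a pole. -/
theorem exists_pole (h : IsFF1 K F x) : ∃ v : Place K F, v.ord x < 0 := by
  by_contra hne
  push Not at hne
  obtain ⟨c, hc⟩ := h.const_of_ord_nonneg x hne
  exact h.transcendental (hc ▸ isAlgebraic_algebraMap c)

theorem exists_place (h : IsFF1 K F x) : Nonempty (Place K F) :=
  ⟨h.exists_pole.choose⟩

theorem degree_poleDiv_pos (h : IsFF1 K F x) : 0 < Divisor.degree h.poleDiv := by
  obtain ⟨v, hv⟩ := h.exists_pole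
  rw [h.degree_eq_sum]
  have hvs : v ∈ h.poleDiv.support := by
    rw [Finsupp.mem_support_iff, poleDiv_apply]
    omega
  refine Finset.sum_pos' (fun w _ => h.poleDiv_nonneg w) ⟨v, hvs, ?_⟩
  rw [poleDiv_apply]
  omega

/-- Growth of `dim L(l • B)` along the pole divisor `B` of `x`. -/
theorem exists_growth (h : IsFF1 K F x) :
    ∃ c₀ : ℤ, ∀ l : ℕ, (l : ℤ) * Divisor.degree h.poleDiv - c₀
      ≤ Module.finrank K (riemannRochSpace (l • h.poleDiv)) := by
  classical
  have hx := h.transcendental
  have := h.finiteDimensional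
  have hres : ∀ v : Place K F, RR.ResK v := h.resK
  have hL0 := h.finite_L_zero
  set B := h.poleDiv with hB
  set n := Module.finrank K⟮x⟯ F with hn
  have hx0 : x ≠ 0 := fun h0 => hx (h0 ▸ isAlgebraic_zero)
  obtain ⟨u, hu_li, hu_mem⟩ := RR.exists_integral_family (K := K) x
  set S := h.poles_le.choose.toFinset with hS
  have hmemS : ∀ v : Place K F, v ∈ S ↔ v.ord x < 0 := fun v =>
    h.poles_le.choose.mem_toFinset
  set m : ℕ := (Finset.univ ×ˢ S).sup
    (fun p : Fin n × Place K F => (-(p.2.ord (u p.1))).toNat) with hm_def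
  have hm : ∀ i, ∀ v ∈ S, -(v.ord (u i)) ≤ (m : ℤ) := by
    intro i v hv
    have h1 := Finset.le_sup (f := fun p : Fin n × Place K F => (-(p.2.ord (u p.1))).toNat)
      ((Finset.mem_product (s := Finset.univ) (t := S) (p := (i, v))).2 ⟨Finset.mem_univ i, hv⟩)
    have h2 := Int.self_le_toNat (-(v.ord (u i)))
    exact h2.trans (by exact_mod_cast h1)
  have hBnn : ∀ v : Place K F, 0 ≤ B v := h.poleDiv_nonneg
  have hu_L : ∀ i (v : Place K F), v.adicValuation (u i) ≤ exp ((m : ℤ) * B v) := by
    intro i v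
    by_cases hv : v.ord x < 0
    · have hvS : v ∈ S := (hmemS v).2 hv
      have hBv : B v = -(v.ord x) := by
        rw [hB, poleDiv_apply]
        omega
      by_cases hu0 : u i = 0
      · rw [hu0, map_zero]
        exact zero_le
      rw [v.adicValuation_eq_exp_neg_ord hu0, exp_le_exp, hBv]
      have h1 := hm i v hvS
      have h2 : (0 : ℤ) ≤ (m : ℤ) := Int.natCast_nonneg m
      nlinarith
    · have hBv : B v = 0 := by
        rw [hB, poleDiv_apply]
        omega
      rw [hBv, mul_zero, exp_zero]
      exact hu_mem i v (not_lt.mp hv)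
  have hx_L : ∀ (j : ℕ) (v : Place K F), v.adicValuation (x ^ j) ≤ exp ((j : ℤ) * B v) := by
    intro j v
    rw [map_pow, v.adicValuation_eq_exp_neg_ord hx0, ← exp_nsmul, exp_le_exp, hB, poleDiv_apply,
      nsmul_eq_mul]
    exact mul_le_mul_of_nonneg_left (le_max_left _ _) (Int.natCast_nonneg j)
  have hdeg_le : Divisor.degree B ≤ (n : ℤ) := h.degree_poleDiv_le
  have hdeg_pos : 0 < Divisor.degree B := h.degree_poleDiv_pos
  refine ⟨((m : ℤ) - 1) * Divisor.degree B, fun l => ?_⟩
  by_cases hlm : m ≤ l
  · -- the independent family `x ^ j * u i`, `j ≤ l - m`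
    have hfam := RR.linearIndependent_pow_mul x hx u hu_li (l - m + 1)
    have hmemL : ∀ p : Fin (l - m + 1) × Fin n,
        x ^ (p.1 : ℕ) * u p.2 ∈ riemannRochSpace (l • B) := by
      intro p v
      have h1 := hx_L (p.1 : ℕ) v
      have h2 := hu_L p.2 v
      rw [map_mul]
      have h3 : (exp (((p.1 : ℕ) : ℤ) * B v) : ℤᵐ⁰) * exp ((m : ℤ) * B v)
          ≤ exp ((l • B) v) := by
        rw [← exp_add, exp_le_exp, Finsupp.smul_apply, nsmul_eq_mul]
        have h4 : ((p.1 : ℕ) : ℤ) + m ≤ l := by
          have := p.1.2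
          omega
        have h5 := hBnn v
        nlinarith
      exact (mul_le_mul' h1 h2).trans h3
    have hw : LinearIndependent K (fun p : Fin (l - m + 1) × Fin n =>
        (⟨x ^ (p.1 : ℕ) * u p.2, hmemL p⟩ : ↥(riemannRochSpace (l • B)))) := by
      refine LinearIndependent.of_comp (riemannRochSpace (l • B)).subtype ?_
      exact hfam
    have hfinL := RR.L_finite hres hL0 (l • B)
    have hcard := hw.fintype_card_le_finrank
    rw [Fintype.card_prod, Fintype.card_fin, Fintype.card_fin] at hcard
    have hcard' : (((l - m + 1) * n : ℕ) : ℤ)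
        ≤ (Module.finrank K (riemannRochSpace (l • B)) : ℤ) := by exact_mod_cast hcard
    have hcast : (((l - m + 1) * n : ℕ) : ℤ) = ((l : ℤ) - m + 1) * n := by
      push_cast [Nat.cast_sub hlm]
      ring
    rw [hcast] at hcard'
    have h6 : (0 : ℤ) ≤ (l : ℤ) - m + 1 := by
      have : (m : ℤ) ≤ l := by exact_mod_cast hlm
      omega
    nlinarith
  · have h1 : (l : ℤ) + 1 ≤ m := by omega
    have h3 : (0 : ℤ) ≤ (Module.finrank K (riemannRochSpace (l • B)) : ℤ) :=
      Int.natCast_nonneg _
    nlinarith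

/-- **Riemann's inequality**, as boundedness of `deg D - dim L(D)`. -/
theorem cD_le (h : IsFF1 K F x) : ∃ γ : ℤ, ∀ D : Divisor K F, RR.cD D ≤ γ := by
  have := h.hasPrincipalDivisors
  obtain ⟨c₀, hc₀⟩ := h.exists_growth
  exact ⟨c₀, RR.cD_le_of_growth h.resK h.finite_L_zero h.poleDiv h.degree_poleDiv_pos c₀ hc₀⟩

/-- **Riemann–Roch (H¹-form)** in the setting `IsFF1`. -/
theorem riemannRoch (h : IsFF1 K F x) (D : Divisor K F) :
    Module.Finite K (riemannRochSpace D) ∧ Module.Finite K (H1 D) ∧
      (Module.finrank K (riemannRochSpace D) : ℤ) - Module.finrank K (H1 D)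
        = Divisor.degree D + 1 - genusFF K F := by
  have := h.hasPrincipalDivisors
  exact RR.riemannRoch_of_bounded h.resK h.finite_L_zero h.finrank_L_zero h.cD_le D

theorem finite_L (h : IsFF1 K F x) (D : Divisor K F) : Module.Finite K (riemannRochSpace D) :=
  (h.riemannRoch D).1

theorem finite_H1 (h : IsFF1 K F x) (D : Divisor K F) : Module.Finite K (H1 D) :=
  (h.riemannRoch D).2.1

/-- **Riemann's inequality** `dim L(D) ≥ deg D + 1 - g`. -/
theorem riemann_le (h : IsFF1 K F x) (D : Divisor K F) :
    Divisor.degree D + 1 - genusFF K F ≤ (Module.finrank K (riemannRochSpace D) : ℤ) := by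
  have h1 := (h.riemannRoch D).2.2
  have h2 : (0 : ℤ) ≤ (Module.finrank K (H1 D) : ℤ) := Int.natCast_nonneg _
  linarith

/-- A divisor of degree `≥ g` is linearly equivalent to an effective one. -/
theorem exists_ne_zero_of_degree_ge (h : IsFF1 K F x) (D : Divisor K F)
    (hD : (genusFF K F : ℤ) ≤ Divisor.degree D) :
    ∃ f : F, f ≠ 0 ∧ ∀ P : Place K F, 0 ≤ P.ord f + D P := by
  have h1 := h.riemann_le D
  have hfin := h.finite_L D
  have hpos : 0 < Module.finrank K (riemannRochSpace D) := by
    have : (0 : ℤ) < (Module.finrank K (riemannRochSpace D) : ℤ) := by linarith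
    exact_mod_cast this
  obtain ⟨⟨f, hfD⟩, hf0⟩ := Module.finrank_pos_iff_exists_ne_zero.mp hpos
  have hf : f ≠ 0 := fun h0 => hf0 (Subtype.ext h0)
  refine ⟨f, hf, fun P => ?_⟩
  have h2 := hfD P
  rw [P.adicValuation_eq_exp_neg_ord hf, exp_le_exp] at h2
  omega

/-- The "Riemann–Roch lite" statement used by the rigidity argument of ES-CONG. -/
theorem rrLite (h : IsFF1 K F x) :
    ∃ (g : ℕ) (P₀ : Place K F), ∀ D : Divisor K F, Divisor.degree D = 0 →
      ∃ f : F, f ≠ 0 ∧
        ∀ P : Place K F, 0 ≤ P.ord f + (D + Finsupp.single P₀ (g : ℤ)) P := by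
  obtain ⟨P₀⟩ := h.exists_place
  refine ⟨genusFF K F, P₀, fun D hD => ?_⟩
  refine h.exists_ne_zero_of_degree_ge _ ?_
  rw [map_add, hD, Divisor.degree_single, h.deg_eq_one P₀]
  simp

end IsFF1

end Fermat.Agent.Lib.FF
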