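import Mathlib
import Fermat.Agent.Lib.FF.RRIneq
import Fermat.Agent.Lib.FF.RRFF1

/-!
# Riemann's theorem in large degree and strong approximation

From the H¹-form of Riemann–Roch (`riemannRoch_of_bounded`) we derive, without duality:

* `exists_degree_bound`: there is `c` such that `H¹(D) = 0` (in the form `MD D = ⊤`) and
  `dim L(D) = deg D + 1 - g` for every divisor `D` of degree `≥ c`;
* `strong_approximation`: prescribing a function up to given orders at finitely many places,
  with poles allowed only at one further place `P₀`;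
* `exists_ord_eq`: functions with prescribed orders at finitely many places.

Everything is stated for the Prelude objects and is characteristic-free; the `IsFF1` forms are
at the end.
-/

set_option autoImplicit false

noncomputable section

namespace Fermat.Agent.Lib.FF.RR

open AlgebraicCurve WithZero

variable {K F : Type*} [Field K] [Field F] [Algebra K F]

/-- `deg D - dim L(D)` is invariant under linear equivalence (additive form). -/
theorem cD_add_div (D Df : Divisor K F) {f : F} (hf : f ≠ 0)
    (hDf : ∀ v : Place K F, Df v = v.ord f) (hdeg : Divisor.degree Df = 0) :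
    cD (D + Df) = cD D := by
  have h := cD_sub_div (D + Df) Df hf hDf hdeg
  rw [add_sub_cancel_right] at h
  exact h.symm

section Abstract

variable [HasPrincipalDivisors K F]

/-- `dim H¹(D) = g - 1 - (deg D - dim L(D))`. -/
theorem finrank_H1_eq (hres : ∀ v : Place K F, ResK v)
    (hL0 : Module.Finite K (riemannRochSpace (0 : Divisor K F)))
    (hL0' : Module.finrank K (riemannRochSpace (0 : Divisor K F)) = 1)
    (hbdd : ∃ γ : ℤ, ∀ D : Divisor K F, cD D ≤ γ) (D : Divisor K F) :
    (Module.finrank K (H1 D) : ℤ) = genusFF K F - 1 - cD D := by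
  have h := (riemannRoch_of_bounded hres hL0 hL0' hbdd D).2.2
  unfold cD
  linarith

/-- `H¹(D) = 0` iff `deg D - dim L(D) = g - 1`. -/
theorem MD_eq_top_iff (hres : ∀ v : Place K F, ResK v)
    (hL0 : Module.Finite K (riemannRochSpace (0 : Divisor K F)))
    (hL0' : Module.finrank K (riemannRochSpace (0 : Divisor K F)) = 1)
    (hbdd : ∃ γ : ℤ, ∀ D : Divisor K F, cD D ≤ γ) (D : Divisor K F) :
    MD D = ⊤ ↔ cD D = genusFF K F - 1 := by
  have h := finrank_H1_eq hres hL0 hL0' hbdd D
  have hfin : Module.Finite K (↥(repartitions K F) ⧸ MD D) :=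
    (riemannRoch_of_bounded hres hL0 hL0' hbdd D).2.1
  have h' : (Module.finrank K (↥(repartitions K F) ⧸ MD D) : ℤ) = genusFF K F - 1 - cD D := h
  rw [← Submodule.Quotient.subsingleton_iff, ← Module.finrank_zero_iff (R := K)]
  constructor
  · intro h0
    rw [h0] at h'
    simp only [Nat.cast_zero] at h'
    linarith
  · intro hc
    rw [hc, sub_self] at h'
    exact_mod_cast h'

/-- **Riemann's theorem in large degree** (no duality needed): there is a bound `c` such that
`H¹(D) = 0` and `dim L(D) = deg D + 1 - g` as soon as `deg D ≥ c`. -/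
theorem exists_degree_bound (hres : ∀ v : Place K F, ResK v)
    (hL0 : Module.Finite K (riemannRochSpace (0 : Divisor K F)))
    (hL0' : Module.finrank K (riemannRochSpace (0 : Divisor K F)) = 1)
    (hbdd : ∃ γ : ℤ, ∀ D : Divisor K F, cD D ≤ γ) :
    ∃ c : ℤ, ∀ D : Divisor K F, c ≤ Divisor.degree D →
      MD D = ⊤ ∧
      (Module.finrank K (riemannRochSpace D) : ℤ) = Divisor.degree D + 1 - genusFF K F := by
  obtain ⟨D₀, -, htop⟩ := exists_MD_eq_top hres hL0 hbdd
  refine ⟨Divisor.degree D₀ + genusFF K F, fun D hD => ?_⟩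
  -- a nonzero `f ∈ L(D - D₀)`
  have hRR := riemannRoch_of_bounded hres hL0 hL0' hbdd (D - D₀)
  have hfin := hRR.1
  have hpos : 0 < Module.finrank K (riemannRochSpace (D - D₀)) := by
    have h1 := hRR.2.2
    rw [map_sub] at h1
    have h2 : (0 : ℤ) ≤ (Module.finrank K (H1 (D - D₀)) : ℤ) := Int.natCast_nonneg _
    have : (0 : ℤ) < (Module.finrank K (riemannRochSpace (D - D₀)) : ℤ) := by linarith
    exact_mod_cast this
  obtain ⟨⟨f, hfE⟩, hf0⟩ := Module.finrank_pos_iff_exists_ne_zero.mp hpos
  have hf : f ≠ 0 := fun h => hf0 (Subtype.ext h)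
  obtain ⟨Df, hDf, hdeg⟩ := HasPrincipalDivisors.exists_divisor (K := K) f hf
  have hle : D₀ ≤ D + Df := by
    refine Finsupp.le_def.mpr fun v => ?_
    have h1 := hfE v
    rw [v.adicValuation_eq_exp_neg_ord hf, exp_le_exp, Finsupp.sub_apply] at h1
    rw [Finsupp.add_apply, hDf v]
    omega
  have h3 := (MD_eq_top_iff hres hL0 hL0' hbdd (D + Df)).1 (htop _ hle)
  rw [cD_add_div D Df hf hDf hdeg] at h3
  refine ⟨(MD_eq_top_iff hres hL0 hL0' hbdd D).2 h3, ?_⟩
  unfold cD at h3
  linarith

omit [HasPrincipalDivisors K F] in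
/-- If `H¹(D) = 0`, every repartition is congruent to a function modulo `Λ(D)`. -/
theorem exists_sub_mem_of_MD_eq_top {D : Divisor K F} (hD : MD D = ⊤)
    (α : ↥(repartitions K F)) : ∃ f : F, α - constRep f ∈ repartitionsOf D := by
  have hα : α ∈ MD D := hD ▸ Submodule.mem_top
  obtain ⟨l, hl, p, hp, hlp⟩ := Submodule.mem_sup.1 hα
  obtain ⟨f, rfl⟩ := mem_principal_iff.1 hp
  refine ⟨f, ?_⟩
  have : α - constRep f = l := by rw [← hlp, add_sub_cancel_right]
  rw [this]
  exact hl

omit [HasPrincipalDivisors K F] in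
open Classical in
/-- The repartition with components `a v` for `v ∈ S` and `0` elsewhere. -/
def finRep (S : Finset (Place K F)) (a : Place K F → F) : ↥(repartitions K F) :=
  ⟨fun v => if v ∈ S then a v else 0, mem_repartitions_of_finite (S.finite_toSet.subset (by
    intro v hv
    by_contra hne
    apply hv
    rw [Finset.mem_coe] at hne
    rw [if_neg hne]
    simp))⟩

omit [HasPrincipalDivisors K F] in
theorem finRep_apply_of_mem {S : Finset (Place K F)} (a : Place K F → F) {v : Place K F}
    (hv : v ∈ S) : ((finRep S a : ↥(repartitions K F)) : Place K F → F) v = a v := by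
  classical
  show (if v ∈ S then a v else 0) = a v
  rw [if_pos hv]

omit [HasPrincipalDivisors K F] in
theorem finRep_apply_of_notMem {S : Finset (Place K F)} (a : Place K F → F) {v : Place K F}
    (hv : v ∉ S) : ((finRep S a : ↥(repartitions K F)) : Place K F → F) v = 0 := by
  classical
  show (if v ∈ S then a v else 0) = 0
  rw [if_neg hv]

omit [HasPrincipalDivisors K F] in
/-- **Strong approximation**, divisor form: if `H¹(D) = 0`, there is a function `f` with
`f ≡ a v` modulo `D` at the places of `S` and `f ∈ Λ(D)` at all other places. -/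
theorem strong_approximation_of_MD_eq_top {D : Divisor K F} (hD : MD D = ⊤)
    (S : Finset (Place K F)) (a : Place K F → F) :
    ∃ f : F, (∀ v ∈ S, v.adicValuation (f - a v) ≤ exp (D v)) ∧
      ∀ v ∉ S, v.adicValuation f ≤ exp (D v) := by
  obtain ⟨f, hf⟩ := exists_sub_mem_of_MD_eq_top hD (finRep S a)
  refine ⟨f, fun v hv => ?_, fun v hv => ?_⟩
  · have h := hf v
    have h2 : ((finRep S a - constRep f : ↥(repartitions K F)) : Place K F → F) v
        = (finRep S a : Place K F → F) v - f := rfl
    rw [h2, finRep_apply_of_mem a hv] at h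
    rwa [Valuation.map_sub_swap]
  · have h := hf v
    have h2 : ((finRep S a - constRep f : ↥(repartitions K F)) : Place K F → F) v
        = (finRep S a : Place K F → F) v - f := rfl
    rw [h2, finRep_apply_of_notMem a hv, zero_sub, Valuation.map_neg] at h
    exact h

/-- **Strong approximation.**  Given finitely many places `S`, a further place `P₀ ∉ S`,
functions `a v` and integers `n v`, there is a function `f` with `ord_v (f - a v) ≥ n v` for
`v ∈ S` and without poles outside `S ∪ {P₀}`. -/
theorem strong_approximation (hres : ∀ v : Place K F, ResK v)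
    (hL0 : Module.Finite K (riemannRochSpace (0 : Divisor K F)))
    (hL0' : Module.finrank K (riemannRochSpace (0 : Divisor K F)) = 1)
    (hbdd : ∃ γ : ℤ, ∀ D : Divisor K F, cD D ≤ γ)
    (S : Finset (Place K F)) (P₀ : Place K F) (hP₀ : P₀ ∉ S) (a : Place K F → F)
    (n : Place K F → ℤ) :
    ∃ f : F, (∀ v ∈ S, v.adicValuation (f - a v) ≤ exp (-(n v))) ∧
      ∀ v ∉ S, v ≠ P₀ → v.adicValuation f ≤ 1 := by
  classical
  obtain ⟨c, hc⟩ := exists_degree_bound hres hL0 hL0' hbdd
  set D₁ : Divisor K F := ∑ w ∈ S, Finsupp.single w (-(n w)) with hD₁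
  set D : Divisor K F := D₁ + Finsupp.single P₀ (c - Divisor.degree D₁) with hDdef
  have hdeg : Divisor.degree D = c := by
    rw [hDdef, map_add, Divisor.degree_single, deg_eq_one (hres P₀)]
    simp
  have hD₁ : ∀ v : Place K F, D₁ v = if v ∈ S then -(n v) else 0 := by
    intro v
    rw [hD₁, Finsupp.finsetSum_apply]
    simp only [Finsupp.single_apply]
    rw [Finset.sum_ite_eq' S v (fun w => -(n w))]
  have hDS : ∀ v ∈ S, D v = -(n v) := by
    intro v hv
    have hne : P₀ ≠ v := fun h => hP₀ (h ▸ hv)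
    rw [hDdef, Finsupp.add_apply, hD₁ v, if_pos hv, Finsupp.single_apply, if_neg hne, add_zero]
  have hDout : ∀ v ∉ S, v ≠ P₀ → D v = 0 := by
    intro v hv hne
    rw [hDdef, Finsupp.add_apply, hD₁ v, if_neg hv, Finsupp.single_apply, if_neg (Ne.symm hne),
      add_zero]
  obtain ⟨f, hf1, hf2⟩ := strong_approximation_of_MD_eq_top (hc D hdeg.ge).1 S a
  refine ⟨f, fun v hv => ?_, fun v hv hne => ?_⟩
  · have := hf1 v hv
    rwa [hDS v hv] at this
  · have := hf2 v hv
    rwa [hDout v hv hne, exp_zero] at this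

/-- **Strong approximation**, `ord` form. -/
theorem strong_approximation_ord (hres : ∀ v : Place K F, ResK v)
    (hL0 : Module.Finite K (riemannRochSpace (0 : Divisor K F)))
    (hL0' : Module.finrank K (riemannRochSpace (0 : Divisor K F)) = 1)
    (hbdd : ∃ γ : ℤ, ∀ D : Divisor K F, cD D ≤ γ)
    (S : Finset (Place K F)) (P₀ : Place K F) (hP₀ : P₀ ∉ S) (a : Place K F → F)
    (n : Place K F → ℤ) :
    ∃ f : F, (∀ v ∈ S, f = a v ∨ n v ≤ v.ord (f - a v)) ∧
      ∀ v ∉ S, v ≠ P₀ → 0 ≤ v.ord f := by
  obtain ⟨f, hf1, hf2⟩ := strong_approximation hres hL0 hL0' hbdd S P₀ hP₀ a n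
  refine ⟨f, fun v hv => ?_, fun v hv hne => ?_⟩
  · rcases (v.adicValuation_le_exp_iff).1 (hf1 v hv) with h | h
    · exact Or.inl (sub_eq_zero.mp h)
    · right
      simpa using h
  · rcases (v.adicValuation_le_one_iff).1 (hf2 v hv hne) with h | h
    · rw [h, Place.ord_zero]
    · exact h

/-- Functions with prescribed orders at finitely many places, regular outside `S ∪ {P₀}`. -/
theorem exists_ord_eq (hres : ∀ v : Place K F, ResK v)
    (hL0 : Module.Finite K (riemannRochSpace (0 : Divisor K F)))
    (hL0' : Module.finrank K (riemannRochSpace (0 : Divisor K F)) = 1)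
    (hbdd : ∃ γ : ℤ, ∀ D : Divisor K F, cD D ≤ γ)
    (S : Finset (Place K F)) (P₀ : Place K F) (hP₀ : P₀ ∉ S) (n : Place K F → ℤ) :
    ∃ f : F, f ≠ 0 ∧ (∀ v ∈ S, v.ord f = n v) ∧ ∀ v ∉ S, v ≠ P₀ → 0 ≤ v.ord f := by
  classical
  by_cases hS : S = ∅
  · refine ⟨1, one_ne_zero, fun v hv => ?_, fun v _ _ => ?_⟩
    · rw [hS] at hv
      exact absurd hv (Finset.notMem_empty v)
    · rw [Place.ord_one]
  have ht : ∀ v : Place K F, ∃ t : F, v.adicValuation t = exp (-(n v)) :=
    fun v => exists_val_eq_exp v _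
  choose t ht using ht
  obtain ⟨f, hf1, hf2⟩ := strong_approximation hres hL0 hL0' hbdd S P₀ hP₀ t (fun v => n v + 1)
  have hval : ∀ v ∈ S, v.adicValuation f = exp (-(n v)) := by
    intro v hv
    rw [← ht v]
    refine Valuation.map_eq_of_sub_lt _ ?_
    refine lt_of_le_of_lt (hf1 v hv) ?_
    rw [ht v, exp_lt_exp]
    omega
  obtain ⟨v₀, hv₀⟩ := Finset.nonempty_iff_ne_empty.mpr hS
  have hf0 : f ≠ 0 := by
    intro h
    have := hval v₀ hv₀
    rw [h, map_zero] at this
    exact exp_ne_zero this.symm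
  refine ⟨f, hf0, fun v hv => ?_, fun v hv hne => ?_⟩
  · have := hval v hv
    rw [v.adicValuation_eq_exp_neg_ord hf0, exp_inj] at this
    omega
  · rcases (v.adicValuation_le_one_iff).1 (hf2 v hv hne) with h | h
    · exact absurd h hf0
    · exact h

end Abstract

end Fermat.Agent.Lib.FF.RR

namespace Fermat.Agent.Lib.FF

open AlgebraicCurve WithZero IntermediateField

variable {K F : Type*} [Field K] [Field F] [Algebra K F] {x : F}

namespace IsFF1

/-- **Riemann's theorem in large degree** in the setting `IsFF1`. -/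
theorem exists_degree_bound (h : IsFF1 K F x) :
    ∃ c : ℤ, ∀ D : Divisor K F, c ≤ Divisor.degree D →
      RR.MD D = ⊤ ∧
      (Module.finrank K (riemannRochSpace D) : ℤ) = Divisor.degree D + 1 - genusFF K F := by
  have := h.hasPrincipalDivisors
  exact RR.exists_degree_bound h.resK h.finite_L_zero h.finrank_L_zero h.cD_le

/-- `H¹(D) = 0` in large degree, in the setting `IsFF1`. -/
theorem exists_degree_bound_H1 (h : IsFF1 K F x) :
    ∃ c : ℤ, ∀ D : Divisor K F, c ≤ Divisor.degree D → Subsingleton (H1 D) := by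
  obtain ⟨c, hc⟩ := h.exists_degree_bound
  exact ⟨c, fun D hD => Submodule.Quotient.subsingleton_iff.mpr (hc D hD).1⟩

/-- **Strong approximation** in the setting `IsFF1`. -/
theorem strong_approximation (h : IsFF1 K F x) (S : Finset (Place K F)) (P₀ : Place K F)
    (hP₀ : P₀ ∉ S) (a : Place K F → F) (n : Place K F → ℤ) :
    ∃ f : F, (∀ v ∈ S, v.adicValuation (f - a v) ≤ exp (-(n v))) ∧
      ∀ v ∉ S, v ≠ P₀ → v.adicValuation f ≤ 1 := by
  have := h.hasPrincipalDivisors
  exact RR.strong_approximation h.resK h.finite_L_zero h.finrank_L_zero h.cD_le S P₀ hP₀ a n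

/-- **Strong approximation**, `ord` form, in the setting `IsFF1`. -/
theorem strong_approximation_ord (h : IsFF1 K F x) (S : Finset (Place K F)) (P₀ : Place K F)
    (hP₀ : P₀ ∉ S) (a : Place K F → F) (n : Place K F → ℤ) :
    ∃ f : F, (∀ v ∈ S, f = a v ∨ n v ≤ v.ord (f - a v)) ∧
      ∀ v ∉ S, v ≠ P₀ → 0 ≤ v.ord f := by
  have := h.hasPrincipalDivisors
  exact RR.strong_approximation_ord h.resK h.finite_L_zero h.finrank_L_zero h.cD_le S P₀ hP₀ a n

/-- Functions with prescribed orders at finitely many places, in the setting `IsFF1`. -/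
theorem exists_ord_eq (h : IsFF1 K F x) (S : Finset (Place K F)) (P₀ : Place K F)
    (hP₀ : P₀ ∉ S) (n : Place K F → ℤ) :
    ∃ f : F, f ≠ 0 ∧ (∀ v ∈ S, v.ord f = n v) ∧ ∀ v ∉ S, v ≠ P₀ → 0 ≤ v.ord f := by
  have := h.hasPrincipalDivisors
  exact RR.exists_ord_eq h.resK h.finite_L_zero h.finrank_L_zero h.cD_le S P₀ hP₀ n

/-- For every constant `c`, the function `x - c` has a zero. -/
theorem exists_zero_sub (h : IsFF1 K F x) (c : K) :
    ∃ v : Place K F, 0 < v.ord (x - algebraMap K F c) := by
  classical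
  have := h.hasPrincipalDivisors
  have hy : x - algebraMap K F c ≠ 0 := by
    intro h0
    exact h.transcendental (sub_eq_zero.mp h0 ▸ isAlgebraic_algebraMap c)
  obtain ⟨Dy, hDy, hdeg⟩ := HasPrincipalDivisors.exists_divisor (K := K) _ hy
  obtain ⟨v₀, hv₀⟩ := h.exists_pole
  have hx0 : x ≠ 0 := fun h0 => h.transcendental (h0 ▸ isAlgebraic_zero)
  -- `x - c` has a pole at `v₀`
  have hpole : Dy v₀ < 0 := by
    rw [hDy v₀]
    have h1 : v₀.adicValuation (algebraMap K F c) < v₀.adicValuation x := by
      refine lt_of_le_of_lt (v₀.adicValuation_algebraMap_le_one c) ?_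
      rw [v₀.adicValuation_eq_exp_neg_ord hx0, ← exp_zero, exp_lt_exp]
      omega
    have h2 := Valuation.map_sub_eq_of_lt_left v₀.adicValuation h1
    rw [v₀.adicValuation_eq_exp_neg_ord hy, v₀.adicValuation_eq_exp_neg_ord hx0, exp_inj] at h2
    omega
  by_contra hne
  push Not at hne
  rw [h.degree_eq_sum] at hdeg
  have hv₀s : v₀ ∈ Dy.support := by
    rw [Finsupp.mem_support_iff]
    omega
  have hneg : ∑ v ∈ Dy.support, Dy v < 0 := by
    refine Finset.sum_neg' (fun v _ => ?_) ⟨v₀, hv₀s, hpole⟩
    rw [hDy v]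
    exact hne v
  omega

/-- A function field of one variable over an infinite field has infinitely many places. -/
theorem infinite_place [Infinite K] (h : IsFF1 K F x) : Infinite (Place K F) := by
  choose z hz using h.exists_zero_sub
  refine Infinite.of_injective z ?_
  intro c c' hcc
  by_contra hne
  have h1 := hz c
  have h2 := hz c'
  rw [← hcc] at h2
  set v := z c
  have hy : x - algebraMap K F c ≠ 0 := fun h0 =>
    h.transcendental (sub_eq_zero.mp h0 ▸ isAlgebraic_algebraMap c)
  have hy' : x - algebraMap K F c' ≠ 0 := fun h0 =>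
    h.transcendental (sub_eq_zero.mp h0 ▸ isAlgebraic_algebraMap c')
  have hv1 : v.adicValuation (x - algebraMap K F c) < 1 := by
    rw [v.adicValuation_eq_exp_neg_ord hy, ← exp_zero, exp_lt_exp]
    omega
  have hv2 : v.adicValuation (x - algebraMap K F c') < 1 := by
    rw [v.adicValuation_eq_exp_neg_ord hy', ← exp_zero, exp_lt_exp]
    omega
  have hsub : (x - algebraMap K F c') - (x - algebraMap K F c) = algebraMap K F (c - c') := by
    rw [map_sub]
    ring
  have hlt : v.adicValuation (algebraMap K F (c - c')) < 1 := by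
    rw [← hsub]
    exact lt_of_le_of_lt (Valuation.map_sub _ _ _) (max_lt hv2 hv1)
  have hcc0 : algebraMap K F (c - c') ≠ 0 := by
    rw [Ne, map_eq_zero, sub_eq_zero]
    exact hne
  rw [v.adicValuation_eq_exp_neg_ord hcc0, Fermat.Agent.S24.ord_algebraMap, neg_zero,
    exp_zero] at hlt
  exact lt_irrefl _ hlt

/-- **Weak approximation** in the setting `IsFF1` over an infinite constant field. -/
theorem weak_approximation [Infinite K] (h : IsFF1 K F x) (S : Finset (Place K F))
    (a : Place K F → F) (n : Place K F → ℤ) :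
    ∃ f : F, ∀ v ∈ S, v.adicValuation (f - a v) ≤ exp (-(n v)) := by
  have := h.infinite_place
  obtain ⟨P₀, hP₀⟩ := Infinite.exists_notMem_finset S
  obtain ⟨f, hf, -⟩ := h.strong_approximation S P₀ hP₀ a n
  exact ⟨f, hf⟩

/-- **Weak approximation**, `ord` form. -/
theorem weak_approximation_ord [Infinite K] (h : IsFF1 K F x) (S : Finset (Place K F))
    (a : Place K F → F) (n : Place K F → ℤ) :
    ∃ f : F, ∀ v ∈ S, f = a v ∨ n v ≤ v.ord (f - a v) := by
  have := h.infinite_place
  obtain ⟨P₀, hP₀⟩ := Infinite.exists_notMem_finset S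
  obtain ⟨f, hf, -⟩ := h.strong_approximation_ord S P₀ hP₀ a n
  exact ⟨f, hf⟩

/-- Functions with prescribed orders at finitely many places. -/
theorem exists_ord_eq' [Infinite K] (h : IsFF1 K F x) (S : Finset (Place K F))
    (n : Place K F → ℤ) : ∃ f : F, f ≠ 0 ∧ ∀ v ∈ S, v.ord f = n v := by
  have := h.infinite_place
  obtain ⟨P₀, hP₀⟩ := Infinite.exists_notMem_finset S
  obtain ⟨f, hf0, hf, -⟩ := h.exists_ord_eq S P₀ hP₀ n
  exact ⟨f, hf0, hf⟩

end IsFF1

end Fermat.Agent.Lib.FF
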