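import Mathlib
import Fermat.Prelude.Def_ModularCurve_X0ModL
import Fermat.Agent.S28.TowerDefs
import Fermat.Agent.S28.Char0Bridge
import Fermat.Agent.S28.ModEqX.Main
import Fermat.Agent.S28.GaussBase

/-!
# FF-MODL: the modular function field `k(J(q^d) : d ∣ N)` over an arbitrary field `k`
is a function field of one variable

For every field `k` and every level `N ≥ 1` (no condition on the characteristic):

* `Jbar k N` : the element `J = jqModC k` of `modularFunctionFieldFullC k N`;
* `transcendental_Jbar` : `J` is transcendental over `k`;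
* `isIntegral_of_coe_eq_Jd` : every generator `J(q^d)`, `d ∣ N`, is integral over `k(J)`;
* `finiteDimensional_Jbar` : `modularFunctionFieldFullC k N` is finite over `k(J)`.
-/

set_option autoImplicit false

noncomputable section

namespace Fermat.Agent.Lib.FF.ModL

open ModularCurve Polynomial IntermediateField Fermat.Agent.S28

variable (k : Type*) [Field k] (N : ℕ)

/-- The element `J` of the modular function field of level `N` over `k`. -/
def Jbar : modularFunctionFieldFullC k N := ⟨jqModC k, jqModC_mem_full k N⟩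

@[simp] theorem coe_Jbar : ((Jbar k N : modularFunctionFieldFullC k N) : LaurentSeries k)
    = jqModC k := rfl

/-- `J` is transcendental over `k`. -/
theorem transcendental_Jbar : Transcendental k (Jbar k N) := by
  intro halg
  obtain ⟨p, hp0, hp⟩ := halg
  apply hp0
  apply GaussBase.eq_zero_of_eval₂_jqModC k p
  have h1 : (modularFunctionFieldFullC k N).val (aeval (Jbar k N) p) = 0 := by
    rw [hp, map_zero]
  rw [← Polynomial.aeval_algHom_apply] at h1
  have h2 : (modularFunctionFieldFullC k N).val (Jbar k N) = jqModC k := rfl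
  rw [h2, Polynomial.aeval_def] at h1
  have h3 : (algebraMap k (LaurentSeries k)) = (HahnSeries.C : k →+* LaurentSeries k) := by
    ext c : 1
    rw [algebraMap_laurentSeries_eq_single, HahnSeries.C_apply]
  rw [h3] at h1
  exact h1

/-- The modular equation of every prime level (as in `Fermat.Agent.S28.modEq_all`). -/
theorem modEq_all_aux (r : ℕ) (hr : r.Prime) : Nonempty (TD.ModEq r) := by
  have : NeZero r := ⟨hr.ne_zero⟩
  obtain ⟨D⟩ := ModEqX.exists_modEqData r hr
  exact ⟨Char0Bridge.modEqDataToTD D⟩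

variable {k N}

/-- Every `J(q^d)`, `d ∣ N`, lies in the modular function field. -/
theorem exists_coe_eq_Jd [NeZero N] {d : ℕ} (hd : d ∣ N) :
    ∃ y : modularFunctionFieldFullC k N, (y : LaurentSeries k) = TD.Jd k d := by
  have hd0 : d ≠ 0 := fun h => NeZero.ne N (by simpa [h] using hd)
  have : NeZero d := ⟨hd0⟩
  exact ⟨⟨qExpand k d (jqModC k), jqModCd_mem_full k N hd⟩, (TD.Jd_eq k d).symm⟩

/-- Every generator `J(q^d)`, `d ∣ N`, is integral over `k(J)`. -/
theorem isIntegral_of_coe_eq_Jd [NeZero N] :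
    ∀ (d : ℕ), d ∣ N → ∀ y : modularFunctionFieldFullC k N,
      (y : LaurentSeries k) = TD.Jd k d → IsIntegral k⟮Jbar k N⟯ y := by
  intro d
  induction d using Nat.strong_induction_on with
  | _ d ih =>
    intro hd y hy
    have hd0 : d ≠ 0 := fun h => NeZero.ne N (by simpa [h] using hd)
    by_cases hd1 : d = 1
    · subst hd1
      have hyJ : y = Jbar k N := by
        apply Subtype.ext
        rw [hy, TD.Jd_one]
        rfl
      rw [hyJ]
      have hmem : Jbar k N ∈ k⟮Jbar k N⟯ := mem_adjoin_simple_self k _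
      exact isIntegral_algebraMap (R := k⟮Jbar k N⟯) (x := ⟨Jbar k N, hmem⟩)
    · obtain ⟨p, hp, hpd⟩ := Nat.exists_prime_and_dvd hd1
      obtain ⟨m, rfl⟩ := hpd
      have hm0 : m ≠ 0 := fun h => hd0 (by rw [h, mul_zero])
      have hmN : m ∣ N := (Dvd.intro_left p rfl).trans hd
      have hmlt : m < p * m := by
        have := hp.one_lt
        nlinarith [Nat.pos_of_ne_zero hm0]
      obtain ⟨z, hz⟩ := exists_coe_eq_Jd (k := k) hmN
      have hzint : IsIntegral k⟮Jbar k N⟯ z := ih m hmlt hmN z hz
      obtain ⟨D⟩ := modEq_all_aux p hp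
      -- `y` is a root of the monic polynomial `Φ(X, z)`
      have hrel := D.rel₂' hp.ne_zero k m hm0
      have hroot : (TD.polyAt D.Φ z).eval y = 0 := by
        apply Subtype.ext
        have h1 := TD.map_eval_polyAt (algebraMap (modularFunctionFieldFullC k N) (LaurentSeries k))
          D.Φ y z
        have h2 : algebraMap (modularFunctionFieldFullC k N) (LaurentSeries k) y = TD.Jd k (m * p) := by
          rw [mul_comm]
          exact hy
        have h3 : algebraMap (modularFunctionFieldFullC k N) (LaurentSeries k) z = TD.Jd k m := hz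
        rw [h2, h3, hrel] at h1
        exact h1
      -- integrality over `k(J)(z)`, then transitivity
      let Ω := _root_.algebraicClosure k⟮Jbar k N⟯ (modularFunctionFieldFullC k N)
      have hzΩ : z ∈ Ω := mem_algebraicClosure_iff.2 hzint.isAlgebraic
      have hyΩ : IsIntegral Ω y := by
        refine ⟨TD.polyAt D.Φ (⟨z, hzΩ⟩ : Ω), TD.polyAt_monic D.monic _, ?_⟩
        rw [Polynomial.eval₂_eq_eval_map, TD.polyAt_map]
        exact hroot
      have hΩ : Algebra.IsIntegral k⟮Jbar k N⟯ Ω :=
        (algebraicClosure.isAlgebraic k⟮Jbar k N⟯ (modularFunctionFieldFullC k N)).isIntegral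
      exact isIntegral_trans y hyΩ

/-- An intermediate field of `F̄ / k(J)` containing all the generators `J(q^d)`, `d ∣ N`, is
everything. -/
theorem eq_top_of_forall_mem [NeZero N]
    (Ω : IntermediateField k⟮Jbar k N⟯ (modularFunctionFieldFullC k N))
    (h : ∀ d : ℕ, d ∣ N → ∀ y : modularFunctionFieldFullC k N,
      (y : LaurentSeries k) = TD.Jd k d → y ∈ Ω) : Ω = ⊤ := by
  rw [eq_top_iff]
  rintro ⟨f, hf⟩ -
  have key : ∀ y : LaurentSeries k, y ∈ IntermediateField.adjoin k (divisorExpansionsC k N) →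
      ∃ g : modularFunctionFieldFullC k N, g ∈ Ω ∧ (g : LaurentSeries k) = y := by
    intro y hy
    induction hy using IntermediateField.adjoin_induction with
    | mem s hs =>
      obtain ⟨d, hne, hd, rfl⟩ := hs
      have := hne
      exact ⟨⟨qExpand k d (jqModC k), jqModCd_mem_full k N hd⟩,
        h d hd _ (TD.Jd_eq k d).symm, rfl⟩
    | algebraMap c =>
      have hc : algebraMap k (modularFunctionFieldFullC k N) c ∈ k⟮Jbar k N⟯ :=
        IntermediateField.algebraMap_mem _ c
      exact ⟨algebraMap k (modularFunctionFieldFullC k N) c,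
        Ω.algebraMap_mem ⟨_, hc⟩, rfl⟩
    | add a b ha hb iha ihb =>
      obtain ⟨g₁, hg₁, rfl⟩ := iha
      obtain ⟨g₂, hg₂, rfl⟩ := ihb
      exact ⟨g₁ + g₂, Ω.add_mem hg₁ hg₂, rfl⟩
    | inv a ha iha =>
      obtain ⟨g₁, hg₁, rfl⟩ := iha
      exact ⟨g₁⁻¹, Ω.inv_mem hg₁, rfl⟩
    | mul a b ha hb iha ihb =>
      obtain ⟨g₁, hg₁, rfl⟩ := iha
      obtain ⟨g₂, hg₂, rfl⟩ := ihb
      exact ⟨g₁ * g₂, Ω.mul_mem hg₁ hg₂, rfl⟩
  obtain ⟨g, hg, hgf⟩ := key f hf
  have hgf' : g = ⟨f, hf⟩ := Subtype.ext hgf
  rw [← hgf']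
  exact hg

/-- The modular function field of level `N` over `k` is finite over `k(J)`. -/
theorem finiteDimensional_Jbar (k : Type*) [Field k] (N : ℕ) [NeZero N] :
    FiniteDimensional k⟮Jbar k N⟯ (modularFunctionFieldFullC k N) := by
  classical
  let T : Set (modularFunctionFieldFullC k N) :=
    ⋃ d ∈ (N.divisors : Set ℕ), {y | (y : LaurentSeries k) = TD.Jd k d}
  have hTfin : T.Finite := by
    refine Set.Finite.biUnion (Finset.finite_toSet N.divisors) fun d _ => ?_
    refine Set.Subsingleton.finite ?_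
    intro y hy z hz
    exact Subtype.ext (hy.trans hz.symm)
  have : Finite T := hTfin
  have hint : ∀ y ∈ T, IsIntegral k⟮Jbar k N⟯ y := by
    intro y hy
    simp only [T, Set.mem_iUnion, Set.mem_ofPred_eq] at hy
    obtain ⟨d, hd, hy⟩ := hy
    exact isIntegral_of_coe_eq_Jd d (Nat.dvd_of_mem_divisors (Finset.mem_coe.1 hd)) y hy
  have hfd : FiniteDimensional k⟮Jbar k N⟯ (IntermediateField.adjoin k⟮Jbar k N⟯ T) :=
    IntermediateField.finiteDimensional_adjoin hint
  have htop : IntermediateField.adjoin k⟮Jbar k N⟯ T = ⊤ := by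
    apply eq_top_of_forall_mem
    intro d hd y hy
    apply IntermediateField.subset_adjoin
    simp only [T, Set.mem_iUnion, Set.mem_ofPred_eq]
    exact ⟨d, Finset.mem_coe.2 (Nat.mem_divisors.2 ⟨hd, NeZero.ne N⟩), hy⟩
  rw [htop] at hfd
  exact (IntermediateField.topEquiv (F := k⟮Jbar k N⟯)
    (E := modularFunctionFieldFullC k N)).toLinearEquiv.finiteDimensional

end Fermat.Agent.Lib.FF.ModL
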