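import Mathlib
import Fermat.Agent.Lib.FF.RRApprox

/-!
# Non-special divisors

For a divisor `E` with `H¹(E) ≠ 0`, the set of places `Q` with `L(E + Q) ≠ L(E)` is finite
(`finite_jumpSet`).  Consequently (greedy choice) for every `n ≤ g` and every finite set `S` of
places there are `n` distinct places outside `S` whose sum `E` satisfies `L(E) = L(0)`
(`exists_nonspecial`); for `n = g` moreover `H¹(E) = 0`.  No duality is used.
-/

set_option autoImplicit false

noncomputable section

namespace Fermat.Agent.Lib.FF.RR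

open AlgebraicCurve WithZero

variable {K F : Type*} [Field K] [Field F] [Algebra K F]

/-- The places `Q` at which `L(E + Q)` is strictly bigger than `L(E)`. -/
def jumpSet (E : Divisor K F) : Set (Place K F) :=
  {Q | riemannRochSpace (addPl E Q) ≠ riemannRochSpace E}

theorem L_addPl_eq_of_notMem_jumpSet {E : Divisor K F} {Q : Place K F} (hQ : Q ∉ jumpSet E) :
    riemannRochSpace (addPl E Q) = riemannRochSpace E :=
  not_not.mp hQ

theorem singleRep_mem_MD_of_mem_jumpSet (hres : ∀ v : Place K F, ResK v) {E : Divisor K F}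
    {Q : Place K F} (hQ : Q ∈ jumpSet E) {t : F} (ht : Q.adicValuation t = exp (E Q + 1)) :
    singleRep Q t ∈ MD E := by
  rw [singleRep_mem_MD_iff (hres Q) E ht]
  by_contra hne
  push Not at hne
  exact hQ (le_antisymm (fun f hf => hne f hf) (L_mono (le_addPl E Q)))

/-- The sum of the places of a finite set, as a divisor. -/
def sumPl (T : Finset (Place K F)) : Divisor K F := ∑ Q ∈ T, Finsupp.single Q (1 : ℤ)

theorem sumPl_empty : sumPl (∅ : Finset (Place K F)) = 0 := Finset.sum_empty

open Classical in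
theorem sumPl_insert {T : Finset (Place K F)} {Q : Place K F} (hQ : Q ∉ T) :
    sumPl (insert Q T) = addPl (sumPl T) Q := by
  rw [sumPl, Finset.sum_insert hQ, addPl, add_comm]
  rfl

theorem sumPl_apply_of_notMem {T : Finset (Place K F)} {Q : Place K F} (hQ : Q ∉ T) :
    sumPl T Q = 0 := by
  classical
  rw [sumPl, Finsupp.finsetSum_apply]
  refine Finset.sum_eq_zero fun w hw => ?_
  rw [Finsupp.single_apply, if_neg]
  rintro rfl
  exact hQ hw

theorem sumPl_apply_of_mem {T : Finset (Place K F)} {Q : Place K F} (hQ : Q ∈ T) :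
    sumPl T Q = 1 := by
  classical
  rw [sumPl, Finsupp.finsetSum_apply]
  simp only [Finsupp.single_apply]
  rw [Finset.sum_ite_eq' T Q (fun _ => (1 : ℤ)), if_pos hQ]

theorem sumPl_nonneg (T : Finset (Place K F)) : 0 ≤ sumPl T := by
  classical
  refine Finsupp.le_def.mpr fun Q => ?_
  by_cases hQ : Q ∈ T
  · rw [sumPl_apply_of_mem hQ]; simp
  · rw [sumPl_apply_of_notMem hQ]; simp

theorem degree_sumPl (hres : ∀ v : Place K F, ResK v) (T : Finset (Place K F)) :
    Divisor.degree (sumPl T) = T.card := by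
  rw [sumPl, map_sum]
  simp only [Divisor.degree_single, deg_eq_one (hres _)]
  simp

/-- Adding finitely many places of the jump set does not change `M(E)`. -/
theorem MD_add_sumPl (hres : ∀ v : Place K F, ResK v) (E : Divisor K F)
    (U : Finset (Place K F)) (hU : ∀ Q ∈ U, Q ∈ jumpSet E) :
    MD (E + sumPl U) = MD E := by
  classical
  induction U using Finset.induction_on with
  | empty => rw [sumPl_empty, add_zero]
  | insert Q U' hQ ih =>
    have ih' := ih (fun w hw => hU w (Finset.mem_insert_of_mem hw))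
    obtain ⟨t, ht⟩ := exists_val_eq_exp Q (E Q + 1)
    have hEQ : (E + sumPl U') Q = E Q := by
      rw [Finsupp.add_apply, sumPl_apply_of_notMem hQ, add_zero]
    have ht' : Q.adicValuation t = exp ((E + sumPl U') Q + 1) := by rw [hEQ, ht]
    have hmem := singleRep_mem_MD_of_mem_jumpSet hres (hU Q (Finset.mem_insert_self Q U')) ht
    have heq : E + sumPl (insert Q U') = addPl (E + sumPl U') Q := by
      rw [sumPl_insert hQ, addPl, addPl, add_assoc]
    rw [heq, MD_addPl (hres Q) (E + sumPl U') ht', ih']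
    refine sup_eq_left.mpr ?_
    rw [Submodule.span_le, Set.singleton_subset_iff]
    exact hmem

section Abstract

variable [HasPrincipalDivisors K F]

/-- If `H¹(E) ≠ 0`, then `L(E + Q) = L(E)` for all but finitely many places `Q`. -/
theorem finite_jumpSet (hres : ∀ v : Place K F, ResK v)
    (hL0 : Module.Finite K (riemannRochSpace (0 : Divisor K F)))
    (hL0' : Module.finrank K (riemannRochSpace (0 : Divisor K F)) = 1)
    (hbdd : ∃ γ : ℤ, ∀ D : Divisor K F, cD D ≤ γ) (E : Divisor K F) (hE : MD E ≠ ⊤) :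
    (jumpSet E).Finite := by
  by_contra hinf
  obtain ⟨c, hc⟩ := exists_degree_bound hres hL0 hL0' hbdd
  obtain ⟨U, hUsub, hUcard⟩ :=
    Set.Infinite.exists_subset_card_eq hinf (c - Divisor.degree E).toNat
  apply hE
  rw [← MD_add_sumPl hres E U (fun Q hQ => hUsub hQ)]
  refine (hc _ ?_).1
  rw [map_add, degree_sumPl hres, hUcard]
  have := Int.self_le_toNat (c - Divisor.degree E)
  linarith

/-- **Non-special effective divisors.**  For `n ≤ g` and a finite set `S` of places there are
`n` distinct places outside `S` whose sum `E` has `L(E) = L(0)`. -/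
theorem exists_nonspecial [Infinite (Place K F)] (hres : ∀ v : Place K F, ResK v)
    (hL0 : Module.Finite K (riemannRochSpace (0 : Divisor K F)))
    (hL0' : Module.finrank K (riemannRochSpace (0 : Divisor K F)) = 1)
    (hbdd : ∃ γ : ℤ, ∀ D : Divisor K F, cD D ≤ γ) (S : Finset (Place K F)) (n : ℕ)
    (hn : n ≤ genusFF K F) :
    ∃ T : Finset (Place K F), T.card = n ∧ Disjoint T S ∧
      riemannRochSpace (sumPl T) = riemannRochSpace (0 : Divisor K F) := by
  classical
  induction n with
  | zero => exact ⟨∅, rfl, Finset.disjoint_empty_left S, by rw [sumPl_empty]⟩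
  | succ n ih =>
    obtain ⟨T, hTcard, hTS, hTL⟩ := ih (Nat.le_of_succ_le hn)
    have hcD : cD (sumPl T) = (n : ℤ) - 1 := by
      unfold cD
      rw [degree_sumPl hres, hTcard, hTL, hL0']
      simp
    have hne : MD (sumPl T) ≠ ⊤ := by
      rw [Ne, MD_eq_top_iff hres hL0 hL0' hbdd, hcD]
      have : (n : ℤ) + 1 ≤ (genusFF K F : ℤ) := by exact_mod_cast hn
      omega
    have hfin := finite_jumpSet hres hL0 hL0' hbdd (sumPl T) hne
    obtain ⟨Q, hQ⟩ := Infinite.exists_notMem_finset (S ∪ T ∪ hfin.toFinset)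
    simp only [Finset.mem_union, Set.Finite.mem_toFinset, not_or] at hQ
    obtain ⟨⟨hQS, hQT⟩, hQJ⟩ := hQ
    refine ⟨insert Q T, ?_, ?_, ?_⟩
    · rw [Finset.card_insert_of_notMem hQT, hTcard]
    · rw [Finset.disjoint_insert_left]
      exact ⟨hQS, hTS⟩
    · rw [sumPl_insert hQT, L_addPl_eq_of_notMem_jumpSet hQJ, hTL]

/-- For `n = g` the non-special divisor moreover has `H¹ = 0`. -/
theorem exists_nonspecial_genus [Infinite (Place K F)] (hres : ∀ v : Place K F, ResK v)
    (hL0 : Module.Finite K (riemannRochSpace (0 : Divisor K F)))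
    (hL0' : Module.finrank K (riemannRochSpace (0 : Divisor K F)) = 1)
    (hbdd : ∃ γ : ℤ, ∀ D : Divisor K F, cD D ≤ γ) (S : Finset (Place K F)) :
    ∃ T : Finset (Place K F), T.card = genusFF K F ∧ Disjoint T S ∧
      riemannRochSpace (sumPl T) = riemannRochSpace (0 : Divisor K F) ∧ MD (sumPl T) = ⊤ := by
  obtain ⟨T, hTcard, hTS, hTL⟩ := exists_nonspecial hres hL0 hL0' hbdd S (genusFF K F) le_rfl
  refine ⟨T, hTcard, hTS, hTL, ?_⟩
  rw [MD_eq_top_iff hres hL0 hL0' hbdd]
  unfold cD
  rw [degree_sumPl hres, hTcard, hTL, hL0']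
  simp

end Abstract

end Fermat.Agent.Lib.FF.RR

namespace Fermat.Agent.Lib.FF

open AlgebraicCurve WithZero IntermediateField

variable {K F : Type*} [Field K] [Field F] [Algebra K F] {x : F}

namespace IsFF1

/-- If `H¹(E) ≠ 0`, then `L(E + Q) = L(E)` for all but finitely many places `Q`. -/
theorem finite_jumpSet (h : IsFF1 K F x) (E : Divisor K F) (hE : RR.MD E ≠ ⊤) :
    (RR.jumpSet E).Finite := by
  have := h.hasPrincipalDivisors
  exact RR.finite_jumpSet h.resK h.finite_L_zero h.finrank_L_zero h.cD_le E hE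

/-- **Non-special effective divisors** in the setting `IsFF1`: for `n ≤ g` and a finite set `S`
of places there are `n` distinct places outside `S` such that every function with at most simple
poles at these places (and no other poles) is constant. -/
theorem exists_nonspecial [Infinite K] (h : IsFF1 K F x) (S : Finset (Place K F)) (n : ℕ)
    (hn : n ≤ genusFF K F) :
    ∃ T : Finset (Place K F), T.card = n ∧ Disjoint T S ∧
      riemannRochSpace (RR.sumPl T) = LinearMap.range (Algebra.linearMap K F) := by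
  have := h.hasPrincipalDivisors
  have := h.infinite_place
  obtain ⟨T, h1, h2, h3⟩ :=
    RR.exists_nonspecial h.resK h.finite_L_zero h.finrank_L_zero h.cD_le S n hn
  exact ⟨T, h1, h2, h3.trans h.L_zero_eq_range⟩

/-- Function-level form of `exists_nonspecial`. -/
theorem exists_nonspecial' [Infinite K] (h : IsFF1 K F x) (S : Finset (Place K F)) (n : ℕ)
    (hn : n ≤ genusFF K F) :
    ∃ T : Finset (Place K F), T.card = n ∧ Disjoint T S ∧
      ∀ f : F, (∀ Q ∈ T, -1 ≤ Q.ord f) → (∀ Q ∉ T, 0 ≤ Q.ord f) →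
        ∃ c : K, f = algebraMap K F c := by
  obtain ⟨T, h1, h2, h3⟩ := h.exists_nonspecial S n hn
  refine ⟨T, h1, h2, fun f hfT hf => ?_⟩
  have hmem : f ∈ riemannRochSpace (RR.sumPl T) := by
    intro Q
    by_cases hf0 : f = 0
    · rw [hf0, map_zero]
      exact zero_le
    rw [Q.adicValuation_eq_exp_neg_ord hf0, exp_le_exp]
    by_cases hQ : Q ∈ T
    · rw [RR.sumPl_apply_of_mem hQ]
      have := hfT Q hQ
      omega
    · rw [RR.sumPl_apply_of_notMem hQ]
      have := hf Q hQ
      omega
  rw [h3] at hmem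
  obtain ⟨c, hc⟩ := hmem
  exact ⟨c, hc.symm⟩

/-- For `n = g` the non-special divisor moreover has `H¹ = 0`. -/
theorem exists_nonspecial_genus [Infinite K] (h : IsFF1 K F x) (S : Finset (Place K F)) :
    ∃ T : Finset (Place K F), T.card = genusFF K F ∧ Disjoint T S ∧
      riemannRochSpace (RR.sumPl T) = LinearMap.range (Algebra.linearMap K F) ∧
      RR.MD (RR.sumPl T) = ⊤ := by
  have := h.hasPrincipalDivisors
  have := h.infinite_place
  obtain ⟨T, h1, h2, h3, h4⟩ :=
    RR.exists_nonspecial_genus h.resK h.finite_L_zero h.finrank_L_zero h.cD_le S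
  exact ⟨T, h1, h2, h3.trans h.L_zero_eq_range, h4⟩

end IsFF1

end Fermat.Agent.Lib.FF
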