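import Mathlib
import Fermat.Agent.Lib.FF.Setting
import Fermat.Agent.Lib.FF.CharP.Fund
import Fermat.Agent.Lib.FF.ModL
import Fermat.Agent.Lib.FF.RRFF1
import Fermat.Agent.Lib.FF.RRApprox
import Fermat.Agent.Lib.FF.RRNonSpecial

/-!
# `IsFF1` in arbitrary characteristic, and the modular function field mod `ℓ`

* `isFF1_of_isAlgClosed` : for `K` algebraically closed of ANY characteristic, `x : F`
  transcendental and `F` finite over `K(x)`, the setting `IsFF1 K F x` of the FF-RR layer holds
  (fundamental identity in arbitrary characteristic: `Fermat.Agent.Lib.FF.CharP`).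
* `isFF1_Jbar` : `IsFF1 k (modularFunctionFieldFullC k N) (ModL.Jbar k N)` for every
  algebraically closed field `k` and every level `N ≥ 1`.
* Riemann–Roch and its corollaries for `modularFunctionFieldFullC k N`.
-/

set_option autoImplicit false
set_option linter.style.haveILetI false

noncomputable section

namespace Fermat.Agent.Lib.FF

open AlgebraicCurve IntermediateField ModularCurve

section General

variable {K F : Type*} [Field K] [Field F] [Algebra K F]

/-- The divisor of a function (arbitrary characteristic). -/
def divOfP [IsAlgClosed K] (x : F) [FiniteDimensional K⟮x⟯ F] (f : F) : Divisor K F :=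
  Finsupp.onFinset (CharP.finite_ord_ne_zero x f).toFinset (fun v => v.ord f)
    (fun _ hv => (CharP.finite_ord_ne_zero x f).mem_toFinset.mpr hv)

@[simp]
theorem divOfP_apply [IsAlgClosed K] (x : F) [FiniteDimensional K⟮x⟯ F] (f : F)
    (v : Place K F) : divOfP x f v = v.ord f := rfl

theorem degree_divOfP [IsAlgClosed K] (x : F) [FiniteDimensional K⟮x⟯ F] (f : F) :
    Divisor.degree (divOfP (K := K) x f) = 0 := by
  haveI : Algebra.IsAlgebraic K⟮x⟯ F := Algebra.IsAlgebraic.of_finite _ _
  rw [Ext.degree_eq_sum x]
  exact CharP.sum_ord_eq_zero x f (divOfP (K := K) x f).support (fun v hv => by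
    rw [Finsupp.mem_support_iff, divOfP_apply]; exact hv)

/-- **`HasPrincipalDivisors`** for a function field of one variable over an algebraically closed
field of arbitrary characteristic. -/
theorem hasPrincipalDivisors_of_isAlgClosed [IsAlgClosed K] (x : F)
    [FiniteDimensional K⟮x⟯ F] : HasPrincipalDivisors K F :=
  ⟨fun f _ => ⟨divOfP x f, fun v => divOfP_apply x f v, degree_divOfP x f⟩⟩

/-- **The setting `IsFF1` holds over every algebraically closed constant field**, in any
characteristic: `x` transcendental, `F` finite over `K(x)`. -/
theorem isFF1_of_isAlgClosed [IsAlgClosed K] (x : F) (hx : Transcendental K x)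
    [FiniteDimensional K⟮x⟯ F] : IsFF1 K F x where
  transcendental := hx
  finiteDimensional := inferInstance
  resK := fun v a => by
    have : Algebra.IsAlgebraic K⟮x⟯ F := Algebra.IsAlgebraic.of_finite _ _
    exact Fermat.Agent.S24.residueTrivial x v a
  hasPrincipalDivisors := hasPrincipalDivisors_of_isAlgClosed x
  poles_le := by
    obtain ⟨hfin, hsum⟩ := CharP.polesOf_finite_sum x hx
    exact ⟨hfin, hsum.le⟩
  const_of_ord_nonneg := fun f hf => by
    by_cases hfa : IsAlgebraic K f
    · exact exists_eq_algebraMap_of_isAlgebraic hfa
    · exfalso
      have hft : Transcendental K f := hfa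
      have := Fermat.Agent.S24.Transfer.finiteDimensional_adjoin_of_transcendental (K := K) x hft
      obtain ⟨hfin, hsum⟩ := CharP.polesOf_finite_sum f hft
      have hempty : hfin.toFinset = ∅ := by
        ext v
        rw [Set.Finite.mem_toFinset]
        simp only [Finset.notMem_empty, iff_false]
        exact not_lt.mpr (hf v)
      rw [hempty, Finset.sum_empty] at hsum
      have hpos : 0 < Module.finrank K⟮f⟯ F := Module.finrank_pos
      omega

/-- Every transcendental element of an `IsFF1`-field over an algebraically closed field gives
again the setting `IsFF1` (change of the base function). -/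
theorem IsFF1.of_transcendental [IsAlgClosed K] {x : F} (h : IsFF1 K F x) {y : F}
    (hy : Transcendental K y) : IsFF1 K F y := by
  haveI := h.finiteDimensional
  haveI := Fermat.Agent.S24.Transfer.finiteDimensional_adjoin_of_transcendental (K := K) x hy
  exact isFF1_of_isAlgClosed y hy

end General

section Modular

variable (k : Type*) [Field k] [IsAlgClosed k] (N : ℕ) [NeZero N]

/-- **The modular function field `k(J(q^d) : d ∣ N)` over an algebraically closed field `k` of
any characteristic is a function field of one variable in the sense of `IsFF1`**, with base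
function `J`. -/
theorem isFF1_Jbar : IsFF1 k (modularFunctionFieldFullC k N) (ModL.Jbar k N) := by
  haveI := ModL.finiteDimensional_Jbar k N
  exact isFF1_of_isAlgClosed (ModL.Jbar k N) (ModL.transcendental_Jbar k N)

/-- `HasPrincipalDivisors` for the modular function field over `k`. -/
theorem hasPrincipalDivisors_modularFullC :
    HasPrincipalDivisors k (modularFunctionFieldFullC k N) :=
  (isFF1_Jbar k N).hasPrincipalDivisors

/-- Every place of the modular function field over `k` has degree one. -/
theorem deg_eq_one_modularFullC (P : Place k (modularFunctionFieldFullC k N)) : P.deg = 1 :=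
  (isFF1_Jbar k N).deg_eq_one P

/-- Every place of the modular function field over `k` has residue field `k`. -/
theorem resK_modularFullC (P : Place k (modularFunctionFieldFullC k N)) : RR.ResK P :=
  (isFF1_Jbar k N).resK P

/-- **Riemann–Roch (H¹-form)** for the modular function field over an algebraically closed
field `k` of any characteristic. -/
theorem riemannRoch_modularFullC (D : Divisor k (modularFunctionFieldFullC k N)) :
    Module.Finite k (riemannRochSpace D) ∧ Module.Finite k (H1 D) ∧
      (Module.finrank k (riemannRochSpace D) : ℤ) - Module.finrank k (H1 D)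
        = Divisor.degree D + 1 - genusFF k (modularFunctionFieldFullC k N) :=
  (isFF1_Jbar k N).riemannRoch D

/-- **Riemann's inequality** for the modular function field over `k`. -/
theorem riemann_le_modularFullC (D : Divisor k (modularFunctionFieldFullC k N)) :
    Divisor.degree D + 1 - genusFF k (modularFunctionFieldFullC k N)
      ≤ (Module.finrank k (riemannRochSpace D) : ℤ) :=
  (isFF1_Jbar k N).riemann_le D

/-- "Riemann–Roch lite" for the modular function field over `k`. -/
theorem rrLite_modularFullC :
    ∃ (g : ℕ) (P₀ : Place k (modularFunctionFieldFullC k N)),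
      ∀ D : Divisor k (modularFunctionFieldFullC k N), Divisor.degree D = 0 →
        ∃ f : modularFunctionFieldFullC k N, f ≠ 0 ∧
          ∀ P : Place k (modularFunctionFieldFullC k N),
            0 ≤ P.ord f + (D + Finsupp.single P₀ (g : ℤ)) P :=
  (isFF1_Jbar k N).rrLite

end Modular

end Fermat.Agent.Lib.FF
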