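import Mathlib
import Fermat.Agent.Lib.FF.SettingP

/-!
# Base functions of the mod-`ℓ` modular function field: `J(q^d)`, `d ∣ N`

* `ModL.Jdbar k N d hd` : the element `J(q^d)` of `modularFunctionFieldFullC k N` (`d ∣ N`);
  `ModL.JNbar k N := J(q^N)`;
* `ModL.transcendental_Jdbar`, `ModL.finiteDimensional_Jdbar` (every field `k`);
* `isFF1_Jdbar`, `isFF1_JNbar` (`k` algebraically closed, any characteristic);
* `IsFF1.degree_poleDiv_eq` : over an algebraically closed field the pole divisor of the base
  function has degree exactly `[F : K(x)]` (any characteristic).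
-/

set_option autoImplicit false
set_option linter.style.haveILetI false

noncomputable section

namespace Fermat.Agent.Lib.FF

open AlgebraicCurve IntermediateField ModularCurve Fermat.Agent.S28

section General

variable {K F : Type*} [Field K] [Field F] [Algebra K F]

/-- Over an algebraically closed constant field (any characteristic) the poles of the base
function, counted with multiplicity, are exactly `[F : K(x)]`. -/
theorem IsFF1.poles_eq [IsAlgClosed K] {x : F} (h : IsFF1 K F x) :
    ∃ hfin : {v : Place K F | v.ord x < 0}.Finite,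
      ∑ v ∈ hfin.toFinset, (-v.ord x) = (Module.finrank K⟮x⟯ F : ℤ) := by
  haveI := h.finiteDimensional
  exact CharP.polesOf_finite_sum x h.transcendental

/-- Over an algebraically closed constant field (any characteristic) the zeros of the base
function, counted with multiplicity, are exactly `[F : K(x)]`. -/
theorem IsFF1.zeros_eq [IsAlgClosed K] {x : F} (h : IsFF1 K F x) :
    ∃ hfin : {v : Place K F | 0 < v.ord x}.Finite,
      ∑ v ∈ hfin.toFinset, v.ord x = (Module.finrank K⟮x⟯ F : ℤ) := by
  haveI := h.finiteDimensional
  exact CharP.zerosOf_finite_sum x h.transcendental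

/-- **`deg (x)_∞ = [F : K(x)]`** over an algebraically closed constant field, in any
characteristic. -/
theorem IsFF1.degree_poleDiv_eq [IsAlgClosed K] {x : F} (h : IsFF1 K F x) :
    Divisor.degree h.poleDiv = (Module.finrank K⟮x⟯ F : ℤ) := by
  obtain ⟨hfin, hsum⟩ := h.poles_eq
  have hset : h.poles_le.choose.toFinset = hfin.toFinset := by
    ext v
    simp
  rw [h.degree_eq_sum, IsFF1.support_poleDiv, hset]
  refine Eq.trans (Finset.sum_congr rfl fun v hv => ?_) hsum
  rw [IsFF1.poleDiv_apply]
  have : v.ord x < 0 := hfin.mem_toFinset.mp hv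
  omega

end General

namespace ModL

variable (k : Type*) [Field k] (N : ℕ)

/-- The element `J(q^d)` of the modular function field of level `N` over `k`, for `d ∣ N`. -/
def Jdbar (d : ℕ) [NeZero d] (hd : d ∣ N) : modularFunctionFieldFullC k N :=
  ⟨qExpand k d (jqModC k), jqModCd_mem_full k N hd⟩

@[simp] theorem coe_Jdbar (d : ℕ) [NeZero d] (hd : d ∣ N) :
    ((Jdbar k N d hd : modularFunctionFieldFullC k N) : LaurentSeries k)
      = qExpand k d (jqModC k) := rfl

theorem coe_Jdbar_eq_Jd (d : ℕ) [NeZero d] (hd : d ∣ N) :
    ((Jdbar k N d hd : modularFunctionFieldFullC k N) : LaurentSeries k) = TD.Jd k d :=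
  (TD.Jd_eq k d).symm

/-- The element `J(q^N)` of the modular function field of level `N` over `k`. -/
def JNbar [NeZero N] : modularFunctionFieldFullC k N := Jdbar k N N dvd_rfl

theorem coe_JNbar [NeZero N] :
    ((JNbar k N : modularFunctionFieldFullC k N) : LaurentSeries k) = TD.Jd k N :=
  coe_Jdbar_eq_Jd k N N dvd_rfl

/-- `J(q^d)` is transcendental over `k`. -/
theorem transcendental_Jdbar (d : ℕ) [NeZero d] (hd : d ∣ N) :
    Transcendental k (Jdbar k N d hd) := by
  intro halg
  have h1 : IsAlgebraic k ((modularFunctionFieldFullC k N).val (Jdbar k N d hd)) :=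
    (isAlgebraic_algHom_iff (modularFunctionFieldFullC k N).val Subtype.val_injective).2 halg
  have h2 : (modularFunctionFieldFullC k N).val (Jdbar k N d hd)
      = qExpandAlgHomC k d ((modularFunctionFieldFullC k N).val (Jbar k N)) := rfl
  rw [h2] at h1
  have h3 : IsAlgebraic k ((modularFunctionFieldFullC k N).val (Jbar k N)) :=
    (isAlgebraic_algHom_iff (qExpandAlgHomC k d) (qExpandAlgHomC k d).injective).1 h1
  exact transcendental_Jbar k N
    ((isAlgebraic_algHom_iff (modularFunctionFieldFullC k N).val Subtype.val_injective).1 h3)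

theorem transcendental_JNbar [NeZero N] : Transcendental k (JNbar k N) :=
  transcendental_Jdbar k N N dvd_rfl

/-- The modular function field is finite over `k(J(q^d))`, for every field `k`. -/
theorem finiteDimensional_Jdbar [NeZero N] (d : ℕ) [NeZero d] (hd : d ∣ N) :
    FiniteDimensional k⟮Jdbar k N d hd⟯ (modularFunctionFieldFullC k N) := by
  haveI := finiteDimensional_Jbar k N
  exact Fermat.Agent.S24.finiteDimensional_of_transcendental (Jbar k N)
    (transcendental_Jdbar k N d hd)

theorem finiteDimensional_JNbar [NeZero N] :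
    FiniteDimensional k⟮JNbar k N⟯ (modularFunctionFieldFullC k N) :=
  finiteDimensional_Jdbar k N N dvd_rfl

end ModL

section Modular

variable (k : Type*) [Field k] [IsAlgClosed k] (N : ℕ) [NeZero N]

/-- `IsFF1` for the mod-`ℓ` modular function field with base function `J(q^d)`, `d ∣ N`. -/
theorem isFF1_Jdbar (d : ℕ) [NeZero d] (hd : d ∣ N) :
    IsFF1 k (modularFunctionFieldFullC k N) (ModL.Jdbar k N d hd) :=
  (isFF1_Jbar k N).of_transcendental (ModL.transcendental_Jdbar k N d hd)

/-- **`IsFF1` for the mod-`ℓ` modular function field with base function `J_N = J(q^N)`.** -/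
theorem isFF1_JNbar : IsFF1 k (modularFunctionFieldFullC k N) (ModL.JNbar k N) :=
  isFF1_Jdbar k N N dvd_rfl

/-- `deg (J_N)_∞ = [F̄ : k(J_N)]` in every characteristic. -/
theorem degree_poleDiv_JNbar :
    Divisor.degree (isFF1_JNbar k N).poleDiv
      = (Module.finrank k⟮ModL.JNbar k N⟯ (modularFunctionFieldFullC k N) : ℤ) :=
  (isFF1_JNbar k N).degree_poleDiv_eq

end Modular

end Fermat.Agent.Lib.FF
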