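import Mathlib
import Fermat.Agent.Lib.FF.ModLBase
import Fermat.Agent.Lib.Red.Basis

/-!
# `IsFF1` for the two function fields of the RED layer, with base function `x = J(q^N)`

* `isFF1_xk` : `IsFF1 k (modularFunctionFieldFullC k N) (Red.xk k N)` — `k` algebraically closed
  of any characteristic;
* `isFF1_xL` : `IsFF1 L (L·F_N) (Red.xL L N)` — `L` algebraically closed (a `ℚ`-algebra);
* the degrees of the pole divisors are the field degrees.
-/

set_option autoImplicit false
set_option linter.style.haveILetI false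

noncomputable section

namespace Fermat.Agent.Lib.FF

open AlgebraicCurve IntermediateField ModularCurve Fermat.Agent.S28

/-- Transport of `IsFF1` along an equality of intermediate fields. -/
theorem isFF1_congr {K M : Type*} [Field K] [Field M] [Algebra K M]
    {E₁ E₂ : IntermediateField K M} (h : E₁ = E₂) (x₁ : E₁) (x₂ : E₂)
    (hx : (x₁ : M) = x₂) (H : IsFF1 K E₂ x₂) : IsFF1 K E₁ x₁ := by
  subst h
  obtain rfl : x₁ = x₂ := Subtype.ext hx
  exact H

section Modk

variable (k : Type*) [Field k] (N : ℕ) [NeZero N]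

/-- The base function `x̄` of the RED layer is `J(q^N)`. -/
theorem xk_eq_JNbar : Red.xk k N = ModL.JNbar k N :=
  Subtype.ext (ModL.coe_JNbar k N).symm

theorem transcendental_xk' : Transcendental k (Red.xk k N) := by
  rw [xk_eq_JNbar]
  exact ModL.transcendental_JNbar k N

/-- The mod-`ℓ` function field is finite over `k(x̄)`, for every field `k`. -/
theorem finiteDimensional_xk : FiniteDimensional k⟮Red.xk k N⟯ (modularFunctionFieldFullC k N) := by
  rw [xk_eq_JNbar]
  exact ModL.finiteDimensional_JNbar k N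

variable [IsAlgClosed k]

/-- **`IsFF1` for the mod-`ℓ` modular function field with the base function `x̄ = J̄(q^N)` of the
RED layer** (`k` algebraically closed, any characteristic). -/
theorem isFF1_xk : IsFF1 k (modularFunctionFieldFullC k N) (Red.xk k N) := by
  rw [xk_eq_JNbar]
  exact isFF1_JNbar k N

/-- `deg (x̄)_∞ = [F̄ : k(x̄)]`. -/
theorem degree_poleDiv_xk :
    Divisor.degree (isFF1_xk k N).poleDiv
      = (Module.finrank k⟮Red.xk k N⟯ (modularFunctionFieldFullC k N) : ℤ) :=
  (isFF1_xk k N).degree_poleDiv_eq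

end Modk

section Char0

variable (L : Type*) [Field L] [Algebra ℚ L] (N : ℕ) [NeZero N]

/-- `L·F_N` is the modular function field over `L` in the sense of the Prelude's mod-`ℓ`
definition. -/
theorem laurentBaseChange_eq_fullC :
    laurentBaseChange L (modularFunctionFieldFull N) = modularFunctionFieldFullC L N :=
  (Red.laurentBaseChange_eq_FF L N).trans (Red.fullC_eq_FF L N).symm

/-- `L·F_N` is finite over `L(x)`, `x = J(q^N)`, for every field `L ⊇ ℚ`. -/
theorem finiteDimensional_xL :
    FiniteDimensional L⟮Red.xL L N⟯ (laurentBaseChange L (modularFunctionFieldFull N)) := by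
  have key : ∀ {E₁ E₂ : IntermediateField L (LaurentSeries L)} (h : E₁ = E₂) (x₁ : E₁) (x₂ : E₂)
      (_ : (x₁ : LaurentSeries L) = x₂) (_ : FiniteDimensional L⟮x₂⟯ E₂),
      FiniteDimensional L⟮x₁⟯ E₁ := by
    intro E₁ E₂ h x₁ x₂ hx H
    subst h
    obtain rfl : x₁ = x₂ := Subtype.ext hx
    exact H
  exact key (laurentBaseChange_eq_fullC L N) (Red.xL L N) (ModL.JNbar L N)
    (ModL.coe_JNbar L N).symm (ModL.finiteDimensional_JNbar L N)

variable [IsAlgClosed L]

/-- **`IsFF1` for `L·F_N` with the base function `x = J(q^N)` of the RED layer** (`L`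
algebraically closed). -/
theorem isFF1_xL : IsFF1 L (laurentBaseChange L (modularFunctionFieldFull N)) (Red.xL L N) :=
  isFF1_congr (laurentBaseChange_eq_fullC L N) (Red.xL L N) (ModL.JNbar L N)
    (ModL.coe_JNbar L N).symm (isFF1_JNbar L N)

/-- `deg (x)_∞ = [L·F_N : L(x)]`. -/
theorem degree_poleDiv_xL :
    Divisor.degree (isFF1_xL L N).poleDiv
      = (Module.finrank L⟮Red.xL L N⟯ (laurentBaseChange L (modularFunctionFieldFull N)) : ℤ) :=
  (isFF1_xL L N).degree_poleDiv_eq

end Char0

/-- **The pole divisors of `x` on `L·F_N` and of `x̄` on the mod-`ℓ` field have the same degree**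
(`= [L·F_N : L(x)] = [F̄ : k(x̄)]`, by the good basis of the Gauss valuation): this is the
hypothesis `hdeg` of `Red.GenusLe.genusFF_le_of_lift`. -/
theorem degree_poleDiv_xL_eq_xk {L : Type*} [Field L] [Algebra ℚ L] [IsAlgClosed L]
    (A : ValuationSubring L) {k : Type} [Field k] [IsAlgClosed k] (π : A →+* k) (N : ℕ) [NeZero N]
    (hπ : ∀ a : A, ¬ IsUnit a → π a = 0) (hsurj : Function.Surjective π) (hNk : (N : k) ≠ 0) :
    Divisor.degree (isFF1_xL L N).poleDiv = Divisor.degree (isFF1_xk k N).poleDiv := by
  rw [degree_poleDiv_xL, degree_poleDiv_xk, Red.finrank_eq hπ hsurj hNk]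

end Fermat.Agent.Lib.FF
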