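import Mathlib
import Fermat.Agent.Lib.FF.RRFF1
import Fermat.Agent.S24.Transfer
import Fermat.Agent.S24.PlaceBasic

/-!
# RED-HOLO: "integral over `K[x]`" ⟺ "regular wherever `x` is regular"

Characteristic-free.  Contents:

* `Holo.isPrincipalIdealRing_of_algebraMap_mem` / `Holo.placeOfValuationSubring` (Stichtenoth
  1.1.6): in a function field of one variable `F/K` (`x` transcendental, `F` finite over
  `K(x)`), EVERY valuation subring of `F` containing the constants is a principal ideal ring;
  so every valuation subring `K ⊆ O ≠ ⊤` is a `Place K F`.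
* `Holo.isIntegral_adjoin_iff` : `y` is integral over `K[x]` iff `y` is regular at every place at
  which `x` is regular;  `Holo.isIntegral_adjoin_inv_iff` : the same for `K[x⁻¹]`.
* `IsFF1.isIntegral_adjoin_iff`, `IsFF1.isIntegral_adjoin_inv_iff`, `IsFF1.inv` : the same in
  the setting `IsFF1 K F x`, and `IsFF1 K F x⁻¹`.
* `Holo.exists_place_of_not_isIntegral` : the separating form.
-/

set_option autoImplicit false
set_option linter.style.haveILetI false

noncomputable section

namespace Fermat.Agent.Lib.FF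

open AlgebraicCurve IntermediateField Polynomial

namespace Holo

variable {K F : Type*} [Field K] [Field F] [Algebra K F]

section Val

variable {Γ₀ : Type*} [LinearOrderedCommGroupWithZero Γ₀] (v : Valuation F Γ₀)

/-- A valuation that is `≤ 1` on the constants is `1` on the nonzero constants. -/
theorem val_algebraMap_eq_one (hK : ∀ a : K, v (algebraMap K F a) ≤ 1) {a : K} (ha : a ≠ 0) :
    v (algebraMap K F a) = 1 := by
  refine le_antisymm (hK a) ?_
  have h := hK a⁻¹
  rw [map_inv₀, map_inv₀] at h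
  have hne : v (algebraMap K F a) ≠ 0 :=
    (Valuation.ne_zero_iff _).mpr (by simpa using ha)
  exact (inv_le_one₀ (zero_lt_iff.mpr hne)).mp h

theorem val_aeval_le_one (hK : ∀ a : K, v (algebraMap K F a) ≤ 1) {t : F} (ht : v t ≤ 1)
    (p : K[X]) : v (aeval t p) ≤ 1 := by
  rw [aeval_eq_sum_range]
  refine Valuation.map_sum_le v (fun i _ => ?_)
  rw [Algebra.smul_def, map_mul, map_pow]
  exact mul_le_one' (hK _) (pow_le_one' ht i)

theorem val_aeval_eq_one (hK : ∀ a : K, v (algebraMap K F a) ≤ 1) {t : F} (ht : v t < 1)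
    {p : K[X]} (hp : p.coeff 0 ≠ 0) : v (aeval t p) = 1 := by
  have hdec : aeval t p = aeval t p.divX * t + algebraMap K F (p.coeff 0) := by
    conv_lhs => rw [← Polynomial.divX_mul_X_add p]
    simp
  rw [hdec]
  have h1 : v (aeval t p.divX * t) < 1 := by
    rw [map_mul]
    calc v (aeval t p.divX) * v t ≤ 1 * v t :=
          mul_le_mul_left (val_aeval_le_one v hK ht.le _) _
      _ = v t := one_mul _
      _ < 1 := ht
  have h2 := val_algebraMap_eq_one v hK hp
  rw [Valuation.map_add_eq_of_lt_right v (by rw [h2]; exact h1), h2]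

/-- The value of a nonzero polynomial in `t` (`v t < 1`) is a power of `v t`. -/
theorem exists_val_aeval_eq_pow (hK : ∀ a : K, v (algebraMap K F a) ≤ 1) {t : F} (ht : v t < 1)
    {p : K[X]} (hp : p ≠ 0) : ∃ m : ℕ, v (aeval t p) = v t ^ m := by
  obtain ⟨q, hq, hndvd⟩ := Polynomial.exists_eq_pow_rootMultiplicity_mul_and_not_dvd p hp 0
  rw [C_0, sub_zero] at hq hndvd
  have hq0 : q.coeff 0 ≠ 0 := fun h => hndvd (Polynomial.X_dvd_iff.mpr h)
  refine ⟨p.rootMultiplicity 0, ?_⟩
  conv_lhs => rw [hq]
  rw [map_mul, map_pow, aeval_X, map_mul, map_pow, val_aeval_eq_one v hK ht hq0, mul_one]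

/-- A nonzero element of positive valuation is transcendental over the constants. -/
theorem transcendental_of_val_lt_one (hK : ∀ a : K, v (algebraMap K F a) ≤ 1) {t : F}
    (ht0 : t ≠ 0) (ht : v t < 1) : Transcendental K t := by
  rintro ⟨p, hp0, hp⟩
  obtain ⟨m, hm⟩ := exists_val_aeval_eq_pow v hK ht hp0
  rw [hp, map_zero] at hm
  exact pow_ne_zero m ((Valuation.ne_zero_iff v).mpr ht0) hm.symm

/-- The value of a nonzero element of `K(t)` is a power of `v t` up to a power of `v t`. -/
theorem exists_val_mul_eq_pow (hK : ∀ a : K, v (algebraMap K F a) ≤ 1) {t : F}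
    (ht : v t < 1) {c : F} (hc : c ∈ K⟮t⟯) (hc0 : c ≠ 0) :
    ∃ m n : ℕ, v t ^ n * v c = v t ^ m := by
  obtain ⟨r, s, rfl⟩ := (IntermediateField.mem_adjoin_simple_iff K c).mp hc
  have hr : r ≠ 0 := by
    rintro rfl
    simp at hc0
  have hs : aeval t s ≠ 0 := by
    intro h
    rw [h, div_zero] at hc0
    exact hc0 rfl
  have hs0 : s ≠ 0 := by
    rintro rfl
    simp at hs
  obtain ⟨m, hm⟩ := exists_val_aeval_eq_pow v hK ht hr
  obtain ⟨n, hn⟩ := exists_val_aeval_eq_pow v hK ht hs0
  refine ⟨m, n, ?_⟩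
  have hvs : v (aeval t s) ≠ 0 := (Valuation.ne_zero_iff v).mpr hs
  rw [map_div₀, ← hn, ← hm, mul_div_cancel₀ _ hvs]

/-- Elements whose values lie in pairwise different classes modulo the powers of `v t` are
linearly independent over `K(t)`. -/
theorem linearIndependent_of_val (hK : ∀ a : K, v (algebraMap K F a) ≤ 1) {t : F}
    (ht0 : t ≠ 0) (ht : v t < 1) {ι : Type*} (x : ι → F) (hx0 : ∀ i, x i ≠ 0)
    (hx : ∀ i j, i ≠ j → ∀ m n : ℕ, v t ^ m * v (x i) ≠ v t ^ n * v (x j)) :
    LinearIndependent K⟮t⟯ x := by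
  classical
  have hvt : v t ≠ 0 := (Valuation.ne_zero_iff v).mpr ht0
  rw [linearIndependent_iff']
  intro s g hsum i hi
  by_contra hgi
  set s' := s.filter (fun j => g j ≠ 0) with hs'
  have hsum' : ∑ j ∈ s', g j • x j = 0 := by
    rw [← hsum, hs', Finset.sum_filter]
    refine Finset.sum_congr rfl fun j _ => ?_
    by_cases h : g j = 0 <;> simp [h]
  have hne : s'.Nonempty := ⟨i, Finset.mem_filter.mpr ⟨hi, hgi⟩⟩
  obtain ⟨i₀, hi₀, hmax⟩ := Finset.exists_max_image s' (fun j => v (g j • x j)) hne
  have hsmul : ∀ j, g j • x j = (g j : F) * x j := fun j => rfl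
  have hval : ∀ j ∈ s', ∃ m n : ℕ, v t ^ n * v (g j • x j) = v t ^ m * v (x j) := by
    intro j hj
    have hgj : (g j : F) ≠ 0 := by
      simpa using (Finset.mem_filter.mp hj).2
    obtain ⟨m, n, hmn⟩ := exists_val_mul_eq_pow v hK ht (g j).2 hgj
    exact ⟨m, n, by rw [hsmul, map_mul, ← mul_assoc, hmn]⟩
  have hne0 : v (g i₀ • x i₀) ≠ 0 := by
    rw [hsmul, Valuation.ne_zero_iff]
    have hgj : (g i₀ : F) ≠ 0 := by
      simpa using (Finset.mem_filter.mp hi₀).2
    exact mul_ne_zero hgj (hx0 i₀)
  have hlt : v (∑ j ∈ s'.erase i₀, g j • x j) < v (g i₀ • x i₀) := by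
    refine Valuation.map_sum_lt v hne0 fun j hj => ?_
    have hj' := Finset.mem_of_mem_erase hj
    refine lt_of_le_of_ne (hmax j hj') ?_
    obtain ⟨m, n, hmn⟩ := hval j hj'
    obtain ⟨m', n', hmn'⟩ := hval i₀ hi₀
    intro heq
    refine hx j i₀ (Finset.ne_of_mem_erase hj) (n' + m) (n + m') ?_
    calc v t ^ (n' + m) * v (x j) = v t ^ n' * (v t ^ m * v (x j)) := by
          rw [pow_add, mul_assoc]
      _ = v t ^ n' * (v t ^ n * v (g j • x j)) := by rw [hmn]
      _ = v t ^ n * (v t ^ n' * v (g i₀ • x i₀)) := by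
          rw [heq, mul_left_comm]
      _ = v t ^ n * (v t ^ m' * v (x i₀)) := by rw [hmn']
      _ = v t ^ (n + m') * v (x i₀) := by rw [pow_add, mul_assoc]
  rw [← Finset.add_sum_erase s' _ hi₀] at hsum'
  have h := Valuation.map_add_eq_of_lt_left v hlt
  rw [hsum', map_zero] at h
  exact hne0 h.symm

/-- Only finitely many values of `v` lie in the interval `[v t, 1)`, when `F` is finite over
`K(t)`. -/
theorem finite_values (hK : ∀ a : K, v (algebraMap K F a) ≤ 1) {t : F} (ht0 : t ≠ 0)
    (ht : v t < 1) [FiniteDimensional K⟮t⟯ F] :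
    {γ : Γ₀ | v t ≤ γ ∧ γ < 1 ∧ γ ∈ Set.range v}.Finite := by
  classical
  have hvt : v t ≠ 0 := (Valuation.ne_zero_iff v).mpr ht0
  have hvt0 : 0 < v t := zero_lt_iff.mpr hvt
  by_contra hinf
  obtain ⟨T, hT, hcard⟩ :=
    Set.Infinite.exists_subset_card_eq hinf (Module.finrank K⟮t⟯ F + 1)
  have hmem : ∀ γ : T, v t ≤ (γ : Γ₀) ∧ (γ : Γ₀) < 1 ∧ (γ : Γ₀) ∈ Set.range v :=
    fun γ => hT γ.2
  choose x hx using fun γ : T => (hmem γ).2.2
  -- the key strict inequality
  have key : ∀ (γ γ' : T) (k : ℕ), v t ^ (k + 1) * (γ' : Γ₀) < (γ : Γ₀) := by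
    intro γ γ' k
    calc v t ^ (k + 1) * (γ' : Γ₀) ≤ v t * (γ' : Γ₀) := by
          refine mul_le_mul_left ?_ _
          rw [pow_succ]
          calc v t ^ k * v t ≤ 1 * v t := mul_le_mul_left (pow_le_one' ht.le k) _
            _ = v t := one_mul _
      _ < v t * 1 := by
          exact (mul_lt_mul_iff_right₀ hvt0).mpr (hmem γ').2.1
      _ = v t := mul_one _
      _ ≤ γ := (hmem γ).1
  have hli : LinearIndependent K⟮t⟯ x := by
    refine linearIndependent_of_val v hK ht0 ht x (fun γ => ?_) ?_
    · rw [← Valuation.ne_zero_iff v, hx]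
      exact ne_of_gt (lt_of_lt_of_le hvt0 (hmem γ).1)
    · intro γ γ' hne m n heq
      rw [hx, hx] at heq
      rcases Nat.lt_trichotomy m n with hlt | heq' | hgt
      · obtain ⟨k, rfl⟩ := Nat.exists_eq_add_of_lt hlt
        rw [add_assoc, pow_add, mul_assoc] at heq
        have := mul_left_cancel₀ (pow_ne_zero m hvt) heq
        exact absurd this (ne_of_gt (key γ γ' k))
      · subst heq'
        have := mul_left_cancel₀ (pow_ne_zero m hvt) heq
        exact hne (Subtype.ext this)
      · obtain ⟨k, rfl⟩ := Nat.exists_eq_add_of_lt hgt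
        rw [add_assoc, pow_add, mul_assoc] at heq
        have := mul_left_cancel₀ (pow_ne_zero n hvt) heq
        exact absurd this (ne_of_lt (key γ' γ k))
  have hle := hli.fintype_card_le_finrank
  rw [Fintype.card_coe, hcard] at hle
  omega

end Val

/-! ### Every valuation ring of a function field is discrete -/

/-- **Stichtenoth 1.1.6.** In a function field of one variable (`x` transcendental, `F` finite
over `K(x)`), every valuation subring containing the constants is a principal ideal ring. -/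
theorem isPrincipalIdealRing_of_algebraMap_mem (x : F) [FiniteDimensional K⟮x⟯ F]
    (O : ValuationSubring F) (hK : ∀ a : K, algebraMap K F a ∈ O) :
    IsPrincipalIdealRing O := by
  classical
  have hKv : ∀ a : K, O.valuation (algebraMap K F a) ≤ 1 :=
    fun a => (O.valuation_le_one_iff _).mpr (hK a)
  refine ⟨fun I => ?_⟩
  by_cases hI : I = ⊥
  · rw [hI]
    exact bot_isPrincipal
  obtain ⟨a0, ha0I, ha0⟩ : ∃ a ∈ I, a ≠ 0 := by
    by_contra hcon
    push Not at hcon
    exact hI ((Submodule.eq_bot_iff I).mpr hcon)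
  have ha0F : (a0 : F) ≠ 0 := by simpa using ha0
  by_cases hu : O.valuation (a0 : F) = 1
  · have hunit : IsUnit a0 := (O.valuation_eq_one_iff a0).mpr hu
    rw [Ideal.eq_top_of_isUnit_mem I ha0I hunit]
    exact top_isPrincipal
  have hlt : O.valuation (a0 : F) < 1 := lt_of_le_of_ne (O.valuation_le_one a0) hu
  have htr : Transcendental K (a0 : F) := transcendental_of_val_lt_one O.valuation hKv ha0F hlt
  haveI := Fermat.Agent.S24.Transfer.finiteDimensional_adjoin_of_transcendental (K := K) x htr
  have hfin := finite_values O.valuation hKv ha0F hlt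
  set T : Set O.ValueGroup :=
    {γ | O.valuation (a0 : F) ≤ γ ∧ ∃ b ∈ I, O.valuation (b : F) = γ} with hT
  have hTfin : T.Finite := by
    refine (hfin.union (Set.finite_singleton 1)).subset ?_
    rintro γ ⟨h1, b, -, rfl⟩
    rcases (O.valuation_le_one b).lt_or_eq with h | h
    · exact Or.inl ⟨h1, h, _, rfl⟩
    · exact Or.inr h
  have hTne : T.Nonempty := ⟨O.valuation (a0 : F), le_rfl, a0, ha0I, rfl⟩
  obtain ⟨γ, ⟨hγ1, b, hbI, rfl⟩, hmax⟩ := Set.exists_max_image T id hTfin hTne
  refine ⟨⟨b, le_antisymm ?_ ?_⟩⟩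
  · intro c hc
    have hle : O.valuation (c : F) ≤ O.valuation (b : F) := by
      by_cases h : O.valuation (a0 : F) ≤ O.valuation (c : F)
      · exact hmax _ ⟨h, c, hc, rfl⟩
      · exact (lt_of_not_ge h).le.trans hγ1
    obtain ⟨a, ha⟩ := (O.valuation_le_iff _ _).mp hle
    refine Ideal.mem_span_singleton'.mpr ⟨a, ?_⟩
    exact Subtype.ext ha
  · rw [Submodule.span_le]
    intro c hc
    rw [Set.mem_singleton_iff] at hc
    rw [hc]
    exact hbI

/-- Every valuation subring `K ⊆ O ≠ ⊤` of a function field of one variable is a place. -/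
def placeOfValuationSubring (x : F) [FiniteDimensional K⟮x⟯ F] (O : ValuationSubring F)
    (hK : ∀ a : K, algebraMap K F a ∈ O) (hO : O ≠ ⊤) : Place K F where
  toValuationSubring := O
  algebraMap_mem' := hK
  ne_top' := hO
  isPrincipalIdealRing' := isPrincipalIdealRing_of_algebraMap_mem x O hK

@[simp]
theorem placeOfValuationSubring_toValuationSubring (x : F) [FiniteDimensional K⟮x⟯ F]
    (O : ValuationSubring F) (hK : ∀ a : K, algebraMap K F a ∈ O) (hO : O ≠ ⊤) :
    (placeOfValuationSubring x O hK hO).toValuationSubring = O := rfl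

/-! ### Integral over `K[x]` ⟺ regular where `x` is regular -/

/-- `K[x]` lies in the valuation ring of every place at which `x` is regular. -/
theorem mem_of_mem_adjoin (P : Place K F) {x : F} (hx : 0 ≤ P.ord x) {r : F}
    (hr : r ∈ Algebra.adjoin K {x}) : r ∈ P.toValuationSubring := by
  induction hr using Algebra.adjoin_induction with
  | mem z hz =>
    rw [Set.mem_singleton_iff] at hz
    rw [hz]
    exact Fermat.Agent.S24.mem_of_ord_nonneg P hx
  | algebraMap a => exact P.algebraMap_mem' a
  | add a b _ _ ha hb => exact P.toValuationSubring.add_mem _ _ ha hb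
  | mul a b _ _ ha hb => exact P.toValuationSubring.mul_mem _ _ ha hb

/-- An element integral over `K[x]` is regular at every place at which `x` is regular
(no hypothesis on `F/K`). -/
theorem ord_nonneg_of_isIntegral {x y : F} (hy : IsIntegral (Algebra.adjoin K {x}) y)
    (P : Place K F) (hx : 0 ≤ P.ord x) : 0 ≤ P.ord y := by
  obtain ⟨p, hp, hpy⟩ := hy
  apply Fermat.Agent.S24.ord_nonneg_of_mem
  have hl : IsIntegral P.toValuationSubring y := by
    let φ : Algebra.adjoin K {x} →+* P.toValuationSubring :=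
      { toFun := fun r => ⟨(r : F), mem_of_mem_adjoin P hx r.2⟩
        map_one' := rfl
        map_mul' := fun _ _ => rfl
        map_zero' := rfl
        map_add' := fun _ _ => rfl }
    refine ⟨p.map φ, hp.map φ, ?_⟩
    rw [Polynomial.eval₂_map]
    exact hpy
  obtain ⟨z, hz⟩ := IsIntegrallyClosed.algebraMap_eq_of_integral hl
  rw [← hz]
  exact z.2

/-- **Separating form**: if `y` is not integral over `K[x]`, some place at which `x` is regular
is a pole of `y`. -/
theorem exists_place_of_not_isIntegral (x : F) [FiniteDimensional K⟮x⟯ F] {y : F}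
    (hy : ¬ IsIntegral (Algebra.adjoin K {x}) y) :
    ∃ P : Place K F, 0 ≤ P.ord x ∧ P.ord y < 0 := by
  have hyR : y ∉ (integralClosure (Algebra.adjoin K {x}) F).toSubring := hy
  obtain ⟨V, hRV, hyV⟩ := Subring.exists_le_valuationSubring_of_isIntegrallyClosedIn hyR
  have hmem : ∀ r : Algebra.adjoin K {x}, (r : F) ∈ V := fun r =>
    hRV ((integralClosure (Algebra.adjoin K {x}) F).algebraMap_mem r)
  have hK : ∀ a : K, algebraMap K F a ∈ V := fun a =>
    hmem ⟨algebraMap K F a, Subalgebra.algebraMap_mem _ a⟩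
  have hx : x ∈ V := hmem ⟨x, Algebra.subset_adjoin rfl⟩
  have hV : V ≠ ⊤ := fun h => hyV (h ▸ ValuationSubring.mem_top y)
  refine ⟨placeOfValuationSubring x V hK hV, ?_, ?_⟩
  · exact Fermat.Agent.S24.ord_nonneg_of_mem _ hx
  · exact (Fermat.Agent.S24.notMem_iff_ord_neg _).mp hyV

/-- **RED-HOLO**: in a function field of one variable, `y` is integral over `K[x]` iff `y` is
regular at every place at which `x` is regular. -/
theorem isIntegral_adjoin_iff (x : F) [FiniteDimensional K⟮x⟯ F] (y : F) :
    IsIntegral (Algebra.adjoin K {x}) y ↔ ∀ P : Place K F, 0 ≤ P.ord x → 0 ≤ P.ord y := by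
  refine ⟨fun h P hP => ord_nonneg_of_isIntegral h P hP, fun h => ?_⟩
  by_contra hy
  obtain ⟨P, hP, hPy⟩ := exists_place_of_not_isIntegral x hy
  exact absurd (h P hP) (not_le.mpr hPy)

/-- The chart at infinity: `y` is integral over `K[x⁻¹]` iff `y` is regular at every place at
which `x` is nonzero. -/
theorem isIntegral_adjoin_inv_iff (x : F) [FiniteDimensional K⟮x⟯ F] (y : F) :
    IsIntegral (Algebra.adjoin K {x⁻¹}) y ↔ ∀ P : Place K F, P.ord x ≤ 0 → 0 ≤ P.ord y := by
  haveI := Fermat.Agent.S24.Transfer.finiteDimensional_inv (K := K) x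
  rw [isIntegral_adjoin_iff x⁻¹ y]
  refine forall_congr' fun P => ?_
  rw [P.ord_inv]
  constructor
  · intro h hx
    exact h (by omega)
  · intro h hx
    exact h (by omega)

end Holo

namespace IsFF1

variable {K F : Type*} [Field K] [Field F] [Algebra K F] {x : F}

/-- **RED-HOLO** in `IsFF1` form: `y` is integral over `K[x]` iff `y` is regular at every place
at which `x` is regular. -/
theorem isIntegral_adjoin_iff (h : IsFF1 K F x) (y : F) :
    IsIntegral (Algebra.adjoin K {x}) y ↔ ∀ P : Place K F, 0 ≤ P.ord x → 0 ≤ P.ord y := by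
  haveI := h.finiteDimensional
  exact Holo.isIntegral_adjoin_iff x y

/-- The chart at infinity in `IsFF1` form. -/
theorem isIntegral_adjoin_inv_iff (h : IsFF1 K F x) (y : F) :
    IsIntegral (Algebra.adjoin K {x⁻¹}) y ↔ ∀ P : Place K F, P.ord x ≤ 0 → 0 ≤ P.ord y := by
  haveI := h.finiteDimensional
  exact Holo.isIntegral_adjoin_inv_iff x y

/-- The zeros of `x`: finitely many, and at most `[F : K(x)]` with multiplicity. -/
theorem zeros_le (h : IsFF1 K F x) :
    ∃ hfin : {v : Place K F | 0 < v.ord x}.Finite,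
      ∑ v ∈ hfin.toFinset, v.ord x ≤ (Module.finrank K⟮x⟯ F : ℤ) := by
  classical
  have hx0 : x ≠ 0 := by
    rintro rfl
    exact h.transcendental (isAlgebraic_zero)
  haveI := h.hasPrincipalDivisors
  obtain ⟨D, hD, hdeg⟩ := HasPrincipalDivisors.exists_divisor (K := K) x hx0
  rw [h.degree_eq_sum] at hdeg
  have hsub : {v : Place K F | 0 < v.ord x} ⊆ (D.support : Set (Place K F)) := by
    intro v hv
    rw [Finset.mem_coe, Finsupp.mem_support_iff, hD v]
    exact ne_of_gt hv
  have hfin : {v : Place K F | 0 < v.ord x}.Finite := D.support.finite_toSet.subset hsub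
  refine ⟨hfin, ?_⟩
  obtain ⟨hpfin, hpsum⟩ := h.poles_le
  -- split the support of `D` into zeros and poles
  have hsplit : ∑ v ∈ D.support, D v
      = ∑ v ∈ hfin.toFinset, v.ord x + ∑ v ∈ hpfin.toFinset, v.ord x := by
    have hdisj : Disjoint hfin.toFinset hpfin.toFinset := by
      rw [Finset.disjoint_left]
      intro v hv hv'
      rw [Set.Finite.mem_toFinset] at hv hv'
      have h1 : 0 < v.ord x := hv
      have h2 : v.ord x < 0 := hv'
      omega
    have hunion : D.support = hfin.toFinset ∪ hpfin.toFinset := by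
      ext v
      rw [Finset.mem_union, Set.Finite.mem_toFinset, Set.Finite.mem_toFinset,
        Finsupp.mem_support_iff, hD v]
      show _ ↔ (0 < v.ord x ∨ v.ord x < 0)
      omega
    rw [hunion, Finset.sum_union hdisj]
    congr 1 <;> exact Finset.sum_congr rfl fun v _ => hD v
  rw [hsplit] at hdeg
  have hneg : ∑ v ∈ hpfin.toFinset, (-v.ord x) = -∑ v ∈ hpfin.toFinset, v.ord x := by
    rw [Finset.sum_neg_distrib]
  rw [hneg] at hpsum
  linarith

/-- `IsFF1` for the inverse base function (the chart at infinity). -/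
theorem inv (h : IsFF1 K F x) : IsFF1 K F x⁻¹ where
  transcendental := Fermat.Agent.S24.Transfer.transcendental_inv h.transcendental
  finiteDimensional := by
    haveI := h.finiteDimensional
    exact Fermat.Agent.S24.Transfer.finiteDimensional_inv (K := K) x
  resK := h.resK
  hasPrincipalDivisors := h.hasPrincipalDivisors
  poles_le := by
    obtain ⟨hfin, hsum⟩ := h.zeros_le
    have hset : {v : Place K F | v.ord x⁻¹ < 0} = {v : Place K F | 0 < v.ord x} := by
      ext v
      simp only [Set.mem_ofPred_eq, Place.ord_inv]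
      omega
    have hfin' : {v : Place K F | v.ord x⁻¹ < 0}.Finite := hset ▸ hfin
    refine ⟨hfin', ?_⟩
    rw [Fermat.Agent.S24.Transfer.finrank_inv]
    refine le_trans (le_of_eq ?_) hsum
    have hts : hfin'.toFinset = hfin.toFinset := by
      ext v
      rw [Set.Finite.mem_toFinset, Set.Finite.mem_toFinset, hset]
    rw [hts]
    exact Finset.sum_congr rfl fun v _ => by rw [Place.ord_inv, neg_neg]
  const_of_ord_nonneg := h.const_of_ord_nonneg

end IsFF1

end Fermat.Agent.Lib.FF
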