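/-
helper86 — SEP for an arbitrary base function (`BaseFn.Data`): the modular function field in
characteristic `ℓ ∤ N` is separable over `k(x̄)` for every base function `x̄` with
`J̄(q^N) ∈ k(x̄)`; the characteristic-zero side is automatic.

* `ModL.xk_le_xt`       : `k(J̄(q^N)) ⊆ k(x̄)`;
* `ModL.isSeparable_xt` : `Algebra.IsSeparable k⟮B.xt⟯ (modularFunctionFieldFullC k N)`;
* `ModL.xL_le_x`, `ModL.isSeparable_x` : the same over `L` (characteristic zero).
-/
import Mathlib
import Fermat.Agent.Lib.FF.ModLSep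
import Fermat.Agent.Lib.Red.BaseData

set_option autoImplicit false
set_option linter.unusedSectionVars false
set_option linter.style.haveILetI false

namespace Fermat.Agent.Lib.FF.ModL

open ModularCurve IntermediateField Fermat.Agent.Lib.Red Fermat.Agent.Lib.Red.BaseFn

variable {L : Type*} [Field L] [Algebra ℚ L] {A : ValuationSubring L} {k : Type} [Field k]
  {π : A →+* k} {N : ℕ} [NeZero N]

/-- `k(J̄(q^N)) ⊆ k(x̄)` for a base function. -/
theorem xk_le_xt (B : Data A π N) (hπ : ∀ a : A, ¬ IsUnit a → π a = 0) (hNk : (N : k) ≠ 0) :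
    k⟮Red.xk k N⟯ ≤ k⟮B.xt hπ hNk⟯ := by
  rw [IntermediateField.adjoin_simple_le_iff]
  exact (mem_adjoin_xt_iff hπ hNk B.X B.hX _).2 B.hJk

/-- **SEP for a base function**: `F̄_N / k(x̄)` is separable when `(N : k) ≠ 0`. -/
theorem isSeparable_xt (B : Data A π N) (hπ : ∀ a : A, ¬ IsUnit a → π a = 0)
    (hNk : (N : k) ≠ 0) :
    Algebra.IsSeparable k⟮B.xt hπ hNk⟯ (modularFunctionFieldFullC k N) :=
  isSeparable_of_le k N hNk _ (xk_le_xt B hπ hNk)

/-- `L(J(q^N)) ⊆ L(x)` for a base function. -/
theorem xL_le_x (B : Data A π N) : L⟮Red.xL L N⟯ ≤ L⟮B.x⟯ := by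
  rw [IntermediateField.adjoin_simple_le_iff]
  exact (mem_adjoin_xF_iff B.X B.hX _).2 B.hJL

/-- In characteristic zero every finite extension of `K(x)` is separable. -/
theorem isSeparable_adjoin_of_charZero {K F : Type*} [Field K] [Field F] [Algebra K F]
    [CharZero K] (x : F) [FiniteDimensional K⟮x⟯ F] : Algebra.IsSeparable K⟮x⟯ F := by
  haveI : CharZero K⟮x⟯ :=
    charZero_of_injective_algebraMap (R := K) (A := K⟮x⟯) (FaithfulSMul.algebraMap_injective _ _)
  exact Algebra.IsAlgebraic.isSeparable_of_perfectField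

/-- The characteristic-zero side: `L·F_N / L(x)` is separable. -/
theorem isSeparable_x (B : Data A π N) (hπ : ∀ a : A, ¬ IsUnit a → π a = 0)
    (hsurj : Function.Surjective π) (hNk : (N : k) ≠ 0) :
    Algebra.IsSeparable L⟮B.x⟯ (laurentBaseChange L (modularFunctionFieldFull N)) := by
  haveI : CharZero L := algebraRat.charZero L
  haveI := B.finite_L hπ hsurj hNk
  exact isSeparable_adjoin_of_charZero _

end Fermat.Agent.Lib.FF.ModL
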