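/-
helper86 — FF layer: the polynomial charts of a function field.

For a field `K`, a `K`-algebra field `F`, `x : F` and a chart generator `g : K⟮x⟯` (in practice
`g = x` or `g = x⁻¹`), the `K[X]`-algebra structures `X ↦ g` on `K⟮x⟯` and on `F`, as
`@[reducible]` definitions (NOT instances: install them with `letI`), together with the facts
needed to use them as the typeclass data of `Lib/Red/DiscMain.lean`
(`Disc.good_reduction`): scalar towers, `IsFractionRing K[X] K⟮x⟯`, finiteness.

* `algK K x g : Algebra K[X] K⟮x⟯`, `algF K x g : Algebra K[X] F`;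
* `algebraMap_algK`, `algebraMap_algF`, `algebraMap_algK_X`, `algebraMap_algF_X`;
* `isScalarTower_algK_algF`, `isScalarTower_K_algK`, `isScalarTower_K_algF`;
* `isFractionRing_algK` (general `g`), `isFractionRing_gen`, `isFractionRing_inv`;
* `gen`, `genInv` abbreviations; `adjoin_algebraMap_X_gen`, `adjoin_algebraMap_X_inv`,
  `finiteDimensional_gen`, `finiteDimensional_inv`.
-/
import Mathlib

set_option autoImplicit false
set_option linter.style.haveILetI false
set_option linter.unusedSectionVars false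

namespace Fermat.Agent.Lib.FF.PolyChart

open Polynomial IntermediateField

noncomputable section

variable (K : Type*) [Field K] {F : Type*} [Field F] [Algebra K F] (x : F)

/-- The `K[X]`-algebra structure on `K⟮x⟯` with `X ↦ g`. -/
@[reducible] def algK (g : K⟮x⟯) : Algebra K[X] K⟮x⟯ :=
  (aeval g : K[X] →ₐ[K] K⟮x⟯).toRingHom.toAlgebra

/-- The `K[X]`-algebra structure on `F` with `X ↦ (g : F)`. -/
@[reducible] def algF (g : K⟮x⟯) : Algebra K[X] F :=
  (aeval (g : F) : K[X] →ₐ[K] F).toRingHom.toAlgebra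

/-- The chart generator `x` (as an element of `K⟮x⟯`). -/
abbrev gen : K⟮x⟯ := AdjoinSimple.gen K x

/-- The chart generator `x⁻¹` (as an element of `K⟮x⟯`). -/
abbrev genInv : K⟮x⟯ := (AdjoinSimple.gen K x)⁻¹

@[simp] theorem coe_gen : ((gen K x : K⟮x⟯) : F) = x := AdjoinSimple.coe_gen K x

@[simp] theorem coe_genInv : ((genInv K x : K⟮x⟯) : F) = x⁻¹ := by
  rw [genInv, IntermediateField.coe_inv, AdjoinSimple.coe_gen]

variable {K x}

theorem algebraMap_algK (g : K⟮x⟯) (p : K[X]) :
    @algebraMap K[X] K⟮x⟯ _ _ (algK K x g) p = aeval g p := rfl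

theorem algebraMap_algF (g : K⟮x⟯) (p : K[X]) :
    @algebraMap K[X] F _ _ (algF K x g) p = aeval (g : F) p := rfl

theorem algebraMap_algK_X (g : K⟮x⟯) :
    @algebraMap K[X] K⟮x⟯ _ _ (algK K x g) X = g := by
  rw [algebraMap_algK, aeval_X]

theorem algebraMap_algF_X (g : K⟮x⟯) :
    @algebraMap K[X] F _ _ (algF K x g) X = (g : F) := by
  rw [algebraMap_algF, aeval_X]

theorem algebraMap_algK_C (g : K⟮x⟯) (c : K) :
    @algebraMap K[X] K⟮x⟯ _ _ (algK K x g) (C c) = algebraMap K K⟮x⟯ c := by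
  rw [algebraMap_algK, aeval_C]

theorem algebraMap_algF_C (g : K⟮x⟯) (c : K) :
    @algebraMap K[X] F _ _ (algF K x g) (C c) = algebraMap K F c := by
  rw [algebraMap_algF, aeval_C]

theorem coe_aeval (g : K⟮x⟯) (p : K[X]) : ((aeval g p : K⟮x⟯) : F) = aeval (g : F) p := by
  have h := Polynomial.aeval_algHom_apply (IntermediateField.val K⟮x⟯) g p
  exact h.symm

/-- `K[X] → K⟮x⟯ → F` is a scalar tower. -/
theorem isScalarTower_algK_algF (g : K⟮x⟯) :
    letI := algK K x g
    letI := algF K x g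
    IsScalarTower K[X] K⟮x⟯ F := by
  letI := algK K x g
  letI := algF K x g
  refine IsScalarTower.of_algebraMap_eq fun p => ?_
  show aeval (g : F) p = ((aeval g p : K⟮x⟯) : F)
  rw [coe_aeval]

/-- `K → K[X] → K⟮x⟯` is a scalar tower. -/
theorem isScalarTower_K_algK (g : K⟮x⟯) :
    letI := algK K x g
    IsScalarTower K K[X] K⟮x⟯ := by
  letI := algK K x g
  refine IsScalarTower.of_algebraMap_eq fun c => ?_
  show algebraMap K K⟮x⟯ c = aeval g (algebraMap K K[X] c)
  rw [← C_eq_algebraMap, aeval_C]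

/-- `K → K[X] → F` is a scalar tower. -/
theorem isScalarTower_K_algF (g : K⟮x⟯) :
    letI := algF K x g
    IsScalarTower K K[X] F := by
  letI := algF K x g
  refine IsScalarTower.of_algebraMap_eq fun c => ?_
  show algebraMap K F c = aeval (g : F) (algebraMap K K[X] c)
  rw [← C_eq_algebraMap, aeval_C]

/-- `K⟮x⟯` is the fraction field of `K[X]` through `X ↦ g`, for every transcendental generator
`g` of `K⟮x⟯`. -/
theorem isFractionRing_algK (g : K⟮x⟯) (hg : Transcendental K (g : F))
    (hgen : K⟮(g : F)⟯ = K⟮x⟯) :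
    letI := algK K x g
    IsFractionRing K[X] K⟮x⟯ := by
  letI := algK K x g
  have hinj : Function.Injective (algebraMap K[X] K⟮x⟯) := by
    intro p q hpq
    have h1 : aeval (g : F) p = aeval (g : F) q := by
      rw [← coe_aeval, ← coe_aeval]
      exact congrArg _ hpq
    exact (transcendental_iff_injective.1 hg) h1
  haveI : FaithfulSMul K[X] K⟮x⟯ := (faithfulSMul_iff_algebraMap_injective _ _).2 hinj
  refine IsFractionRing.of_field K[X] K⟮x⟯ fun z => ?_
  have hz : (z : F) ∈ K⟮(g : F)⟯ := by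
    rw [hgen]
    exact z.2
  obtain ⟨r, s, hrs⟩ := (mem_adjoin_simple_iff K (z : F)).1 hz
  refine ⟨r, s, Subtype.ext ?_⟩
  show (z : F) = ((aeval g r / aeval g s : K⟮x⟯) : F)
  rw [IntermediateField.coe_div, coe_aeval, coe_aeval, hrs]

theorem adjoin_inv_eq' (y : F) : K⟮y⁻¹⟯ = K⟮y⟯ := by
  apply le_antisymm
  · rw [adjoin_simple_le_iff]
    exact inv_mem (mem_adjoin_simple_self K y)
  · rw [adjoin_simple_le_iff]
    have h := inv_mem (mem_adjoin_simple_self K y⁻¹)
    rwa [inv_inv] at h

theorem transcendental_inv' {y : F} (hy : Transcendental K y) : Transcendental K y⁻¹ := by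
  intro h
  exact hy (by simpa using h.inv)

/-- The chart `X ↦ x`: `K⟮x⟯ = Frac K[X]`. -/
theorem isFractionRing_gen (hx : Transcendental K x) :
    letI := algK K x (gen K x)
    IsFractionRing K[X] K⟮x⟯ :=
  isFractionRing_algK (gen K x) (by rw [coe_gen]; exact hx) (by rw [coe_gen])

/-- The chart `X ↦ x⁻¹`: `K⟮x⟯ = Frac K[X]`. -/
theorem isFractionRing_inv (hx : Transcendental K x) :
    letI := algK K x (genInv K x)
    IsFractionRing K[X] K⟮x⟯ :=
  isFractionRing_algK (genInv K x) (by rw [coe_genInv]; exact transcendental_inv' hx)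
    (by rw [coe_genInv, adjoin_inv_eq'])

theorem adjoin_algebraMap_X (g : K⟮x⟯) (hgen : K⟮(g : F)⟯ = K⟮x⟯) :
    K⟮@algebraMap K[X] F _ _ (algF K x g) X⟯ = K⟮x⟯ := by
  rw [algebraMap_algF_X, hgen]

theorem adjoin_algebraMap_X_gen : K⟮@algebraMap K[X] F _ _ (algF K x (gen K x)) X⟯ = K⟮x⟯ :=
  adjoin_algebraMap_X _ (by rw [coe_gen])

theorem adjoin_algebraMap_X_inv :
    K⟮@algebraMap K[X] F _ _ (algF K x (genInv K x)) X⟯ = K⟮x⟯ :=
  adjoin_algebraMap_X _ (by rw [coe_genInv, adjoin_inv_eq'])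

theorem algebraMap_X_gen : @algebraMap K[X] F _ _ (algF K x (gen K x)) X = x := by
  rw [algebraMap_algF_X, coe_gen]

theorem algebraMap_X_inv : @algebraMap K[X] F _ _ (algF K x (genInv K x)) X = x⁻¹ := by
  rw [algebraMap_algF_X, coe_genInv]

/-- Finiteness over `K⟮x⟯` transports to `K⟮algebraMap K[X] F X⟯` for the chart algebra. -/
theorem finiteDimensional_algF (g : K⟮x⟯) (hgen : K⟮(g : F)⟯ = K⟮x⟯)
    [hfd : FiniteDimensional K⟮x⟯ F] :
    FiniteDimensional K⟮@algebraMap K[X] F _ _ (algF K x g) X⟯ F :=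
  (adjoin_algebraMap_X g hgen).symm ▸ hfd

theorem finiteDimensional_gen [FiniteDimensional K⟮x⟯ F] :
    FiniteDimensional K⟮@algebraMap K[X] F _ _ (algF K x (gen K x)) X⟯ F :=
  finiteDimensional_algF _ (by rw [coe_gen])

theorem finiteDimensional_inv [FiniteDimensional K⟮x⟯ F] :
    FiniteDimensional K⟮@algebraMap K[X] F _ _ (algF K x (genInv K x)) X⟯ F :=
  finiteDimensional_algF _ (by rw [coe_genInv, adjoin_inv_eq'])

/-- Integrality over `K[X]` through the chart `X ↦ g` is integrality over `K[g]`. -/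
theorem isIntegral_algF_iff (g : K⟮x⟯) (y : F) :
    @IsIntegral K[X] F _ _ (algF K x g) y ↔ IsIntegral (Algebra.adjoin K {(g : F)}) y := by
  letI := algF K x g
  constructor
  · rintro ⟨p, hp, h⟩
    -- push the monic polynomial forward along `K[X] → K[g]`
    let φ : K[X] →+* Algebra.adjoin K {(g : F)} :=
      ((aeval (⟨(g : F), Algebra.self_mem_adjoin_singleton K _⟩ : Algebra.adjoin K {(g : F)}) :
        K[X] →ₐ[K] Algebra.adjoin K {(g : F)})).toRingHom
    refine ⟨p.map φ, hp.map φ, ?_⟩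
    rw [eval₂_map]
    have hcomp : (algebraMap (Algebra.adjoin K {(g : F)}) F).comp φ = algebraMap K[X] F := by
      apply RingHom.ext
      intro q
      show ((aeval (⟨(g : F), Algebra.self_mem_adjoin_singleton K _⟩ :
        Algebra.adjoin K {(g : F)}) q : Algebra.adjoin K {(g : F)}) : F) = aeval (g : F) q
      have h2 := Polynomial.aeval_algHom_apply (Algebra.adjoin K {(g : F)}).val
        (⟨(g : F), Algebra.self_mem_adjoin_singleton K _⟩ : Algebra.adjoin K {(g : F)}) q
      exact h2.symm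
    rw [hcomp]
    exact h
  · rintro ⟨p, hp, h⟩
    -- lift the coefficients along the surjection `K[X] → K[g]`
    have hsurj : ∀ c : Algebra.adjoin K {(g : F)}, ∃ q : K[X], aeval (g : F) q = (c : F) := by
      intro c
      have hc : (c : F) ∈ (aeval (g : F) : K[X] →ₐ[K] F).range := by
        rw [← Algebra.adjoin_singleton_eq_range_aeval]
        exact c.2
      obtain ⟨q, hq⟩ := hc
      exact ⟨q, hq⟩
    choose ψ hψ using hsurj
    let P : K[X][X] := X ^ p.natDegree + ∑ i ∈ Finset.range p.natDegree, C (ψ (p.coeff i)) * X ^ i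
    have hPm : P.Monic := by
      apply Polynomial.monic_X_pow_add
      refine lt_of_le_of_lt (Polynomial.degree_sum_le _ _) ?_
      rw [Finset.sup_lt_iff (by exact WithBot.bot_lt_coe _)]
      intro i hi
      refine lt_of_le_of_lt (Polynomial.degree_C_mul_X_pow_le _ _) ?_
      exact_mod_cast Finset.mem_range.1 hi
    refine ⟨P, hPm, ?_⟩
    have h3 : eval₂ (algebraMap (Algebra.adjoin K {(g : F)}) F) y p = 0 := h
    rw [hp.as_sum, eval₂_add, eval₂_pow, eval₂_X, eval₂_finsetSum] at h3
    show eval₂ (algebraMap K[X] F) y P = 0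
    rw [eval₂_add, eval₂_pow, eval₂_X, eval₂_finsetSum, ← h3]
    congr 1
    refine Finset.sum_congr rfl fun i _ => ?_
    rw [eval₂_mul, eval₂_mul, eval₂_C, eval₂_C, eval₂_pow, eval₂_pow, eval₂_X, eval₂_X]
    congr 1
    exact hψ _

end

end Fermat.Agent.Lib.FF.PolyChart
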