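import Mathlib
import Fermat.Agent.Lib.FF.CharP.Fund
import Fermat.Agent.Lib.FF.Ext

/-!
# FF-INT: the integral closure of `K[y]` in a function field, in arbitrary characteristic
-/

set_option autoImplicit false
set_option linter.style.haveILetI false

noncomputable section

namespace Fermat.Agent.Lib.FF.IntP

open AlgebraicCurve IntermediateField Fermat.Agent.S24
open scoped IntermediateField.algebraAdjoinAdjoin

variable {K F : Type*} [Field K] [Field F] [Algebra K F]

/-- Finiteness of the integral closure goes down along `A ≤ B = K[z]` with `z` integral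
over `A`. -/
theorem finite_integralClosure_of_le {A : Subalgebra K F} (z : F)
    (hAB : A ≤ Algebra.adjoin K {z}) (hzA : IsIntegral A z)
    (hfin : Module.Finite (Algebra.adjoin K {z}) (integralClosure (Algebra.adjoin K {z}) F)) :
    Module.Finite A (integralClosure A F) := by
  letI : Algebra A (Algebra.adjoin K {z}) := (Subalgebra.inclusion hAB).toRingHom.toAlgebra
  haveI : IsScalarTower A (Algebra.adjoin K {z}) F := IsScalarTower.of_algebraMap_eq (fun _ => rfl)
  let z' : Algebra.adjoin K {z} := ⟨z, Algebra.self_mem_adjoin_singleton K z⟩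
  have hz' : IsIntegral A z' :=
    (isIntegral_algHom_iff (IsScalarTower.toAlgHom A (Algebra.adjoin K {z}) F)
      Subtype.val_injective).1 hzA
  have htop : Algebra.adjoin A {z'} = ⊤ := by
    rw [eq_top_iff]
    rintro ⟨b, hb⟩ -
    induction hb using Algebra.adjoin_induction with
    | mem x hx =>
      rw [Set.mem_singleton_iff] at hx
      subst hx
      exact Algebra.subset_adjoin (Set.mem_singleton _)
    | algebraMap c =>
      have : (⟨algebraMap K F c, Subalgebra.algebraMap_mem _ c⟩ : Algebra.adjoin K {z})
          = algebraMap A (Algebra.adjoin K {z}) (algebraMap K A c) := rfl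
      rw [this]
      exact Subalgebra.algebraMap_mem _ _
    | add x y hx hy ihx ihy => exact add_mem ihx ihy
    | mul x y hx hy ihx ihy => exact mul_mem ihx ihy
  haveI hBfin : Module.Finite A (Algebra.adjoin K {z}) := by
    have := hz'.fg_adjoin_singleton
    rw [htop, Algebra.top_toSubmodule] at this
    exact Module.finite_def.2 this
  haveI : Algebra.IsIntegral A (Algebra.adjoin K {z}) := Algebra.IsIntegral.of_finite A _
  haveI : Module.Finite A (integralClosure (Algebra.adjoin K {z}) F) :=
    Module.Finite.trans (Algebra.adjoin K {z}) _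
  let φ : integralClosure (Algebra.adjoin K {z}) F →ₗ[A] integralClosure A F :=
    { toFun := fun m => ⟨m.1, isIntegral_trans (R := A) (A := Algebra.adjoin K {z}) m.1 m.2⟩
      map_add' := fun _ _ => rfl
      map_smul' := fun _ _ => rfl }
  refine Module.Finite.of_surjective φ ?_
  rintro ⟨f, hf⟩
  exact ⟨⟨f, IsIntegral.tower_top hf⟩, rfl⟩

/-- `K[y]` is a principal ideal domain for transcendental `y`. -/
theorem isPrincipalIdealRing_adjoin (y : F) (hy : Transcendental K y) :
    IsPrincipalIdealRing (Algebra.adjoin K {y}) :=
  let e := Polynomial.algEquivOfTranscendental K y hy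
  IsPrincipalIdealRing.of_surjective e.toRingEquiv e.surjective

/-- Finiteness of the integral closure of `K[y]`, separable case (Mathlib). -/
theorem finite_integralClosure_of_isSeparable (y : F) (hy : Transcendental K y)
    [FiniteDimensional K⟮y⟯ F] [Algebra.IsSeparable K⟮y⟯ F] :
    Module.Finite (Algebra.adjoin K {y}) (integralClosure (Algebra.adjoin K {y}) F) := by
  haveI := isPrincipalIdealRing_adjoin y hy
  exact IsIntegralClosure.finite (Algebra.adjoin K {y}) K⟮y⟯ F _

/-- Induction on the degree `[F : K(y)]`, with a fixed separating element `x`. -/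
theorem finite_integralClosure_aux [PerfectField K] (p : ℕ) [Fact p.Prime] [CharP K p] (x : F)
    [FiniteDimensional K⟮x⟯ F] [Algebra.IsSeparable K⟮x⟯ F] (n : ℕ) :
    ∀ y : F, Transcendental K y → ∀ [FiniteDimensional K⟮y⟯ F], Module.finrank K⟮y⟯ F ≤ n →
      Module.Finite (Algebra.adjoin K {y}) (integralClosure (Algebra.adjoin K {y}) F) := by
  have hp : p.Prime := Fact.out
  induction n with
  | zero =>
    intro y _ _ hle
    have hpos : 0 < Module.finrank K⟮y⟯ F := Module.finrank_pos
    omega
  | succ n ih =>
    intro y hy _ hle
    rcases CharP.exists_pow_eq_or_isSeparable (K := K) p x y with ⟨z, hzy⟩ | hsep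
    · subst hzy
      have hz : Transcendental K z := fun h => hy (h.pow p)
      haveI : FiniteDimensional K⟮z⟯ F := finiteDimensional_of_transcendental x hz
      have hdeg : Module.finrank K⟮z ^ p⟯ F = p * Module.finrank K⟮z⟯ F :=
        CharP.finrank_adjoin_pow p hz
      have hpos : 0 < Module.finrank K⟮z⟯ F := Module.finrank_pos
      have h2 : 2 * Module.finrank K⟮z⟯ F ≤ p * Module.finrank K⟮z⟯ F :=
        Nat.mul_le_mul_right _ hp.two_le
      have hle' : Module.finrank K⟮z⟯ F ≤ n := by omega
      have hfin := ih z hz hle'
      refine finite_integralClosure_of_le z ?_ ?_ hfin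
      · refine Algebra.adjoin_le ?_
        intro a ha
        rw [Set.mem_singleton_iff] at ha
        subst ha
        exact pow_mem (Algebra.self_mem_adjoin_singleton K z) p
      · refine ⟨Polynomial.X ^ p - Polynomial.C
          (⟨z ^ p, Algebra.self_mem_adjoin_singleton K (z ^ p)⟩ : Algebra.adjoin K {z ^ p}),
          Polynomial.monic_X_pow_sub_C _ hp.ne_zero, ?_⟩
        rw [Polynomial.eval₂_sub, Polynomial.eval₂_pow, Polynomial.eval₂_X, Polynomial.eval₂_C]
        exact sub_self _
    · exact finite_integralClosure_of_isSeparable y hy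

/-- **Finiteness of the integral closure of `K[y]` in a function field, in any
characteristic** (`K` perfect; no separability hypothesis on `F / K(y)`). -/
theorem finite_integralClosure [PerfectField K] (y : F) (hy : Transcendental K y)
    [FiniteDimensional K⟮y⟯ F] :
    Module.Finite (Algebra.adjoin K {y}) (integralClosure (Algebra.adjoin K {y}) F) := by
  obtain _ | ⟨p, hp, hpK⟩ := CharP.exists' K
  · haveI : CharZero K⟮y⟯ := charZero_of_injective_algebraMap (algebraMap K K⟮y⟯).injective
    exact finite_integralClosure_of_isSeparable y hy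
  · obtain ⟨t, ht, hsep⟩ := CharP.exists_separating y hy
    haveI : FiniteDimensional K⟮t⟯ F := finiteDimensional_of_transcendental y ht
    exact finite_integralClosure_aux p t (Module.finrank K⟮y⟯ F) y hy le_rfl

/-- The fraction field of the integral closure of `K[y]` in `F` is `F`. -/
theorem isFractionRing (y : F) [FiniteDimensional K⟮y⟯ F] :
    IsFractionRing (integralClosure (Algebra.adjoin K {y}) F) F :=
  integralClosure.isFractionRing_of_finite_extension K⟮y⟯ F

/-- **The integral closure of `K[y]` in a function field is a Dedekind domain, in any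
characteristic.** -/
theorem isDedekindDomain [PerfectField K] (y : F) (hy : Transcendental K y)
    [FiniteDimensional K⟮y⟯ F] :
    IsDedekindDomain (integralClosure (Algebra.adjoin K {y}) F) := by
  haveI := isPrincipalIdealRing_adjoin y hy
  haveI := finite_integralClosure y hy
  haveI : IsNoetherianRing (integralClosure (Algebra.adjoin K {y}) F) :=
    IsNoetherianRing.of_finite (Algebra.adjoin K {y}) _
  haveI : IsIntegrallyClosed (integralClosure (Algebra.adjoin K {y}) F) :=
    integralClosure.isIntegrallyClosedOfFiniteExtension K⟮y⟯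
  haveI : Ring.DimensionLEOne (integralClosure (Algebra.adjoin K {y}) F) :=
    Ring.DimensionLEOne.integralClosure (Algebra.adjoin K {y}) F
  exact { }

/-- The integral closure of `K[y]` is a free `K[y]`-module. -/
theorem free_integralClosure [PerfectField K] (y : F) (hy : Transcendental K y)
    [FiniteDimensional K⟮y⟯ F] :
    Module.Free (Algebra.adjoin K {y}) (integralClosure (Algebra.adjoin K {y}) F) := by
  haveI := isPrincipalIdealRing_adjoin y hy
  haveI := finite_integralClosure y hy
  infer_instance

/-- The rank of the integral closure of `K[y]` over `K[y]` is `[F : K(y)]`. -/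
theorem finrank_integralClosure [PerfectField K] (y : F) (hy : Transcendental K y)
    [FiniteDimensional K⟮y⟯ F] :
    Module.finrank (Algebra.adjoin K {y}) (integralClosure (Algebra.adjoin K {y}) F)
      = Module.finrank K⟮y⟯ F := by
  haveI := isPrincipalIdealRing_adjoin y hy
  haveI := finite_integralClosure y hy
  haveI := free_integralClosure y hy
  have : IsLocalization (Algebra.algebraMapSubmonoid
      (integralClosure (Algebra.adjoin K {y}) F) (nonZeroDivisors (Algebra.adjoin K {y}))) F :=
    IsIntegralClosure.isLocalization (Algebra.adjoin K {y}) K⟮y⟯ F _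
  let b := Module.Basis.localizationLocalization K⟮y⟯ (nonZeroDivisors (Algebra.adjoin K {y})) F
    (Module.Free.chooseBasis (Algebra.adjoin K {y}) (integralClosure (Algebra.adjoin K {y}) F))
  rw [Module.finrank_eq_card_chooseBasisIndex, Module.finrank_eq_card_basis b]

/-! ## The dictionary: places with `0 ≤ ord x` ↔ nonzero primes of the integral closure -/

section Dict

open IsDedekindDomain WithZero

/-- The constants lie in the integral closure. -/
theorem algebraMap_mem_range (x : F) (a : K) :
    algebraMap K F a ∈ (algebraMap (integralClosure (Algebra.adjoin K {x}) F) F).range :=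
  ⟨⟨algebraMap K F a,
    (integralClosure (Algebra.adjoin K {x}) F).algebraMap_mem (algebraMap K _ a)⟩, rfl⟩

/-- The element `x` of the integral closure of `K[x]`. -/
def xInt (K : Type*) {F : Type*} [Field K] [Field F] [Algebra K F] (x : F) :
    integralClosure (Algebra.adjoin K {x}) F :=
  ⟨x, (integralClosure (Algebra.adjoin K {x}) F).algebraMap_mem
    ⟨x, Algebra.self_mem_adjoin_singleton K x⟩⟩

@[simp] theorem coe_xInt (x : F) : ((xInt K x : integralClosure (Algebra.adjoin K {x}) F) : F) = x :=
  rfl

/-- Elements integral over `K[x]` are regular at every place where `x` is. -/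
theorem mem_of_isIntegral (x : F) (v : Place K F) (hv : 0 ≤ v.ord x) {f : F}
    (hf : IsIntegral (Algebra.adjoin K {x}) f) : f ∈ v.toValuationSubring := by
  refine mem_valuationSubring_of_isIntegral v.toValuationSubring
    (A := Algebra.adjoin K {x}) ?_ hf
  rintro ⟨a, ha⟩
  show a ∈ v.toValuationSubring
  induction ha using Algebra.adjoin_induction with
  | mem y hy =>
    rw [Set.mem_singleton_iff] at hy
    subst hy
    exact mem_of_ord_nonneg v hv
  | algebraMap c => exact v.algebraMap_mem' c
  | add y z _ _ ihy ihz => exact add_mem ihy ihz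
  | mul y z _ _ ihy ihz => exact mul_mem ihy ihz

/-- A place over a finite value `γ` of `x` is a place at which `x` is regular. -/
theorem ord_nonneg_of_mem_placesOver {x : F} {γ : K} {v : Place K F} (hv : v ∈ placesOver x γ) :
    0 ≤ v.ord x := by
  have h1 : x - algebraMap K F γ ∈ v.toValuationSubring :=
    mem_of_ord_nonneg v (le_of_lt (mem_placesOver.1 hv))
  have h2 : x = (x - algebraMap K F γ) + algebraMap K F γ := by ring
  rw [h2]
  exact ord_nonneg_of_mem v (add_mem h1 (v.algebraMap_mem' γ))

variable [PerfectField K] (x : F) (hx : Transcendental K x) [FiniteDimensional K⟮x⟯ F]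

/-- The nonzero primes of the integral closure of `K[x]` in `F`. -/
abbrev Primes (K : Type*) {F : Type*} [Field K] [Field F] [Algebra K F] (x : F) : Type _ :=
  HeightOneSpectrum (integralClosure (Algebra.adjoin K {x}) F)

include hx

/-- The place of a nonzero prime of the integral closure of `K[x]`. -/
def placeOf (P : Primes K x) : Place K F :=
  haveI := isDedekindDomain x hx
  haveI := isFractionRing (K := K) x
  placeOfPrime (algebraMap_mem_range x) P

theorem placeOf_injective : Function.Injective (placeOf x hx) := by
  haveI := isDedekindDomain x hx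
  haveI := isFractionRing (K := K) x
  exact ExtNorm.placeOfPrime_injective (algebraMap_mem_range x)

/-- Functions integral over `K[x]` are regular at the place of a prime. -/
theorem ord_placeOf_nonneg (P : Primes K x) (c : integralClosure (Algebra.adjoin K {x}) F) :
    0 ≤ (placeOf x hx P).ord (c : F) := by
  haveI := isDedekindDomain x hx
  haveI := isFractionRing (K := K) x
  exact ord_nonneg_of_mem _
    ((mem_placeOfPrime_iff (algebraMap_mem_range x) P _).2 (P.valuation_le_one c))

theorem ord_placeOf_self_nonneg (P : Primes K x) : 0 ≤ (placeOf x hx P).ord x :=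
  ord_placeOf_nonneg x hx P (xInt K x)

/-- Membership in a prime is positivity of the order at its place. -/
theorem mem_iff_ord_pos (P : Primes K x) {c : integralClosure (Algebra.adjoin K {x}) F}
    (hc : c ≠ 0) : c ∈ P.asIdeal ↔ 0 < (placeOf x hx P).ord (c : F) := by
  haveI := isDedekindDomain x hx
  haveI := isFractionRing (K := K) x
  exact ExtNorm.mem_asIdeal_iff_ord_pos (algebraMap_mem_range x) P hc

theorem mem_iff_ord_pos' (P : Primes K x) (c : integralClosure (Algebra.adjoin K {x}) F) :
    c ∈ P.asIdeal ↔ (0 < (placeOf x hx P).ord (c : F) ∨ c = 0) := by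
  by_cases hc : c = 0
  · simp [hc]
  · simp [hc, mem_iff_ord_pos x hx P hc]

/-- Every place at which `x` is regular is the place of a (unique) prime. -/
theorem exists_placeOf_eq (v : Place K F) (hv : 0 ≤ v.ord x) :
    ∃ P : Primes K x, placeOf x hx P = v := by
  haveI := isDedekindDomain x hx
  haveI := isFractionRing (K := K) x
  obtain ⟨P, hP, -⟩ := ExtNorm.exists_prime_of_le (algebraMap_mem_range x) v
    (fun c => mem_of_isIntegral x v hv c.2)
  exact ⟨P, hP⟩

theorem range_placeOf : Set.range (placeOf x hx) = {v : Place K F | 0 ≤ v.ord x} := by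
  ext v
  constructor
  · rintro ⟨P, rfl⟩
    exact ord_placeOf_self_nonneg x hx P
  · intro hv
    exact exists_placeOf_eq x hx v hv

/-- **The dictionary**: nonzero primes of the integral closure of `K[x]` ↔ places at which `x`
is regular. -/
def primesEquiv : Primes K x ≃ {v : Place K F // 0 ≤ v.ord x} :=
  Equiv.ofBijective (fun P => ⟨placeOf x hx P, ord_placeOf_self_nonneg x hx P⟩)
    ⟨fun P Q h => placeOf_injective x hx (congrArg Subtype.val h),
     fun v => by
      obtain ⟨P, hP⟩ := exists_placeOf_eq x hx v.1 v.2
      exact ⟨P, Subtype.ext hP⟩⟩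

@[simp] theorem coe_primesEquiv (P : Primes K x) :
    ((primesEquiv x hx P : {v : Place K F // 0 ≤ v.ord x}) : Place K F) = placeOf x hx P := rfl

/-- **Holomorphy ring**: a function is integral over `K[x]` iff it is regular at every place at
which `x` is regular. -/
theorem isIntegral_iff_ord_nonneg (f : F) :
    IsIntegral (Algebra.adjoin K {x}) f ↔ ∀ v : Place K F, 0 ≤ v.ord x → 0 ≤ v.ord f := by
  haveI := isDedekindDomain x hx
  haveI := isFractionRing (K := K) x
  constructor
  · intro hf v hv
    exact ord_nonneg_of_mem v (mem_of_isIntegral x v hv hf)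
  · intro h
    have hmem : f ∈ (algebraMap (integralClosure (Algebra.adjoin K {x}) F) F).range := by
      refine HeightOneSpectrum.mem_integers_of_valuation_le_one F f (fun P => ?_)
      exact (mem_placeOfPrime_iff (algebraMap_mem_range x) P f).1
        (mem_of_ord_nonneg _ (h _ (ord_placeOf_self_nonneg x hx P)))
    obtain ⟨c, rfl⟩ := hmem
    exact c.2

theorem mem_integralClosure_iff (f : F) :
    f ∈ integralClosure (Algebra.adjoin K {x}) F ↔
      ∀ v : Place K F, 0 ≤ v.ord x → 0 ≤ v.ord f :=
  isIntegral_iff_ord_nonneg x hx f

omit [PerfectField K] [FiniteDimensional K⟮x⟯ F] in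
/-- The integral closure of `K[x]` is not a field. -/
theorem not_isField : ¬ IsField (integralClosure (Algebra.adjoin K {x}) F) := by
  intro hS
  have h1 : IsField (Algebra.adjoin K {x}) :=
    isField_of_isIntegral_of_isField
      (R := Algebra.adjoin K {x}) (S := integralClosure (Algebra.adjoin K {x}) F)
      (fun a b h => Subtype.ext (congrArg (fun c : integralClosure (Algebra.adjoin K {x}) F =>
        (c : F)) h)) hS
  let e := Polynomial.algEquivOfTranscendental K x hx
  exact Polynomial.not_isField K (e.toRingEquiv.toMulEquiv.isField h1)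

/-- The fibre over `γ`: the primes containing `x - γ` are those whose place lies over `γ`. -/
theorem sub_mem_iff (P : Primes K x) (γ : K) :
    xInt K x - algebraMap K _ γ ∈ P.asIdeal ↔ placeOf x hx P ∈ placesOver x γ := by
  have hne : xInt K x - algebraMap K (integralClosure (Algebra.adjoin K {x}) F) γ ≠ 0 := by
    intro h
    have h' : x - algebraMap K F γ = 0 :=
      congrArg (fun c : integralClosure (Algebra.adjoin K {x}) F => (c : F)) h
    rw [sub_eq_zero] at h'
    exact hx (h' ▸ isAlgebraic_algebraMap γ)
  rw [mem_iff_ord_pos x hx P hne, mem_placesOver]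
  rfl

/-- **The fibre over `γ`**: the primes of the integral closure of `K[x]` containing `x - γ`
correspond bijectively to the places over `γ`. -/
theorem bijOn_placeOf (γ : K) :
    Set.BijOn (placeOf x hx)
      {P : Primes K x | xInt K x - algebraMap K _ γ ∈ P.asIdeal} (placesOver x γ) := by
  refine ⟨fun P hP => (sub_mem_iff x hx P γ).1 hP, (placeOf_injective x hx).injOn, ?_⟩
  intro v hv
  obtain ⟨P, rfl⟩ := exists_placeOf_eq x hx v (ord_nonneg_of_mem_placesOver hv)
  exact ⟨P, (sub_mem_iff x hx P γ).2 hv, rfl⟩

/-- **The dictionary for maximal ideals**: maximal ideals of the integral closure of `K[x]` ↔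
places at which `x` is regular. -/
def maxEquiv :
    MaximalSpectrum (integralClosure (Algebra.adjoin K {x}) F) ≃
      {v : Place K F // 0 ≤ v.ord x} :=
  haveI := isDedekindDomain x hx
  (HeightOneSpectrum.equivMaximalSpectrum (not_isField x hx)).symm.trans (primesEquiv x hx)

/-- Membership in a maximal ideal is positivity of the order at the corresponding place. -/
theorem mem_asIdeal_iff (M : MaximalSpectrum (integralClosure (Algebra.adjoin K {x}) F))
    (c : integralClosure (Algebra.adjoin K {x}) F) :
    c ∈ M.asIdeal ↔ (0 < (maxEquiv x hx M).1.ord (c : F) ∨ c = 0) := by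
  haveI := isDedekindDomain x hx
  exact mem_iff_ord_pos' x hx
    ((HeightOneSpectrum.equivMaximalSpectrum (not_isField x hx)).symm M) c

/-- The maximal ideal of a place at which `x` is regular (its centre on the integral closure). -/
theorem mem_maxEquiv_symm_iff (v : {v : Place K F // 0 ≤ v.ord x})
    (c : integralClosure (Algebra.adjoin K {x}) F) :
    c ∈ ((maxEquiv x hx).symm v).asIdeal ↔ (0 < v.1.ord (c : F) ∨ c = 0) := by
  rw [mem_asIdeal_iff x hx, Equiv.apply_symm_apply]

/-- **Residue fields**: over an algebraically closed field, every element of the integral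
closure of `K[x]` is congruent to a constant modulo every nonzero prime. -/
theorem exists_sub_mem [IsAlgClosed K] (P : Primes K x)
    (s : integralClosure (Algebra.adjoin K {x}) F) :
    ∃ c : K, s - algebraMap K _ c ∈ P.asIdeal := by
  haveI : Algebra.IsAlgebraic K⟮x⟯ F := Algebra.IsAlgebraic.of_finite _ _
  set v := placeOf x hx P with hv
  have hs : (s : F) ∈ v.toValuationSubring := mem_of_ord_nonneg v (ord_placeOf_nonneg x hx P s)
  obtain ⟨c, hc⟩ := residueTrivial x v ⟨s, hs⟩
  refine ⟨c, ?_⟩
  rw [mem_iff_ord_pos' x hx P]
  by_cases h0 : s - algebraMap K (integralClosure (Algebra.adjoin K {x}) F) c = 0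
  · exact Or.inr h0
  left
  have h0' : (s : F) - algebraMap K F c ≠ 0 := fun h => h0 (Subtype.ext h)
  have hmem : (s : F) - algebraMap K F c ∈ v.toValuationSubring :=
    sub_mem hs (v.algebraMap_mem' c)
  by_contra hle
  rw [not_lt] at hle
  have hge : 0 ≤ v.ord ((s : F) - algebraMap K F c) := ord_nonneg_of_mem v hmem
  have hinv : ((s : F) - algebraMap K F c)⁻¹ ∈ v.toValuationSubring := by
    apply mem_of_ord_nonneg
    rw [v.ord_inv]
    have : v.ord ((s : F) - algebraMap K F c) ≤ 0 := hle
    omega
  rw [IsLocalRing.mem_maximalIdeal, mem_nonunits_iff] at hc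
  apply hc
  refine IsUnit.of_mul_eq_one (⟨((s : F) - algebraMap K F c)⁻¹, hinv⟩ : v.toValuationSubring) ?_
  apply Subtype.ext
  show ((s : F) - algebraMap K F c) * ((s : F) - algebraMap K F c)⁻¹ = 1
  exact mul_inv_cancel₀ h0'

end Dict

end Fermat.Agent.Lib.FF.IntP
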