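import Mathlib
import Fermat.Agent.Lib.FF.RRApprox
import Fermat.Agent.Lib.FF.RRNonSpecial

/-!
# Base-point freeness, transporters and general position (char-free, `IsFF1` form)

Textbook facts on Riemann–Roch spaces of a function field `F/K` in the setting `IsFF1`,
parametrised by a *non-speciality bound* `c` (`NS K F c`: every divisor of degree `≥ c` has
`H¹ = 0`; such a `c` always exists, and `c = 2g - 1` works whenever Serre duality is available).

* `NS`, `exists_NS`, `NS.finrank_L`, `NS.genus_le`
* `Bpf D` (base-point freeness), `bpf_of_degree` : `c + 1 ≤ deg D → Bpf D`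
* `mul_mem_L_add`, `mem_L_sub_of_mul_mem` (transporter), `transporter_eq`
* `exists_general_position` : finitely many divisors of degree `0` become non-special with
  one-dimensional `L` after adding `g` common general places.
-/

set_option autoImplicit false

noncomputable section

namespace Fermat.Agent.Lib.FF.BasePoint

open AlgebraicCurve WithZero Module

variable {K F : Type*} [Field K] [Field F] [Algebra K F] {x : F}

/-! ### non-speciality bounds -/

/-- `c` is a non-speciality bound: `H¹(D) = 0` for every divisor of degree `≥ c`. -/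
def NS (K F : Type*) [Field K] [Field F] [Algebra K F] (c : ℤ) : Prop :=
  ∀ D : Divisor K F, c ≤ Divisor.degree D → RR.MD D = ⊤

theorem NS.mono {c c' : ℤ} (h : NS K F c) (hcc : c ≤ c') : NS K F c' :=
  fun D hD => h D (hcc.trans hD)

/-- A non-speciality bound exists in the setting `IsFF1`. -/
theorem exists_NS (h : IsFF1 K F x) : ∃ c : ℤ, NS K F c := by
  obtain ⟨c, hc⟩ := h.exists_degree_bound
  exact ⟨c, fun D hD => (hc D hD).1⟩

theorem MD_eq_top_iff (h : IsFF1 K F x) (D : Divisor K F) :
    RR.MD D = ⊤ ↔ RR.cD D = genusFF K F - 1 := by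
  have := h.hasPrincipalDivisors
  exact RR.MD_eq_top_iff h.resK h.finite_L_zero h.finrank_L_zero h.cD_le D

theorem cD_le (h : IsFF1 K F x) (D : Divisor K F) : RR.cD D ≤ genusFF K F - 1 := by
  have := h.hasPrincipalDivisors
  have h1 := RR.finrank_H1_eq h.resK h.finite_L_zero h.finrank_L_zero h.cD_le D
  have h2 : (0 : ℤ) ≤ (Module.finrank K (H1 D) : ℤ) := Int.natCast_nonneg _
  linarith

theorem cD_mono (h : IsFF1 K F x) {D D' : Divisor K F} (hle : D ≤ D') : RR.cD D ≤ RR.cD D' :=
  RR.cD_mono h.resK h.finite_L_zero hle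

/-- `dim L(D) = deg D + 1 - g` when `H¹(D) = 0`. -/
theorem finrank_L_of_MD (h : IsFF1 K F x) {D : Divisor K F} (hD : RR.MD D = ⊤) :
    (finrank K (riemannRochSpace D) : ℤ) = Divisor.degree D + 1 - genusFF K F := by
  have h1 := (MD_eq_top_iff h D).1 hD
  unfold RR.cD at h1
  linarith

/-- `dim L(D) = deg D + 1 - g` above a non-speciality bound. -/
theorem NS.finrank_L {c : ℤ} (hc : NS K F c) (h : IsFF1 K F x) {D : Divisor K F}
    (hD : c ≤ Divisor.degree D) :
    (finrank K (riemannRochSpace D) : ℤ) = Divisor.degree D + 1 - genusFF K F :=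
  finrank_L_of_MD h (hc D hD)

theorem degree_sub_single (h : IsFF1 K F x) (D : Divisor K F) (P : Place K F) :
    Divisor.degree (D - Finsupp.single P (1 : ℤ)) = Divisor.degree D - 1 := by
  rw [map_sub, Divisor.degree_single, h.deg_eq_one P]
  simp

theorem addPl_sub_single (D : Divisor K F) (P : Place K F) :
    RR.addPl (D - Finsupp.single P (1 : ℤ)) P = D := by
  unfold RR.addPl
  abel

theorem sub_single_apply_self (D : Divisor K F) (P : Place K F) :
    (D - Finsupp.single P (1 : ℤ)) P + 1 = D P := by
  rw [Finsupp.sub_apply, Finsupp.single_eq_same]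
  ring

/-- A non-speciality bound is at least `g - 1`. -/
theorem NS.genus_le {c : ℤ} (hc : NS K F c) (h : IsFF1 K F x) : (genusFF K F : ℤ) - 1 ≤ c := by
  obtain ⟨P⟩ := h.exists_place
  have hdeg : Divisor.degree (Finsupp.single P c : Divisor K F) = c := by
    rw [Divisor.degree_single, h.deg_eq_one P]
    simp
  have h1 := hc.finrank_L h (D := Finsupp.single P c) hdeg.ge
  rw [hdeg] at h1
  have h2 : (0 : ℤ) ≤ (finrank K (riemannRochSpace (Finsupp.single P c : Divisor K F)) : ℤ) :=
    Int.natCast_nonneg _
  linarith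

theorem NS.neg_one_le {c : ℤ} (hc : NS K F c) (h : IsFF1 K F x) : -1 ≤ c := by
  have := hc.genus_le h
  have h0 : (0 : ℤ) ≤ (genusFF K F : ℤ) := Int.natCast_nonneg _
  linarith

/-! ### base-point freeness -/

/-- `D` is base-point free: at every place some element of `L(D)` has exact pole order. -/
def Bpf (D : Divisor K F) : Prop :=
  ∀ P : Place K F, ∃ f ∈ riemannRochSpace D, P.adicValuation f = exp (D P)

/-- Divisors of degree `≥ c + 1` are base-point free. -/
theorem bpf_of_degree (h : IsFF1 K F x) {c : ℤ} (hc : NS K F c) {D : Divisor K F}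
    (hD : c + 1 ≤ Divisor.degree D) : Bpf D := by
  intro P
  set D' : Divisor K F := D - Finsupp.single P (1 : ℤ) with hD'
  have hdeg' : Divisor.degree D' = Divisor.degree D - 1 := degree_sub_single h D P
  have hadd : RR.addPl D' P = D := addPl_sub_single D P
  have h1 := hc.finrank_L h (D := D') (by rw [hdeg']; linarith)
  have h2 := hc.finrank_L h (D := D) (by linarith)
  have hne : ∃ f ∈ riemannRochSpace D, f ∉ riemannRochSpace D' := by
    by_contra hcon
    push Not at hcon
    have hle : riemannRochSpace D ≤ riemannRochSpace D' := hcon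
    have heq : riemannRochSpace D = riemannRochSpace D' :=
      le_antisymm hle (by rw [← hadd]; exact RR.L_mono (RR.le_addPl D' P))
    rw [heq, h1, hdeg'] at h2
    linarith
  obtain ⟨f, hf, hf'⟩ := hne
  refine ⟨f, hf, ?_⟩
  have := RR.val_eq_of_mem_of_notMem D' (v := P) (by rw [hadd]; exact hf) hf'
  rw [this, sub_single_apply_self]

/-- An element of `L(D)` with exact pole order at `P` is not in `L(D - P)`. -/
theorem notMem_of_val_eq {D : Divisor K F} {P : Place K F} {f : F}
    (hf : P.adicValuation f = exp (D P)) :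
    f ∉ riemannRochSpace (D - Finsupp.single P (1 : ℤ)) := by
  intro hmem
  have h1 := hmem P
  rw [hf, exp_le_exp, Finsupp.sub_apply, Finsupp.single_eq_same] at h1
  linarith

/-! ### products and transporters -/

theorem mul_mem_L_add {A B : Divisor K F} {f g : F} (hf : f ∈ riemannRochSpace A)
    (hg : g ∈ riemannRochSpace B) : f * g ∈ riemannRochSpace (A + B) := by
  intro v
  rw [map_mul, Finsupp.add_apply, exp_add]
  exact mul_le_mul' (hf v) (hg v)

theorem L_mul_le (A B : Divisor K F) :
    riemannRochSpace A * riemannRochSpace B ≤ riemannRochSpace (A + B) := by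
  rw [Submodule.mul_le]
  intro f hf g hg
  exact mul_mem_L_add hf hg

/-- **Transporter lemma.**  If `L(G)` is base-point free and `θ · L(G) ⊆ L(C)`, then
`θ ∈ L(C - G)`. -/
theorem mem_L_sub_of_mul_mem {G C : Divisor K F} (hG : Bpf G) {θ : F}
    (hθ : ∀ f ∈ riemannRochSpace G, θ * f ∈ riemannRochSpace C) :
    θ ∈ riemannRochSpace (C - G) := by
  intro P
  by_cases hθ0 : θ = 0
  · rw [hθ0, map_zero]
    exact zero_le
  obtain ⟨f, hf, hfP⟩ := hG P
  have h1 := hθ f hf P
  rw [map_mul, hfP, P.adicValuation_eq_exp_neg_ord hθ0, ← exp_add, exp_le_exp] at h1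
  rw [P.adicValuation_eq_exp_neg_ord hθ0, exp_le_exp, Finsupp.sub_apply]
  linarith

theorem mul_mem_of_mem_L_sub {G C : Divisor K F} {θ : F}
    (hθ : θ ∈ riemannRochSpace (C - G)) {f : F} (hf : f ∈ riemannRochSpace G) :
    θ * f ∈ riemannRochSpace C := by
  have := mul_mem_L_add hθ hf
  rwa [sub_add_cancel] at this

/-- The transporter of a base-point free `L(G)` into `L(C)` is `L(C - G)`. -/
theorem transporter_iff {G C : Divisor K F} (hG : Bpf G) (θ : F) :
    (∀ f ∈ riemannRochSpace G, θ * f ∈ riemannRochSpace C) ↔ θ ∈ riemannRochSpace (C - G) :=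
  ⟨mem_L_sub_of_mul_mem hG, fun h _ hf => mul_mem_of_mem_L_sub h hf⟩

end Fermat.Agent.Lib.FF.BasePoint
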