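/-
The place "at the cusp ∞" of a field of Laurent series functions: the `q`-order.

Generic: for an intermediate field `F` of `K((q))/K` on which the `q`-order is non-trivial, the
`q`-order is a (raw) valuation trivial on `K`, hence defines a place `placeInf F _` of `F/K`
(Prelude's `AlgebraicCurve.Place`).  If `F` contains an element of order `-1` (e.g. `J(q)`) then
`(placeInf F _).ord f = order f` exactly.  A semilinear automorphism preserving the `q`-order
fixes this place.

Instances:
* `placeInfL L N : Place L (L·F_N)` for `L ⊇ ℚ`, with `placeInfL_ord`, and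
  `arithmeticGalois_smul_placeInfL` (fixed by the arithmetic Galois action);
* `placeInfC k N : Place k (modularFunctionFieldFullC k N)` for any field `k`, with
  `placeInfC_ord`.
-/
import Mathlib
import Fermat.Agent.S24.Counting
import Fermat.Agent.S24.PlaceBasic
import Fermat.Agent.S28.ValInd
import Fermat.Agent.Lib.Red.Level
import Fermat.Prelude.Def_ModularCurve_ArithmeticGalois
import Fermat.Agent.Lib.Descent.Laurent

set_option autoImplicit false

namespace Fermat.Agent.Lib.FF.PlaceInf

open AlgebraicCurve ModularCurve Fermat.Agent.S24 Fermat.Agent.S28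

noncomputable section

section Generic

variable {K : Type*} [Field K] (F : IntermediateField K (LaurentSeries K))

/-- The `q`-order of a function. -/
def ordW (f : F) : ℤ := (f : LaurentSeries K).order

theorem ordW_def (f : F) : ordW F f = (f : LaurentSeries K).order := rfl

theorem coe_ne_zero {f : F} (hf : f ≠ 0) : (f : LaurentSeries K) ≠ 0 := fun h =>
  hf (Subtype.ext h)

/-- The `q`-order is a raw valuation trivial on the constants. -/
theorem isRawVal_ordW : Counting.IsRawVal K (ordW F) where
  map_mul f g hf hg := by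
    show ((f * g : F) : LaurentSeries K).order = _
    rw [MulMemClass.coe_mul]
    exact HahnSeries.order_mul (coe_ne_zero F hf) (coe_ne_zero F hg)
  map_add f g _ _ hfg := by
    show min (f : LaurentSeries K).order (g : LaurentSeries K).order ≤
      ((f + g : F) : LaurentSeries K).order
    rw [AddMemClass.coe_add]
    exact HahnSeries.min_order_le_order_add (by
      rw [← AddMemClass.coe_add]
      exact coe_ne_zero F hfg)
  map_algebraMap a ha := by
    show ((algebraMap K F a : F) : LaurentSeries K).order = 0
    have h1 : ((algebraMap K F a : F) : LaurentSeries K) =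
        algebraMap K (LaurentSeries K) a := rfl
    rw [h1, algebraMap_laurentSeries_eq_single]
    exact HahnSeries.order_single ha

/-- **The place at `∞`** (the `q`-order), for a field of Laurent series on which the order is
not identically zero. -/
def placeInf (hnt : ∃ f : F, f ≠ 0 ∧ (f : LaurentSeries K).order ≠ 0) : Place K F :=
  (isRawVal_ordW F).place hnt

/-- The `q`-order is a positive multiple of the order at `placeInf`. -/
theorem exists_mul_ord (hnt : ∃ f : F, f ≠ 0 ∧ (f : LaurentSeries K).order ≠ 0) :
    ∃ m : ℤ, 0 < m ∧ ∀ f : F, f ≠ 0 →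
      (f : LaurentSeries K).order = m * (placeInf F hnt).ord f := by
  obtain ⟨m, hm, -, h⟩ := (isRawVal_ordW F).exists_mul_ord hnt
  exact ⟨m, hm, h⟩

/-- If `F` contains a function of order `-1`, the order at `placeInf` is the `q`-order. -/
theorem placeInf_ord (hnt : ∃ f : F, f ≠ 0 ∧ (f : LaurentSeries K).order ≠ 0) {u : F}
    (hu : (u : LaurentSeries K).order = -1) (f : F) (hf : f ≠ 0) :
    (placeInf F hnt).ord f = (f : LaurentSeries K).order := by
  obtain ⟨m, hm, h⟩ := exists_mul_ord F hnt
  have hu0 : u ≠ 0 := by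
    rintro rfl
    rw [ZeroMemClass.coe_zero, HahnSeries.order_zero] at hu
    omega
  have h1 := h u hu0
  rw [hu] at h1
  have hm1 : m = 1 := by
    have hdvd : m ∣ 1 := ⟨-(placeInf F hnt).ord u, by linarith⟩
    exact Int.eq_one_of_dvd_one hm.le hdvd
  rw [h f hf, hm1, one_mul]

/-- Membership in the valuation ring of `placeInf`. -/
theorem mem_placeInf_iff (hnt : ∃ f : F, f ≠ 0 ∧ (f : LaurentSeries K).order ≠ 0) {f : F}
    (hf : f ≠ 0) :
    f ∈ (placeInf F hnt).toValuationSubring ↔ 0 ≤ (f : LaurentSeries K).order := by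
  obtain ⟨m, hm, h⟩ := exists_mul_ord F hnt
  rw [h f hf]
  constructor
  · intro hmem
    exact mul_nonneg hm.le (ord_nonneg_of_mem _ hmem)
  · intro h0
    refine mem_of_ord_nonneg _ ?_
    by_contra hneg
    have : m * (placeInf F hnt).ord f < 0 := mul_neg_of_pos_of_neg hm (not_le.mp hneg)
    omega

/-- A semilinear automorphism preserving the `q`-order fixes the place at `∞`. -/
theorem smul_placeInf (hnt : ∃ f : F, f ≠ 0 ∧ (f : LaurentSeries K).order ≠ 0)
    (g : SemilinearAut K F)
    (hg : ∀ f : F, ((g • f : F) : LaurentSeries K).order = (f : LaurentSeries K).order) :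
    g • placeInf F hnt = placeInf F hnt := by
  apply Counting.place_eq_of_le
  intro x hx
  rw [SemilinearAut.smul_toValuationSubring] at hx
  obtain ⟨y, hy, rfl⟩ := hx
  show g • y ∈ (placeInf F hnt).toValuationSubring
  by_cases hy0 : y = 0
  · rw [hy0, smul_zero]
    exact zero_mem _
  · have hgy0 : g • y ≠ 0 := by
      intro h0
      apply hy0
      have := congrArg (fun z => g⁻¹ • z) h0
      simpa using this
    rw [mem_placeInf_iff F hnt hgy0, hg y]
    exact (mem_placeInf_iff F hnt hy0).mp hy

end Generic

/-! ### The modular function fields -/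

section Modular

open Fermat.Agent.Lib.Red

/-- `J(q)`, of order `-1`, as a function of level `N` in characteristic `0`. -/
def jL (L : Type*) [Field L] [Algebra ℚ L] (N : ℕ) [NeZero N] :
    ↥(laurentBaseChange L (modularFunctionFieldFull N)) :=
  ⟨TD.Jd L 1, by
    rw [laurentBaseChange_eq_FF]
    have := TD.Jd_mem_FF L (N := N) (m := 1) (d := 1) (one_dvd N)
    rwa [one_mul] at this⟩

/-- `J̄(q)`, of order `-1`, as a function of level `N` over any field. -/
def jC (k : Type*) [Field k] (N : ℕ) [NeZero N] : ↥(modularFunctionFieldFullC k N) :=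
  ⟨TD.Jd k 1, by
    rw [fullC_eq_FF]
    have := TD.Jd_mem_FF k (N := N) (m := 1) (d := 1) (one_dvd N)
    rwa [one_mul] at this⟩

theorem order_jL (L : Type*) [Field L] [Algebra ℚ L] (N : ℕ) [NeZero N] :
    ((jL L N : ↥(laurentBaseChange L (modularFunctionFieldFull N))) : LaurentSeries L).order
      = -1 := by
  have h := ValInd.order_Jd (K := L) 1 one_ne_zero
  rw [Nat.cast_one] at h
  exact h

theorem order_jC (k : Type*) [Field k] (N : ℕ) [NeZero N] :
    ((jC k N : ↥(modularFunctionFieldFullC k N)) : LaurentSeries k).order = -1 := by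
  have h := ValInd.order_Jd (K := k) 1 one_ne_zero
  rw [Nat.cast_one] at h
  exact h

theorem jL_ne_zero (L : Type*) [Field L] [Algebra ℚ L] (N : ℕ) [NeZero N] : jL L N ≠ 0 := by
  intro h0
  have h := order_jL L N
  rw [h0, ZeroMemClass.coe_zero, HahnSeries.order_zero] at h
  omega

theorem jC_ne_zero (k : Type*) [Field k] (N : ℕ) [NeZero N] : jC k N ≠ 0 := by
  intro h0
  have h := order_jC k N
  rw [h0, ZeroMemClass.coe_zero, HahnSeries.order_zero] at h
  omega

theorem nontrivialL (L : Type*) [Field L] [Algebra ℚ L] (N : ℕ) [NeZero N] :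
    ∃ f : ↥(laurentBaseChange L (modularFunctionFieldFull N)),
      f ≠ 0 ∧ (f : LaurentSeries L).order ≠ 0 :=
  ⟨jL L N, jL_ne_zero L N, by rw [order_jL]; omega⟩

theorem nontrivialC (k : Type*) [Field k] (N : ℕ) [NeZero N] :
    ∃ f : ↥(modularFunctionFieldFullC k N), f ≠ 0 ∧ (f : LaurentSeries k).order ≠ 0 :=
  ⟨jC k N, jC_ne_zero k N, by rw [order_jC]; omega⟩

/-- **The place at the cusp `∞`** of `L·F_N` (characteristic `0`). -/
def placeInfL (L : Type*) [Field L] [Algebra ℚ L] (N : ℕ) [NeZero N] :
    Place L ↥(laurentBaseChange L (modularFunctionFieldFull N)) :=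
  placeInf _ (nontrivialL L N)

/-- **The place at the cusp `∞`** of the function field `modularFunctionFieldFullC k N`. -/
def placeInfC (k : Type*) [Field k] (N : ℕ) [NeZero N] :
    Place k ↥(modularFunctionFieldFullC k N) :=
  placeInf _ (nontrivialC k N)

/-- The order at the cusp `∞` is the `q`-order. -/
theorem placeInfL_ord (L : Type*) [Field L] [Algebra ℚ L] (N : ℕ) [NeZero N]
    (f : ↥(laurentBaseChange L (modularFunctionFieldFull N))) (hf : f ≠ 0) :
    (placeInfL L N).ord f = (f : LaurentSeries L).order :=
  placeInf_ord _ (nontrivialL L N) (order_jL L N) f hf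

/-- The order at the cusp `∞` is the `q`-order. -/
theorem placeInfC_ord (k : Type*) [Field k] (N : ℕ) [NeZero N]
    (f : ↥(modularFunctionFieldFullC k N)) (hf : f ≠ 0) :
    (placeInfC k N).ord f = (f : LaurentSeries k).order :=
  placeInf_ord _ (nontrivialC k N) (order_jC k N) f hf

theorem mem_placeInfL_iff (L : Type*) [Field L] [Algebra ℚ L] (N : ℕ) [NeZero N]
    {f : ↥(laurentBaseChange L (modularFunctionFieldFull N))} (hf : f ≠ 0) :
    f ∈ (placeInfL L N).toValuationSubring ↔ 0 ≤ (f : LaurentSeries L).order :=
  mem_placeInf_iff _ (nontrivialL L N) hf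

theorem mem_placeInfC_iff (k : Type*) [Field k] (N : ℕ) [NeZero N]
    {f : ↥(modularFunctionFieldFullC k N)} (hf : f ≠ 0) :
    f ∈ (placeInfC k N).toValuationSubring ↔ 0 ≤ (f : LaurentSeries k).order :=
  mem_placeInf_iff _ (nontrivialC k N) hf

/-- **The cusp `∞` is fixed by the arithmetic Galois action.** -/
theorem arithmeticGalois_smul_placeInfL (L : Type*) [Field L] [Algebra ℚ L] (N : ℕ) [NeZero N]
    (σ : L ≃ₐ[ℚ] L) :
    arithmeticGalois (modularFunctionFieldFull N) σ • placeInfL L N = placeInfL L N :=
  smul_placeInf _ (nontrivialL L N) _ (fun f => by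
    rw [coe_arithmeticGalois_smul]
    exact Fermat.Agent.Lib.Descent.order_coeffMap _ _)

/-- `J(q)` has a simple pole at the cusp `∞`. -/
theorem placeInfL_ord_jL (L : Type*) [Field L] [Algebra ℚ L] (N : ℕ) [NeZero N] :
    (placeInfL L N).ord (jL L N) = -1 := by
  rw [placeInfL_ord L N _ (jL_ne_zero L N), order_jL]

/-- `J̄(q)` has a simple pole at the cusp `∞`. -/
theorem placeInfC_ord_jC (k : Type*) [Field k] (N : ℕ) [NeZero N] :
    (placeInfC k N).ord (jC k N) = -1 := by
  rw [placeInfC_ord k N _ (jC_ne_zero k N), order_jC]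

end Modular

end

end Fermat.Agent.Lib.FF.PlaceInf
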