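import Mathlib
import Fermat.Agent.Lib.FF.BasePoint

/-!
# Surjectivity of the multiplication map `L(A) ⊗ L(B) → L(A + B)` (char-free, `IsFF1` form)

Castelnuovo's base-point-free pencil trick, in the language of Riemann–Roch spaces of a function
field `F/K` (setting `IsFF1`), relative to a non-speciality bound `c` (`BasePoint.NS K F c`;
classically `c = 2g - 1`):

* `pencil_range_eq` : for a base-point free pencil `s₁, s₂ ∈ L(B)` and `H¹(A - B) = 0`,
  `L(A)·s₁ + L(A)·s₂ = L(A + B)`;
* `exists_pencil` : a base-point free divisor carries a base-point free pencil (`K` infinite);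
* `mul_eq_of_pencil`, `mul_addPl` (adding one place);
* **`mul_eq`** : `2c + 2 ≤ deg A`, `c + 2 ≤ deg B` ⟹ `L(A) * L(B) = L(A + B)`
  (for `c = 2g - 1`: `deg A ≥ 4g`, `deg B ≥ 2g + 1`).
-/

set_option autoImplicit false

noncomputable section

namespace Fermat.Agent.Lib.FF.MultMap

open AlgebraicCurve WithZero Module
open Fermat.Agent.Lib.FF.BasePoint

variable {K F : Type*} [Field K] [Field F] [Algebra K F] {x : F}

/-- The pencil map `(f₁, f₂) ↦ f₁ s₁ + f₂ s₂` on `L(A) × L(A)`. -/
def pencilMap (A : Divisor K F) (s₁ s₂ : F) :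
    (↥(riemannRochSpace A) × ↥(riemannRochSpace A)) →ₗ[K] F :=
  ((LinearMap.mulRight K s₁).comp (riemannRochSpace A).subtype).coprod
    ((LinearMap.mulRight K s₂).comp (riemannRochSpace A).subtype)

@[simp]
theorem pencilMap_apply (A : Divisor K F) (s₁ s₂ : F)
    (p : ↥(riemannRochSpace A) × ↥(riemannRochSpace A)) :
    pencilMap A s₁ s₂ p = (p.1 : F) * s₁ + (p.2 : F) * s₂ := by
  simp [pencilMap]

theorem range_pencilMap_le_mul (A B : Divisor K F) {s₁ s₂ : F}
    (h1 : s₁ ∈ riemannRochSpace B) (h2 : s₂ ∈ riemannRochSpace B) :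
    LinearMap.range (pencilMap A s₁ s₂) ≤ riemannRochSpace A * riemannRochSpace B := by
  rintro y ⟨p, rfl⟩
  rw [pencilMap_apply]
  exact Submodule.add_mem _ (Submodule.mul_mem_mul p.1.2 h1) (Submodule.mul_mem_mul p.2.2 h2)

theorem range_pencilMap_le (A B : Divisor K F) {s₁ s₂ : F}
    (h1 : s₁ ∈ riemannRochSpace B) (h2 : s₂ ∈ riemannRochSpace B) :
    LinearMap.range (pencilMap A s₁ s₂) ≤ riemannRochSpace (A + B) :=
  (range_pencilMap_le_mul A B h1 h2).trans (L_mul_le A B)

/-- The kernel of the pencil map embeds into `L(A - B)` by `(f₁, f₂) ↦ f₁ / s₂`. -/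
theorem mul_inv_mem_of_ker {A B : Divisor K F} {s₁ s₂ : F} (hs₁ : s₁ ≠ 0) (hs₂ : s₂ ≠ 0)
    (hpen : ∀ Q : Place K F, Q.adicValuation s₁ = exp (B Q) ∨ Q.adicValuation s₂ = exp (B Q))
    {f₁ f₂ : F} (hf₁ : f₁ ∈ riemannRochSpace A) (hf₂ : f₂ ∈ riemannRochSpace A)
    (hker : f₁ * s₁ + f₂ * s₂ = 0) : f₁ * s₂⁻¹ ∈ riemannRochSpace (A - B) := by
  intro Q
  rw [Finsupp.sub_apply, sub_eq_add_neg, exp_add, exp_neg]
  rcases hpen Q with hQ | hQ
  · have heq : f₁ * s₂⁻¹ = -(f₂ * s₁⁻¹) := by
      field_simp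
      linear_combination hker
    rw [heq, Valuation.map_neg, map_mul, map_inv₀, hQ]
    exact mul_le_mul' (hf₂ Q) le_rfl
  · rw [map_mul, map_inv₀, hQ]
    exact mul_le_mul' (hf₁ Q) le_rfl

theorem finrank_ker_pencilMap_le {A B : Divisor K F} {s₁ s₂ : F} (hs₁ : s₁ ≠ 0) (hs₂ : s₂ ≠ 0)
    (hpen : ∀ Q : Place K F, Q.adicValuation s₁ = exp (B Q) ∨ Q.adicValuation s₂ = exp (B Q))
    [Module.Finite K (riemannRochSpace (A - B))] :
    finrank K (LinearMap.ker (pencilMap A s₁ s₂)) ≤ finrank K (riemannRochSpace (A - B)) := by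
  set ψ : ↥(LinearMap.ker (pencilMap A s₁ s₂)) →ₗ[K] F :=
    (LinearMap.mulRight K s₂⁻¹).comp ((riemannRochSpace A).subtype.comp
      ((LinearMap.fst K _ _).comp (LinearMap.ker (pencilMap A s₁ s₂)).subtype)) with hψ
  have hψ_apply : ∀ p : ↥(LinearMap.ker (pencilMap A s₁ s₂)),
      ψ p = ((p : ↥(riemannRochSpace A) × ↥(riemannRochSpace A)).1 : F) * s₂⁻¹ := fun p => rfl
  have hker : ∀ p : ↥(LinearMap.ker (pencilMap A s₁ s₂)),
      ((p : ↥(riemannRochSpace A) × ↥(riemannRochSpace A)).1 : F) * s₁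
        + ((p : ↥(riemannRochSpace A) × ↥(riemannRochSpace A)).2 : F) * s₂ = 0 := by
    intro p
    have := p.2
    rw [LinearMap.mem_ker, pencilMap_apply] at this
    exact this
  have hmem : ∀ p, ψ p ∈ riemannRochSpace (A - B) := by
    intro p
    rw [hψ_apply]
    exact mul_inv_mem_of_ker hs₁ hs₂ hpen p.1.1.2 p.1.2.2 (hker p)
  have hinj : Function.Injective (ψ.codRestrict (riemannRochSpace (A - B)) hmem) := by
    refine (injective_iff_map_eq_zero _).2 fun p hp0 => ?_
    have hp : ψ p = 0 := congrArg Subtype.val hp0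
    rw [hψ_apply] at hp
    have h1 : ((p : ↥(riemannRochSpace A) × ↥(riemannRochSpace A)).1 : F) = 0 := by
      rcases mul_eq_zero.1 hp with h | h
      · exact h
      · exact absurd (inv_eq_zero.1 h) hs₂
    have h2 : ((p : ↥(riemannRochSpace A) × ↥(riemannRochSpace A)).2 : F) = 0 := by
      have := hker p
      rw [h1, zero_mul, zero_add] at this
      rcases mul_eq_zero.1 this with h | h
      · exact h
      · exact absurd h hs₂
    apply Subtype.ext
    apply Prod.ext
    · exact Subtype.ext h1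
    · exact Subtype.ext h2
  exact LinearMap.finrank_le_finrank_of_injective hinj

/-- **Castelnuovo's pencil trick**: for a base-point free pencil `s₁, s₂ ∈ L(B)` and
non-special `A`, `A - B`, `A + B`:  `L(A) s₁ + L(A) s₂ = L(A + B)`. -/
theorem pencil_range_eq (h : IsFF1 K F x) {A B : Divisor K F} {s₁ s₂ : F}
    (hs₁ : s₁ ≠ 0) (hs₂ : s₂ ≠ 0)
    (h1 : s₁ ∈ riemannRochSpace B) (h2 : s₂ ∈ riemannRochSpace B)
    (hpen : ∀ Q : Place K F, Q.adicValuation s₁ = exp (B Q) ∨ Q.adicValuation s₂ = exp (B Q))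
    (hA : RR.MD A = ⊤) (hAB : RR.MD (A - B) = ⊤) (hAB' : RR.MD (A + B) = ⊤) :
    LinearMap.range (pencilMap A s₁ s₂) = riemannRochSpace (A + B) := by
  have := h.finite_L A
  have := h.finite_L (A - B)
  have := h.finite_L (A + B)
  refine Submodule.eq_of_le_of_finrank_le (range_pencilMap_le A B h1 h2) ?_
  have hrn := LinearMap.finrank_range_add_finrank_ker (pencilMap A s₁ s₂)
  rw [Module.finrank_prod] at hrn
  have hk := finrank_ker_pencilMap_le (A := A) hs₁ hs₂ hpen
  have e1 := finrank_L_of_MD h hA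
  have e2 := finrank_L_of_MD h hAB
  have e3 := finrank_L_of_MD h hAB'
  rw [map_sub] at e2
  rw [map_add] at e3
  have : (finrank K (riemannRochSpace (A + B)) : ℤ)
      ≤ (finrank K (LinearMap.range (pencilMap A s₁ s₂)) : ℤ) := by
    have hrn' : (finrank K (LinearMap.range (pencilMap A s₁ s₂)) : ℤ)
        + (finrank K (LinearMap.ker (pencilMap A s₁ s₂)) : ℤ)
        = (finrank K (riemannRochSpace A) : ℤ) + (finrank K (riemannRochSpace A) : ℤ) := by
      exact_mod_cast hrn
    have hk' : (finrank K (LinearMap.ker (pencilMap A s₁ s₂)) : ℤ)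
        ≤ (finrank K (riemannRochSpace (A - B)) : ℤ) := by exact_mod_cast hk
    linarith
  exact_mod_cast this

/-- If `B` carries a base-point free pencil and `A`, `A - B`, `A + B` are non-special, then
`L(A) * L(B) = L(A + B)`. -/
theorem mul_eq_of_pencil (h : IsFF1 K F x) {A B : Divisor K F} {s₁ s₂ : F}
    (hs₁ : s₁ ≠ 0) (hs₂ : s₂ ≠ 0)
    (h1 : s₁ ∈ riemannRochSpace B) (h2 : s₂ ∈ riemannRochSpace B)
    (hpen : ∀ Q : Place K F, Q.adicValuation s₁ = exp (B Q) ∨ Q.adicValuation s₂ = exp (B Q))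
    (hA : RR.MD A = ⊤) (hAB : RR.MD (A - B) = ⊤) (hAB' : RR.MD (A + B) = ⊤) :
    riemannRochSpace A * riemannRochSpace B = riemannRochSpace (A + B) := by
  refine le_antisymm (L_mul_le A B) ?_
  rw [← pencil_range_eq h hs₁ hs₂ h1 h2 hpen hA hAB hAB']
  exact range_pencilMap_le_mul A B h1 h2

/-- A base-point free divisor carries a base-point free pencil (over an infinite field). -/
theorem exists_pencil [Infinite K] (h : IsFF1 K F x) {B : Divisor K F} (hB : Bpf B) :
    ∃ s₁ s₂ : F, s₁ ≠ 0 ∧ s₂ ≠ 0 ∧ s₁ ∈ riemannRochSpace B ∧ s₂ ∈ riemannRochSpace B ∧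
      ∀ Q : Place K F, Q.adicValuation s₁ = exp (B Q) ∨ Q.adicValuation s₂ = exp (B Q) := by
  classical
  have := h.hasPrincipalDivisors
  obtain ⟨P₀⟩ := h.exists_place
  obtain ⟨s₁, hs₁B, hs₁P⟩ := hB P₀
  have hs₁ : s₁ ≠ 0 := by
    rintro rfl
    rw [map_zero] at hs₁P
    exact exp_ne_zero hs₁P.symm
  obtain ⟨Ds, hDs, -⟩ := HasPrincipalDivisors.exists_divisor (K := K) s₁ hs₁
  -- the finite set of places where `s₁` does not have exact pole order
  set T : Finset (Place K F) := (Ds + B).support with hT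
  have hT' : ∀ Q : Place K F, Q ∉ T → Q.adicValuation s₁ = exp (B Q) := by
    intro Q hQ
    rw [hT, Finsupp.notMem_support_iff, Finsupp.add_apply, hDs Q] at hQ
    rw [Q.adicValuation_eq_exp_neg_ord hs₁]
    congr 1
    linarith
  -- proper subspaces of `L(B)` to avoid
  let p : Option {Q // Q ∈ T} → Subspace K ↥(riemannRochSpace B) := fun o =>
    match o with
    | none => ⊥
    | some Q => Submodule.comap (riemannRochSpace B).subtype
        (riemannRochSpace (B - Finsupp.single (Q : Place K F) (1 : ℤ)))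
  have hp : ∀ o, p o ≠ ⊤ := by
    intro o
    cases o with
    | none =>
      intro htop
      have : (⟨s₁, hs₁B⟩ : ↥(riemannRochSpace B)) ∈ (⊥ : Subspace K ↥(riemannRochSpace B)) := by
        have h0 : p none = ⊥ := rfl
        rw [← h0, htop]
        exact Submodule.mem_top
      rw [Submodule.mem_bot] at this
      exact hs₁ (congrArg Subtype.val this)
    | some Q =>
      intro htop
      obtain ⟨f, hf, hfQ⟩ := hB (Q : Place K F)
      have : (⟨f, hf⟩ : ↥(riemannRochSpace B)) ∈ p (some Q) := by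
        rw [htop]
        exact Submodule.mem_top
      exact notMem_of_val_eq hfQ this
  have hcov : ⋃ o, (p o : Set ↥(riemannRochSpace B)) ≠ Set.univ := by
    intro hcov
    obtain ⟨o, ho⟩ := Subspace.exists_eq_top_of_iUnion_eq_univ hcov
    exact hp o ho
  obtain ⟨s₂, hs₂⟩ := (Set.ne_univ_iff_exists_notMem _).1 hcov
  rw [Set.mem_iUnion, not_exists] at hs₂
  have hs₂0 : (s₂ : F) ≠ 0 := by
    intro h0
    apply hs₂ none
    show s₂ ∈ (⊥ : Subspace K ↥(riemannRochSpace B))
    rw [Submodule.mem_bot]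
    exact Subtype.ext h0
  refine ⟨s₁, s₂, hs₁, hs₂0, hs₁B, s₂.2, fun Q => ?_⟩
  by_cases hQ : Q ∈ T
  · right
    have hnot : (s₂ : F) ∉ riemannRochSpace (B - Finsupp.single Q (1 : ℤ)) := fun hmem =>
      hs₂ (some ⟨Q, hQ⟩) hmem
    have := RR.val_eq_of_mem_of_notMem (B - Finsupp.single Q (1 : ℤ)) (v := Q) (f := (s₂ : F))
      (by rw [addPl_sub_single]; exact s₂.2) hnot
    rw [this, sub_single_apply_self]
  · exact Or.inl (hT' Q hQ)

/-- **Adding one place.**  If `L(A) * L(B) = L(A + B)`, `A` has an element of exact pole order at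
`P` and `B + P` has one too, then `L(A) * L(B + P) = L(A + B + P)`. -/
theorem mul_addPl (h : IsFF1 K F x) {A B : Divisor K F} (P : Place K F)
    (hmul : riemannRochSpace A * riemannRochSpace B = riemannRochSpace (A + B))
    (hA : ∃ f ∈ riemannRochSpace A, P.adicValuation f = exp (A P))
    (hB : ∃ g ∈ riemannRochSpace (RR.addPl B P), P.adicValuation g = exp (B P + 1)) :
    riemannRochSpace A * riemannRochSpace (RR.addPl B P)
      = riemannRochSpace (A + RR.addPl B P) := by
  refine le_antisymm (L_mul_le A _) ?_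
  obtain ⟨f, hf, hfP⟩ := hA
  obtain ⟨g, hg, hgP⟩ := hB
  have hadd : A + RR.addPl B P = RR.addPl (A + B) P := by
    unfold RR.addPl
    abel
  have hfg : f * g ∈ riemannRochSpace (RR.addPl (A + B) P) := by
    rw [← hadd]
    exact mul_mem_L_add hf hg
  have hfg' : f * g ∉ riemannRochSpace (A + B) := by
    intro hmem
    have h1 := hmem P
    rw [map_mul, hfP, hgP, ← exp_add, exp_le_exp, Finsupp.add_apply] at h1
    linarith
  have hle : riemannRochSpace A * riemannRochSpace B
      ≤ riemannRochSpace A * riemannRochSpace (RR.addPl B P) :=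
    mul_le_mul' le_rfl (RR.L_mono (RR.le_addPl B P))
  intro y hy
  rw [hadd] at hy
  obtain ⟨c, hc⟩ := RR.exists_sub_smul_mem_L (h.resK P) (A + B) hfg hfg' hy
  have hy' : y = (y - c • (f * g)) + c • (f * g) := by abel
  rw [hy']
  refine Submodule.add_mem _ (hle ?_) (Submodule.smul_mem _ _ (Submodule.mul_mem_mul hf hg))
  rw [hmul]
  exact hc

/-- **Multiplication of Riemann–Roch spaces is onto in large degree.**  For a non-speciality
bound `c` (`c = 2g - 1` with duality), `2c + 2 ≤ deg A` and `c + 2 ≤ deg B` imply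
`L(A) * L(B) = L(A + B)`. -/
theorem mul_eq [Infinite K] (h : IsFF1 K F x) {c : ℤ} (hc : NS K F c) (A : Divisor K F)
    (hA : 2 * c + 2 ≤ Divisor.degree A) :
    ∀ B : Divisor K F, c + 2 ≤ Divisor.degree B →
      riemannRochSpace A * riemannRochSpace B = riemannRochSpace (A + B) := by
  have hc1 : -1 ≤ c := hc.neg_one_le h
  have key : ∀ n : ℕ, ∀ B : Divisor K F, Divisor.degree B = c + 2 + n →
      riemannRochSpace A * riemannRochSpace B = riemannRochSpace (A + B) := by
    intro n
    induction n with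
    | zero =>
      intro B hB
      rw [Nat.cast_zero, add_zero] at hB
      have hbpf : Bpf B := bpf_of_degree h hc (by linarith)
      obtain ⟨s₁, s₂, hs₁, hs₂, h1, h2, hpen⟩ := exists_pencil h hbpf
      refine mul_eq_of_pencil h hs₁ hs₂ h1 h2 hpen (hc A (by linarith)) (hc _ ?_) (hc _ ?_)
      · rw [map_sub, hB]; linarith
      · rw [map_add, hB]; linarith
    | succ n ih =>
      intro B hB
      obtain ⟨P⟩ := h.exists_place
      set B' : Divisor K F := B - Finsupp.single P (1 : ℤ) with hB'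
      have hdeg' : Divisor.degree B' = c + 2 + n := by
        rw [hB', degree_sub_single h, hB]
        push_cast
        ring
      have hadd : RR.addPl B' P = B := addPl_sub_single B P
      have hAbpf : Bpf A := bpf_of_degree h hc (by linarith)
      have hBbpf : Bpf B := bpf_of_degree h hc (by rw [hB]; linarith [Int.natCast_nonneg (n + 1)])
      have := mul_addPl h P (ih B' hdeg') (hAbpf P) (by
        obtain ⟨g, hg, hgP⟩ := hBbpf P
        refine ⟨g, by rw [hadd]; exact hg, ?_⟩
        rw [hgP, sub_single_apply_self])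
      rwa [hadd] at this
  intro B hB
  obtain ⟨n, hn⟩ := Int.eq_ofNat_of_zero_le (sub_nonneg.2 hB)
  exact key n B (by linarith)

end Fermat.Agent.Lib.FF.MultMap
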