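import Fermat.Agent.Lib.FF.CanonicalIsFF1
import Fermat.Agent.Lib.FF.RRModular
import Fermat.Agent.S24

/-!
# Canonical divisor, duality and genus in the setting `IsFF1`, in characteristic zero, and for
the modular function fields

Instantiations of `Lib/FF/Canonical.lean` and `Lib/FF/DiffLocal.lean`:

* (the `IsFF1` forms are in `Lib/FF/CanonicalIsFF1.lean`)
* `hasCanonicalDivisor_charZero`, `genus_eq_genusFF_charZero`.
* `hasCanonicalDivisor_modular`, `genus_eq_genusFF_modular`, `genusFF_modular` :
  the modular function field `ℚ̄(j(q^d) : d ∣ N)` HAS canonical divisors, and its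
  Riemann–Roch genus `dim H¹(0)` is `genusFormula N`.
-/

set_option autoImplicit false
set_option linter.style.haveILetI false

namespace Fermat.Agent.Lib.FF.Res

open AlgebraicCurve WithZero Module KaehlerDifferential IntermediateField


section charZero

variable {K F : Type*} [Field K] [Field F] [Algebra K F]

/-- in characteristic zero, `F / K(x)` algebraic is separable -/
theorem isSeparable_adjoin_of_charZero [CharZero K] (x : F) [Algebra.IsAlgebraic K⟮x⟯ F] :
    Algebra.IsSeparable K⟮x⟯ F := by
  haveI : CharZero K⟮x⟯ := charZero_of_injective_algebraMap (algebraMap K K⟮x⟯).injective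
  exact Algebra.IsAlgebraic.isSeparable_of_perfectField

/-- **`HasCanonicalDivisor`** for function fields of one variable over an algebraically closed
field of characteristic zero. -/
theorem hasCanonicalDivisor_charZero [IsAlgClosed K] [CharZero K] (x : F)
    (hx : Transcendental K x) [FiniteDimensional K⟮x⟯ F] :
    HasCanonicalDivisor (K := K) (F := F) := by
  haveI := isSeparable_adjoin_of_charZero (K := K) x
  exact hasCanonicalDivisor_of_isSeparable (isFF1_of_charZero x hx) x

/-- **genus = genusFF** for function fields of one variable over an algebraically closed field of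
characteristic zero. -/
theorem genus_eq_genusFF_charZero [IsAlgClosed K] [CharZero K] (x : F)
    (hx : Transcendental K x) [FiniteDimensional K⟮x⟯ F]
    [HasCanonicalDivisor (K := K) (F := F)] : genus K F = genusFF K F := by
  haveI := isSeparable_adjoin_of_charZero (K := K) x
  exact genus_eq_genusFF_of_isSeparable (isFF1_of_charZero x hx) x

end charZero

section modular

open ModularCurve Fermat.Agent.S24

variable (N : ℕ) [NeZero N]

/-- the modular function field over `ℚ̄` is an `IsFF1` -/
theorem isFF1_modular : IsFF1 (AlgebraicClosure ℚ) ↥(modularFunctionFieldBar N) (jBar N) := by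
  have := finiteDimensional_jBar N
  exact isFF1_of_charZero (jBar N) (transcendental_jBar N)

/-- **The modular function field `ℚ̄(j(q^d) : d ∣ N)` has canonical divisors.** -/
theorem hasCanonicalDivisor_modular :
    HasCanonicalDivisor (K := AlgebraicClosure ℚ) (F := ↥(modularFunctionFieldBar N)) := by
  have := finiteDimensional_jBar N
  exact hasCanonicalDivisor_charZero (jBar N) (transcendental_jBar N)

/-- the Prelude genus of the modular function field is its Riemann–Roch genus -/
theorem genus_eq_genusFF_modular
    [HasCanonicalDivisor (K := AlgebraicClosure ℚ) (F := ↥(modularFunctionFieldBar N))] :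
    genus (AlgebraicClosure ℚ) ↥(modularFunctionFieldBar N)
      = genusFF (AlgebraicClosure ℚ) ↥(modularFunctionFieldBar N) := by
  have := finiteDimensional_jBar N
  exact genus_eq_genusFF_charZero (jBar N) (transcendental_jBar N)

/-- **The Riemann–Roch genus `dim H¹(0)` of `X₀(N)` is `genusFormula N`.** -/
theorem genusFF_modular :
    (genusFF (AlgebraicClosure ℚ) ↥(modularFunctionFieldBar N) : ℚ) = genusFormula N := by
  haveI := hasCanonicalDivisor_modular N
  rw [← genus_eq_genusFF_modular N]
  exact Fermat.Agent.S24.result N

end modular

end Fermat.Agent.Lib.FF.Res
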