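import Fermat.Agent.Lib.FF.CanonicalIsFF1
import Fermat.Agent.Lib.FF.SettingP

/-!
# The divisor of `dx` over an algebraically closed constant field of any characteristic

`exists_divisor_D` : for `K` algebraically closed, `x` transcendental, `F` finite over `K(x)`
and `dx` spanning `Ω[F⁄K]`, there is a divisor `Wt` of degree `2 · genusFF - 2` with
`Wt Q ≥ ord_Q (x - κ) - 1` at the zeros of `x - κ` and `Wt Q ≥ ord_Q x - 1` at the poles of `x`.
(The shape consumed by `Lib/Red/GenusGA`.)  `exists_divisor_D_eq` : the tame equality form.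
-/

set_option autoImplicit false

namespace Fermat.Agent.Lib.FF.Res

open AlgebraicCurve WithZero Module KaehlerDifferential IntermediateField

variable {K F : Type*} [Field K] [Field F] [Algebra K F]

/-- **the divisor of `dx`**, lower-bound form, over an algebraically closed field of any
characteristic -/
theorem exists_divisor_D [IsAlgClosed K] (x : F) (hx : Transcendental K x)
    [FiniteDimensional K⟮x⟯ F]
    (hsep : Submodule.span F {KaehlerDifferential.D K F x} = ⊤) :
    ∃ Wt : Divisor K F,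
      (∀ (Q : Place K F) (κ : K), 0 < Q.ord (x - algebraMap K F κ) →
        Q.ord (x - algebraMap K F κ) - 1 ≤ Wt Q) ∧
      (∀ Q : Place K F, Q.ord x < 0 → Q.ord x - 1 ≤ Wt Q) ∧
      Divisor.degree Wt = 2 * (genusFF K F : ℤ) - 2 :=
  exists_divisor_D_ff1 (isFF1_of_isAlgClosed x hx) x hsep

/-- **the divisor of `dx`**, tame equality form, over an algebraically closed field of any
characteristic -/
theorem exists_divisor_D_eq [IsAlgClosed K] (x : F) (hx : Transcendental K x)
    [FiniteDimensional K⟮x⟯ F]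
    (hsep : Submodule.span F {KaehlerDifferential.D K F x} = ⊤) :
    ∃ W : Divisor K F,
      (∀ (P : Place K F) (c : K), ((P.ord (x - algebraMap K F c) : ℤ) : K) ≠ 0 →
        W P = P.ord (x - algebraMap K F c) - 1) ∧
      (∀ P : Place K F, ((P.ord x : ℤ) : K) ≠ 0 → W P = P.ord x - 1) ∧
      Divisor.degree W = 2 * (genusFF K F : ℤ) - 2 :=
  exists_divisor_D_eq_ff1 (isFF1_of_isAlgClosed x hx) x hsep

/-- in characteristic zero: the exact divisor of `dx` (`W P = e - 1` at zeros of `x - c` of order
`e`, `W P = -e - 1` at poles of order `e`), of degree `2g - 2`. -/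
theorem exists_divisor_D_charZero [IsAlgClosed K] [CharZero K] (x : F) (hx : Transcendental K x)
    [FiniteDimensional K⟮x⟯ F]
    (hsep : Submodule.span F {KaehlerDifferential.D K F x} = ⊤) :
    ∃ W : Divisor K F,
      (∀ (P : Place K F) (c : K), 0 < P.ord (x - algebraMap K F c) →
        W P = P.ord (x - algebraMap K F c) - 1) ∧
      (∀ P : Place K F, P.ord x < 0 → W P = P.ord x - 1) ∧
      Divisor.degree W = 2 * (genusFF K F : ℤ) - 2 := by
  obtain ⟨W, h1, h2, h3⟩ := exists_divisor_D_eq x hx hsep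
  refine ⟨W, fun P c hc => h1 P c ?_, fun P hP => h2 P ?_, h3⟩
  · exact_mod_cast hc.ne'
  · exact_mod_cast hP.ne

/-- if `Ω[F⁄K]` is spanned by one element, it is spanned by every nonzero element -/
theorem span_singleton_eq_top_of_ne_zero (hspan : ∃ ω₀ : Ω[F⁄K], Submodule.span F {ω₀} = ⊤)
    {ω : Ω[F⁄K]} (hω : ω ≠ 0) : Submodule.span F {ω} = ⊤ := by
  obtain ⟨ω₀, hω₀⟩ := hspan
  have hmem : ω ∈ Submodule.span F {ω₀} := hω₀ ▸ Submodule.mem_top
  obtain ⟨c, hc⟩ := Submodule.mem_span_singleton.1 hmem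
  have hc0 : c ≠ 0 := by
    rintro rfl
    rw [zero_smul] at hc
    exact hω hc.symm
  rw [eq_top_iff, ← hω₀, Submodule.span_le, Set.singleton_subset_iff]
  have : ω₀ = c⁻¹ • ω := by rw [← hc, smul_smul, inv_mul_cancel₀ hc0, one_smul]
  rw [this]
  exact Submodule.smul_mem _ _ (Submodule.mem_span_singleton_self _)

/-- if `F / K(y)` is separable algebraic for SOME `y` and `dx ≠ 0`, then `dx` spans `Ω[F⁄K]` -/
theorem span_D_eq_top_of_D_ne_zero (y : F) [Algebra.IsSeparable K⟮y⟯ F] {x : F}
    (hx : D K F x ≠ 0) : Submodule.span F {D K F x} = ⊤ :=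
  span_singleton_eq_top_of_ne_zero ⟨_, span_D_eq_top_of_isSeparable y⟩ hx

end Fermat.Agent.Lib.FF.Res
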