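import Fermat.Agent.Lib.FF.DiffLocal
import Fermat.Agent.Lib.FF.RRFF1

/-!
# Canonical divisor, duality and genus in the setting `IsFF1` (any characteristic)

Instantiations of `Lib/FF/Canonical.lean` and `Lib/FF/DiffLocal.lean` for `h : IsFF1 K F x`:

* `degree_of_isDivisorOf_ff1`, `finrank_H1_ff1`, `finrank_L_ff1`, `riemannRoch_ff1` :
  `deg (ω) = 2g - 2`, Serre duality and classical Riemann–Roch.
* `exists_isDivisorOf_ff1`, `exists_isDivisorOf_of_span` : existence of the divisor of a
  differential.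
* `hasCanonicalDivisor_ff1`, `genus_eq_genusFF_ff1` : under `Ω[F⁄K] = F ω₀`.
* `exists_divisor_D_of_span`, `exists_divisor_D_of_isSeparable` : **the divisor of `dy`**: it
  exists, has degree `2g - 2`, and `ord_p (dy) ≥ ord_p (y - c) - 1` (equality iff tame).
-/

set_option autoImplicit false
set_option linter.style.haveILetI false

namespace Fermat.Agent.Lib.FF.Res

open AlgebraicCurve WithZero Module KaehlerDifferential IntermediateField

section ff1

variable {K F : Type*} [Field K] [Field F] [Algebra K F] {x : F}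

/-- **`deg (ω) = 2g - 2`** in the setting `IsFF1` (any characteristic). -/
theorem degree_of_isDivisorOf_ff1 (h : IsFF1 K F x) {ω : Ω[F⁄K]} {W : Divisor K F}
    (hW : Adele.IsDivisorOf ω W) : Divisor.degree W = 2 * (genusFF K F : ℤ) - 2 := by
  haveI := h.hasPrincipalDivisors
  obtain ⟨P₀⟩ := h.exists_place
  exact degree_of_isDivisorOf h.resK P₀ h.riemannRoch h.finrank_L_zero hW

/-- **Serre duality** `dim H¹(D) = dim L(W - D)` in the setting `IsFF1`. -/
theorem finrank_H1_ff1 (h : IsFF1 K F x) {ω : Ω[F⁄K]} {W : Divisor K F}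
    (hW : Adele.IsDivisorOf ω W) (D : Divisor K F) :
    finrank K (H1 D) = finrank K (riemannRochSpace (W - D)) := by
  haveI := h.hasPrincipalDivisors
  obtain ⟨P₀⟩ := h.exists_place
  exact finrank_H1_of_isDivisorOf h.resK P₀ h.riemannRoch hW D

/-- `dim L(W) = g` in the setting `IsFF1`. -/
theorem finrank_L_ff1 (h : IsFF1 K F x) {ω : Ω[F⁄K]} {W : Divisor K F}
    (hW : Adele.IsDivisorOf ω W) : finrank K (riemannRochSpace W) = genusFF K F := by
  haveI := h.hasPrincipalDivisors
  obtain ⟨P₀⟩ := h.exists_place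
  exact finrank_L_of_isDivisorOf h.resK P₀ h.riemannRoch hW

/-- **Riemann–Roch**, classical form, in the setting `IsFF1`. -/
theorem riemannRoch_ff1 (h : IsFF1 K F x) {ω : Ω[F⁄K]} {W : Divisor K F}
    (hW : Adele.IsDivisorOf ω W) (D : Divisor K F) :
    (finrank K (riemannRochSpace D) : ℤ) - finrank K (riemannRochSpace (W - D))
      = Divisor.degree D + 1 - genusFF K F := by
  haveI := h.hasPrincipalDivisors
  obtain ⟨P₀⟩ := h.exists_place
  exact riemannRoch_of_isDivisorOf h.resK P₀ h.riemannRoch hW D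

/-- a differential with local data at all places has a divisor (setting `IsFF1`) -/
theorem exists_isDivisorOf_ff1 (h : IsFF1 K F x) {ω : Ω[F⁄K]}
    (hloc : ∀ p : Place K F, ∃ t a : F, p.adicValuation t = exp (-1 : ℤ) ∧
      ω = a • D K F t ∧ a ≠ 0) : ∃ W : Divisor K F, Adele.IsDivisorOf ω W := by
  haveI := h.hasPrincipalDivisors
  obtain ⟨P₀⟩ := h.exists_place
  exact Adele.exists_isDivisorOf h.resK P₀ h.riemannRoch hloc

/-- `DCoordGenerates` at every place, when `Ω[F⁄K]` is spanned by one element -/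
theorem dCoordGenerates_ff1 (h : IsFF1 K F x)
    (hspan : ∃ ω₀ : Ω[F⁄K], Submodule.span F {ω₀} = ⊤) (v : Place K F) : v.DCoordGenerates := by
  haveI := h.hasPrincipalDivisors
  exact Adele.dCoordGenerates_of_span h.resK hspan v

/-- `Ω[F⁄K] ≠ 0` in the setting `IsFF1` -/
theorem nontrivial_kaehler_ff1 (h : IsFF1 K F x) : Nontrivial Ω[F⁄K] := by
  haveI := h.hasPrincipalDivisors
  obtain ⟨P₀⟩ := h.exists_place
  exact Adele.nontrivial_kaehler h.resK P₀

/-- **`HasCanonicalDivisor`** in the setting `IsFF1`, when `Ω[F⁄K]` is spanned by one element -/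
theorem hasCanonicalDivisor_ff1 (h : IsFF1 K F x)
    (hspan : ∃ ω₀ : Ω[F⁄K], Submodule.span F {ω₀} = ⊤) :
    HasCanonicalDivisor (K := K) (F := F) := by
  haveI := h.hasPrincipalDivisors
  obtain ⟨P₀⟩ := h.exists_place
  exact hasCanonicalDivisor_of_span h.resK P₀ h.riemannRoch hspan

/-- **genus = genusFF** in the setting `IsFF1`, when `Ω[F⁄K]` is spanned by one element -/
theorem genus_eq_genusFF_ff1 (h : IsFF1 K F x)
    (hspan : ∃ ω₀ : Ω[F⁄K], Submodule.span F {ω₀} = ⊤)
    [HasCanonicalDivisor (K := K) (F := F)] : genus K F = genusFF K F := by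
  haveI := h.hasPrincipalDivisors
  obtain ⟨P₀⟩ := h.exists_place
  exact genus_eq_genusFF_of_span h.resK P₀ h.riemannRoch hspan h.finrank_L_zero

/-- `HasCanonicalDivisor` when `F` is separable algebraic over some `K(y)` -/
theorem hasCanonicalDivisor_of_isSeparable (h : IsFF1 K F x) (y : F)
    [Algebra.IsSeparable K⟮y⟯ F] : HasCanonicalDivisor (K := K) (F := F) :=
  hasCanonicalDivisor_ff1 h ⟨_, span_D_eq_top_of_isSeparable y⟩

/-- genus = genusFF when `F` is separable algebraic over some `K(y)` -/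
theorem genus_eq_genusFF_of_isSeparable (h : IsFF1 K F x) (y : F)
    [Algebra.IsSeparable K⟮y⟯ F] [HasCanonicalDivisor (K := K) (F := F)] :
    genus K F = genusFF K F :=
  genus_eq_genusFF_ff1 h ⟨_, span_D_eq_top_of_isSeparable y⟩

/-- any nonzero differential has a divisor, when `Ω[F⁄K]` is spanned by one element -/
theorem exists_isDivisorOf_of_span (h : IsFF1 K F x)
    (hspan : ∃ ω₀ : Ω[F⁄K], Submodule.span F {ω₀} = ⊤) {ω : Ω[F⁄K]} (hω : ω ≠ 0) :
    ∃ W : Divisor K F, Adele.IsDivisorOf ω W := by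
  haveI : ∀ v : Place K F, v.DCoordGenerates := dCoordGenerates_ff1 h hspan
  refine exists_isDivisorOf_ff1 h fun p => ?_
  obtain ⟨t, ht, h1, h2⟩ := exists_local_presentation hω p
  exact ⟨t, _, ht, h1, h2⟩

/-- **The divisor of `dy` when `dy` spans `Ω[F⁄K]`** (any characteristic): it exists, has
degree `2g - 2`, and at every place `ord_p (dy) ≥ ord_p (y - c) - 1` for every constant `c`
(`c = 0` covers the poles), with equality when `char K ∤ ord_p (y - c)`. -/
theorem exists_divisor_D_of_span (h : IsFF1 K F x) (y : F)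
    (hspan : Submodule.span F {D K F y} = ⊤) :
    ∃ W : Divisor K F, Adele.IsDivisorOf (D K F y) W ∧
      Divisor.degree W = 2 * (genusFF K F : ℤ) - 2 ∧
      (∀ (c : K) (p : Place K F), p.ord (y - algebraMap K F c) - 1 ≤ W p) ∧
      (∀ (c : K) (p : Place K F), ((p.ord (y - algebraMap K F c) : ℤ) : K) ≠ 0 →
        W p = p.ord (y - algebraMap K F c) - 1) := by
  haveI := h.hasPrincipalDivisors
  haveI := nontrivial_kaehler_ff1 h
  have hDy : D K F y ≠ 0 := by
    intro h0
    rw [h0, Submodule.span_zero_singleton] at hspan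
    exact bot_ne_top hspan
  have hyc : ∀ c : K, y - algebraMap K F c ≠ 0 := by
    intro c h0
    apply hDy
    rw [← Adele.D_sub_algebraMap y c, h0, map_zero]
  obtain ⟨W, hW⟩ := exists_isDivisorOf_of_span h ⟨_, hspan⟩ hDy
  refine ⟨W, hW, degree_of_isDivisorOf_ff1 h hW, fun c p => ?_, fun c p hc => ?_⟩
  · have hW' : Adele.IsDivisorOf (D K F (y - algebraMap K F c)) W := by
      rwa [Adele.D_sub_algebraMap]
    exact hW'.ord_D_ge h.resK (hyc c) p
  · have hW' : Adele.IsDivisorOf (D K F (y - algebraMap K F c)) W := by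
      rwa [Adele.D_sub_algebraMap]
    exact hW'.ord_D_eq h.resK (hyc c) p hc

/-- **The divisor of `dy` for a separating element `y`** (any characteristic). -/
theorem exists_divisor_D_of_isSeparable (h : IsFF1 K F x) (y : F) [Algebra.IsSeparable K⟮y⟯ F] :
    ∃ W : Divisor K F, Adele.IsDivisorOf (D K F y) W ∧
      Divisor.degree W = 2 * (genusFF K F : ℤ) - 2 ∧
      (∀ (c : K) (p : Place K F), p.ord (y - algebraMap K F c) - 1 ≤ W p) ∧
      (∀ (c : K) (p : Place K F), ((p.ord (y - algebraMap K F c) : ℤ) : K) ≠ 0 →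
        W p = p.ord (y - algebraMap K F c) - 1) :=
  exists_divisor_D_of_span h y (span_D_eq_top_of_isSeparable y)

/-- the divisor of `dx` in the shape consumed by `Lib/Red/GenusGA` (helper59): lower bounds at
the zeros of `x - κ` and at the poles of `x`, and degree `2g - 2`. -/
theorem exists_divisor_D_ff1 (h : IsFF1 K F x) (y : F)
    (hsep : Submodule.span F {KaehlerDifferential.D K F y} = ⊤) :
    ∃ Wt : Divisor K F,
      (∀ (Q : Place K F) (κ : K), 0 < Q.ord (y - algebraMap K F κ) →
        Q.ord (y - algebraMap K F κ) - 1 ≤ Wt Q) ∧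
      (∀ Q : Place K F, Q.ord y < 0 → Q.ord y - 1 ≤ Wt Q) ∧
      Divisor.degree Wt = 2 * (genusFF K F : ℤ) - 2 := by
  obtain ⟨W, -, hdeg, hge, -⟩ := exists_divisor_D_of_span h y hsep
  refine ⟨W, fun Q κ _ => hge κ Q, fun Q _ => ?_, hdeg⟩
  have := hge 0 Q
  rwa [map_zero, sub_zero] at this

/-- the exact divisor of `dx` in characteristic-free "tame" form: `W p = ord_p (y - c) - 1`
whenever `char K ∤ ord_p (y - c)`, and degree `2g - 2`. -/
theorem exists_divisor_D_eq_ff1 (h : IsFF1 K F x) (y : F)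
    (hsep : Submodule.span F {KaehlerDifferential.D K F y} = ⊤) :
    ∃ W : Divisor K F,
      (∀ (P : Place K F) (c : K), ((P.ord (y - algebraMap K F c) : ℤ) : K) ≠ 0 →
        W P = P.ord (y - algebraMap K F c) - 1) ∧
      (∀ P : Place K F, ((P.ord y : ℤ) : K) ≠ 0 → W P = P.ord y - 1) ∧
      Divisor.degree W = 2 * (genusFF K F : ℤ) - 2 := by
  obtain ⟨W, -, hdeg, -, heq⟩ := exists_divisor_D_of_span h y hsep
  refine ⟨W, fun P c hc => heq c P hc, fun P hP => ?_, hdeg⟩
  have := heq 0 P (by rwa [map_zero, sub_zero])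
  rwa [map_zero, sub_zero] at this

end ff1

end Fermat.Agent.Lib.FF.Res
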