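import Mathlib
import Fermat.Agent.Lib.FF.ModLRed
import Fermat.Agent.S28.Kummer.Roots
import Fermat.Agent.S28.Kummer.OfData
import Fermat.Agent.S28.Chain
import Fermat.Agent.S28.ModEqX.Main

/-!
# SEP: the mod-`ℓ` modular function field is separable over `k(J(q^N))` when `ℓ ∤ N`

For every field `k` and every level `N ≥ 1` with `(N : k) ≠ 0`:

* `ModL.isSeparable_Jd_prime` : `J(q^m)` is separable over `k(J(q^(m p)))`, `p` a prime
  invertible in `k` (the modular equation `Φ_p(X, J(q^(m p)))` has `p + 1` distinct roots);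
* `ModL.isSeparable_Jd_mul` : `J(q^d)` is separable over `k(J(q^(d e)))` for `e` invertible in `k`;
* `ModL.isSeparable_of_mem_fullC` : every element of `F̄` is separable over `k(J(q^N))`;
* `ModL.isSeparable_xk` : `Algebra.IsSeparable k⟮x̄⟯ F̄`, `x̄ = J̄(q^N)` (the base function of RED).
-/

set_option autoImplicit false
set_option linter.style.haveILetI false

noncomputable section

namespace Fermat.Agent.Lib.FF.ModL

open ModularCurve Polynomial IntermediateField Fermat.Agent.S28

section Abstract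

variable {M : Type*} [Field M]

/-- Separability over a smaller field (given only by an inclusion of images) implies
separability over a larger one. -/
theorem isSeparable_of_range_le {A₁ A₂ : Type*} [Field A₁] [Field A₂] [Algebra A₁ M]
    [Algebra A₂ M] (h : (algebraMap A₁ M).range ≤ (algebraMap A₂ M).range) {x : M}
    (hx : IsSeparable A₁ x) : IsSeparable A₂ x := by
  have hlift : (minpoly A₁ x).map (algebraMap A₁ M) ∈ Polynomial.lifts (algebraMap A₂ M) := by
    rw [Polynomial.lifts_iff_coeff_lifts]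
    intro n
    rw [Polynomial.coeff_map]
    exact h ⟨_, rfl⟩
  obtain ⟨P₂, hP₂⟩ := hlift
  have hP₂' : P₂.map (algebraMap A₂ M) = (minpoly A₁ x).map (algebraMap A₁ M) := hP₂
  have hsep₂ : P₂.Separable := by
    rw [← Polynomial.separable_map (algebraMap A₂ M), hP₂']
    exact Polynomial.Separable.map hx
  have hroot : Polynomial.aeval x P₂ = 0 := by
    rw [Polynomial.aeval_def, ← Polynomial.eval_map, hP₂', Polynomial.eval_map,
      ← Polynomial.aeval_def]
    exact minpoly.aeval A₁ x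
  exact hsep₂.of_dvd (minpoly.dvd A₂ x hroot)

/-- Transitivity of separability through a simple extension. -/
theorem isSeparable_trans_simple {S₀ : Type*} [Field S₀] [Algebra S₀ M] {y x : M}
    (hy : IsSeparable S₀ y) (hx : IsSeparable S₀⟮y⟯ x) : IsSeparable S₀ x := by
  haveI : Algebra.IsSeparable S₀ S₀⟮y⟯ := (isSeparable_adjoin_simple_iff_isSeparable S₀ M).2 hy
  exact IsSeparable.of_algebra_isSeparable_of_isSeparable S₀ hx

end Abstract

variable (k : Type*) [Field k]

/-- **Prime step**: `J(q^m)` is separable over `k(J(q^(m p)))` for a prime `p ≠ char k`. -/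
theorem isSeparable_Jd_prime (m : ℕ) (hm : m ≠ 0) (p : ℕ) (hp : p.Prime) (hpk : (p : k) ≠ 0) :
    IsSeparable k⟮TD.Jd k (m * p)⟯ (TD.Jd k m) := by
  haveI : NeZero p := ⟨hp.ne_zero⟩
  haveI : NeZero m := ⟨hm⟩
  haveI : NeZero (m * p) := ⟨Nat.mul_ne_zero hm hp.ne_zero⟩
  obtain ⟨data₀⟩ := ModEqX.exists_modEqData (p := p) hp
  let data : Kummer.ModEqData p := Kummer.ModEqData.ofData data₀
  let y : k⟮TD.Jd k (m * p)⟯ := ⟨TD.Jd k (m * p), mem_adjoin_simple_self k _⟩
  let P : Polynomial k⟮TD.Jd k (m * p)⟯ := Kummer.specialize data.Φ y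
  have hPmap : P.map (algebraMap k⟮TD.Jd k (m * p)⟯ (LaurentSeries k))
      = Kummer.specialize data.Φ (TD.Jd k (m * p)) :=
    Kummer.map_specialize (algebraMap k⟮TD.Jd k (m * p)⟯ (LaurentSeries k)) data.Φ y
  obtain ⟨ζ, hζ⟩ := Chain.exists_primitiveRoot_algebraicClosure (k := k) (M := p) hpk p hp dvd_rfl
  let φ : LaurentSeries k →+* LaurentSeries (AlgebraicClosure k) :=
    coeffMap (algebraMap k (AlgebraicClosure k))
  have hφ : φ (TD.Jd k (m * p)) = Kummer.JJ ((1 : (AlgebraicClosure k)ˣ) ^ p) (m * p) := by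
    rw [one_pow, Kummer.JJ_one, ← TD.Jd_eq_jqNModC]
    exact TD.coeffMap_Jd _ _
  have hsepK : ((P.map (algebraMap k⟮TD.Jd k (m * p)⟯ (LaurentSeries k))).map φ).Separable := by
    rw [hPmap, Kummer.map_specialize, hφ, data.specialize_eq_prod hp.one_lt hζ 1 m]
    exact separable_prod_X_sub_C_iff.2 (Kummer.rootFam_injective hp.one_lt hζ 1 m)
  have hsep : P.Separable := by
    rw [← Polynomial.separable_map (algebraMap k⟮TD.Jd k (m * p)⟯ (LaurentSeries k)),
      ← Polynomial.separable_map φ]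
    exact hsepK
  have hroot : Polynomial.aeval (TD.Jd k m) P = 0 := by
    rw [Polynomial.aeval_def, ← Polynomial.eval_map, hPmap, Kummer.eval_specialize]
    have h := data.ev_div (1 : kˣ) m
    rwa [one_pow, Kummer.JJ_one, Kummer.JJ_one, ← TD.Jd_eq_jqNModC, ← TD.Jd_eq_jqNModC] at h
  exact hsep.of_dvd (minpoly.dvd _ _ hroot)

/-- **Tower step**: `J(q^d)` is separable over `k(J(q^(d e)))` when `e` is invertible in `k`. -/
theorem isSeparable_Jd_mul (e : ℕ) :
    ∀ d : ℕ, d ≠ 0 → e ≠ 0 → (e : k) ≠ 0 → IsSeparable k⟮TD.Jd k (d * e)⟯ (TD.Jd k d) := by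
  induction e using Nat.strong_induction_on with
  | _ e ih =>
    intro d hd he hek
    by_cases he1 : e = 1
    · subst he1
      have h := isSeparable_algebraMap (F := k⟮TD.Jd k (d * 1)⟯) (K := LaurentSeries k)
        ⟨TD.Jd k (d * 1), mem_adjoin_simple_self k _⟩
      have h2 : algebraMap k⟮TD.Jd k (d * 1)⟯ (LaurentSeries k)
          ⟨TD.Jd k (d * 1), mem_adjoin_simple_self k _⟩ = TD.Jd k d := by
        show TD.Jd k (d * 1) = TD.Jd k d
        rw [mul_one]
      rwa [h2] at h
    · obtain ⟨p, hp, hpe⟩ := Nat.exists_prime_and_dvd he1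
      obtain ⟨e', rfl⟩ := hpe
      have he'0 : e' ≠ 0 := fun h => he (by rw [h, mul_zero])
      have hpk : (p : k) ≠ 0 := fun h => hek (by rw [Nat.cast_mul, h, zero_mul])
      have he'k : (e' : k) ≠ 0 := fun h => hek (by rw [Nat.cast_mul, h, mul_zero])
      have hlt : e' < p * e' := by
        have := hp.one_lt
        nlinarith [Nat.pos_of_ne_zero he'0]
      have h1 := ih e' hlt (d * p) (Nat.mul_ne_zero hd hp.ne_zero) he'0 he'k
      have hmul : d * p * e' = d * (p * e') := by ring
      rw [hmul] at h1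
      have h2 := isSeparable_Jd_prime k d hd p hp hpk
      have hle : k⟮TD.Jd k (d * p)⟯ ≤ IntermediateField.restrictScalars k
          (k⟮TD.Jd k (d * (p * e'))⟯⟮TD.Jd k (d * p)⟯) := by
        rw [adjoin_simple_le_iff, IntermediateField.mem_restrictScalars]
        exact mem_adjoin_simple_self _ _
      have hrange : (algebraMap k⟮TD.Jd k (d * p)⟯ (LaurentSeries k)).range ≤
          (algebraMap (k⟮TD.Jd k (d * (p * e'))⟯⟮TD.Jd k (d * p)⟯) (LaurentSeries k)).range := by
        rintro _ ⟨a, rfl⟩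
        have ha : (a : LaurentSeries k) ∈ k⟮TD.Jd k (d * (p * e'))⟯⟮TD.Jd k (d * p)⟯ :=
          (IntermediateField.mem_restrictScalars k).1 (hle a.2)
        refine ⟨⟨(a : LaurentSeries k), ha⟩, ?_⟩
        rw [IntermediateField.algebraMap_apply, IntermediateField.algebraMap_apply]
      have h3 : IsSeparable (k⟮TD.Jd k (d * (p * e'))⟯⟮TD.Jd k (d * p)⟯) (TD.Jd k d) :=
        isSeparable_of_range_le hrange h2
      exact isSeparable_trans_simple h1 h3

/-- Every element of the modular function field of level `N` is separable over `k(J(q^N))`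
when `N` is invertible in `k` (statement inside `k((q))`). -/
theorem isSeparable_of_mem_fullC (N : ℕ) [NeZero N] (hNk : (N : k) ≠ 0) {f : LaurentSeries k}
    (hf : f ∈ modularFunctionFieldFullC k N) : IsSeparable k⟮TD.Jd k N⟯ f := by
  have hS : ∀ x ∈ divisorExpansionsC k N, IsSeparable k⟮TD.Jd k N⟯ x := by
    rintro x ⟨d, hne, hd, rfl⟩
    haveI := hne
    obtain ⟨e, he⟩ := hd
    have he0 : e ≠ 0 := fun h => NeZero.ne N (by rw [he, h, mul_zero])
    have hek : (e : k) ≠ 0 := fun h => hNk (by rw [he, Nat.cast_mul, h, mul_zero])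
    have h := isSeparable_Jd_mul k e d (NeZero.ne d) he0 hek
    rw [← he, TD.Jd_eq k d] at h
    exact h
  haveI : Algebra.IsSeparable k⟮TD.Jd k N⟯
      (IntermediateField.adjoin k⟮TD.Jd k N⟯ (divisorExpansionsC k N)) :=
    (isSeparable_adjoin_iff_isSeparable k⟮TD.Jd k N⟯ (LaurentSeries k)).2 hS
  have hle : modularFunctionFieldFullC k N ≤ IntermediateField.restrictScalars k
      (IntermediateField.adjoin k⟮TD.Jd k N⟯ (divisorExpansionsC k N)) := by
    rw [modularFunctionFieldFullC, adjoin_le_iff]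
    intro x hx
    exact subset_adjoin k⟮TD.Jd k N⟯ (divisorExpansionsC k N) hx
  have hfΩ : f ∈ IntermediateField.adjoin k⟮TD.Jd k N⟯ (divisorExpansionsC k N) := hle hf
  have h := Algebra.IsSeparable.isSeparable k⟮TD.Jd k N⟯
    (⟨f, hfΩ⟩ : IntermediateField.adjoin k⟮TD.Jd k N⟯ (divisorExpansionsC k N))
  have hmin := minpoly.algebraMap_eq (A := k⟮TD.Jd k N⟯)
    (B := IntermediateField.adjoin k⟮TD.Jd k N⟯ (divisorExpansionsC k N))
    (B' := LaurentSeries k) Subtype.val_injective ⟨f, hfΩ⟩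
  show (minpoly k⟮TD.Jd k N⟯ f).Separable
  have hf' : f = algebraMap (IntermediateField.adjoin k⟮TD.Jd k N⟯ (divisorExpansionsC k N))
      (LaurentSeries k) ⟨f, hfΩ⟩ := rfl
  rw [hf', hmin]
  exact h

/-- Membership in `k⟮x̄⟯`, at the level of series (universe-polymorphic form). -/
theorem mem_adjoin_xk_iff' (N : ℕ) [NeZero N] (c : modularFunctionFieldFullC k N) :
    c ∈ k⟮Red.xk k N⟯ ↔ (c : LaurentSeries k) ∈ IntermediateField.adjoin k {TD.Jd k N} := by
  rw [← IntermediateField.mem_lift, IntermediateField.lift_adjoin_simple]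
  rfl

/-- **SEP**: the mod-`ℓ` modular function field of level `N` is separable over `k(x̄)`,
`x̄ = J̄(q^N)`, whenever `N` is invertible in `k`. -/
theorem isSeparable_xk (N : ℕ) [NeZero N] (hNk : (N : k) ≠ 0) :
    Algebra.IsSeparable k⟮Red.xk k N⟯ (modularFunctionFieldFullC k N) := by
  refine ⟨fun y => ?_⟩
  have h1 : IsSeparable k⟮TD.Jd k N⟯ (y : LaurentSeries k) :=
    isSeparable_of_mem_fullC k N hNk y.2
  have h2 : IsSeparable k⟮Red.xk k N⟯ (y : LaurentSeries k) := by
    refine isSeparable_of_range_le ?_ h1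
    rintro _ ⟨a, rfl⟩
    have hJ : TD.Jd k N ∈ modularFunctionFieldFullC k N := (Red.xk k N).2
    have hle : k⟮TD.Jd k N⟯ ≤ modularFunctionFieldFullC k N := by
      rw [adjoin_simple_le_iff]
      exact hJ
    have haF : (a : LaurentSeries k) ∈ modularFunctionFieldFullC k N := hle a.2
    have hmem : (⟨a, haF⟩ : modularFunctionFieldFullC k N) ∈ k⟮Red.xk k N⟯ := by
      rw [mem_adjoin_xk_iff']
      exact a.2
    exact ⟨⟨⟨a, haF⟩, hmem⟩, rfl⟩
  show (minpoly k⟮Red.xk k N⟯ y).Separable
  rw [← minpoly.algebraMap_eq (A := k⟮Red.xk k N⟯) (B := modularFunctionFieldFullC k N)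
    (B' := LaurentSeries k) (algebraMap (modularFunctionFieldFullC k N) (LaurentSeries k)).injective y]
  exact h2

/-- SEP for every base field containing `x̄`: if `k(x̄) ⊆ E ⊆ F̄` then `F̄ / E` is separable
(e.g. `E = k(y)` for any base function `y` with `J̄(q^N) ∈ k(y)`). -/
theorem isSeparable_of_le (N : ℕ) [NeZero N] (hNk : (N : k) ≠ 0)
    (E : IntermediateField k (modularFunctionFieldFullC k N)) (hE : k⟮Red.xk k N⟯ ≤ E) :
    Algebra.IsSeparable E (modularFunctionFieldFullC k N) := by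
  haveI := isSeparable_xk k N hNk
  refine ⟨fun y => isSeparable_of_range_le ?_ (Algebra.IsSeparable.isSeparable k⟮Red.xk k N⟯ y)⟩
  rintro _ ⟨a, rfl⟩
  exact ⟨⟨(a : modularFunctionFieldFullC k N), hE a.2⟩, rfl⟩

/-- **Prime step, upwards**: `J(q^(m p))` is separable over `k(J(q^m))` for a prime
`p ≠ char k`. -/
theorem isSeparable_Jd_prime_up (m : ℕ) (hm : m ≠ 0) (p : ℕ) (hp : p.Prime) (hpk : (p : k) ≠ 0) :
    IsSeparable k⟮TD.Jd k m⟯ (TD.Jd k (m * p)) := by
  haveI : NeZero p := ⟨hp.ne_zero⟩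
  haveI : NeZero m := ⟨hm⟩
  haveI : NeZero (m * p) := ⟨Nat.mul_ne_zero hm hp.ne_zero⟩
  obtain ⟨data₀⟩ := ModEqX.exists_modEqData (p := p) hp
  let data : Kummer.ModEqData p := Kummer.ModEqData.ofData data₀
  let y : k⟮TD.Jd k m⟯ := ⟨TD.Jd k m, mem_adjoin_simple_self k _⟩
  let P : Polynomial k⟮TD.Jd k m⟯ := Kummer.specialize data.Φ y
  have hPmap : P.map (algebraMap k⟮TD.Jd k m⟯ (LaurentSeries k))
      = Kummer.specialize data.Φ (TD.Jd k m) :=
    Kummer.map_specialize (algebraMap k⟮TD.Jd k m⟯ (LaurentSeries k)) data.Φ y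
  obtain ⟨ζ, hζ⟩ := Chain.exists_primitiveRoot_algebraicClosure (k := k) (M := p) hpk p hp dvd_rfl
  let ψ : LaurentSeries k →+* LaurentSeries k := qExpand k p
  let φ : LaurentSeries k →+* LaurentSeries (AlgebraicClosure k) :=
    coeffMap (algebraMap k (AlgebraicClosure k))
  have hψ : ψ (TD.Jd k m) = TD.Jd k (m * p) := by
    rw [mul_comm]
    exact TD.qExpand_Jd k p m hm
  have hφ : φ (TD.Jd k (m * p)) = Kummer.JJ ((1 : (AlgebraicClosure k)ˣ) ^ p) (m * p) := by
    rw [one_pow, Kummer.JJ_one, ← TD.Jd_eq_jqNModC]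
    exact TD.coeffMap_Jd _ _
  have hsepK : (((P.map (algebraMap k⟮TD.Jd k m⟯ (LaurentSeries k))).map ψ).map φ).Separable := by
    rw [hPmap, Kummer.map_specialize, hψ, Kummer.map_specialize, hφ,
      data.specialize_eq_prod hp.one_lt hζ 1 m]
    exact separable_prod_X_sub_C_iff.2 (Kummer.rootFam_injective hp.one_lt hζ 1 m)
  have hsep : P.Separable := by
    rw [← Polynomial.separable_map (algebraMap k⟮TD.Jd k m⟯ (LaurentSeries k)),
      ← Polynomial.separable_map ψ, ← Polynomial.separable_map φ]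
    exact hsepK
  have hroot : Polynomial.aeval (TD.Jd k (m * p)) P = 0 := by
    rw [Polynomial.aeval_def, ← Polynomial.eval_map, hPmap, Kummer.eval_specialize]
    have h := data.ev_mul (1 : kˣ) m
    rwa [one_pow, Kummer.JJ_one, Kummer.JJ_one, ← TD.Jd_eq_jqNModC, ← TD.Jd_eq_jqNModC] at h
  exact hsep.of_dvd (minpoly.dvd _ _ hroot)

/-- **Tower step, upwards**: `J(q^(d e))` is separable over `k(J(q^d))` when `e` is invertible
in `k`. -/
theorem isSeparable_Jd_mul_up (e : ℕ) :
    ∀ d : ℕ, d ≠ 0 → e ≠ 0 → (e : k) ≠ 0 → IsSeparable k⟮TD.Jd k d⟯ (TD.Jd k (d * e)) := by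
  induction e using Nat.strong_induction_on with
  | _ e ih =>
    intro d hd he hek
    by_cases he1 : e = 1
    · subst he1
      have h := isSeparable_algebraMap (F := k⟮TD.Jd k d⟯) (K := LaurentSeries k)
        ⟨TD.Jd k d, mem_adjoin_simple_self k _⟩
      have h2 : algebraMap k⟮TD.Jd k d⟯ (LaurentSeries k)
          ⟨TD.Jd k d, mem_adjoin_simple_self k _⟩ = TD.Jd k (d * 1) := by
        show TD.Jd k d = TD.Jd k (d * 1)
        rw [mul_one]
      rwa [h2] at h
    · obtain ⟨p, hp, hpe⟩ := Nat.exists_prime_and_dvd he1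
      obtain ⟨e', rfl⟩ := hpe
      have he'0 : e' ≠ 0 := fun h => he (by rw [h, mul_zero])
      have hpk : (p : k) ≠ 0 := fun h => hek (by rw [Nat.cast_mul, h, zero_mul])
      have he'k : (e' : k) ≠ 0 := fun h => hek (by rw [Nat.cast_mul, h, mul_zero])
      have hlt : e' < p * e' := by
        have := hp.one_lt
        nlinarith [Nat.pos_of_ne_zero he'0]
      -- `J(q^(d p e'))` is separable over `k(J(q^(d p)))`, which is separable over `k(J(q^d))`
      have h1 := ih e' hlt (d * p) (Nat.mul_ne_zero hd hp.ne_zero) he'0 he'k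
      have hmul : d * p * e' = d * (p * e') := by ring
      rw [hmul] at h1
      have h2 := isSeparable_Jd_prime_up k d hd p hp hpk
      have hle : k⟮TD.Jd k (d * p)⟯ ≤ IntermediateField.restrictScalars k
          (k⟮TD.Jd k d⟯⟮TD.Jd k (d * p)⟯) := by
        rw [adjoin_simple_le_iff, IntermediateField.mem_restrictScalars]
        exact mem_adjoin_simple_self _ _
      have hrange : (algebraMap k⟮TD.Jd k (d * p)⟯ (LaurentSeries k)).range ≤
          (algebraMap (k⟮TD.Jd k d⟯⟮TD.Jd k (d * p)⟯) (LaurentSeries k)).range := by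
        rintro _ ⟨a, rfl⟩
        have ha : (a : LaurentSeries k) ∈ k⟮TD.Jd k d⟯⟮TD.Jd k (d * p)⟯ :=
          (IntermediateField.mem_restrictScalars k).1 (hle a.2)
        refine ⟨⟨(a : LaurentSeries k), ha⟩, ?_⟩
        rw [IntermediateField.algebraMap_apply, IntermediateField.algebraMap_apply]
      have h3 : IsSeparable (k⟮TD.Jd k d⟯⟮TD.Jd k (d * p)⟯) (TD.Jd k (d * (p * e'))) :=
        isSeparable_of_range_le hrange h1
      exact isSeparable_trans_simple h2 h3

/-- Every element of the modular function field of level `N` is separable over `k(J)` when `N`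
is invertible in `k` (statement inside `k((q))`). -/
theorem isSeparable_of_mem_fullC_J (N : ℕ) [NeZero N] (hNk : (N : k) ≠ 0) {f : LaurentSeries k}
    (hf : f ∈ modularFunctionFieldFullC k N) : IsSeparable k⟮jqModC k⟯ f := by
  have hS : ∀ x ∈ divisorExpansionsC k N, IsSeparable k⟮jqModC k⟯ x := by
    rintro x ⟨d, hne, hd, rfl⟩
    haveI := hne
    have hdk : (d : k) ≠ 0 := by
      intro h
      obtain ⟨e, he⟩ := hd
      exact hNk (by rw [he, Nat.cast_mul, h, zero_mul])
    have h := isSeparable_Jd_mul_up k d 1 one_ne_zero (NeZero.ne d) hdk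
    rw [one_mul, TD.Jd_one, TD.Jd_eq k d] at h
    exact h
  haveI : Algebra.IsSeparable k⟮jqModC k⟯
      (IntermediateField.adjoin k⟮jqModC k⟯ (divisorExpansionsC k N)) :=
    (isSeparable_adjoin_iff_isSeparable k⟮jqModC k⟯ (LaurentSeries k)).2 hS
  have hle : modularFunctionFieldFullC k N ≤ IntermediateField.restrictScalars k
      (IntermediateField.adjoin k⟮jqModC k⟯ (divisorExpansionsC k N)) := by
    rw [modularFunctionFieldFullC, adjoin_le_iff]
    intro x hx
    exact subset_adjoin k⟮jqModC k⟯ (divisorExpansionsC k N) hx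
  have hfΩ : f ∈ IntermediateField.adjoin k⟮jqModC k⟯ (divisorExpansionsC k N) := hle hf
  have h := Algebra.IsSeparable.isSeparable k⟮jqModC k⟯
    (⟨f, hfΩ⟩ : IntermediateField.adjoin k⟮jqModC k⟯ (divisorExpansionsC k N))
  have hmin := minpoly.algebraMap_eq (A := k⟮jqModC k⟯)
    (B := IntermediateField.adjoin k⟮jqModC k⟯ (divisorExpansionsC k N))
    (B' := LaurentSeries k) Subtype.val_injective ⟨f, hfΩ⟩
  show (minpoly k⟮jqModC k⟯ f).Separable
  have hf' : f = algebraMap (IntermediateField.adjoin k⟮jqModC k⟯ (divisorExpansionsC k N))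
      (LaurentSeries k) ⟨f, hfΩ⟩ := rfl
  rw [hf', hmin]
  exact h

/-- Membership in `k⟮J̄⟯`, at the level of series. -/
theorem mem_adjoin_Jbar_iff (N : ℕ) (c : modularFunctionFieldFullC k N) :
    c ∈ k⟮Jbar k N⟯ ↔ (c : LaurentSeries k) ∈ IntermediateField.adjoin k {jqModC k} := by
  rw [← IntermediateField.mem_lift, IntermediateField.lift_adjoin_simple]
  rfl

/-- **SEP over `k(J̄)`**: the mod-`ℓ` modular function field of level `N` is separable over
`k(J̄)`, `J̄ = J̄(q)`, whenever `N` is invertible in `k`. -/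
theorem isSeparable_Jbar (N : ℕ) [NeZero N] (hNk : (N : k) ≠ 0) :
    Algebra.IsSeparable k⟮Jbar k N⟯ (modularFunctionFieldFullC k N) := by
  refine ⟨fun y => ?_⟩
  have h1 : IsSeparable k⟮jqModC k⟯ (y : LaurentSeries k) :=
    isSeparable_of_mem_fullC_J k N hNk y.2
  have h2 : IsSeparable k⟮Jbar k N⟯ (y : LaurentSeries k) := by
    refine isSeparable_of_range_le ?_ h1
    rintro _ ⟨a, rfl⟩
    have hJ : jqModC k ∈ modularFunctionFieldFullC k N := jqModC_mem_full k N
    have hle : k⟮jqModC k⟯ ≤ modularFunctionFieldFullC k N := by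
      rw [adjoin_simple_le_iff]
      exact hJ
    have haF : (a : LaurentSeries k) ∈ modularFunctionFieldFullC k N := hle a.2
    have hmem : (⟨a, haF⟩ : modularFunctionFieldFullC k N) ∈ k⟮Jbar k N⟯ := by
      rw [mem_adjoin_Jbar_iff]
      exact a.2
    exact ⟨⟨⟨a, haF⟩, hmem⟩, rfl⟩
  show (minpoly k⟮Jbar k N⟯ y).Separable
  rw [← minpoly.algebraMap_eq (A := k⟮Jbar k N⟯) (B := modularFunctionFieldFullC k N)
    (B' := LaurentSeries k) (algebraMap (modularFunctionFieldFullC k N) (LaurentSeries k)).injective y]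
  exact h2

end Fermat.Agent.Lib.FF.ModL
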