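import Fermat.Agent.Lib.FF.AdeleResidue
import Fermat.Prelude.Def_AlgebraicCurve_CanonicalDivisor

/-!
# Weil differentials, Serre duality and the degree of the canonical divisor

On the Prelude's repartitions, from Riemann–Roch in `H¹`-form (helper83's `Lib/FF/RR*`):

* `Weil.Om D` : functionals on `𝔸` vanishing on `Λ(D) + F` (Weil differentials of level `D`).
* `Weil.exists_twist_eq` : Weil differentials form a one-dimensional `F`-vector space.
* `Weil.finrank_H1_eq` : **duality** `dim H¹(D) = dim L(W - D)` for the divisor `W` of a nonzero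
  Weil differential.
* `Weil.degree_eq`, `Weil.finrank_L_eq_genus`, `Weil.riemannRoch_full`.
* `degree_of_isDivisorOf`, ... : the same for the divisor of a Kähler differential given by
  local data (through the residue pairing of `AdeleResidue`).
-/

set_option autoImplicit false

namespace Fermat.Agent.Lib.FF.Res

open AlgebraicCurve WithZero Module

namespace Weil

variable {K F : Type*} [Field K] [Field F] [Algebra K F]

/-- twist of a functional on `𝔸` by an element of `F`: `(x • μ)(α) = μ(x α)` -/
noncomputable def twist (μ : Module.Dual K ↥(repartitions K F)) :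
    F →ₗ[K] Module.Dual K ↥(repartitions K F) where
  toFun x := μ ∘ₗ LinearMap.mulLeft K (Adele.iotaA K F x)
  map_add' x y := by
    ext α
    simp only [LinearMap.comp_apply, LinearMap.mulLeft_apply, LinearMap.add_apply, map_add,
      add_mul]
  map_smul' c x := by
    ext α
    simp only [LinearMap.comp_apply, LinearMap.mulLeft_apply, LinearMap.smul_apply,
      RingHom.id_apply, map_smul, smul_mul_assoc, smul_eq_mul]

theorem twist_apply (μ : Module.Dual K ↥(repartitions K F)) (x : F) (α : ↥(repartitions K F)) :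
    twist μ x α = μ (Adele.iotaA K F x * α) := rfl

theorem twist_twist (μ : Module.Dual K ↥(repartitions K F)) (x y : F) :
    twist (twist μ x) y = twist μ (x * y) := by
  ext α
  rw [twist_apply, twist_apply, twist_apply, map_mul (Adele.iotaA K F), mul_assoc]

theorem twist_one (μ : Module.Dual K ↥(repartitions K F)) : twist μ 1 = μ := by
  ext α
  rw [twist_apply, map_one, one_mul]

theorem twist_injective {μ : Module.Dual K ↥(repartitions K F)} (hμ : μ ≠ 0) :
    Function.Injective (twist μ) := by
  rw [injective_iff_map_eq_zero]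
  intro x hx
  by_contra hx0
  apply hμ
  ext α
  have h1 : α = Adele.iotaA K F x * (Adele.iotaA K F x⁻¹ * α) := by
    rw [← mul_assoc, ← map_mul, mul_inv_cancel₀ hx0, map_one, one_mul]
  rw [h1, ← twist_apply, hx]
  rfl

/-- Weil differentials of level `D`: the functionals on `𝔸` vanishing on `Λ(D) + F`. -/
def Om (D : Divisor K F) : Submodule K (Module.Dual K ↥(repartitions K F)) :=
  (RR.MD D).dualAnnihilator

theorem mem_Om {D : Divisor K F} {μ : Module.Dual K ↥(repartitions K F)} :
    μ ∈ Om D ↔ (∀ α ∈ repartitionsOf D, μ α = 0) ∧ ∀ f : F, μ (Adele.iotaA K F f) = 0 := by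
  unfold Om RR.MD
  rw [Submodule.dualAnnihilator_sup_eq, Submodule.mem_inf, Submodule.mem_dualAnnihilator,
    Submodule.mem_dualAnnihilator]
  refine and_congr Iff.rfl ⟨fun h f => h _ (RR.constRep_mem_principal f), fun h w hw => ?_⟩
  obtain ⟨f, rfl⟩ := RR.mem_principal_iff.1 hw
  exact h f

theorem Om_anti {D D' : Divisor K F} (h : D ≤ D') : Om D' ≤ Om D :=
  Submodule.dualAnnihilator_anti (RR.MD_mono h)

theorem finrank_Om (D : Divisor K F) :
    finrank K ↥(Om D) = finrank K (H1 D) := by
  show finrank K ↥(RR.MD D).dualAnnihilator = _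
  rw [← (Submodule.dualQuotEquivDualAnnihilator (RR.MD D)).finrank_eq, Subspace.dual_finrank_eq]
  rfl

theorem finite_Om (D : Divisor K F) [Module.Finite K (H1 D)] : FiniteDimensional K ↥(Om D) := by
  have : Module.Finite K (↥(repartitions K F) ⧸ RR.MD D) := ‹Module.Finite K (H1 D)›
  exact Module.Finite.equiv (Submodule.dualQuotEquivDualAnnihilator (RR.MD D))

theorem twist_mem_Om {D B : Divisor K F} {μ : Module.Dual K ↥(repartitions K F)}
    (hμ : μ ∈ Om D) {x : F} (hx : x ∈ riemannRochSpace B) : twist μ x ∈ Om (D - B) := by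
  rw [mem_Om] at hμ ⊢
  refine ⟨fun α hα => ?_, fun f => ?_⟩
  · rw [twist_apply]
    refine hμ.1 _ fun v => ?_
    rw [Adele.coe_mul_apply, Adele.iotaA_apply, map_mul]
    calc v.adicValuation x * v.adicValuation ((α : Place K F → F) v)
        ≤ exp (B v) * exp ((D - B) v) := mul_le_mul' (hx v) (hα v)
      _ = exp (D v) := by
        rw [← exp_add, Finsupp.sub_apply]
        congr 1
        ring
  · rw [twist_apply, ← map_mul]
    exact hμ.2 _

/-! ### degrees -/

theorem degree_nonneg_of_nonneg {E : Divisor K F} (h : ∀ v, 0 ≤ E v) :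
    0 ≤ Divisor.degree E := by
  have : Divisor.degree E = E.sum fun v n => n * (v.deg : ℤ) := by
    simp [Divisor.degree, Finsupp.liftAddHom_apply]
  rw [this]
  exact Finset.sum_nonneg fun v _ => mul_nonneg (h v) (Int.natCast_nonneg _)

theorem L_eq_bot_of_degree_neg [HasPrincipalDivisors K F] {D : Divisor K F}
    (hD : Divisor.degree D < 0) : riemannRochSpace D = ⊥ := by
  rw [eq_bot_iff]
  intro f hf
  rw [Submodule.mem_bot]
  by_contra hf0
  obtain ⟨Df, hDf, hdeg⟩ := HasPrincipalDivisors.exists_divisor (K := K) f hf0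
  have hnn : ∀ v, 0 ≤ (D + Df) v := by
    intro v
    rcases mem_riemannRochSpace_iff.1 hf v with h | h
    · exact absurd h hf0
    · rw [Finsupp.add_apply, hDf v]
      linarith
  have := degree_nonneg_of_nonneg hnn
  rw [map_add, hdeg, add_zero] at this
  linarith

/-! ### Weil differentials form a one-dimensional `F`-vector space -/

section main

variable [HasPrincipalDivisors K F] (hres : ∀ v : Place K F, RR.ResK v) (P₀ : Place K F)
  (hRR : ∀ D : Divisor K F, Module.Finite K (riemannRochSpace D) ∧ Module.Finite K (H1 D) ∧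
    (finrank K (riemannRochSpace D) : ℤ) - finrank K (H1 D)
      = Divisor.degree D + 1 - genusFF K F)

include hres P₀ hRR in
/-- Any two Weil differentials (the first nonzero) differ by an element of `F`. -/
theorem exists_twist_eq {D₀ : Divisor K F} {μ μ' : Module.Dual K ↥(repartitions K F)}
    (hμ : μ ∈ Om D₀) (hμ' : μ' ∈ Om D₀) (hμ0 : μ ≠ 0) : ∃ x : F, μ' = twist μ x := by
  by_cases hμ'0 : μ' = 0
  · exact ⟨0, by rw [map_zero]; exact hμ'0⟩
  set g : ℤ := (genusFF K F : ℤ) with hg
  set d₀ : ℤ := Divisor.degree D₀ with hd₀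
  set n : ℤ := |d₀| + 3 * g + 1 with hn
  set B : Divisor K F := Finsupp.single P₀ n with hB
  have hdegB : Divisor.degree B = n := by
    rw [hB, Divisor.degree_single, RR.deg_eq_one (hres P₀)]
    simp
  have hg0 : 0 ≤ g := Int.natCast_nonneg _
  have habs : d₀ ≤ |d₀| := le_abs_self _
  have habs' : -d₀ ≤ |d₀| := neg_le_abs d₀
  -- `L(D₀ - B) = 0`
  have hdeg1 : Divisor.degree (D₀ - B) = d₀ - n := by rw [map_sub, hdegB]
  have hL1 : finrank K (riemannRochSpace (D₀ - B)) = 0 := by
    rw [L_eq_bot_of_degree_neg (by rw [hdeg1]; linarith)]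
    exact finrank_bot K F
  obtain ⟨-, hfinH, hrr1⟩ := hRR (D₀ - B)
  obtain ⟨hfinL, -, hrr2⟩ := hRR B
  rw [hL1, hdeg1] at hrr1
  rw [hdegB] at hrr2
  have hU := finite_Om (D₀ - B)
  have hUdim : (finrank K ↥(Om (D₀ - B)) : ℤ) = n - d₀ - 1 + g := by
    rw [finrank_Om]
    push_cast at hrr1
    linarith
  have hLdim : n + 1 - g ≤ (finrank K (riemannRochSpace B) : ℤ) := by
    have : (0 : ℤ) ≤ (finrank K (H1 B) : ℤ) := Int.natCast_nonneg _
    linarith
  set S := (riemannRochSpace B).map (twist μ) with hS
  set S' := (riemannRochSpace B).map (twist μ') with hS'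
  have hSU : S ≤ Om (D₀ - B) := by
    rintro _ ⟨x, hx, rfl⟩
    exact twist_mem_Om hμ hx
  have hS'U : S' ≤ Om (D₀ - B) := by
    rintro _ ⟨x, hx, rfl⟩
    exact twist_mem_Om hμ' hx
  have hSfin : FiniteDimensional K ↥S := Submodule.finiteDimensional_of_le hSU
  have hS'fin : FiniteDimensional K ↥S' := Submodule.finiteDimensional_of_le hS'U
  have hSdim : finrank K ↥S = finrank K (riemannRochSpace B) :=
    (Submodule.equivMapOfInjective (twist μ) (twist_injective hμ0) _).finrank_eq.symm
  have hS'dim : finrank K ↥S' = finrank K (riemannRochSpace B) :=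
    (Submodule.equivMapOfInjective (twist μ') (twist_injective hμ'0) _).finrank_eq.symm
  have hsum := Submodule.finrank_sup_add_finrank_inf_eq S S'
  have hsup : finrank K ↥(S ⊔ S') ≤ finrank K ↥(Om (D₀ - B)) :=
    Submodule.finrank_mono (sup_le hSU hS'U)
  have hinf : S ⊓ S' ≠ ⊥ := by
    intro hbot
    rw [hbot, finrank_bot, hSdim, hS'dim] at hsum
    have h1 : (finrank K ↥(S ⊔ S') : ℤ) ≤ n - d₀ - 1 + g := by
      rw [← hUdim]; exact_mod_cast hsup
    have h2 : (finrank K ↥(S ⊔ S') : ℤ) = 2 * (finrank K (riemannRochSpace B) : ℤ) := by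
      have := congrArg (Nat.cast : ℕ → ℤ) hsum
      push_cast at this
      linarith
    linarith
  obtain ⟨ν, hν, hν0⟩ := Submodule.exists_mem_ne_zero_of_ne_bot hinf
  obtain ⟨⟨x, -, hx⟩, ⟨y, -, hy⟩⟩ := hν
  have hy0 : y ≠ 0 := by
    rintro rfl
    rw [map_zero] at hy
    exact hν0 hy.symm
  refine ⟨x * y⁻¹, ?_⟩
  rw [← twist_twist, hx, ← hy, twist_twist, mul_inv_cancel₀ hy0, twist_one]

include hres P₀ hRR in
/-- **Duality**: for the divisor `W` of a nonzero Weil differential `lam`,
`dim H¹(D) = dim L(W - D)`. -/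
theorem finrank_H1_eq {lam : Module.Dual K ↥(repartitions K F)} {W : Divisor K F}
    (hlam : lam ∈ Om W) (hne : lam ≠ 0)
    (hmax : ∀ D : Divisor K F, (∀ α ∈ repartitionsOf D, lam α = 0) → D ≤ W)
    (D : Divisor K F) :
    finrank K (H1 D) = finrank K (riemannRochSpace (W - D)) := by
  have hmem : ∀ x : riemannRochSpace (W - D), twist lam (x : F) ∈ Om D := by
    intro x
    have := twist_mem_Om hlam x.2
    rwa [sub_sub_cancel] at this
  set f : riemannRochSpace (W - D) →ₗ[K] ↥(Om D) :=
    ((twist lam).domRestrict (riemannRochSpace (W - D))).codRestrict (Om D) hmem with hf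
  have hinj : Function.Injective f := by
    intro x y hxy
    have h1 : twist lam (x : F) = twist lam (y : F) := congrArg Subtype.val hxy
    exact Subtype.ext (twist_injective hne h1)
  have hsurj : Function.Surjective f := by
    rintro ⟨μ, hμ⟩
    obtain ⟨x, hx⟩ := exists_twist_eq hres P₀ hRR (Om_anti (inf_le_left : W ⊓ D ≤ W) hlam)
      (Om_anti (inf_le_right : W ⊓ D ≤ D) hμ) hne
    have hxmem : x ∈ riemannRochSpace (W - D) := by
      by_cases hx0 : x = 0
      · rw [hx0]; exact zero_mem _
      obtain ⟨Dx, hDx, -⟩ := HasPrincipalDivisors.exists_divisor (K := K) x hx0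
      have hle : D - Dx ≤ W := by
        refine hmax _ fun α hα => ?_
        have h1 : α = Adele.iotaA K F x * (Adele.iotaA K F x⁻¹ * α) := by
          rw [← mul_assoc, ← map_mul, mul_inv_cancel₀ hx0, map_one, one_mul]
        rw [h1, ← twist_apply, ← hx]
        refine (mem_Om.1 hμ).1 _ fun v => ?_
        rw [Adele.coe_mul_apply, Adele.iotaA_apply, map_mul, map_inv₀,
          v.adicValuation_eq_exp_neg_ord hx0, ← exp_neg, neg_neg]
        calc exp (v.ord x) * v.adicValuation ((α : Place K F → F) v)
            ≤ exp (v.ord x) * exp ((D - Dx) v) := by gcongr; exact hα v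
          _ = exp (D v) := by
            rw [← exp_add, Finsupp.sub_apply, hDx v]
            congr 1
            ring
      intro v
      rw [v.adicValuation_eq_exp_neg_ord hx0, exp_le_exp, Finsupp.sub_apply]
      have := Finsupp.le_def.1 hle v
      rw [Finsupp.sub_apply, hDx v] at this
      linarith
    exact ⟨⟨x, hxmem⟩, Subtype.ext hx.symm⟩
  rw [← finrank_Om, ← (LinearEquiv.ofBijective f ⟨hinj, hsurj⟩).finrank_eq]

include hres P₀ hRR in
/-- `dim L(W) = g` -/
theorem finrank_L_eq_genus {lam : Module.Dual K ↥(repartitions K F)} {W : Divisor K F}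
    (hlam : lam ∈ Om W) (hne : lam ≠ 0)
    (hmax : ∀ D : Divisor K F, (∀ α ∈ repartitionsOf D, lam α = 0) → D ≤ W) :
    finrank K (riemannRochSpace W) = genusFF K F := by
  have := finrank_H1_eq hres P₀ hRR hlam hne hmax 0
  rw [sub_zero] at this
  exact this.symm

include hres P₀ hRR in
/-- `deg W = 2g - 2` -/
theorem degree_eq {lam : Module.Dual K ↥(repartitions K F)} {W : Divisor K F}
    (hlam : lam ∈ Om W) (hne : lam ≠ 0)
    (hmax : ∀ D : Divisor K F, (∀ α ∈ repartitionsOf D, lam α = 0) → D ≤ W)
    (hL0' : finrank K (riemannRochSpace (0 : Divisor K F)) = 1) :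
    Divisor.degree W = 2 * (genusFF K F : ℤ) - 2 := by
  have h1 := finrank_H1_eq hres P₀ hRR hlam hne hmax W
  rw [sub_self, hL0'] at h1
  have h2 := finrank_L_eq_genus hres P₀ hRR hlam hne hmax
  obtain ⟨-, -, h3⟩ := hRR W
  rw [h1, h2] at h3
  push_cast at h3
  linarith

include hres P₀ hRR in
/-- **Riemann–Roch**, classical form: `dim L(D) - dim L(W - D) = deg D + 1 - g`. -/
theorem riemannRoch_full {lam : Module.Dual K ↥(repartitions K F)} {W : Divisor K F}
    (hlam : lam ∈ Om W) (hne : lam ≠ 0)
    (hmax : ∀ D : Divisor K F, (∀ α ∈ repartitionsOf D, lam α = 0) → D ≤ W)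
    (D : Divisor K F) :
    (finrank K (riemannRochSpace D) : ℤ) - finrank K (riemannRochSpace (W - D))
      = Divisor.degree D + 1 - genusFF K F := by
  rw [← finrank_H1_eq hres P₀ hRR hlam hne hmax D]
  exact (hRR D).2.2

end main

end Weil

/-! ## The divisor of a Kähler differential -/

section kaehler

variable {K F : Type*} [Field K] [Field F] [Algebra K F]
variable [HasPrincipalDivisors K F] (hres : ∀ v : Place K F, RR.ResK v) (P₀ : Place K F)
  (hRR : ∀ D : Divisor K F, Module.Finite K (riemannRochSpace D) ∧ Module.Finite K (H1 D) ∧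
    (finrank K (riemannRochSpace D) : ℤ) - finrank K (H1 D)
      = Divisor.degree D + 1 - genusFF K F)

include hRR in
/-- the residue functional of a Kähler differential is a Weil differential -/
theorem resFun_mem_Om {ω : Ω[F⁄K]} {W : Divisor K F} (h : Adele.IsDivisorOf ω W) :
    Adele.resFun hres ω ∈ Weil.Om W := by
  rw [Weil.mem_Om]
  exact ⟨fun α hα => h.resPair_eq_zero hres hα,
    fun f => Adele.resPair_const hres (hRR 0).1 (hRR 0).2.1 f ω⟩

include hres P₀ hRR in
/-- **Serre duality** `dim H¹(D) = dim L(W - D)`, `W` the divisor of a Kähler differential. -/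
theorem finrank_H1_of_isDivisorOf {ω : Ω[F⁄K]} {W : Divisor K F} (h : Adele.IsDivisorOf ω W)
    (D : Divisor K F) : finrank K (H1 D) = finrank K (riemannRochSpace (W - D)) :=
  Weil.finrank_H1_eq hres P₀ hRR (resFun_mem_Om hres hRR h) (h.resFun_ne_zero hres P₀)
    (fun _ hD => h.le_of_resPair_eq_zero hres hD) D

include hres P₀ hRR in
/-- `dim L(W) = g` for the divisor `W` of a Kähler differential. -/
theorem finrank_L_of_isDivisorOf {ω : Ω[F⁄K]} {W : Divisor K F} (h : Adele.IsDivisorOf ω W) :
    finrank K (riemannRochSpace W) = genusFF K F :=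
  Weil.finrank_L_eq_genus hres P₀ hRR (resFun_mem_Om hres hRR h) (h.resFun_ne_zero hres P₀)
    (fun _ hD => h.le_of_resPair_eq_zero hres hD)

include hres P₀ hRR in
/-- **`deg (ω) = 2g - 2`** for the divisor `W` of a Kähler differential given by local data. -/
theorem degree_of_isDivisorOf (hL0' : finrank K (riemannRochSpace (0 : Divisor K F)) = 1)
    {ω : Ω[F⁄K]} {W : Divisor K F} (h : Adele.IsDivisorOf ω W) :
    Divisor.degree W = 2 * (genusFF K F : ℤ) - 2 :=
  Weil.degree_eq hres P₀ hRR (resFun_mem_Om hres hRR h) (h.resFun_ne_zero hres P₀)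
    (fun _ hD => h.le_of_resPair_eq_zero hres hD) hL0'

include hres P₀ hRR in
/-- **Riemann–Roch**, classical form, with `W` the divisor of a Kähler differential. -/
theorem riemannRoch_of_isDivisorOf {ω : Ω[F⁄K]} {W : Divisor K F} (h : Adele.IsDivisorOf ω W)
    (D : Divisor K F) :
    (finrank K (riemannRochSpace D) : ℤ) - finrank K (riemannRochSpace (W - D))
      = Divisor.degree D + 1 - genusFF K F :=
  Weil.riemannRoch_full hres P₀ hRR (resFun_mem_Om hres hRR h) (h.resFun_ne_zero hres P₀)
    (fun _ hD => h.le_of_resPair_eq_zero hres hD) D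

/-! ### in terms of the Prelude's `ordDifferential` -/

omit [HasPrincipalDivisors K F] in
/-- the Prelude's local data (`dCoord`, `differentialCoeff`) are local data in our sense -/
theorem isDivisorOf_of_dCoordGenerates [∀ v : Place K F, v.DCoordGenerates] {ω : Ω[F⁄K]}
    (hω : ω ≠ 0) {W : Divisor K F} (hW : ∀ v : Place K F, W v = v.ordDifferential ω) :
    Adele.IsDivisorOf ω W := by
  intro p
  obtain ⟨π, hπ, hd⟩ : ∃ π : p.toValuationSubring, Irreducible π ∧
      p.dCoord = KaehlerDifferential.D K F (π : F) :=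
    ⟨_, (IsDiscreteValuationRing.exists_irreducible p.toValuationSubring).choose_spec, rfl⟩
  refine ⟨(π : F), p.differentialCoeff ω, p.adicValuation_coe_irreducible hπ, ?_, ?_⟩
  · rw [← hd, p.differentialCoeff_smul_dCoord]
  · have hne : p.differentialCoeff ω ≠ 0 := by
      intro h0
      apply hω
      rw [← p.differentialCoeff_smul_dCoord ω, h0, zero_smul]
    rw [p.adicValuation_eq_exp_neg_ord hne, hW p]
    rfl

include hres P₀ hRR in
/-- **`deg (ω) = 2g - 2`** for the Prelude's divisor of a nonzero Kähler differential. -/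
theorem degree_canonical [∀ v : Place K F, v.DCoordGenerates]
    (hL0' : finrank K (riemannRochSpace (0 : Divisor K F)) = 1)
    {ω : Ω[F⁄K]} (hω : ω ≠ 0) {W : Divisor K F}
    (hW : ∀ v : Place K F, W v = v.ordDifferential ω) :
    Divisor.degree W = 2 * (genusFF K F : ℤ) - 2 :=
  degree_of_isDivisorOf hres P₀ hRR hL0' (isDivisorOf_of_dCoordGenerates hω hW)

include hres P₀ hRR in
/-- **The Prelude's genus (via the canonical divisor) is the Riemann–Roch genus
`dim H¹(0)`.** -/
theorem genus_eq_genusFF [∀ v : Place K F, v.DCoordGenerates]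
    [HasCanonicalDivisor (K := K) (F := F)] [Nontrivial Ω[F⁄K]]
    (hL0' : finrank K (riemannRochSpace (0 : Divisor K F)) = 1) :
    genus K F = genusFF K F := by
  have h : ∃ ω : Ω[F⁄K], ω ≠ 0 := exists_ne 0
  have hdeg := degree_canonical hres P₀ hRR hL0' h.choose_spec
    (canonicalDivisorOf_apply h.choose_spec)
  unfold genus
  rw [dif_pos h, hdeg]
  omega

end kaehler

end Fermat.Agent.Lib.FF.Res
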