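import Fermat.Agent.Lib.FF.Canonical

/-!
# Local theory of differentials at rational places, in any characteristic

Consequences of the residue pairing of `AdeleResidue` (no completions, no separability):

* `Adele.D_ne_zero_of_val` : `dt ≠ 0` for a uniformizer `t` at a place.
* `Adele.span_D_eq_top_of_val`, `Adele.dCoordGenerates_of_span` : if `Ω[F⁄K]` is spanned by one
  element, then `dt` spans it for every uniformizer `t`.
* `Adele.val_coeff_le_one` : regular functions have regular differentials.
* `Adele.val_coeff_sub_le`, `val_coeff_le`, `val_coeff_eq` : if `dy = a dt` then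
  `a = (ord y) y / t + O(y)`; so `ord a ≥ ord y - 1`, with equality iff `char K ∤ ord y`.
* `Adele.IsDivisorOf.unique`, `.val_coeff`, `.ord_smul_D_ge`, `.ord_smul_D_eq`, `.smul`.
* `Adele.exists_isDivisorOf` : a differential with local data at all places has a divisor.
* `hasCanonicalDivisor_of_span`, `genus_eq_genusFF_of_span`.
* `span_D_eq_top_of_isSeparable` : `Ω[F⁄K] = F dx` if `F / K(x)` is algebraic and separable.
-/

set_option autoImplicit false
set_option linter.style.haveILetI false

namespace Fermat.Agent.Lib.FF.Res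

open AlgebraicCurve WithZero Module KaehlerDifferential

namespace Adele

variable {K F : Type*} [Field K] [Field F] [Algebra K F]

theorem val_intCast_le_one (p : Place K F) (n : ℤ) : p.adicValuation ((n : ℤ) : F) ≤ 1 := by
  have : ((n : ℤ) : F) = algebraMap K F (n : K) := by simp
  rw [this]
  exact p.adicValuation_algebraMap_le_one _

theorem val_intCast_eq_one (p : Place K F) {n : ℤ} (hn : ((n : ℤ) : K) ≠ 0) :
    p.adicValuation ((n : ℤ) : F) = 1 := by
  have : ((n : ℤ) : F) = algebraMap K F (n : K) := by simp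
  rw [this]
  exact val_algebraMap_eq_one p hn

theorem val_inv_uniformizer (p : Place K F) {t : F} (ht : p.adicValuation t = exp (-1 : ℤ)) :
    p.adicValuation t⁻¹ = exp (1 : ℤ) := by
  rw [map_inv₀, ht, ← exp_neg, neg_neg]

theorem ne_zero_of_val_eq_exp (p : Place K F) {t : F} {n : ℤ} (ht : p.adicValuation t = exp n) :
    t ≠ 0 := by
  intro h
  rw [h, map_zero] at ht
  exact exp_ne_zero ht.symm

section local'

variable [HasPrincipalDivisors K F] (hres : ∀ v : Place K F, RR.ResK v)

include hres in
/-- `dt ≠ 0` for a uniformizer `t` at a place (because `res (dt / t) = 1`). -/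
theorem D_ne_zero_of_val (p : Place K F) {t : F} (ht : p.adicValuation t = exp (-1 : ℤ)) :
    D K F t ≠ 0 := by
  intro h0
  have h1 := resPair_single_inv_D hres p ht
  rw [h0, resPair_zero_right] at h1
  exact zero_ne_one h1

include hres in
/-- if `Ω[F⁄K]` is spanned by one element, it is spanned by `dt` for every uniformizer `t` -/
theorem span_D_eq_top_of_val (hspan : ∃ ω₀ : Ω[F⁄K], Submodule.span F {ω₀} = ⊤)
    (p : Place K F) {t : F} (ht : p.adicValuation t = exp (-1 : ℤ)) :
    Submodule.span F {D K F t} = ⊤ := by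
  obtain ⟨ω₀, hω₀⟩ := hspan
  have hmem : D K F t ∈ Submodule.span F {ω₀} := hω₀ ▸ Submodule.mem_top
  obtain ⟨c, hc⟩ := Submodule.mem_span_singleton.1 hmem
  have hc0 : c ≠ 0 := by
    rintro rfl
    rw [zero_smul] at hc
    exact D_ne_zero_of_val hres p ht hc.symm
  rw [eq_top_iff, ← hω₀, Submodule.span_le, Set.singleton_subset_iff]
  have : ω₀ = c⁻¹ • D K F t := by rw [← hc, smul_smul, inv_mul_cancel₀ hc0, one_smul]
  rw [this]
  exact Submodule.smul_mem _ _ (Submodule.mem_span_singleton_self _)

include hres in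
/-- if `Ω[F⁄K]` is spanned by one element, the Prelude's `DCoordGenerates` holds at every
place -/
theorem dCoordGenerates_of_span (hspan : ∃ ω₀ : Ω[F⁄K], Submodule.span F {ω₀} = ⊤)
    (v : Place K F) : v.DCoordGenerates := by
  obtain ⟨π, hπ, hd⟩ : ∃ π : v.toValuationSubring, Irreducible π ∧
      v.dCoord = D K F (π : F) :=
    ⟨_, (IsDiscreteValuationRing.exists_irreducible v.toValuationSubring).choose_spec, rfl⟩
  exact ⟨by rw [hd]; exact span_D_eq_top_of_val hres hspan v (v.adicValuation_coe_irreducible hπ)⟩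

include hres in
/-- `Ω[F⁄K] ≠ 0` as soon as there is a place -/
theorem nontrivial_kaehler (p : Place K F) : Nontrivial Ω[F⁄K] := by
  obtain ⟨t, ht⟩ := RR.exists_val_eq_exp p (-1)
  exact ⟨⟨_, _, D_ne_zero_of_val hres p ht⟩⟩

include hres in
/-- **regular functions have regular differentials**: if `y` is regular at `p` and
`dy = a dt` with `t` a uniformizer at `p`, then `a` is regular at `p`. -/
theorem val_coeff_le_one (p : Place K F) {t y a : F} (ht : p.adicValuation t = exp (-1 : ℤ))
    (hy : p.adicValuation y ≤ 1) (h : D K F y = a • D K F t) : p.adicValuation a ≤ 1 := by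
  by_contra hlt
  rw [not_le] at hlt
  have ha0 : a ≠ 0 := by
    rintro rfl
    rw [map_zero] at hlt
    exact absurd hlt (not_lt.mpr zero_le_one)
  have h1 := resPair_single_eq_one hres p ht ha0
  rw [← h] at h1
  have h0 : resPair hres (RR.singleRep p (a⁻¹ * t⁻¹)) (D K F y) = 0 := by
    have hb : p.adicValuation (1 * (a⁻¹ * t⁻¹)) ≤ 1 := by
      rw [p.adicValuation_eq_exp_neg_ord ha0, ← exp_zero, exp_lt_exp] at hlt
      rw [one_mul, map_mul, map_inv₀, val_inv_uniformizer p ht,
        p.adicValuation_eq_exp_neg_ord ha0, ← exp_neg, ← exp_add, ← exp_zero, exp_le_exp]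
      omega
    have := resPair_single_eq_zero hres p (a := 1) (b := a⁻¹ * t⁻¹) (g := y) hb hy
    rwa [one_smul] at this
  rw [h0] at h1
  exact zero_ne_one h1

include hres in
/-- if `dy = a dt` (`t` a uniformizer at `p`, `y ≠ 0`) then `a = (ord_p y) · y / t + O(y)`. -/
theorem val_coeff_sub_le (p : Place K F) {t y a : F} (ht : p.adicValuation t = exp (-1 : ℤ))
    (hy : y ≠ 0) (h : D K F y = a • D K F t) :
    p.adicValuation (a - ((p.ord y : ℤ) : F) * (y * t⁻¹)) ≤ p.adicValuation y := by
  set e := p.ord y with he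
  have ht0 : t ≠ 0 := ne_zero_of_val_eq_exp p ht
  have hvy : p.adicValuation y = exp (-e) := p.adicValuation_eq_exp_neg_ord hy
  set u := y * t ^ (-e) with hu
  have hvu : p.adicValuation u = 1 := by
    rw [hu, map_mul, map_zpow₀, hvy, ht, ← exp_zsmul, ← exp_add, ← exp_zero]
    congr 1
    simp
  have hDu : D K F u = (t ^ (-e) * (a - (e : F) * (y * t⁻¹))) • D K F t := by
    rw [hu, Derivation.leibniz, h, Derivation.leibniz_zpow, ← Int.cast_smul_eq_zsmul F,
      smul_smul, smul_smul, smul_smul, ← add_smul]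
    congr 1
    rw [zpow_sub_one₀ ht0]
    push_cast
    ring
  have h1 := val_coeff_le_one hres p ht hvu.le hDu
  rw [map_mul, map_zpow₀, ht, ← exp_zsmul] at h1
  have h2 : (-e) • (-1 : ℤ) = e := by simp
  rw [h2] at h1
  rw [hvy]
  calc p.adicValuation (a - (e : F) * (y * t⁻¹))
      = exp (-e) * (exp e * p.adicValuation (a - (e : F) * (y * t⁻¹))) := by
        rw [← mul_assoc (exp (-e)), ← exp_add, neg_add_cancel, exp_zero, one_mul]
    _ ≤ exp (-e) * 1 := by gcongr
    _ = exp (-e) := mul_one _

include hres in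
/-- if `dy = a dt` (`t` a uniformizer at `p`, `y ≠ 0`) then `ord_p a ≥ ord_p y - 1`. -/
theorem val_coeff_le (p : Place K F) {t y a : F} (ht : p.adicValuation t = exp (-1 : ℤ))
    (hy : y ≠ 0) (h : D K F y = a • D K F t) :
    p.adicValuation a ≤ p.adicValuation y * exp (1 : ℤ) := by
  have h1 := val_coeff_sub_le hres p ht hy h
  have h2 : p.adicValuation (((p.ord y : ℤ) : F) * (y * t⁻¹)) ≤ p.adicValuation y * exp (1 : ℤ) := by
    rw [map_mul, map_mul, val_inv_uniformizer p ht]
    calc p.adicValuation ((p.ord y : ℤ) : F) * (p.adicValuation y * exp (1 : ℤ))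
        ≤ 1 * (p.adicValuation y * exp (1 : ℤ)) := by
          gcongr
          exact val_intCast_le_one p _
      _ = _ := one_mul _
  have h3 : p.adicValuation y ≤ p.adicValuation y * exp (1 : ℤ) := by
    calc p.adicValuation y = p.adicValuation y * 1 := (mul_one _).symm
      _ ≤ p.adicValuation y * exp (1 : ℤ) := by
        gcongr
        rw [← exp_zero, exp_le_exp]
        norm_num
  have h4 : a = (a - ((p.ord y : ℤ) : F) * (y * t⁻¹)) + ((p.ord y : ℤ) : F) * (y * t⁻¹) := by
    ring
  rw [h4]
  exact (Valuation.map_add _ _ _).trans (max_le (h1.trans h3) h2)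

include hres in
/-- if `dy = a dt` (`t` a uniformizer at `p`, `y ≠ 0`) and `char K ∤ ord_p y`, then
`ord_p a = ord_p y - 1`. -/
theorem val_coeff_eq (p : Place K F) {t y a : F} (ht : p.adicValuation t = exp (-1 : ℤ))
    (hy : y ≠ 0) (h : D K F y = a • D K F t) (hchar : ((p.ord y : ℤ) : K) ≠ 0) :
    p.adicValuation a = p.adicValuation y * exp (1 : ℤ) := by
  have h1 := val_coeff_sub_le hres p ht hy h
  have h2 : p.adicValuation (((p.ord y : ℤ) : F) * (y * t⁻¹)) = p.adicValuation y * exp (1 : ℤ) := by
    rw [map_mul, map_mul, val_inv_uniformizer p ht, val_intCast_eq_one p hchar, one_mul]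
  have h3 : p.adicValuation y < p.adicValuation y * exp (1 : ℤ) := by
    rw [p.adicValuation_eq_exp_neg_ord hy, ← exp_add, exp_lt_exp]
    omega
  have h4 : a = (a - ((p.ord y : ℤ) : F) * (y * t⁻¹)) + ((p.ord y : ℤ) : F) * (y * t⁻¹) := by
    ring
  rw [h4, Valuation.map_add_eq_of_lt_right _ (by rw [h2]; exact h1.trans_lt h3), h2]

end local'

section divisor

variable [HasPrincipalDivisors K F] (hres : ∀ v : Place K F, RR.ResK v)

include hres in
/-- the divisor of a differential is unique -/
theorem IsDivisorOf.unique {ω : Ω[F⁄K]} {W W' : Divisor K F} (h : IsDivisorOf ω W)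
    (h' : IsDivisorOf ω W') : W = W' :=
  le_antisymm (h'.le_of_resPair_eq_zero hres fun _ hα => h.resPair_eq_zero hres hα)
    (h.le_of_resPair_eq_zero hres fun _ hα => h'.resPair_eq_zero hres hα)

include hres in
/-- the divisor of a differential can be read off from ANY local presentation `ω = a dt` -/
theorem IsDivisorOf.val_coeff {ω : Ω[F⁄K]} {W : Divisor K F} (h : IsDivisorOf ω W)
    (p : Place K F) {t a : F} (ht : p.adicValuation t = exp (-1 : ℤ))
    (hω : ω = a • D K F t) : p.adicValuation a = exp (-(W p)) := by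
  obtain ⟨t', a', ht', hω', ha'⟩ := h p
  have ha'0 : a' ≠ 0 := by
    intro h0
    rw [h0, map_zero] at ha'
    exact exp_ne_zero ha'.symm
  have ht'0 : t' ≠ 0 := ne_zero_of_val_eq_exp p ht'
  have hD : D K F t' = (a'⁻¹ * a) • D K F t := by
    rw [mul_smul, ← hω, hω', smul_smul, inv_mul_cancel₀ ha'0, one_smul]
  have hord : p.ord t' = 1 := by
    have := p.adicValuation_eq_exp_neg_ord ht'0
    rw [ht', exp_inj] at this
    omega
  have hchar : ((p.ord t' : ℤ) : K) ≠ 0 := by
    rw [hord]
    simp
  have h1 := val_coeff_eq hres p ht ht'0 hD hchar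
  rw [ht', ← exp_add, map_mul, map_inv₀, ha'] at h1
  have h2 : ((-1 : ℤ) + 1) = 0 := by norm_num
  rw [h2, exp_zero] at h1
  calc p.adicValuation a = exp (-(W p)) * ((exp (-(W p)))⁻¹ * p.adicValuation a) := by
        rw [← mul_assoc, mul_inv_cancel₀ exp_ne_zero, one_mul]
    _ = exp (-(W p)) := by rw [h1, mul_one]

include hres in
/-- `ord_p (r dy) ≥ ord_p r + ord_p y - 1` -/
theorem IsDivisorOf.ord_smul_D_ge {r y : F} {W : Divisor K F}
    (h : IsDivisorOf (r • D K F y) W) (hr : r ≠ 0) (hy : y ≠ 0) (p : Place K F) :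
    p.ord r + p.ord y - 1 ≤ W p := by
  obtain ⟨t, a, ht, hω, ha⟩ := h p
  have hD : D K F y = (r⁻¹ * a) • D K F t := by
    rw [mul_smul, ← hω, smul_smul, inv_mul_cancel₀ hr, one_smul]
  have h1 := val_coeff_le hres p ht hy hD
  rw [map_mul, map_inv₀, ha, p.adicValuation_eq_exp_neg_ord hr, p.adicValuation_eq_exp_neg_ord hy,
    ← exp_neg, ← exp_add, ← exp_add, exp_le_exp] at h1
  omega

include hres in
/-- `ord_p (r dy) = ord_p r + ord_p y - 1` if `char K ∤ ord_p y` -/
theorem IsDivisorOf.ord_smul_D_eq {r y : F} {W : Divisor K F}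
    (h : IsDivisorOf (r • D K F y) W) (hr : r ≠ 0) (hy : y ≠ 0) (p : Place K F)
    (hchar : ((p.ord y : ℤ) : K) ≠ 0) : W p = p.ord r + p.ord y - 1 := by
  obtain ⟨t, a, ht, hω, ha⟩ := h p
  have hD : D K F y = (r⁻¹ * a) • D K F t := by
    rw [mul_smul, ← hω, smul_smul, inv_mul_cancel₀ hr, one_smul]
  have h1 := val_coeff_eq hres p ht hy hD hchar
  rw [map_mul, map_inv₀, ha, p.adicValuation_eq_exp_neg_ord hr, p.adicValuation_eq_exp_neg_ord hy,
    ← exp_neg, ← exp_add, ← exp_add, exp_inj] at h1
  omega

include hres in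
/-- `ord_p (dy) ≥ ord_p y - 1` -/
theorem IsDivisorOf.ord_D_ge {y : F} {W : Divisor K F}
    (h : IsDivisorOf (D K F y) W) (hy : y ≠ 0) (p : Place K F) : p.ord y - 1 ≤ W p := by
  have h' : IsDivisorOf ((1 : F) • D K F y) W := by rwa [one_smul]
  have := h'.ord_smul_D_ge hres one_ne_zero hy p
  rwa [Place.ord_one, zero_add] at this

include hres in
/-- `ord_p (dy) = ord_p y - 1` if `char K ∤ ord_p y` -/
theorem IsDivisorOf.ord_D_eq {y : F} {W : Divisor K F}
    (h : IsDivisorOf (D K F y) W) (hy : y ≠ 0) (p : Place K F)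
    (hchar : ((p.ord y : ℤ) : K) ≠ 0) : W p = p.ord y - 1 := by
  have h' : IsDivisorOf ((1 : F) • D K F y) W := by rwa [one_smul]
  have := h'.ord_smul_D_eq hres one_ne_zero hy p hchar
  rwa [Place.ord_one, zero_add] at this

omit [HasPrincipalDivisors K F] in
/-- `d(y - c) = dy` for a constant `c` -/
theorem D_sub_algebraMap (y : F) (c : K) : D K F (y - algebraMap K F c) = D K F y := by
  rw [map_sub, Derivation.map_algebraMap, sub_zero]

omit [HasPrincipalDivisors K F] in
/-- the divisor of `f ω` is `div f + div ω` -/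
theorem IsDivisorOf.smul {ω : Ω[F⁄K]} {W : Divisor K F} (h : IsDivisorOf ω W) {f : F}
    (hf : f ≠ 0) {Df : Divisor K F} (hDf : ∀ v : Place K F, Df v = v.ord f) :
    IsDivisorOf (f • ω) (W + Df) := by
  intro p
  obtain ⟨t, a, ht, hω, ha⟩ := h p
  refine ⟨t, f * a, ht, by rw [hω, smul_smul], ?_⟩
  rw [map_mul, ha, p.adicValuation_eq_exp_neg_ord hf, ← exp_add, Finsupp.add_apply, hDf p]
  congr 1
  ring

end divisor

section existence

variable [HasPrincipalDivisors K F] (hres : ∀ v : Place K F, RR.ResK v) (P₀ : Place K F)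
  (hRR : ∀ D : Divisor K F, Module.Finite K (riemannRochSpace D) ∧ Module.Finite K (H1 D) ∧
    (finrank K (riemannRochSpace D) : ℤ) - finrank K (H1 D)
      = Divisor.degree D + 1 - genusFF K F)

omit [HasPrincipalDivisors K F] in
include hRR in
/-- a nonzero Weil differential of level `D` forces `deg D ≤ 2g - 1` -/
theorem degree_le_of_mem_Om {lam : Module.Dual K ↥(repartitions K F)} {D : Divisor K F}
    (hlam : lam ∈ Weil.Om D) (hne : lam ≠ 0) :
    Divisor.degree D ≤ 2 * (genusFF K F : ℤ) - 1 := by
  have hmem : ∀ x : riemannRochSpace D, Weil.twist lam (x : F) ∈ Weil.Om (0 : Divisor K F) := by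
    intro x
    have := Weil.twist_mem_Om hlam x.2
    rwa [sub_self] at this
  set f : riemannRochSpace D →ₗ[K] ↥(Weil.Om (0 : Divisor K F)) :=
    ((Weil.twist lam).domRestrict (riemannRochSpace D)).codRestrict _ hmem with hf
  have hinj : Function.Injective f := by
    intro x y hxy
    have h1 : Weil.twist lam (x : F) = Weil.twist lam (y : F) := congrArg Subtype.val hxy
    exact Subtype.ext (Weil.twist_injective hne h1)
  obtain ⟨-, hfin0, -⟩ := hRR 0
  have := Weil.finite_Om (0 : Divisor K F)
  have h1 : finrank K (riemannRochSpace D) ≤ finrank K ↥(Weil.Om (0 : Divisor K F)) :=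
    LinearMap.finrank_le_finrank_of_injective hinj
  rw [Weil.finrank_Om] at h1
  have h2 : (finrank K (riemannRochSpace D) : ℤ) ≤ (genusFF K F : ℤ) := by
    exact_mod_cast h1
  obtain ⟨-, -, h3⟩ := hRR D
  have h4 : (0 : ℤ) ≤ (finrank K (H1 D) : ℤ) := Int.natCast_nonneg _
  linarith

include hres P₀ hRR in
/-- **a differential with local data at every place has a divisor** (finitely many zeros and
poles), in any characteristic. -/
theorem exists_isDivisorOf {ω : Ω[F⁄K]}
    (hloc : ∀ p : Place K F, ∃ t a : F, p.adicValuation t = exp (-1 : ℤ) ∧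
      ω = a • D K F t ∧ a ≠ 0) : ∃ W : Divisor K F, IsDivisorOf ω W := by
  classical
  choose t a ht hω ha using hloc
  set w : Place K F → ℤ := fun p => p.ord (a p) with hw
  have hva : ∀ p, p.adicValuation (a p) = exp (-(w p)) :=
    fun p => p.adicValuation_eq_exp_neg_ord (ha p)
  obtain ⟨T, hT⟩ := exists_regOutside hres ω
  -- (i) no poles outside `T`
  have hpole : ∀ p, p ∉ T → 0 ≤ w p := by
    intro p hp
    by_contra hneg
    rw [not_le] at hneg
    have h1 := resPair_single_eq_one hres p (ht p) (ha p)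
    rw [← hω p] at h1
    have hmem : RR.singleRep p ((a p)⁻¹ * (t p)⁻¹) ∈ lam0 K F := by
      refine singleRep_mem_lam0 ?_
      rw [map_mul, map_inv₀, val_inv_uniformizer p (ht p), hva p, ← exp_neg, ← exp_add,
        ← exp_zero, exp_le_exp]
      omega
    rw [hT _ hmem fun v hv => RR.singleRep_apply_of_ne p _ (by rintro rfl; exact hp hv)] at h1
    exact zero_ne_one h1
  -- (ii) finitely many zeros outside `T`
  set M : ℤ := ∑ p ∈ T, |w p| with hM
  have hM0 : 0 ≤ M := Finset.sum_nonneg fun p _ => abs_nonneg _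
  have hMp : ∀ p ∈ T, -w p ≤ M := fun p hp =>
    (neg_le_abs (w p)).trans (Finset.single_le_sum (f := fun p => |w p|)
      (fun q _ => abs_nonneg _) hp)
  have hlam0 : resFun hres ω ≠ 0 := by
    intro h0
    have h1 := resPair_single_eq_one hres P₀ (ht P₀) (ha P₀)
    rw [← hω P₀, ← resFun_apply, h0] at h1
    exact zero_ne_one h1
  have hZfin : {p : Place K F | p ∉ T ∧ 0 < w p}.Finite := by
    by_contra hinf
    obtain ⟨Z', hZ'sub, hZ'card⟩ := Set.Infinite.exists_subset_card_eq hinf
      (2 * genusFF K F + M.toNat * T.card)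
    set D : Divisor K F := (∑ p ∈ Z', Finsupp.single p (1 : ℤ))
      - M • ∑ p ∈ T, Finsupp.single p (1 : ℤ) with hD
    have hDapply : ∀ p, D p = (if p ∈ Z' then 1 else 0) - M * (if p ∈ T then 1 else 0) := by
      intro p
      rw [hD, Finsupp.sub_apply, Finsupp.smul_apply, Finsupp.finsetSum_apply,
        Finsupp.finsetSum_apply, smul_eq_mul]
      simp only [Finsupp.single_apply]
      rw [Finset.sum_ite_eq' Z' p, Finset.sum_ite_eq' T p]
    have hdeg : Divisor.degree D = (Z'.card : ℤ) - M * T.card := by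
      rw [hD, map_sub, map_zsmul, map_sum, map_sum]
      simp only [Divisor.degree_single, RR.deg_eq_one (hres _)]
      simp
    have hmemOm : resFun hres ω ∈ Weil.Om D := by
      rw [Weil.mem_Om]
      refine ⟨fun α hα => ?_, fun f => resPair_const hres (hRR 0).1 (hRR 0).2.1 f ω⟩
      refine resPair_eq_zero_of_mem hres ω D (fun p => ?_) hα
      refine ⟨t p, a p, (ht p).le.trans exp_neg_one_le_one, hω p, ?_⟩
      rw [hva p, exp_le_exp, hDapply p]
      by_cases hpT : p ∈ T
      · have hpZ : p ∉ Z' := fun h => (hZ'sub h).1 hpT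
        rw [if_neg hpZ, if_pos hpT]
        have := hMp p hpT
        omega
      · rw [if_neg hpT]
        by_cases hpZ : p ∈ Z'
        · rw [if_pos hpZ]
          have := (hZ'sub hpZ).2
          omega
        · rw [if_neg hpZ]
          have := hpole p hpT
          omega
    have hbound := degree_le_of_mem_Om hRR hmemOm hlam0
    rw [hdeg, hZ'card] at hbound
    have hM' : (M.toNat : ℤ) = M := Int.toNat_of_nonneg hM0
    push_cast at hbound
    rw [hM'] at hbound
    omega
  have hsupp : (Function.support w).Finite := by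
    refine ((T.finite_toSet).union hZfin).subset fun p hp => ?_
    by_cases hpT : p ∈ T
    · exact Or.inl hpT
    · right
      refine ⟨hpT, lt_of_le_of_ne (hpole p hpT) (Ne.symm hp)⟩
  refine ⟨Finsupp.ofSupportFinite w hsupp, fun p => ⟨t p, a p, ht p, hω p, ?_⟩⟩
  rw [hva p]
  rfl

end existence

end Adele

/-! ## The Prelude's canonical divisor in any characteristic -/

section prelude

variable {K F : Type*} [Field K] [Field F] [Algebra K F]
variable [HasPrincipalDivisors K F] (hres : ∀ v : Place K F, RR.ResK v) (P₀ : Place K F)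
  (hRR : ∀ D : Divisor K F, Module.Finite K (riemannRochSpace D) ∧ Module.Finite K (H1 D) ∧
    (finrank K (riemannRochSpace D) : ℤ) - finrank K (H1 D)
      = Divisor.degree D + 1 - genusFF K F)

omit [HasPrincipalDivisors K F] in
/-- the Prelude's local presentation `ω = differentialCoeff ω • dCoord` -/
theorem exists_local_presentation [∀ v : Place K F, v.DCoordGenerates] {ω : Ω[F⁄K]}
    (hω : ω ≠ 0) (p : Place K F) :
    ∃ t : F, p.adicValuation t = exp (-1 : ℤ) ∧ ω = p.differentialCoeff ω • D K F t ∧
      p.differentialCoeff ω ≠ 0 := by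
  obtain ⟨π, hπ, hd⟩ : ∃ π : p.toValuationSubring, Irreducible π ∧
      p.dCoord = D K F (π : F) :=
    ⟨_, (IsDiscreteValuationRing.exists_irreducible p.toValuationSubring).choose_spec, rfl⟩
  refine ⟨(π : F), p.adicValuation_coe_irreducible hπ, ?_, ?_⟩
  · rw [← hd, p.differentialCoeff_smul_dCoord]
  · intro h0
    apply hω
    rw [← p.differentialCoeff_smul_dCoord ω, h0, zero_smul]

include hres P₀ hRR in
/-- **`HasCanonicalDivisor` in any characteristic**: if `Ω[F⁄K]` is spanned by one element,
every nonzero Kähler differential has a divisor. -/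
theorem hasCanonicalDivisor_of_span (hspan : ∃ ω₀ : Ω[F⁄K], Submodule.span F {ω₀} = ⊤) :
    HasCanonicalDivisor (K := K) (F := F) := by
  haveI : ∀ v : Place K F, v.DCoordGenerates := Adele.dCoordGenerates_of_span hres hspan
  refine ⟨fun ω hω => ?_⟩
  have hloc : ∀ p : Place K F, ∃ t a : F, p.adicValuation t = exp (-1 : ℤ) ∧
      ω = a • D K F t ∧ a ≠ 0 := fun p => by
    obtain ⟨t, ht, h1, h2⟩ := exists_local_presentation hω p
    exact ⟨t, _, ht, h1, h2⟩
  obtain ⟨W, hW⟩ := Adele.exists_isDivisorOf hres P₀ hRR hloc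
  refine ⟨W, fun v => ?_⟩
  obtain ⟨t, ht, h1, h2⟩ := exists_local_presentation hω v
  have h3 := hW.val_coeff hres v ht h1
  rw [v.adicValuation_eq_exp_neg_ord h2, exp_inj] at h3
  show W v = v.ord (v.differentialCoeff ω)
  omega

include hres P₀ hRR in
/-- **genus = genusFF in any characteristic**, when `Ω[F⁄K]` is spanned by one element. -/
theorem genus_eq_genusFF_of_span (hspan : ∃ ω₀ : Ω[F⁄K], Submodule.span F {ω₀} = ⊤)
    (hL0' : finrank K (riemannRochSpace (0 : Divisor K F)) = 1)
    [HasCanonicalDivisor (K := K) (F := F)] : genus K F = genusFF K F := by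
  haveI : ∀ v : Place K F, v.DCoordGenerates := Adele.dCoordGenerates_of_span hres hspan
  haveI := Adele.nontrivial_kaehler hres P₀
  exact genus_eq_genusFF hres P₀ hRR hL0'

end prelude

/-! ## `Ω[F⁄K] = F dx` for `F / K(x)` algebraic and separable -/

section SpanD

variable {K F : Type*} [Field K] [Field F] [Algebra K F]

open IntermediateField
open scoped IntermediateField.algebraAdjoinAdjoin

/-- a field separable algebraic over `K(x)` is formally étale over `K[x]` -/
theorem formallyEtale_adjoin_of_isSeparable (x : F) [Algebra.IsSeparable K⟮x⟯ F] :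
    Algebra.FormallyEtale (Algebra.adjoin K ({x} : Set F)) F := by
  haveI : Algebra.FormallyEtale K⟮x⟯ F := Algebra.FormallyEtale.of_isSeparable K⟮x⟯ F
  haveI : Algebra.FormallyEtale (Algebra.adjoin K ({x} : Set F)) K⟮x⟯ :=
    Algebra.FormallyEtale.of_isLocalization (nonZeroDivisors (Algebra.adjoin K ({x} : Set F)))
  exact Algebra.FormallyEtale.comp (Algebra.adjoin K ({x} : Set F)) K⟮x⟯ F

/-- `d` of an element of `K[x]` is a multiple of `dx` -/
theorem D_mem_span_of_mem_adjoin (x : F) {a : F} (ha : a ∈ Algebra.adjoin K ({x} : Set F)) :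
    D K F a ∈ Submodule.span F {D K F x} := by
  induction ha using Algebra.adjoin_induction with
  | mem y hy =>
    rw [Set.mem_singleton_iff] at hy
    subst hy
    exact Submodule.subset_span rfl
  | algebraMap r =>
    rw [Derivation.map_algebraMap]
    exact zero_mem _
  | add y z _ _ hy hz =>
    rw [map_add]
    exact add_mem hy hz
  | mul y z _ _ hy hz =>
    rw [Derivation.leibniz]
    exact add_mem (Submodule.smul_mem _ _ hz) (Submodule.smul_mem _ _ hy)

/-- `Ω[F⁄K] = F · dx` when `F` is algebraic and separable over `K(x)` (any characteristic). -/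
theorem span_D_eq_top_of_isSeparable (x : F) [Algebra.IsSeparable K⟮x⟯ F] :
    Submodule.span F {D K F x} = ⊤ := by
  haveI := formallyEtale_adjoin_of_isSeparable (K := K) x
  rw [eq_top_iff]
  rintro ω -
  obtain ⟨t, rfl⟩ := (KaehlerDifferential.tensorKaehlerEquivOfFormallyEtale K
    (Algebra.adjoin K ({x} : Set F)) F).surjective ω
  induction t using TensorProduct.induction_on with
  | zero => rw [map_zero]; exact zero_mem _
  | tmul f η =>
    rw [KaehlerDifferential.tensorKaehlerEquivOfFormallyEtale_apply,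
      KaehlerDifferential.mapBaseChange_tmul]
    refine Submodule.smul_mem _ _ ?_
    have hη : η ∈ Submodule.span (Algebra.adjoin K ({x} : Set F))
        (Set.range (D K (Algebra.adjoin K ({x} : Set F)))) := by
      rw [KaehlerDifferential.span_range_derivation]; trivial
    induction hη using Submodule.span_induction with
    | mem y hy =>
      obtain ⟨a, rfl⟩ := hy
      rw [KaehlerDifferential.map_D]
      exact D_mem_span_of_mem_adjoin x a.2
    | zero => rw [map_zero]; exact zero_mem _
    | add y z _ _ hy hz => rw [map_add]; exact add_mem hy hz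
    | smul r y _ hy =>
      rw [map_smul, ← algebraMap_smul F r]
      exact Submodule.smul_mem _ _ hy
  | add t s ht hs => rw [map_add]; exact add_mem ht hs

end SpanD

end Fermat.Agent.Lib.FF.Res
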