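import Mathlib
import Fermat.Prelude.Def_AlgebraicCurve_DivisorPushPull
import Fermat.Agent.S24.FundId
import Fermat.Agent.S24.ARest

/-!
# Finite extensions of function fields: places above a place

Dictionary between the places of `F'` above a place of `F` and the primes of a Dedekind domain
`B` (fraction field `F'`) above a prime of a Dedekind domain `A` (fraction field `F`), and the
identity `∑ e(w|v) f(w|v) = [F' : F]` (`AlgebraicCurve.SumRamificationInertia`).
-/

set_option autoImplicit false
set_option linter.deprecated false

noncomputable section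

namespace Fermat.Agent.Lib.FF.ExtDict

open AlgebraicCurve WithZero IsDedekindDomain Fermat.Agent.S24

variable {K F F' : Type*} [Field K] [Field F] [Field F'] [Algebra K F] [Algebra K F']
  [Algebra F F'] [IsScalarTower K F F'] [Algebra.IsIntegral F F']

section Single

variable {C : Type*} [CommRing C] [IsDedekindDomain C] [Algebra C F] [IsFractionRing C F]

omit [Algebra K F'] [Algebra F F'] [IsScalarTower K F F'] [Algebra.IsIntegral F F'] in
/-- `placeOfPrime` is injective. -/
theorem placeOfPrime_injective (hK : ∀ a : K, algebraMap K F a ∈ (algebraMap C F).range) :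
    Function.Injective (placeOfPrime (K := K) (F := F) hK) := by
  intro P Q hPQ
  have key : ∀ (R : HeightOneSpectrum C) (c : C), c ∈ R.asIdeal ↔
      (algebraMap C F c)⁻¹ ∉ (placeOfPrime hK R).toValuationSubring ∨ c = 0 := by
    intro R c
    by_cases hc : c = 0
    · simp [hc]
    have hcF : algebraMap C F c ≠ 0 := fun h =>
      hc (IsFractionRing.injective C F (by rw [h, map_zero]))
    rw [mem_placeOfPrime_iff, map_inv₀, ← R.valuation_lt_one_iff_mem (K := F) c]
    simp only [hc, or_false, not_le]
    rw [one_lt_inv₀ (zero_lt_iff.2 ((Valuation.ne_zero_iff _).2 hcF))]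
  apply HeightOneSpectrum.ext
  ext c
  rw [key P, key Q, hPQ]

end Single

section Dict

variable {A : Type*} [CommRing A] [IsDedekindDomain A] [Algebra A F] [IsFractionRing A F]
variable {B : Type*} [CommRing B] [IsDedekindDomain B] [Algebra B F'] [IsFractionRing B F']
variable [Algebra A B] [Algebra A F'] [IsScalarTower A B F'] [IsScalarTower A F F']
  [Module.IsTorsionFree A B]
variable (hKA : ∀ a : K, algebraMap K F a ∈ (algebraMap A F).range)
variable (hKB : ∀ a : K, algebraMap K F' a ∈ (algebraMap B F').range)

/-- The primes of `B` above a prime `P` of `A`, as height-one primes. -/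
def hsOver (B : Type*) [CommRing B] [IsDedekindDomain B] [Algebra A B]
    (P : HeightOneSpectrum A) : Set (HeightOneSpectrum B) :=
  {Q | Q.asIdeal.LiesOver P.asIdeal}

omit [Algebra A F] [IsFractionRing A F] [Algebra B F'] [IsFractionRing B F'] [Algebra A F']
  [IsScalarTower A B F'] [IsScalarTower A F F'] [Algebra F F'] [Algebra.IsIntegral F F'] in
theorem hsOver_finite (P : HeightOneSpectrum A) : (hsOver B P).Finite := by
  have := P.isMaximal
  refine Set.Finite.of_finite_image (f := fun Q : HeightOneSpectrum B => Q.asIdeal) ?_
    (fun Q _ Q' _ h => HeightOneSpectrum.ext h)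
  refine (IsDedekindDomain.primesOverFinset P.asIdeal B).finite_toSet.subset ?_
  rintro _ ⟨Q, hQ, rfl⟩
  rw [Finset.mem_coe, IsDedekindDomain.mem_primesOverFinset_iff P.ne_bot]
  exact ⟨Q.isPrime, hQ⟩

omit [Algebra A F] [IsFractionRing A F] [Algebra B F'] [IsFractionRing B F'] [Algebra A F']
  [IsScalarTower A B F'] [IsScalarTower A F F'] [Algebra F F'] [Algebra.IsIntegral F F'] in
/-- Sums over the height-one primes above `P` are sums over `primesOverFinset`. -/
theorem sum_hsOver {M : Type*} [AddCommMonoid M] (P : HeightOneSpectrum A) (g : Ideal B → M) :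
    ∑ Q ∈ (hsOver_finite (B := B) P).toFinset, g Q.asIdeal
      = ∑ I ∈ IsDedekindDomain.primesOverFinset P.asIdeal B, g I := by
  have := P.isMaximal
  refine Finset.sum_nbij (fun Q : HeightOneSpectrum B => Q.asIdeal) ?_ ?_ ?_ (fun _ _ => rfl)
  · intro Q hQ
    rw [Set.Finite.mem_toFinset] at hQ
    rw [IsDedekindDomain.mem_primesOverFinset_iff P.ne_bot]
    exact ⟨Q.isPrime, hQ⟩
  · intro Q _ Q' _ h
    exact HeightOneSpectrum.ext h
  · intro I hI
    rw [Finset.mem_coe, IsDedekindDomain.mem_primesOverFinset_iff P.ne_bot] at hI
    have := hI.1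
    have := hI.2
    refine ⟨⟨I, hI.1, Ideal.ne_bot_of_liesOver_of_ne_bot P.ne_bot I⟩, ?_, rfl⟩
    rw [Finset.mem_coe, Set.Finite.mem_toFinset]
    exact hI.2

include hKA in
/-- The place of a prime `Q` above `P` restricts to the place of `P`. -/
theorem restrict_placeOfPrime (P : HeightOneSpectrum A) (Q : HeightOneSpectrum B)
    [Q.asIdeal.LiesOver P.asIdeal] :
    (placeOfPrime hKB Q).restrict F = placeOfPrime hKA P := by
  symm
  apply place_eq_of_le
  intro f hf
  rw [mem_placeOfPrime_iff] at hf
  rw [Place.mem_restrict_iff, mem_placeOfPrime_iff,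
    ← HeightOneSpectrum.valuation_liesOver F' P Q f]
  exact pow_le_one' hf _

include hKA in
/-- Ramification index of places = ramification index of primes. -/
theorem ramificationIndex_placeOfPrime (P : HeightOneSpectrum A) (Q : HeightOneSpectrum B)
    [Q.asIdeal.LiesOver P.asIdeal] :
    (placeOfPrime hKB Q).ramificationIndex F = P.asIdeal.ramificationIdx' Q.asIdeal := by
  obtain ⟨π, hπ⟩ := P.valuation_exists_uniformizer F
  have hπ0 : π ≠ 0 := by
    rintro rfl
    rw [map_zero] at hπ
    exact exp_ne_zero hπ.symm
  have h1 := (placeOfPrime hKB Q).ord_restrict (F := F) π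
  rw [restrict_placeOfPrime hKA hKB P Q] at h1
  have h2 := valuation_eq_exp_neg_ord hKA P hπ0
  rw [hπ, exp_inj] at h2
  have hπ' : algebraMap F F' π ≠ 0 := by simpa using hπ0
  have h3 := valuation_eq_exp_neg_ord hKB Q hπ'
  rw [← HeightOneSpectrum.valuation_liesOver F' P Q π, hπ, ← exp_nsmul, exp_inj] at h3
  have h4 : (placeOfPrime hKA P).ord π = 1 := by omega
  rw [h4, mul_one] at h1
  have h5 : ((placeOfPrime hKB Q).ramificationIndex F : ℤ)
      = (P.asIdeal.ramificationIdx' Q.asIdeal : ℤ) := by
    rw [← h1]
    simp only [nsmul_eq_mul, mul_neg, mul_one, neg_inj] at h3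
    exact h3.symm
  exact_mod_cast h5

/-- Every place of `F'` above the place of `P` is the place of a prime above `P`. -/
theorem exists_prime_of_restrict_eq [Algebra.IsIntegral A B] (P : HeightOneSpectrum A)
    (w : Place K F') (hw : w.restrict F = placeOfPrime hKA P) :
    ∃ Q : HeightOneSpectrum B, Q.asIdeal.LiesOver P.asIdeal ∧ placeOfPrime hKB Q = w := by
  have hinjBF : Function.Injective (algebraMap B F') := IsFractionRing.injective B F'
  have hinjAF : Function.Injective (algebraMap A F) := IsFractionRing.injective A F
  have hA : ∀ x : A, algebraMap A F' x ∈ w.toValuationSubring := by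
    intro x
    rw [IsScalarTower.algebraMap_apply A F F', ← Place.mem_restrict_iff (F := F), hw,
      mem_placeOfPrime_iff]
    exact P.valuation_le_one x
  have hC : ∀ c : B, algebraMap B F' c ∈ w.toValuationSubring := by
    intro c
    have hint : IsIntegral A c := Algebra.IsIntegral.isIntegral c
    have hint' : IsIntegral A (algebraMap B F' c) := hint.map (IsScalarTower.toAlgHom A B F')
    exact mem_valuationSubring_of_isIntegral w.toValuationSubring hA hint'
  let φ : B →+* w.toValuationSubring :=
    (algebraMap B F').codRestrict w.toValuationSubring.toSubring hC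
  have hφ : ∀ c : B, ((φ c : w.toValuationSubring) : F') = algebraMap B F' c := fun c => rfl
  let Q : Ideal B := (IsLocalRing.maximalIdeal w.toValuationSubring).comap φ
  have hQprime : Q.IsPrime := Ideal.comap_isPrime φ _
  have hmemQ : ∀ c : B, c ∈ Q ↔ 0 < w.ord (algebraMap B F' c) ∨ c = 0 := by
    intro c
    show φ c ∈ IsLocalRing.maximalIdeal w.toValuationSubring ↔ _
    rw [IsLocalRing.mem_maximalIdeal, mem_nonunits_iff]
    by_cases hc : c = 0
    · simp [hc]
    have hcF : algebraMap B F' c ≠ 0 := fun h => hc (hinjBF (by rw [h, map_zero]))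
    simp only [hc, or_false]
    constructor
    · intro hnu
      by_contra hle
      rw [not_lt] at hle
      have h0 : w.ord (algebraMap B F' c) = 0 := le_antisymm hle (ord_nonneg_of_mem w (hC c))
      apply hnu
      have hinv : (algebraMap B F' c)⁻¹ ∈ w.toValuationSubring := by
        apply mem_of_ord_nonneg
        rw [w.ord_inv, h0, neg_zero]
      refine IsUnit.of_mul_eq_one ⟨(algebraMap B F' c)⁻¹, hinv⟩ ?_
      ext
      simp [hφ, hcF]
    · rintro hpos ⟨u, hu⟩
      have h0 := w.ord_coe_unit u
      rw [hu, hφ] at h0
      omega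
  have hQlies : Q.LiesOver P.asIdeal := by
    constructor
    have hle : P.asIdeal ≤ Q.under A := by
      intro a ha
      rw [Ideal.under_def, Ideal.mem_comap, hmemQ]
      by_cases ha0 : a = 0
      · right
        rw [ha0, map_zero]
      left
      have haF0 : algebraMap A F a ≠ 0 := fun h => ha0 (hinjAF (by rw [h, map_zero]))
      have h1 := (P.valuation_lt_one_iff_mem (K := F) a).2 ha
      rw [valuation_eq_exp_neg_ord hKA P haF0, ← exp_zero, exp_lt_exp] at h1
      have h2 := w.ord_restrict (F := F) (algebraMap A F a)
      rw [hw, ← IsScalarTower.algebraMap_apply A F F', IsScalarTower.algebraMap_apply A B F']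
        at h2
      rw [h2]
      have hepos := w.ramificationIndex_pos (F := F)
      have h3 : 0 < (placeOfPrime hKA P).ord (algebraMap A F a) := by omega
      positivity
    exact (P.isMaximal.eq_of_le (Ideal.IsPrime.under A Q).ne_top hle)
  have hQ0 : Q ≠ ⊥ := Ideal.ne_bot_of_liesOver_of_ne_bot P.ne_bot Q
  refine ⟨⟨Q, hQprime, hQ0⟩, hQlies, ?_⟩
  apply place_eq_of_le
  intro f hf
  rw [mem_placeOfPrime_iff] at hf
  obtain ⟨n, d, hnd⟩ :=
    (⟨Q, hQprime, hQ0⟩ : HeightOneSpectrum B).exists_primeCompl_mul_eq_of_integer f hf
  have hd : (d : B) ∉ Q := d.2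
  have hd0 : algebraMap B F' (d : B) ≠ 0 := by
    intro h
    apply hd
    rw [hmemQ]
    exact Or.inr (hinjBF (by rw [h, map_zero]))
  have hdinv : (algebraMap B F' (d : B))⁻¹ ∈ w.toValuationSubring := by
    apply mem_of_ord_nonneg
    rw [w.ord_inv]
    have h1 := ord_nonneg_of_mem w (hC (d : B))
    have h2 : ¬ (0 < w.ord (algebraMap B F' (d : B))) := fun h => hd ((hmemQ _).2 (Or.inl h))
    omega
  have hf' : f = algebraMap B F' n * (algebraMap B F' (d : B))⁻¹ := by
    rw [← hnd]
    field_simp
  rw [hf']
  exact mul_mem (hC n) hdinv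

include hKA in
/-- The fibre of `F'/F` over the place of `P` is the image of the primes above `P`. -/
theorem fiber_placeOfPrime [Algebra.IsIntegral A B] [HasPrincipalDivisors K F']
    [DecidableEq (Place K F')] (P : HeightOneSpectrum A) :
    (placeOfPrime hKA P).fiber F'
      = (hsOver_finite (B := B) P).toFinset.image (placeOfPrime hKB) := by
  ext w
  rw [Place.mem_fiber, Finset.mem_image]
  constructor
  · intro hw
    obtain ⟨Q, hQ, rfl⟩ := exists_prime_of_restrict_eq hKA hKB P w hw
    exact ⟨Q, (hsOver_finite (B := B) P).mem_toFinset.2 hQ, rfl⟩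
  · rintro ⟨Q, hQ, rfl⟩
    have : Q.asIdeal.LiesOver P.asIdeal := (hsOver_finite (B := B) P).mem_toFinset.1 hQ
    exact restrict_placeOfPrime hKA hKB P Q

include hKA in
/-- Sums over the fibre are sums over the primes above `P`. -/
theorem sum_fiber_placeOfPrime [Algebra.IsIntegral A B] [HasPrincipalDivisors K F']
    {M : Type*} [AddCommMonoid M] (P : HeightOneSpectrum A) (g : Place K F' → M) :
    ∑ w ∈ (placeOfPrime hKA P).fiber F', g w
      = ∑ Q ∈ (hsOver_finite (B := B) P).toFinset, g (placeOfPrime hKB Q) := by
  classical
  rw [fiber_placeOfPrime hKA hKB P,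
    Finset.sum_image (fun x _ y _ h => placeOfPrime_injective hKB h)]

end Dict

section Inst

omit [Algebra K F'] [Algebra F F'] [IsScalarTower K F F'] [Algebra.IsIntegral F F'] in
/-- A place is the place of the maximal ideal of its own valuation ring. -/
theorem placeOfPrime_heightOneSpectrum (v : Place K F)
    (hKA : ∀ a : K, algebraMap K F a ∈ (algebraMap v.toValuationSubring F).range) :
    placeOfPrime hKA v.heightOneSpectrum = v := by
  symm
  apply place_eq_of_le
  intro f hf
  rw [mem_placeOfPrime_iff]
  exact v.heightOneSpectrum.valuation_le_one (⟨f, hf⟩ : v.toValuationSubring)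

omit [Algebra K F'] [Algebra F F'] [IsScalarTower K F F'] [Algebra.IsIntegral F F'] in
/-- A place of degree one has residue field `K`. -/
theorem surjective_algebraMap_quotient_of_deg_eq_one (v : Place K F) (hv : v.deg = 1) :
    Function.Surjective
      (algebraMap K (v.toValuationSubring ⧸ v.heightOneSpectrum.asIdeal)) := by
  intro x
  have h1 : Module.finrank K v.ResidueField = 1 := hv
  obtain ⟨c, hc⟩ := (finrank_eq_one_iff_of_nonzero' (1 : v.ResidueField) one_ne_zero).1 h1 x
  refine ⟨c, ?_⟩
  rw [Algebra.algebraMap_eq_smul_one]
  exact hc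

/-- **The Dedekind pair of a place.**  For a finite separable extension `F'/F` of function
fields and a place `v` of `F`, the valuation ring `A` of `v` and its integral closure `B` in
`F'` form a pair of Dedekind domains to which the dictionary of this file applies, with `v` the
place of the maximal ideal of `A`. -/
theorem exists_dedekind_pair.{u, u', u''} {K : Type u} {F : Type u'} {F' : Type u''}
    [Field K] [Field F] [Field F'] [Algebra K F] [Algebra K F'] [Algebra F F']
    [IsScalarTower K F F'] [CharZero K] [FiniteDimensional F F'] (v : Place K F) :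
    ∃ (A : Type u') (B : Type u'') (_ : CommRing A) (_ : IsDedekindDomain A) (_ : Algebra A F)
      (_ : IsFractionRing A F) (_ : Algebra K A) (_ : IsScalarTower K A F)
      (_ : CommRing B) (_ : IsDedekindDomain B) (_ : Algebra B F') (_ : IsFractionRing B F')
      (_ : Algebra A B) (_ : Algebra A F') (_ : IsScalarTower A B F') (_ : IsScalarTower A F F')
      (_ : Module.IsTorsionFree A B) (_ : Module.Finite A B)
      (hKA : ∀ a : K, algebraMap K F a ∈ (algebraMap A F).range)
      (_hKB : ∀ a : K, algebraMap K F' a ∈ (algebraMap B F').range)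
      (P : HeightOneSpectrum A), placeOfPrime hKA P = v ∧
        (v.deg = 1 → Function.Surjective (algebraMap K (A ⧸ P.asIdeal))) := by
  have : CharZero F := charZero_of_injective_algebraMap (algebraMap K F).injective
  let algAF' : Algebra v.toValuationSubring F' :=
    ((algebraMap F F').comp (algebraMap v.toValuationSubring F)).toAlgebra
  have tower : IsScalarTower v.toValuationSubring F F' :=
    IsScalarTower.of_algebraMap_eq fun _ => rfl
  have hded : IsDedekindDomain (integralClosure v.toValuationSubring F') :=
    integralClosure.isDedekindDomain v.toValuationSubring F F'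
  have hfrac : IsFractionRing (integralClosure v.toValuationSubring F') F' :=
    integralClosure.isFractionRing_of_finite_extension F F'
  have hfin : Module.Finite v.toValuationSubring (integralClosure v.toValuationSubring F') :=
    IsIntegralClosure.finite v.toValuationSubring F F' _
  have htf : Module.IsTorsionFree v.toValuationSubring
      (integralClosure v.toValuationSubring F') := by
    rw [Module.isTorsionFree_iff_algebraMap_injective]
    intro a b hab
    have h1 := congrArg (algebraMap (integralClosure v.toValuationSubring F') F') hab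
    rw [← IsScalarTower.algebraMap_apply, ← IsScalarTower.algebraMap_apply,
      IsScalarTower.algebraMap_apply _ F F', IsScalarTower.algebraMap_apply _ F F'] at h1
    exact Subtype.ext ((algebraMap F F').injective h1)
  have hKA : ∀ a : K, algebraMap K F a ∈ (algebraMap v.toValuationSubring F).range :=
    fun a => ⟨algebraMap K v.toValuationSubring a, rfl⟩
  have hKB : ∀ a : K, algebraMap K F' a ∈
      (algebraMap (integralClosure v.toValuationSubring F') F').range := by
    intro a
    refine ⟨algebraMap v.toValuationSubring (integralClosure v.toValuationSubring F')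
      (algebraMap K v.toValuationSubring a), ?_⟩
    rw [← IsScalarTower.algebraMap_apply v.toValuationSubring
      (integralClosure v.toValuationSubring F') F',
      IsScalarTower.algebraMap_apply v.toValuationSubring F F',
      IsScalarTower.algebraMap_apply K F F']
    rfl
  exact ⟨v.toValuationSubring, integralClosure v.toValuationSubring F', inferInstance,
    inferInstance, inferInstance, inferInstance, inferInstance, inferInstance, inferInstance,
    hded, inferInstance, hfrac, inferInstance, algAF', inferInstance, tower, htf, hfin,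
    hKA, hKB, v.heightOneSpectrum, placeOfPrime_heightOneSpectrum v hKA,
    surjective_algebraMap_quotient_of_deg_eq_one v⟩

/-- Over an algebraically closed constant field (all places of degree one) all inertia degrees
are one. -/
theorem inertiaDeg_eq_one (hdeg' : ∀ w : Place K F', w.deg = 1) (w : Place K F') :
    w.inertiaDeg F = 1 := by
  have h := w.deg_restrict_mul_inertiaDeg (F := F)
  rw [hdeg' w] at h
  exact Nat.eq_one_of_mul_eq_one_left h

/-- **`∑ e(w|v) f(w|v) = [F' : F]`** for a finite extension of function fields over an
algebraically closed constant field of characteristic zero. -/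
theorem sumRamificationInertia [IsAlgClosed K] [CharZero K] [FiniteDimensional F F']
    [HasPrincipalDivisors K F'] (hdeg : ∀ v : Place K F, v.deg = 1)
    (hdeg' : ∀ w : Place K F', w.deg = 1) : SumRamificationInertia K F F' := by
  constructor
  intro v
  obtain ⟨A, B, _, _, _, _, _, _, _, _, _, _, _, _, _, _, _, _, hKA, hKB, P, rfl, hres⟩ :=
    exists_dedekind_pair (F' := F') v
  have := P.isMaximal
  have hint : Algebra.IsIntegral A B := Algebra.IsIntegral.of_finite A B
  rw [sum_fiber_placeOfPrime hKA hKB P]
  have hsum := Ideal.sum_ramification_inertia B F F' P.ne_bot (p := P.asIdeal)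
  rw [← hsum]
  push_cast
  rw [← sum_hsOver P (fun I => (P.asIdeal.ramificationIdx' I : ℤ) * (P.asIdeal.inertiaDeg' I : ℤ))]
  refine Finset.sum_congr rfl fun Q hQ => ?_
  have : Q.asIdeal.LiesOver P.asIdeal := (hsOver_finite (B := B) P).mem_toFinset.1 hQ
  have := Q.isMaximal
  rw [ramificationIndex_placeOfPrime hKA hKB P Q, inertiaDeg_eq_one hdeg',
    Ideal.inertiaDeg'_algebraMap,
    finrank_quotient_eq_one P.asIdeal (hres (hdeg _)) Q.asIdeal]

open IntermediateField in
/-- `SumRamificationInertia` in the setting of S24 part A: both fields are algebraic over a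
rational function field. -/
theorem sumRamificationInertia_of_isAlgebraic [IsAlgClosed K] [CharZero K]
    [FiniteDimensional F F'] [HasPrincipalDivisors K F'] (x : F) [Algebra.IsAlgebraic K⟮x⟯ F]
    (x' : F') [Algebra.IsAlgebraic K⟮x'⟯ F'] : SumRamificationInertia K F F' :=
  sumRamificationInertia (ARest.deg_eq_one x) (ARest.deg_eq_one x')

end Inst

end Fermat.Agent.Lib.FF.ExtDict
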