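import Fermat.Agent.Lib.FF.TateKaehler
import Fermat.Agent.Lib.FF.RRMain

/-!
# Residues on the Prelude's repartitions (adèles) of a function field, after Tate

`V = 𝔸 = repartitions K F`, `A = Λ(0) = repartitionsOf 0`, `F` acting diagonally.

* `Adele.resPair hres β ω` : the residue pairing `𝔸 × Ω[F⁄K] → K`, `(β, f dg) ↦ res (β f dg)`.
* `Adele.resPair_const` : **residue theorem** `⟨ι h, ω⟩ = 0`.
* `Adele.resPair_single_eq_zero` : a local differential without pole has no residue.
* `Adele.resPair_single_inv_D` : `res_p (dt / t) = 1` for a uniformizer `t` at `p`.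
* `Adele.exists_regular` : every differential is regular outside a finite set.
* `Adele.resPair_eq_zero_of_mem`, `Adele.resPair_single_eq_one` : the two facts that identify the
  divisor of a differential given by local data `ω = a_p dt_p`.
-/

set_option autoImplicit false

namespace Fermat.Agent.Lib.FF.Res

open AlgebraicCurve WithZero Module

namespace Adele

section defs

variable (K F : Type*) [Field K] [Field F] [Algebra K F]

/-- multiplication action of the ring of repartitions on itself -/
noncomputable def mA : ↥(repartitions K F) →ₐ[K] Module.End K ↥(repartitions K F) :=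
  Algebra.lmul K ↥(repartitions K F)

/-- the diagonal embedding `F → 𝔸` as a `K`-algebra map -/
noncomputable def iotaA : F →ₐ[K] ↥(repartitions K F) :=
  IsScalarTower.toAlgHom K F ↥(repartitions K F)

/-- the lattice `Λ(0)` of integral repartitions -/
def lam0 : Submodule K ↥(repartitions K F) := repartitionsOf (0 : Divisor K F)

end defs

variable {K F : Type*} [Field K] [Field F] [Algebra K F]

theorem mA_apply (α β : ↥(repartitions K F)) : mA K F α β = α * β := rfl

theorem iotaA_apply (f : F) (v : Place K F) :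
    ((iotaA K F f : ↥(repartitions K F)) : Place K F → F) v = f := rfl

theorem iotaA_eq_constRep (f : F) : iotaA K F f = RR.constRep f := rfl

theorem coe_mul_apply (α β : ↥(repartitions K F)) (v : Place K F) :
    ((α * β : ↥(repartitions K F)) : Place K F → F) v
      = (α : Place K F → F) v * (β : Place K F → F) v := rfl

theorem coe_add_apply (α β : ↥(repartitions K F)) (v : Place K F) :
    ((α + β : ↥(repartitions K F)) : Place K F → F) v
      = (α : Place K F → F) v + (β : Place K F → F) v := rfl

theorem coe_sub_apply (α β : ↥(repartitions K F)) (v : Place K F) :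
    ((α - β : ↥(repartitions K F)) : Place K F → F) v
      = (α : Place K F → F) v - (β : Place K F → F) v := rfl

theorem coe_smul_apply (c : K) (α : ↥(repartitions K F)) (v : Place K F) :
    ((c • α : ↥(repartitions K F)) : Place K F → F) v = c • (α : Place K F → F) v := rfl

theorem rep_ext {α β : ↥(repartitions K F)}
    (h : ∀ v, (α : Place K F → F) v = (β : Place K F → F) v) : α = β :=
  Subtype.ext (funext h)

theorem mem_lam0 {α : ↥(repartitions K F)} :
    α ∈ lam0 K F ↔ ∀ v : Place K F, v.adicValuation ((α : Place K F → F) v) ≤ 1 := by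
  show (∀ v : Place K F, v.adicValuation ((α : Place K F → F) v) ≤ exp ((0 : Divisor K F) v)) ↔ _
  simp

/-! ### elementary repartitions -/

theorem singleRep_mul (p : Place K F) (c : F) (α : ↥(repartitions K F)) :
    RR.singleRep p c * α = RR.singleRep p (c * (α : Place K F → F) p) := by
  refine rep_ext fun v => ?_
  rw [coe_mul_apply]
  by_cases h : v = p
  · subst h
    rw [RR.singleRep_apply_self, RR.singleRep_apply_self]
  · rw [RR.singleRep_apply_of_ne p _ h, RR.singleRep_apply_of_ne p _ h, zero_mul]

theorem mul_singleRep (p : Place K F) (c : F) (α : ↥(repartitions K F)) :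
    α * RR.singleRep p c = RR.singleRep p ((α : Place K F → F) p * c) := by
  rw [mul_comm, singleRep_mul, mul_comm]

theorem iotaA_mul_singleRep (p : Place K F) (a c : F) :
    iotaA K F a * RR.singleRep p c = RR.singleRep p (a * c) := by
  rw [mul_singleRep, iotaA_apply]

theorem singleRep_mem_lam0 {p : Place K F} {c : F} (hc : p.adicValuation c ≤ 1) :
    RR.singleRep p c ∈ lam0 K F := by
  rw [mem_lam0]
  intro v
  by_cases h : v = p
  · subst h
    rwa [RR.singleRep_apply_self]
  · rw [RR.singleRep_apply_of_ne p _ h, map_zero]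
    exact zero_le_one

theorem singleRep_add (p : Place K F) (c d : F) :
    RR.singleRep p (c + d) = RR.singleRep p c + RR.singleRep p d := by
  refine rep_ext fun v => ?_
  rw [coe_add_apply]
  by_cases h : v = p
  · subst h
    rw [RR.singleRep_apply_self, RR.singleRep_apply_self, RR.singleRep_apply_self]
  · rw [RR.singleRep_apply_of_ne p _ h, RR.singleRep_apply_of_ne p _ h,
      RR.singleRep_apply_of_ne p _ h, add_zero]

theorem singleRep_smul (p : Place K F) (c : K) (d : F) :
    RR.singleRep p (c • d) = c • RR.singleRep p d := by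
  refine rep_ext fun v => ?_
  rw [coe_smul_apply]
  by_cases h : v = p
  · subst h
    rw [RR.singleRep_apply_self, RR.singleRep_apply_self]
  · rw [RR.singleRep_apply_of_ne p _ h, RR.singleRep_apply_of_ne p _ h, smul_zero]

theorem singleRep_ne_zero (p : Place K F) {c : F} (hc : c ≠ 0) :
    RR.singleRep p c ≠ 0 := by
  intro h
  apply hc
  have := congrArg (fun α : ↥(repartitions K F) => (α : Place K F → F) p) h
  simpa using this

/-! ### all of `𝔸` acts by elements of `E(Λ(0))` -/

theorem map_mA_le {D D' : Divisor K F} {β : ↥(repartitions K F)} (hβ : β ∈ repartitionsOf D) :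
    (repartitionsOf D').map (mA K F β) ≤ repartitionsOf (D + D') := by
  rintro _ ⟨α, hα, rfl⟩ v
  rw [mA_apply, coe_mul_apply, map_mul, Finsupp.add_apply, exp_add]
  exact mul_le_mul' (hβ v) (hα v)

theorem nmb_repartitionsOf (hres : ∀ v : Place K F, RR.ResK v) (D : Divisor K F) :
    NMB (repartitionsOf D) (lam0 K F) := by
  have hup : ∀ D' : Divisor K F, 0 ≤ D' → NMB (repartitionsOf D') (lam0 K F) := by
    refine RR.divisor_induction_up 0 (NMB.refl _) ?_
    intro D' v _ ih
    obtain ⟨t, ht⟩ := RR.exists_val_eq_exp v (D' v + 1)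
    refine NMB.trans ⟨Submodule.span K {RR.singleRep v t}, inferInstance, ?_⟩ ih
    intro α hα
    obtain ⟨c, hc⟩ := RR.exists_sub_smul_singleRep_mem (hres v) D' ht hα
    have : α = (α - c • RR.singleRep v t) + c • RR.singleRep v t := by abel
    rw [this]
    exact Submodule.add_mem_sup hc
      (Submodule.smul_mem _ _ (Submodule.mem_span_singleton_self _))
  exact (hup (D ⊔ 0) le_sup_right).mono_left (repartitionsOf_mono le_sup_left)

theorem allInE [HasPrincipalDivisors K F] (hres : ∀ v : Place K F, RR.ResK v) :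
    Pairing.AllInE (mA K F) (lam0 K F) := by
  intro β
  obtain ⟨D, hD⟩ := RR.exists_divisor_mem β
  exact (nmb_repartitionsOf hres (D + 0)).mono_left (map_mA_le hD)

/-- the residue pairing `𝔸 × Ω[F⁄K] → K` -/
noncomputable def resPair [HasPrincipalDivisors K F] (hres : ∀ v : Place K F, RR.ResK v)
    (β : ↥(repartitions K F)) (ω : Ω[F⁄K]) : K :=
  Pairing.pair (iotaA K F) (allInE hres) β ω

section pairing

variable [HasPrincipalDivisors K F] (hres : ∀ v : Place K F, RR.ResK v)

theorem resPair_D (β : ↥(repartitions K F)) (g : F) :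
    resPair hres β (KaehlerDifferential.D K F g)
      = rho (lam0 K F) (mA K F β) (mA K F (iotaA K F g)) :=
  Pairing.pair_D _ _ _ _

theorem resPair_smul_D (β : ↥(repartitions K F)) (r g : F) :
    resPair hres β (r • KaehlerDifferential.D K F g)
      = rho (lam0 K F) (mA K F (iotaA K F r * β)) (mA K F (iotaA K F g)) :=
  Pairing.pair_smul_D _ _ _ _ _

theorem resPair_smul_right (β : ↥(repartitions K F)) (r : F) (ω : Ω[F⁄K]) :
    resPair hres β (r • ω) = resPair hres (iotaA K F r * β) ω :=
  Pairing.pair_smul_right _ _ _ _ _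

theorem resPair_add_right (β : ↥(repartitions K F)) (ω ω' : Ω[F⁄K]) :
    resPair hres β (ω + ω') = resPair hres β ω + resPair hres β ω' :=
  Pairing.pair_add_right _ _ _ _ _

theorem resPair_zero_right (β : ↥(repartitions K F)) : resPair hres β (0 : Ω[F⁄K]) = 0 :=
  Pairing.pair_zero_right _ _ _

theorem resPair_add_left (β γ : ↥(repartitions K F)) (ω : Ω[F⁄K]) :
    resPair hres (β + γ) ω = resPair hres β ω + resPair hres γ ω :=
  Pairing.pair_add_left _ _ _ _ _

theorem resPair_sub_left (β γ : ↥(repartitions K F)) (ω : Ω[F⁄K]) :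
    resPair hres (β - γ) ω = resPair hres β ω - resPair hres γ ω :=
  Pairing.pair_sub_left _ _ _ _ _

theorem resPair_smul_left (c : K) (β : ↥(repartitions K F)) (ω : Ω[F⁄K]) :
    resPair hres (c • β) ω = c * resPair hres β ω :=
  Pairing.pair_ksmul_left _ _ _ _ _

theorem resPair_zero_left (ω : Ω[F⁄K]) : resPair hres 0 ω = 0 :=
  Pairing.pair_zero_left _ _ _

/-- the residue pairing as a linear functional of the repartition -/
noncomputable def resFun (ω : Ω[F⁄K]) : ↥(repartitions K F) →ₗ[K] K where
  toFun β := resPair hres β ω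
  map_add' β γ := resPair_add_left hres β γ ω
  map_smul' c β := resPair_smul_left hres c β ω

theorem resFun_apply (ω : Ω[F⁄K]) (β : ↥(repartitions K F)) :
    resFun hres ω β = resPair hres β ω := rfl

end pairing

section residueTheorem

/-! ### the residue theorem -/

theorem map_mA_iotaA_principal_le (f : F) :
    (principalRepartitions K F).map (mA K F (iotaA K F f)) ≤ principalRepartitions K F := by
  rintro _ ⟨α, hα, rfl⟩
  obtain ⟨g, rfl⟩ := RR.mem_principal_iff.1 hα
  refine RR.mem_principal_iff.2 ⟨f * g, ?_⟩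
  rw [mA_apply]
  exact rep_ext fun v => rfl

theorem finiteDimensional_lam0_inf_principal
    (hL0 : Module.Finite K (riemannRochSpace (0 : Divisor K F))) :
    FiniteDimensional K ↥(lam0 K F ⊓ principalRepartitions K F) := by
  have hle : lam0 K F ⊓ principalRepartitions K F
      ≤ (riemannRochSpace (0 : Divisor K F)).map (RR.constRep (K := K) (F := F)) := by
    rintro x ⟨hx1, hx2⟩
    obtain ⟨f, rfl⟩ := RR.mem_principal_iff.1 hx2
    exact ⟨f, RR.constRep_mem_iff.1 hx1, rfl⟩
  have : FiniteDimensional K
      ↥((riemannRochSpace (0 : Divisor K F)).map (RR.constRep (K := K) (F := F))) :=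
    Module.Finite.map _ _
  exact Submodule.finiteDimensional_of_le hle

theorem nmb_top_lam0_sup_principal (hH1 : Module.Finite K (H1 (0 : Divisor K F))) :
    NMB (⊤ : Submodule K ↥(repartitions K F)) (lam0 K F ⊔ principalRepartitions K F) := by
  have hfin : Module.Finite K
      (↥(repartitions K F) ⧸ (lam0 K F ⊔ principalRepartitions K F)) := hH1
  obtain ⟨D, hD, hx⟩ := exists_fin_sup_ker (lam0 K F ⊔ principalRepartitions K F).mkQ
  refine ⟨D, hD, fun x _ => ?_⟩
  obtain ⟨d, hd, hxd⟩ := hx x
  rw [Submodule.ker_mkQ] at hxd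
  have : x = (x - d) + d := by abel
  rw [this]
  exact Submodule.add_mem_sup hxd hd

variable [HasPrincipalDivisors K F] (hres : ∀ v : Place K F, RR.ResK v)

include hres in
/-- **Residue theorem**, abstract form: `res_{Λ(0)} (f dg) = 0` for `f, g ∈ F`. -/
theorem rho_const_const (hL0 : Module.Finite K (riemannRochSpace (0 : Divisor K F)))
    (hH1 : Module.Finite K (H1 (0 : Divisor K F))) (f g : F) :
    rho (lam0 K F) (mA K F (iotaA K F f)) (mA K F (iotaA K F g)) = 0 := by
  have hE := allInE hres
  have hc : Commute (mA K F (iotaA K F f)) (mA K F (iotaA K F g)) := Pairing.commute_m _ _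
  have hBf : InE (principalRepartitions K F) (mA K F (iotaA K F f)) :=
    NMB.of_le (map_mA_iotaA_principal_le f)
  have hBg : InE (principalRepartitions K F) (mA K F (iotaA K F g)) :=
    NMB.of_le (map_mA_iotaA_principal_le g)
  have key := rho_add_rho (hE (iotaA K F f)) (hE (iotaA K F g)) hBf hBg hc
  have h1 : rho (principalRepartitions K F) (mA K F (iotaA K F f)) (mA K F (iotaA K F g)) = 0 :=
    rho_eq_zero_of_map_le hc (map_mA_iotaA_principal_le f) (map_mA_iotaA_principal_le g)
  have h2 : rho (lam0 K F ⊔ principalRepartitions K F) (mA K F (iotaA K F f))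
      (mA K F (iotaA K F g)) = 0 :=
    rho_eq_zero_of_nmb_top (nmb_top_lam0_sup_principal hH1) hc
  have h3 : rho (lam0 K F ⊓ principalRepartitions K F) (mA K F (iotaA K F f))
      (mA K F (iotaA K F g)) = 0 := by
    have := finiteDimensional_lam0_inf_principal hL0
    exact rho_eq_zero_of_finiteDimensional hc
  rw [h1, h2, h3, add_zero, add_zero] at key
  exact key

/-- **Residue theorem**: `⟨ι h, ω⟩ = 0` for `h ∈ F`, `ω ∈ Ω[F⁄K]`. -/
theorem resPair_const (hL0 : Module.Finite K (riemannRochSpace (0 : Divisor K F)))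
    (hH1 : Module.Finite K (H1 (0 : Divisor K F))) (h : F) (ω : Ω[F⁄K]) :
    resPair hres (iotaA K F h) ω = 0 := by
  revert h
  refine Pairing.kaehler_induction (P := fun ω => ∀ h : F, resPair hres (iotaA K F h) ω = 0)
    ?_ ?_ ?_ ω
  · intro h; exact resPair_zero_right hres _
  · intro ω ω' h1 h2 h
    rw [resPair_add_right, h1 h, h2 h, add_zero]
  · intro r g h
    rw [resPair_smul_D, ← map_mul]
    exact rho_const_const hres hL0 hH1 _ _

end residueTheorem

/-! ### local rules -/

theorem val_algebraMap_eq_one (p : Place K F) {c : K} (hc : c ≠ 0) :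
    p.adicValuation (algebraMap K F c) = 1 := by
  refine le_antisymm (p.adicValuation_algebraMap_le_one c) ?_
  have h1 := p.adicValuation_algebraMap_le_one c⁻¹
  have h2 : p.adicValuation (algebraMap K F c) * p.adicValuation (algebraMap K F c⁻¹) = 1 := by
    rw [← map_mul, ← map_mul, mul_inv_cancel₀ hc, map_one, map_one]
  calc (1 : ℤᵐ⁰) = p.adicValuation (algebraMap K F c) * p.adicValuation (algebraMap K F c⁻¹) :=
        h2.symm
    _ ≤ p.adicValuation (algebraMap K F c) * 1 := by gcongr
    _ = _ := mul_one _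

section localRules

variable [HasPrincipalDivisors K F] (hres : ∀ v : Place K F, RR.ResK v)

/-- (local R2) a differential `a dg` without pole at `p` (after multiplication by the local
component `b`) has no residue at `p`. -/
theorem resPair_single_eq_zero (p : Place K F) {a b g : F}
    (hab : p.adicValuation (a * b) ≤ 1) (hg : p.adicValuation g ≤ 1) :
    resPair hres (RR.singleRep p b) (a • KaehlerDifferential.D K F g) = 0 := by
  rw [resPair_smul_D, iotaA_mul_singleRep]
  have hE := allInE hres
  have key : ∀ (x : F), p.adicValuation x ≤ 1 → ∀ α ∈ lam0 K F,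
      RR.singleRep p ((a * b) * (x * (α : Place K F → F) p)) ∈ lam0 K F := by
    intro x hx α hα
    refine singleRep_mem_lam0 ?_
    rw [p.adicValuation.map_mul (a * b), p.adicValuation.map_mul x]
    exact mul_le_one' hab (mul_le_one' hx (mem_lam0.1 hα p))
  refine rho_eq_zero_of_map_le' (Pairing.commute_m _ _) (hE _) ?_ ?_ ?_
  · rintro _ ⟨α, hα, rfl⟩
    rw [mA_apply, singleRep_mul]
    have := key 1 (by rw [map_one]) α hα
    rwa [one_mul] at this
  · rintro _ ⟨α, hα, rfl⟩
    rw [Module.End.mul_apply, mA_apply, mA_apply, singleRep_mul, coe_mul_apply, iotaA_apply]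
    exact key g hg α hα
  · rintro _ ⟨α, hα, rfl⟩
    rw [Module.End.mul_apply, Module.End.mul_apply, mA_apply, mA_apply, mA_apply, singleRep_mul,
      coe_mul_apply, iotaA_apply, coe_mul_apply, iotaA_apply, ← mul_assoc g g]
    refine key (g * g) ?_ α hα
    rw [map_mul]
    exact mul_le_one' hg hg

/-- (local R4) `res_p (dt / t) = 1` for a uniformizer `t` at `p`. -/
theorem resPair_single_inv_D (p : Place K F) {t : F} (ht : p.adicValuation t = exp (-1 : ℤ)) :
    resPair hres (RR.singleRep p t⁻¹) (KaehlerDifferential.D K F t) = 1 := by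
  have ht0 : t ≠ 0 := by
    intro h
    rw [h, map_zero] at ht
    exact exp_ne_zero ht.symm
  have ht1 : p.adicValuation t ≤ 1 := by
    rw [ht, ← exp_zero, exp_le_exp]; norm_num
  have hE := allInE hres
  rw [resPair_D]
  set e := mA K F (RR.singleRep p 1) with he
  set φ := mA K F (iotaA K F t) with hφ
  set φ' := mA K F (iotaA K F t⁻¹) with hφ'
  have h1mem : RR.singleRep p (1 : F) ∈ lam0 K F := singleRep_mem_lam0 (by rw [map_one])
  have hee : e * e = e := by
    rw [he, ← map_mul, singleRep_mul, RR.singleRep_apply_self, one_mul]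
  have heφ' : mA K F (RR.singleRep p t⁻¹) = e * φ' := by
    rw [he, hφ', ← map_mul, singleRep_mul, iotaA_apply, one_mul]
  have h1 : φ * φ' = 1 := by
    rw [hφ, hφ', ← map_mul, ← map_mul, mul_inv_cancel₀ ht0, map_one, map_one]
  have h2 : φ' * φ = 1 := by
    rw [hφ, hφ', ← map_mul, ← map_mul, inv_mul_cancel₀ ht0, map_one, map_one]
  have heA : (lam0 K F).map e ≤ lam0 K F := by
    rintro _ ⟨α, hα, rfl⟩
    rw [he, mA_apply, singleRep_mul, one_mul]
    exact singleRep_mem_lam0 (mem_lam0.1 hα p)
  -- description of `e Λ(0)` and `t e Λ(0)`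
  have hmem_e : ∀ x, x ∈ (lam0 K F).map e ↔ ∃ c : F, p.adicValuation c ≤ 1 ∧
      x = RR.singleRep p c := by
    intro x
    constructor
    · rintro ⟨α, hα, rfl⟩
      exact ⟨_, mem_lam0.1 hα p, by rw [he, mA_apply, singleRep_mul, one_mul]⟩
    · rintro ⟨c, hc, rfl⟩
      refine ⟨RR.singleRep p c, singleRep_mem_lam0 hc, ?_⟩
      rw [he, mA_apply, singleRep_mul, RR.singleRep_apply_self, one_mul]
  have hmem_φe : ∀ x, x ∈ ((lam0 K F).map e).map φ ↔ ∃ c : F,
      p.adicValuation c ≤ exp (-1 : ℤ) ∧ x = RR.singleRep p c := by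
    intro x
    constructor
    · rintro ⟨y, hy, rfl⟩
      obtain ⟨c, hc, rfl⟩ := (hmem_e y).1 hy
      refine ⟨t * c, ?_, by rw [hφ, mA_apply, iotaA_mul_singleRep]⟩
      rw [map_mul, ht]
      exact mul_le_of_le_one_right' hc
    · rintro ⟨c, hc, rfl⟩
      refine ⟨RR.singleRep p (t⁻¹ * c), (hmem_e _).2 ⟨_, ?_, rfl⟩, ?_⟩
      · rw [map_mul, map_inv₀, ht]
        calc (exp (-1 : ℤ))⁻¹ * p.adicValuation c ≤ (exp (-1 : ℤ))⁻¹ * exp (-1 : ℤ) := by gcongr
          _ = 1 := inv_mul_cancel₀ exp_ne_zero
      · rw [hφ, mA_apply, iotaA_mul_singleRep, ← mul_assoc, mul_inv_cancel₀ ht0, one_mul]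
  set L : Submodule K ↥(repartitions K F) := Submodule.span K {RR.singleRep p (1 : F)} with hL
  have hLfin : FiniteDimensional K L := by rw [hL]; infer_instance
  have hdisj : Disjoint (((lam0 K F).map e).map φ) L := by
    rw [Submodule.disjoint_def]
    intro x hx1 hx2
    obtain ⟨c, hc, rfl⟩ := (hmem_φe x).1 hx1
    obtain ⟨k, hk⟩ := Submodule.mem_span_singleton.1 hx2
    have hcomp := congrArg (fun α : ↥(repartitions K F) => (α : Place K F → F) p) hk
    simp only [coe_smul_apply, RR.singleRep_apply_self] at hcomp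
    by_cases hk0 : k = 0
    · rw [← hk, hk0, zero_smul]
    · exfalso
      rw [← hcomp, Algebra.smul_def, mul_one, val_algebraMap_eq_one p hk0, ← exp_zero,
        exp_le_exp] at hc
      norm_num at hc
  have hsup : ((lam0 K F).map e).map φ ⊔ L = (lam0 K F).map e := by
    apply le_antisymm
    · refine sup_le ?_ ?_
      · intro x hx
        obtain ⟨c, hc, rfl⟩ := (hmem_φe x).1 hx
        refine (hmem_e _).2 ⟨c, hc.trans ?_, rfl⟩
        rw [← exp_zero, exp_le_exp]; norm_num
      · rw [hL, Submodule.span_le, Set.singleton_subset_iff]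
        exact (hmem_e _).2 ⟨1, by rw [map_one], rfl⟩
    · intro x hx
      obtain ⟨c, hc, rfl⟩ := (hmem_e x).1 hx
      obtain ⟨k, hk⟩ := RR.exists_const_sub p (hres p) (t := (1 : F)) (n := 0)
        (by rw [map_one, exp_zero]) (by rwa [exp_zero])
      have hsplit : RR.singleRep p c
          = RR.singleRep p (c - k • (1 : F)) + k • RR.singleRep p (1 : F) := by
        rw [← singleRep_smul, ← singleRep_add, sub_add_cancel]
      rw [hsplit]
      refine Submodule.add_mem_sup ((hmem_φe _).2 ⟨_, ?_, rfl⟩)
        (Submodule.smul_mem _ _ (Submodule.mem_span_singleton_self _))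
      simpa using hk
  rw [heφ', rho_idem_inv_self hee (Pairing.commute_m _ _) h1 h2 (hE _) (hE _) heA L hdisj hsup]
  rw [hL, finrank_span_singleton (singleRep_ne_zero p one_ne_zero), Nat.cast_one]

end localRules

/-! ### differentials are regular outside a finite set -/

theorem finite_poles [HasPrincipalDivisors K F] (f : F) :
    {v : Place K F | ¬ v.adicValuation f ≤ 1}.Finite := by
  obtain ⟨D, hD⟩ := RR.exists_divisor_mem (iotaA K F f)
  refine D.support.finite_toSet.subset fun v hv => ?_
  rw [Finset.mem_coe, Finsupp.mem_support_iff]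
  intro hD0
  apply hv
  have := hD v
  rwa [iotaA_apply, hD0, exp_zero] at this

section regular

variable [HasPrincipalDivisors K F] (hres : ∀ v : Place K F, RR.ResK v)

/-- `ω` is regular outside the finite set `T`: integral repartitions supported outside `T`
pair to zero with `ω`. -/
def RegOutside (T : Finset (Place K F)) (ω : Ω[F⁄K]) : Prop :=
  ∀ β ∈ lam0 K F, (∀ v ∈ T, (β : Place K F → F) v = 0) → resPair hres β ω = 0

theorem RegOutside.mono {T T' : Finset (Place K F)} {ω : Ω[F⁄K]} (h : RegOutside hres T ω)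
    (hT : T ⊆ T') : RegOutside hres T' ω :=
  fun β hβ h0 => h β hβ fun v hv => h0 v (hT hv)

theorem regOutside_smul_D (r g : F) :
    ∃ T : Finset (Place K F), RegOutside hres T (r • KaehlerDifferential.D K F g) := by
  classical
  refine ⟨(finite_poles (K := K) r).toFinset ∪ (finite_poles (K := K) g).toFinset, ?_⟩
  intro β hβ h0
  rw [resPair_smul_D]
  have hE := allInE hres
  have hval : ∀ v : Place K F, (β : Place K F → F) v = 0 ∨
      (v.adicValuation r ≤ 1 ∧ v.adicValuation g ≤ 1) := by
    intro v
    by_cases hv : v ∈ (finite_poles (K := K) r).toFinset ∪ (finite_poles (K := K) g).toFinset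
    · exact Or.inl (h0 v hv)
    · right
      rw [Finset.mem_union, not_or, Set.Finite.mem_toFinset, Set.Finite.mem_toFinset] at hv
      exact ⟨not_not.1 hv.1, not_not.1 hv.2⟩
  have key : ∀ (x : ↥(repartitions K F)),
      (∀ v : Place K F, (β : Place K F → F) v = 0 ∨ v.adicValuation ((x : Place K F → F) v) ≤ 1) →
      ∀ α ∈ lam0 K F, iotaA K F r * β * (x * α) ∈ lam0 K F := by
    intro x hx α hα
    rw [mem_lam0]
    intro v
    rw [coe_mul_apply, coe_mul_apply, coe_mul_apply, iotaA_apply]
    rcases hval v with hβ0 | ⟨hr, -⟩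
    · rw [hβ0, mul_zero, zero_mul, map_zero]
      exact zero_le_one
    · rcases hx v with hβ0 | hxv
      · rw [hβ0, mul_zero, zero_mul, map_zero]
        exact zero_le_one
      · simp only [map_mul]
        exact mul_le_one' (mul_le_one' hr (mem_lam0.1 hβ v))
          (mul_le_one' hxv (mem_lam0.1 hα v))
  refine rho_eq_zero_of_map_le' (Pairing.commute_m _ _) (hE _) ?_ ?_ ?_
  · rintro _ ⟨α, hα, rfl⟩
    rw [mA_apply]
    have := key 1 (fun v => Or.inr (by
      show v.adicValuation (1 : F) ≤ 1
      rw [map_one])) α hα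
    rwa [one_mul] at this
  · rintro _ ⟨α, hα, rfl⟩
    rw [Module.End.mul_apply, mA_apply, mA_apply]
    refine key (iotaA K F g) (fun v => ?_) α hα
    rcases hval v with h | ⟨-, hg⟩
    · exact Or.inl h
    · exact Or.inr (by rwa [iotaA_apply])
  · rintro _ ⟨α, hα, rfl⟩
    rw [Module.End.mul_apply, Module.End.mul_apply, mA_apply, mA_apply, mA_apply, ← mul_assoc (iotaA K F g)]
    refine key (iotaA K F g * iotaA K F g) (fun v => ?_) α hα
    rcases hval v with h | ⟨-, hg⟩
    · exact Or.inl h
    · right
      rw [coe_mul_apply, iotaA_apply, map_mul]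
      exact mul_le_one' hg hg

/-- every Kähler differential is regular outside a finite set of places -/
theorem exists_regOutside (ω : Ω[F⁄K]) : ∃ T : Finset (Place K F), RegOutside hres T ω := by
  classical
  refine Pairing.kaehler_induction (P := fun ω => ∃ T : Finset (Place K F), RegOutside hres T ω)
    ?_ ?_ ?_ ω
  · exact ⟨∅, fun β _ _ => resPair_zero_right hres β⟩
  · rintro ω ω' ⟨T, hT⟩ ⟨T', hT'⟩
    refine ⟨T ∪ T', fun β hβ h0 => ?_⟩
    rw [resPair_add_right, hT β hβ fun v hv => h0 v (Finset.mem_union_left _ hv),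
      hT' β hβ fun v hv => h0 v (Finset.mem_union_right _ hv), add_zero]
  · intro r g
    exact regOutside_smul_D hres r g

end regular

section divisorOf

variable [HasPrincipalDivisors K F] (hres : ∀ v : Place K F, RR.ResK v)

/-! ### the divisor of a differential given by local data -/

omit [HasPrincipalDivisors K F] in
open Classical in
theorem coe_sum_singleRep (T : Finset (Place K F)) (α : ↥(repartitions K F)) (v : Place K F) :
    ((∑ p ∈ T, RR.singleRep p ((α : Place K F → F) p) : ↥(repartitions K F)) : Place K F → F) v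
      = if v ∈ T then (α : Place K F → F) v else 0 := by
  rw [AddSubmonoidClass.coe_finsetSum, Finset.sum_apply]
  simp only [RR.singleRep_apply]
  by_cases hv : v ∈ T
  · rw [if_pos hv, Finset.sum_eq_single v]
    · rw [if_pos rfl]
    · intro p _ hp
      rw [if_neg (Ne.symm hp)]
    · intro h; exact absurd hv h
  · rw [if_neg hv]
    refine Finset.sum_eq_zero fun p hp => ?_
    rw [if_neg]
    rintro rfl
    exact hv hp

/-- (L-a) if at every place `ω = a dt` with `t` regular and `ord a ≥ W p`, then `ω` is orthogonal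
to `Λ(W)`. -/
theorem resPair_eq_zero_of_mem (ω : Ω[F⁄K]) (W : Divisor K F)
    (hloc : ∀ p : Place K F, ∃ t a : F, p.adicValuation t ≤ 1 ∧
      ω = a • KaehlerDifferential.D K F t ∧ p.adicValuation a ≤ exp (-(W p)))
    {α : ↥(repartitions K F)} (hα : α ∈ repartitionsOf W) : resPair hres α ω = 0 := by
  classical
  obtain ⟨T, hT⟩ := exists_regOutside hres ω
  set T' := T ∪ W.support with hT'
  have hsingle : ∀ p : Place K F, resPair hres (RR.singleRep p ((α : Place K F → F) p)) ω = 0 := by
    intro p
    obtain ⟨t, a, ht, hω, ha⟩ := hloc p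
    rw [hω]
    refine resPair_single_eq_zero hres p ?_ ht
    rw [map_mul]
    calc p.adicValuation a * p.adicValuation ((α : Place K F → F) p)
        ≤ exp (-(W p)) * exp (W p) := mul_le_mul' ha (hα p)
      _ = 1 := by rw [← exp_add, neg_add_cancel, exp_zero]
  set β := α - ∑ p ∈ T', RR.singleRep p ((α : Place K F → F) p) with hβ
  have hβv : ∀ v, (β : Place K F → F) v = if v ∈ T' then 0 else (α : Place K F → F) v := by
    intro v
    rw [hβ, coe_sub_apply, coe_sum_singleRep]
    split_ifs
    · rw [sub_self]
    · rw [sub_zero]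
  have hβmem : β ∈ lam0 K F := by
    rw [mem_lam0]
    intro v
    rw [hβv]
    split_ifs with h
    · rw [map_zero]; exact zero_le_one
    · have hWv : W v = 0 := by
        by_contra hne
        exact h (Finset.mem_union_right _ (Finsupp.mem_support_iff.2 hne))
      have := hα v
      rwa [hWv, exp_zero] at this
  have hβ0 : resPair hres β ω = 0 := by
    refine hT β hβmem fun v hv => ?_
    rw [hβv, if_pos (Finset.mem_union_left _ hv)]
  have hα' : α = β + ∑ p ∈ T', RR.singleRep p ((α : Place K F → F) p) := by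
    rw [hβ]; abel
  rw [hα', resPair_add_left, hβ0, zero_add, ← resFun_apply, map_sum]
  exact Finset.sum_eq_zero fun p _ => hsingle p

/-- (L-b) `res_p (a⁻¹ t⁻¹ · a dt) = 1` for a uniformizer `t` at `p`. -/
theorem resPair_single_eq_one (p : Place K F) {t a : F}
    (ht : p.adicValuation t = exp (-1 : ℤ)) (ha : a ≠ 0) :
    resPair hres (RR.singleRep p (a⁻¹ * t⁻¹)) (a • KaehlerDifferential.D K F t) = 1 := by
  rw [resPair_smul_right, iotaA_mul_singleRep, ← mul_assoc, mul_inv_cancel₀ ha, one_mul]
  exact resPair_single_inv_D hres p ht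

/-- `W` is the divisor of `ω`, witnessed by local data: at every place `p` there are a
uniformizer `t` and `a` with `ω = a dt` and `ord_p a = W p`. -/
def IsDivisorOf (ω : Ω[F⁄K]) (W : Divisor K F) : Prop :=
  ∀ p : Place K F, ∃ t a : F, p.adicValuation t = exp (-1 : ℤ) ∧
    ω = a • KaehlerDifferential.D K F t ∧ p.adicValuation a = exp (-(W p))

omit [HasPrincipalDivisors K F] in
theorem exp_neg_one_le_one : (exp (-1 : ℤ) : ℤᵐ⁰) ≤ 1 := by
  rw [← exp_zero, exp_le_exp]; norm_num

/-- the residue functional of `ω` vanishes on `Λ(W)` -/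
theorem IsDivisorOf.resPair_eq_zero {ω : Ω[F⁄K]} {W : Divisor K F} (h : IsDivisorOf ω W)
    {α : ↥(repartitions K F)} (hα : α ∈ repartitionsOf W) : resPair hres α ω = 0 := by
  refine resPair_eq_zero_of_mem hres ω W (fun p => ?_) hα
  obtain ⟨t, a, ht, hω, ha⟩ := h p
  exact ⟨t, a, ht.le.trans exp_neg_one_le_one, hω, ha.le⟩

/-- `W` is the largest divisor `D` such that the residue functional of `ω` vanishes on `Λ(D)` -/
theorem IsDivisorOf.le_of_resPair_eq_zero {ω : Ω[F⁄K]} {W : Divisor K F} (h : IsDivisorOf ω W)
    {D : Divisor K F} (hD : ∀ α ∈ repartitionsOf D, resPair hres α ω = 0) : D ≤ W := by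
  rw [Finsupp.le_def]
  intro p
  by_contra hlt
  rw [not_le] at hlt
  obtain ⟨t, a, ht, hω, ha⟩ := h p
  have ha0 : a ≠ 0 := by
    intro h0
    rw [h0, map_zero] at ha
    exact exp_ne_zero ha.symm
  have h1 := resPair_single_eq_one hres p ht ha0
  rw [← hω] at h1
  have hmem : RR.singleRep p (a⁻¹ * t⁻¹) ∈ repartitionsOf D := by
    intro v
    by_cases hv : v = p
    · subst hv
      rw [RR.singleRep_apply_self, map_mul, map_inv₀, map_inv₀, ha, ht, ← exp_neg, ← exp_neg,
        ← exp_add, exp_le_exp]
      omega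
    · rw [RR.singleRep_apply_of_ne p _ hv, map_zero]
      exact zero_le
  rw [hD _ hmem] at h1
  exact zero_ne_one h1

/-- the residue functional of a differential with a divisor is nonzero
(as soon as there is a place) -/
theorem IsDivisorOf.resFun_ne_zero {ω : Ω[F⁄K]} {W : Divisor K F} (h : IsDivisorOf ω W)
    (p : Place K F) : resFun hres ω ≠ 0 := by
  intro h0
  obtain ⟨t, a, ht, hω, ha⟩ := h p
  have ha0 : a ≠ 0 := by
    intro h0
    rw [h0, map_zero] at ha
    exact exp_ne_zero ha.symm
  have h1 := resPair_single_eq_one hres p ht ha0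
  rw [← hω, ← resFun_apply, h0] at h1
  exact zero_ne_one h1

end divisorOf

end Adele

end Fermat.Agent.Lib.FF.Res
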