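import Mathlib
import Fermat.Agent.Lib.FF.RRApprox

/-!
# The Čech genus formula and invariance of the genus under good reduction

Let `F/K` be a function field of one variable in the sense of `IsFF1 K F x`, `t = x⁻¹`.
Let `b` be a `K[x]`-basis of the ring `R` of functions regular off the poles of `x` and `b'` a
`K[t]`-basis of the ring `R'` of functions regular off the zeros of `x`, and let `M`, `M'` be
matrices over `K[X]` with `tᵉ • b' = M(t) • b` and `tᵉ • b = M'(t) • b'`.  Then

* `finrank_riemannRochSpace_poleDiv` : `dim L(m (x)_∞) + deg det M = n (m + e + 1)` for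
  `e ≤ m + 1`  (`L(m (x)_∞) = R ∩ xᵐ R'` is the space of truncated elements of the row lattice
  `K[X]ⁿ M`, whose index is `deg det M` by Smith normal form);
* `genusFF_eq_of_charts` : `genusFF K F = deg det M + 1 - n (e + 1)` (compare with Riemann's
  theorem in large degree);
* `genusFF_eq_of_good_reduction` : if one pair `M`, `M'` over `A[X]` serves both a generic fibre
  (via an injective `φ : A →+* L`) and a special fibre (via `π : A →+* k`), the two genera agree.

No differentials, no Riemann–Hurwitz.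
-/

set_option autoImplicit false

noncomputable section

namespace Fermat.Agent.Lib.FF.Cech

open Polynomial Module

section Index

variable {K : Type*} [Field K] {ι : Type*} [Fintype ι]
  {P : Type*} [AddCommGroup P] [Module K[X] P] [Module K P] [IsScalarTower K K[X] P]

/-- **Index = degree of the determinant** over `K[X]`: for an endomorphism `f` of a finite free
`K[X]`-module with `det f ≠ 0`, the `K`-dimension of the cokernel is `natDegree (det f)`. -/
theorem finrank_quotient_range_eq_natDegree_det (b : Basis ι K[X] P) (f : P →ₗ[K[X]] P)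
    (hinj : Function.Injective f) :
    finrank K (P ⧸ LinearMap.range f) = (LinearMap.det f).natDegree := by
  classical
  have : Module.Free K[X] P := Module.Free.of_basis b
  have : Module.Finite K[X] P := Module.Finite.of_basis b
  have h : finrank K[X] (LinearMap.range f) = finrank K[X] P :=
    LinearMap.finrank_range_of_inj hinj
  set a := Submodule.smithNormalFormCoeffs b h with ha
  set bM := Submodule.smithNormalFormTopBasis b h with hbM
  set bN := Submodule.smithNormalFormBotBasis b h with hbN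
  have hdef : ∀ i, (bN i : P) = a i • bM i := Submodule.smithNormalFormBotBasis_def b h
  have hne : ∀ i, a i ≠ 0 := Submodule.smithNormalFormCoeffs_ne_zero b h
  -- the diagonal map
  let D : P →ₗ[K[X]] P := Matrix.toLin bM bM (Matrix.diagonal a)
  have hD : ∀ i, D (bM i) = a i • bM i := by
    intro i
    simp only [D, Matrix.toLin_self, Matrix.diagonal_apply]
    simp
  have hdetD : LinearMap.det D = ∏ i, a i := by
    simp only [D, LinearMap.det_toLin, Matrix.det_diagonal]
  let e : P ≃ₗ[K[X]] P := (LinearEquiv.ofInjective f hinj).trans (bN.equiv bM (Equiv.refl ι))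
  have hcomp : (D.comp (bN.equiv bM (Equiv.refl ι)).toLinearMap) =
      (LinearMap.range f).subtype := by
    refine bN.ext fun i => ?_
    simp only [LinearMap.comp_apply, LinearEquiv.coe_toLinearMap, Basis.equiv_apply,
      Equiv.refl_apply, Submodule.subtype_apply]
    rw [hD, hdef]
  have hfe : ∀ x, f x = D (e x) := by
    intro x
    have := congrArg (fun g => g (LinearEquiv.ofInjective f hinj x)) hcomp
    simp only [LinearMap.comp_apply, LinearEquiv.coe_toLinearMap, Submodule.subtype_apply,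
      LinearEquiv.ofInjective_apply] at this
    exact this.symm
  have hassoc : Associated (LinearMap.det f) (∏ i, a i) := by
    rw [← hdetD]
    exact LinearMap.associated_det_of_eq_comp e f D hfe
  have : ∀ i, Module.Finite K (K[X] ⧸ Ideal.span ({Submodule.smithNormalFormCoeffs b h i} : Set K[X])) :=
    fun i => PowerBasis.finite (AdjoinRoot.powerBasis (hne i))
  rw [Submodule.finrank_quotient_eq_sum K b h,
    natDegree_eq_of_degree_eq (degree_eq_degree_of_associated hassoc),
    natDegree_prod _ _ fun i _ => hne i]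
  refine Finset.sum_congr rfl fun i _ => ?_
  exact finrank_quotient_span_eq_natDegree

end Index

section Count

variable {K : Type*} [Field K] {n : ℕ}

/-- The row lattice `K[X]ⁿ · M`. -/
def rowLattice (M : Matrix (Fin n) (Fin n) K[X]) : Submodule K[X] (Fin n → K[X]) :=
  LinearMap.range (Matrix.vecMulLinear M)

theorem mem_rowLattice {M : Matrix (Fin n) (Fin n) K[X]} {q : Fin n → K[X]} :
    q ∈ rowLattice M ↔ ∃ p : Fin n → K[X], Matrix.vecMul p M = q := by
  rw [rowLattice, LinearMap.mem_range]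
  rfl

/-- Truncated vectors modulo the row lattice. -/
def truncMap (M : Matrix (Fin n) (Fin n) K[X]) (a : ℕ) :
    (Fin n → degreeLT K a) →ₗ[K] ((Fin n → K[X]) ⧸ rowLattice M) :=
  ((rowLattice M).mkQ.restrictScalars K).comp (LinearMap.compLeft (degreeLT K a).subtype (Fin n))

theorem truncMap_apply (M : Matrix (Fin n) (Fin n) K[X]) (a : ℕ) (q : Fin n → degreeLT K a) :
    truncMap M a q = Submodule.Quotient.mk (fun j => (q j : K[X])) := rfl

theorem mem_ker_truncMap {M : Matrix (Fin n) (Fin n) K[X]} {a : ℕ} {q : Fin n → degreeLT K a} :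
    q ∈ LinearMap.ker (truncMap M a) ↔ (fun j => (q j : K[X])) ∈ rowLattice M := by
  rw [LinearMap.mem_ker, truncMap_apply, Submodule.Quotient.mk_eq_zero]

theorem det_ne_zero_of_mul {M M' : Matrix (Fin n) (Fin n) K[X]} {e : ℕ}
    (hMM : M' * M = (X ^ (2 * e) : K[X]) • (1 : Matrix (Fin n) (Fin n) K[X])) : M.det ≠ 0 := by
  intro h0
  have h1 := congrArg Matrix.det hMM
  rw [Matrix.det_mul, h0, mul_zero, Matrix.det_smul, Matrix.det_one, mul_one] at h1
  exact pow_ne_zero _ (pow_ne_zero _ X_ne_zero) h1.symm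

theorem truncMap_surjective {M M' : Matrix (Fin n) (Fin n) K[X]} {e : ℕ}
    (hMM : M' * M = (X ^ (2 * e) : K[X]) • (1 : Matrix (Fin n) (Fin n) K[X]))
    {a : ℕ} (ha : 2 * e ≤ a) : Function.Surjective (truncMap M a) := by
  intro y
  obtain ⟨p, rfl⟩ := Submodule.Quotient.mk_surjective _ y
  have hmonic : (X ^ a : K[X]).Monic := monic_X_pow a
  refine ⟨fun j => ⟨p j %ₘ X ^ a, ?_⟩, ?_⟩
  · rw [mem_degreeLT]
    calc (p j %ₘ X ^ a).degree < (X ^ a : K[X]).degree := degree_modByMonic_lt _ hmonic
      _ = a := degree_X_pow a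
  · rw [truncMap_apply, eq_comm, Submodule.Quotient.eq, mem_rowLattice]
    refine ⟨Matrix.vecMul (fun j => X ^ (a - 2 * e) * (p j /ₘ X ^ a)) M', ?_⟩
    rw [Matrix.vecMul_vecMul, hMM]
    funext j
    rw [Matrix.vecMul_smul, Matrix.vecMul_one, Pi.smul_apply, Pi.sub_apply, smul_eq_mul,
      ← mul_assoc, ← pow_add, Nat.add_sub_cancel' ha]
    have := modByMonic_add_div (p j) (X ^ a)
    rw [eq_sub_iff_add_eq, add_comm]
    exact this

/-- The count: truncated elements of the row lattice. -/
theorem finrank_ker_truncMap {M M' : Matrix (Fin n) (Fin n) K[X]} {e : ℕ}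
    (hMM : M' * M = (X ^ (2 * e) : K[X]) • (1 : Matrix (Fin n) (Fin n) K[X]))
    {a : ℕ} (ha : 2 * e ≤ a) :
    finrank K (LinearMap.ker (truncMap M a)) + M.det.natDegree = n * a := by
  have hdet := det_ne_zero_of_mul hMM
  have hinj : Function.Injective (Matrix.vecMulLinear M) := by
    rw [← LinearMap.ker_eq_bot, LinearMap.ker_eq_bot']
    intro v hv
    exact Matrix.eq_zero_of_vecMul_eq_zero hdet hv
  have hidx : finrank K ((Fin n → K[X]) ⧸ rowLattice M) = M.det.natDegree := by
    have := finrank_quotient_range_eq_natDegree_det (K := K) (Pi.basisFun K[X] (Fin n))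
      (Matrix.vecMulLinear M) hinj
    rw [rowLattice, this]
    congr 1
    rw [← Matrix.mulVecLin_transpose, ← Matrix.toLin'_apply', LinearMap.det_toLin',
      Matrix.det_transpose]
  have hrn := LinearMap.finrank_range_add_finrank_ker (truncMap M a)
  rw [LinearMap.range_eq_top.mpr (truncMap_surjective hMM ha), finrank_top, hidx,
    Module.finrank_pi_fintype] at hrn
  have hdl : finrank K (degreeLT K a) = a := by
    rw [LinearEquiv.finrank_eq (degreeLTEquiv K a), Module.finrank_fin_fun]
  simp only [hdl, Finset.sum_const, Finset.card_univ, Fintype.card_fin,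
    smul_eq_mul] at hrn
  omega

end Count

section Charts

open AlgebraicCurve IntermediateField

variable {K F : Type*} [Field K] [Field F] [Algebra K F] {n : ℕ}

/-- `q ↦ ∑ j, q_j(y) · b_j`. -/
def chartMap (y : F) (b : Fin n → F) : (Fin n → K[X]) →ₗ[K] F :=
  ∑ j : Fin n, (LinearMap.mulRight K (b j)).comp
    ((aeval (R := K) y).toLinearMap.comp (LinearMap.proj j))

theorem chartMap_apply (y : F) (b : Fin n → F) (q : Fin n → K[X]) :
    chartMap y b q = ∑ j, aeval y (q j) * b j := by
  simp [chartMap]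

theorem ord_inv_pow_mul (v : Place K F) {x f : F} (hx : x ≠ 0) (hf : f ≠ 0) (m : ℕ) :
    v.ord (x⁻¹ ^ m * f) = -(m * v.ord x) + v.ord f := by
  rw [v.ord_mul (pow_ne_zero _ (inv_ne_zero hx)) hf, ← zpow_natCast, Place.ord_zpow,
    Place.ord_inv]
  ring

theorem aeval_mem_adjoin_simple {x y : F} (hy : y ∈ K⟮x⟯) (p : K[X]) : aeval y p ∈ K⟮x⟯ := by
  have h1 : aeval y p ∈ Algebra.adjoin K {y} := aeval_mem_adjoin_singleton K y
  have h2 : Algebra.adjoin K {y} ≤ K⟮x⟯.toSubalgebra :=
    Algebra.adjoin_le (Set.singleton_subset_iff.mpr hy)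
  exact h2 h1

theorem eq_zero_of_sum_mul_eq_zero {x : F} {b : Fin n → F} (hb : LinearIndependent K⟮x⟯ b)
    (u : Fin n → F) (hu : ∀ j, u j ∈ K⟮x⟯) (h0 : ∑ j, u j * b j = 0) : ∀ j, u j = 0 := by
  intro j
  have h1 := Fintype.linearIndependent_iff.mp hb (fun j => ⟨u j, hu j⟩) (by
    rw [← h0]
    refine Finset.sum_congr rfl fun i _ => ?_
    rfl) j
  exact congrArg Subtype.val h1

theorem chartMap_eq_zero {x : F} {b : Fin n → F}
    (hb : LinearIndependent K⟮x⟯ b) {y : F} (hy : y ∈ K⟮x⟯) (hyt : Transcendental K y)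
    (q : Fin n → K[X]) (h0 : chartMap y b q = 0) : q = 0 := by
  rw [chartMap_apply] at h0
  funext j
  have := eq_zero_of_sum_mul_eq_zero hb (fun j => aeval y (q j))
    (fun j => aeval_mem_adjoin_simple hy _) h0 j
  exact (transcendental_iff_injective.mp hyt) (by rw [this, Pi.zero_apply, map_zero])

theorem aeval_inv_mul_pow {x : F} (hx : x ≠ 0) (N : ℕ) (q : K[X]) (hq : q.natDegree ≤ N) :
    aeval x⁻¹ q * x ^ N = aeval x (reflect N q) := by
  let _ : Invertible x⁻¹ := invertibleOfNonzero (inv_ne_zero hx)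
  have h1 := eval₂_reflect_mul_pow (algebraMap K F) x⁻¹ N q hq
  rw [invOf_eq_inv, inv_inv] at h1
  rw [aeval_def, aeval_def, ← h1, mul_assoc, ← mul_pow, inv_mul_cancel₀ hx, one_pow, mul_one]

theorem chartMap_vecMul {t : F} {e : ℕ} {b b' : Fin n → F} (M : Matrix (Fin n) (Fin n) K[X])
    (hM : ∀ i, t ^ e * b' i = ∑ j, aeval t (M i j) * b j) (p : Fin n → K[X]) :
    chartMap t b (Matrix.vecMul p M) = t ^ e * chartMap t b' p := by
  rw [chartMap_apply, chartMap_apply, Finset.mul_sum]
  have h1 : ∀ j, aeval t (Matrix.vecMul p M j) * b j =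
      ∑ i, aeval t (p i) * (aeval t (M i j) * b j) := by
    intro j
    rw [Matrix.vecMul, dotProduct, map_sum, Finset.sum_mul]
    refine Finset.sum_congr rfl fun i _ => ?_
    rw [map_mul, mul_assoc]
  rw [Finset.sum_congr rfl fun j _ => h1 j, Finset.sum_comm]
  refine Finset.sum_congr rfl fun i _ => ?_
  rw [← Finset.mul_sum, ← hM i]
  ring

end Charts

section Main

open AlgebraicCurve IntermediateField

variable {K F : Type*} [Field K] [Field F] [Algebra K F] {x : F} {n : ℕ}

theorem mul_eq_of_charts (hx : Transcendental K x) {b b' : Fin n → F}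
    (hb : LinearIndependent K⟮x⟯ b) {e : ℕ} {M M' : Matrix (Fin n) (Fin n) K[X]}
    (hM : ∀ i, x⁻¹ ^ e * b' i = ∑ j, aeval x⁻¹ (M i j) * b j)
    (hM' : ∀ j, x⁻¹ ^ e * b j = ∑ i, aeval x⁻¹ (M' j i) * b' i) :
    M' * M = (X ^ (2 * e) : K[X]) • (1 : Matrix (Fin n) (Fin n) K[X]) := by
  have ht : Transcendental K x⁻¹ := fun h => hx (IsAlgebraic.inv_iff.mp h)
  have htmem : x⁻¹ ∈ K⟮x⟯ := inv_mem (mem_adjoin_simple_self K x)
  refine Matrix.ext fun j l => ?_
  have h1 : ∑ l, aeval x⁻¹ ((M' * M) j l) * b l = x⁻¹ ^ (2 * e) * b j := by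
    have h2 := chartMap_vecMul M hM (M' j)
    rw [chartMap_apply, chartMap_apply, ← hM' j, ← mul_assoc, ← pow_add, ← two_mul] at h2
    exact h2
  have key : ∑ l, (aeval x⁻¹ ((M' * M) j l) - (if j = l then x⁻¹ ^ (2 * e) else 0)) * b l
      = 0 := by
    simp only [sub_mul, Finset.sum_sub_distrib, h1, ite_mul, zero_mul, Finset.sum_ite_eq,
      Finset.mem_univ, if_true, sub_self]
  have h3 := eq_zero_of_sum_mul_eq_zero hb _ (fun l => by
    refine sub_mem (aeval_mem_adjoin_simple htmem _) ?_
    split_ifs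
    · exact pow_mem htmem _
    · exact zero_mem _) key l
  rw [sub_eq_zero] at h3
  rw [Matrix.smul_apply, Matrix.one_apply, smul_eq_mul, mul_ite, mul_one, mul_zero]
  apply transcendental_iff_injective.mp ht
  rw [h3]
  split_ifs <;> simp

/-- **Čech count**: the dimension of `L(m·(x)_∞)` in terms of the transition matrix between
a `K[x]`-basis of the functions regular off the poles of `x` and a `K[1/x]`-basis of the
functions regular off the zeros of `x`. -/
theorem finrank_riemannRochSpace_poleDiv (h : IsFF1 K F x) (b b' : Fin n → F)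
    (hb : LinearIndependent K⟮x⟯ b)
    (hR : ∀ f : F, (∀ v : Place K F, 0 ≤ v.ord x → 0 ≤ v.ord f) ↔
      ∃ p : Fin n → K[X], f = ∑ j, aeval x (p j) * b j)
    (hR' : ∀ f : F, (∀ v : Place K F, v.ord x ≤ 0 → 0 ≤ v.ord f) ↔
      ∃ p : Fin n → K[X], f = ∑ i, aeval x⁻¹ (p i) * b' i)
    (e : ℕ) (M M' : Matrix (Fin n) (Fin n) K[X])
    (hM : ∀ i, x⁻¹ ^ e * b' i = ∑ j, aeval x⁻¹ (M i j) * b j)
    (hM' : ∀ j, x⁻¹ ^ e * b j = ∑ i, aeval x⁻¹ (M' j i) * b' i)
    (m : ℕ) (hm : e ≤ m + 1) :
    Module.finrank K (riemannRochSpace (m • h.poleDiv)) + M.det.natDegree = n * (m + e + 1) := by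
  classical
  have hx := h.transcendental
  have hx0 : x ≠ 0 := fun h0 => hx (h0 ▸ isAlgebraic_zero)
  have ht : Transcendental K x⁻¹ := fun h => hx (IsAlgebraic.inv_iff.mp h)
  have htmem : x⁻¹ ∈ K⟮x⟯ := inv_mem (mem_adjoin_simple_self K x)
  have hMM := mul_eq_of_charts hx hb hM hM'
  set a := m + e + 1 with ha_def
  have ha : 2 * e ≤ a := by omega
  have hcount := finrank_ker_truncMap hMM ha
  -- the map into `F`
  let incl : (Fin n → degreeLT K a) →ₗ[K] (Fin n → K[X]) :=
    LinearMap.compLeft (degreeLT K a).subtype (Fin n)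
  have hincl : ∀ q : Fin n → degreeLT K a, incl q = fun j => (q j : K[X]) := fun q => rfl
  let Ψ : (Fin n → degreeLT K a) →ₗ[K] F :=
    (LinearMap.mulLeft K (x ^ (a - 1))).comp ((chartMap x⁻¹ b).comp incl)
  have hΨ : ∀ q, Ψ q = x ^ (a - 1) * chartMap x⁻¹ b (incl q) := fun q => rfl
  have hΨinj : Function.Injective Ψ := by
    rw [injective_iff_map_eq_zero]
    intro q hq
    rw [hΨ] at hq
    have h1 := (mul_eq_zero.mp hq).resolve_left (pow_ne_zero _ hx0)
    have h2 := chartMap_eq_zero hb htmem ht _ h1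
    funext j
    exact Subtype.ext (congrFun h2 j)
  have hxt : ∀ k : ℕ, x ^ k * x⁻¹ ^ k = 1 := fun k => by
    rw [← mul_pow, mul_inv_cancel₀ hx0, one_pow]
  have hmap : (LinearMap.ker (truncMap M a)).map Ψ = riemannRochSpace (m • h.poleDiv) := by
    ext f
    rw [Submodule.mem_map, mem_riemannRochSpace_iff]
    constructor
    · rintro ⟨q, hq, rfl⟩
      rw [mem_ker_truncMap, mem_rowLattice] at hq
      obtain ⟨p, hp⟩ := hq
      have hfR : ∀ v : Place K F, 0 ≤ v.ord x → 0 ≤ v.ord (Ψ q) := by
        refine (hR _).mpr ⟨fun j => reflect (a - 1) (q j : K[X]), ?_⟩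
        rw [hΨ, chartMap_apply, Finset.mul_sum]
        refine Finset.sum_congr rfl fun j _ => ?_
        have hdeg : (q j : K[X]).natDegree ≤ a - 1 := by
          by_cases hq0 : (q j : K[X]) = 0
          · rw [hq0, natDegree_zero]; exact Nat.zero_le _
          · have := (natDegree_lt_iff_degree_lt hq0).mpr (mem_degreeLT.mp (q j).2)
            omega
        rw [hincl, ← aeval_inv_mul_pow hx0 (a - 1) _ hdeg]
        ring
      have hfR' : ∀ v : Place K F, v.ord x ≤ 0 → 0 ≤ v.ord (x⁻¹ ^ m * Ψ q) := by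
        refine (hR' _).mpr ⟨p, ?_⟩
        rw [hΨ, hincl, ← hp, chartMap_vecMul M hM p, chartMap_apply]
        have : x⁻¹ ^ m * (x ^ (a - 1) * (x⁻¹ ^ e * ∑ i, aeval x⁻¹ (p i) * b' i)) =
            (x ^ (a - 1) * x⁻¹ ^ (a - 1)) * ∑ i, aeval x⁻¹ (p i) * b' i := by
          have : a - 1 = m + e := by omega
          rw [this, pow_add (x⁻¹)]
          ring
        rw [this, hxt, one_mul]
      intro v
      by_cases hf0 : Ψ q = 0
      · exact Or.inl hf0
      right
      rw [Finsupp.smul_apply, IsFF1.poleDiv_apply, nsmul_eq_mul]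
      rcases le_or_gt 0 (v.ord x) with hv | hv
      · have := hfR v hv
        rw [max_eq_right (by omega)]
        simpa using this
      · have := hfR' v hv.le
        rw [ord_inv_pow_mul v hx0 hf0] at this
        rw [max_eq_left (by omega)]
        linarith
    · intro hf
      by_cases hf0 : f = 0
      · exact ⟨0, Submodule.zero_mem _, by rw [map_zero, hf0]⟩
      have hfL : ∀ v : Place K F, -(m * max (-(v.ord x)) 0) ≤ v.ord f := by
        intro v
        have := (hf v).resolve_left hf0
        rwa [Finsupp.smul_apply, IsFF1.poleDiv_apply, nsmul_eq_mul] at this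
      have hfR : ∀ v : Place K F, 0 ≤ v.ord x → 0 ≤ v.ord f := by
        intro v hv
        have := hfL v
        rw [max_eq_right (by omega)] at this
        simpa using this
      have hfR' : ∀ v : Place K F, v.ord x ≤ 0 → 0 ≤ v.ord (x⁻¹ ^ m * f) := by
        intro v hv
        rw [ord_inv_pow_mul v hx0 hf0]
        have := hfL v
        rw [max_eq_left (by omega)] at this
        linarith
      obtain ⟨p, hp⟩ := (hR f).mp hfR
      obtain ⟨r, hr⟩ := (hR' _).mp hfR'
      have hψ : chartMap x⁻¹ b (Matrix.vecMul r M) = x⁻¹ ^ (a - 1) * f := by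
        rw [chartMap_vecMul M hM r, chartMap_apply, ← hr, ← mul_assoc, ← pow_add]
        congr 2
        omega
      -- coefficientwise comparison
      have hcoef : ∀ j, aeval x⁻¹ (Matrix.vecMul r M j) = x⁻¹ ^ (a - 1) * aeval x (p j) := by
        have key : ∑ j, (aeval x⁻¹ (Matrix.vecMul r M j) - x⁻¹ ^ (a - 1) * aeval x (p j)) * b j
            = 0 := by
          rw [chartMap_apply] at hψ
          simp only [sub_mul, Finset.sum_sub_distrib, hψ, mul_assoc, ← Finset.mul_sum, ← hp,
            sub_self]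
        intro j
        have := eq_zero_of_sum_mul_eq_zero hb _ (fun j => by
          refine sub_mem (aeval_mem_adjoin_simple htmem _) (mul_mem (pow_mem htmem _) ?_)
          exact aeval_mem_adjoin_simple (mem_adjoin_simple_self K x) _) key j
        exact sub_eq_zero.mp this
      have hdeg : ∀ j, Matrix.vecMul r M j ∈ degreeLT K a := by
        intro j
        rw [mem_degreeLT]
        by_contra hcon
        set g := Matrix.vecMul r M j with hg
        have hg0 : g ≠ 0 := by
          rintro h0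
          rw [h0, degree_zero] at hcon
          exact hcon (WithBot.bot_lt_coe _)
        have hD : a ≤ g.natDegree := by
          by_contra hlt
          exact hcon ((natDegree_lt_iff_degree_lt hg0).mp (not_le.mp hlt))
        have h1 := aeval_inv_mul_pow hx0 g.natDegree g le_rfl
        rw [hcoef j] at h1
        have h2 : x⁻¹ ^ (a - 1) * aeval x (p j) * x ^ g.natDegree =
            aeval x (X ^ (g.natDegree - (a - 1)) * p j) := by
          rw [map_mul, map_pow, aeval_X]
          have : g.natDegree = (g.natDegree - (a - 1)) + (a - 1) := by omega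
          conv_lhs => rw [this, pow_add]
          have := hxt (a - 1)
          calc x⁻¹ ^ (a - 1) * aeval x (p j) * (x ^ (g.natDegree - (a - 1)) * x ^ (a - 1))
              = (x ^ (a - 1) * x⁻¹ ^ (a - 1)) * (x ^ (g.natDegree - (a - 1)) * aeval x (p j)) := by
                ring
            _ = _ := by rw [this, one_mul]
        rw [h2] at h1
        have h3 := transcendental_iff_injective.mp hx h1
        have h4 := congrArg (fun q => coeff q 0) h3
        simp only [coeff_reflect] at h4
        rw [revAt_le (Nat.zero_le _), Nat.sub_zero, coeff_natDegree, mul_coeff_zero,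
          coeff_X_pow, if_neg (by omega), zero_mul] at h4
        exact (leadingCoeff_ne_zero.mpr hg0) h4.symm
      refine ⟨fun j => ⟨Matrix.vecMul r M j, hdeg j⟩, ?_, ?_⟩
      · rw [mem_ker_truncMap, mem_rowLattice]
        exact ⟨r, rfl⟩
      · rw [hΨ]
        have : incl (fun j => ⟨Matrix.vecMul r M j, hdeg j⟩) = Matrix.vecMul r M := rfl
        rw [this, hψ, ← mul_assoc, hxt, one_mul]
  rw [← hmap, ← (Submodule.equivMapOfInjective Ψ hΨinj _).finrank_eq]
  exact hcount

end Main

section Genus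

open AlgebraicCurve IntermediateField

variable {K F : Type*} [Field K] [Field F] [Algebra K F] {x : F} {n : ℕ}

/-- **Čech genus formula.**  Let `b` be a `K[x]`-basis of the ring of functions regular off the
poles of `x`, `b'` a `K[1/x]`-basis of the ring of functions regular off the zeros of `x`, and
let `M`, `M'` be polynomial matrices (in `t = 1/x`) with `tᵉ b' = M(t) b`, `tᵉ b = M'(t) b'`.
Then `genusFF = deg det M + 1 - n (e + 1)`. -/
theorem genusFF_eq_of_charts (h : IsFF1 K F x) (b b' : Fin n → F)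
    (hb : LinearIndependent K⟮x⟯ b)
    (hR : ∀ f : F, (∀ v : Place K F, 0 ≤ v.ord x → 0 ≤ v.ord f) ↔
      ∃ p : Fin n → K[X], f = ∑ j, aeval x (p j) * b j)
    (hR' : ∀ f : F, (∀ v : Place K F, v.ord x ≤ 0 → 0 ≤ v.ord f) ↔
      ∃ p : Fin n → K[X], f = ∑ i, aeval x⁻¹ (p i) * b' i)
    (e : ℕ) (M M' : Matrix (Fin n) (Fin n) K[X])
    (hM : ∀ i, x⁻¹ ^ e * b' i = ∑ j, aeval x⁻¹ (M i j) * b j)
    (hM' : ∀ j, x⁻¹ ^ e * b j = ∑ i, aeval x⁻¹ (M' j i) * b' i) :
    (genusFF K F : ℤ) = M.det.natDegree + 1 - n * (e + 1) := by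
  obtain ⟨c, hc⟩ := h.exists_degree_bound
  have hδpos : 0 < Divisor.degree h.poleDiv := h.degree_poleDiv_pos
  set δ := Divisor.degree h.poleDiv with hδ
  set m := max e c.toNat with hm
  have hme : e ≤ m := le_max_left _ _
  have hmc : c ≤ (m : ℤ) := (Int.self_le_toNat c).trans (by exact_mod_cast le_max_right e c.toNat)
  have hdeg : ∀ k : ℕ, Divisor.degree (k • h.poleDiv) = k * δ := fun k => by
    rw [map_nsmul, nsmul_eq_mul]
  have h1 := finrank_riemannRochSpace_poleDiv h b b' hb hR hR' e M M' hM hM' m (by omega)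
  have h2 := finrank_riemannRochSpace_poleDiv h b b' hb hR hR' e M M' hM hM' (m + 1) (by omega)
  have hm0 : (0 : ℤ) ≤ m := Int.natCast_nonneg m
  have r1 := (hc (m • h.poleDiv) (by rw [hdeg]; nlinarith)).2
  have r2 := (hc ((m + 1) • h.poleDiv) (by rw [hdeg]; push_cast; nlinarith)).2
  rw [hdeg] at r1 r2
  have h1' : (Module.finrank K (riemannRochSpace (m • h.poleDiv)) : ℤ) + M.det.natDegree
      = n * (m + e + 1) := by exact_mod_cast h1
  have h2' : (Module.finrank K (riemannRochSpace ((m + 1) • h.poleDiv)) : ℤ) + M.det.natDegree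
      = n * (m + 1 + e + 1) := by exact_mod_cast h2
  rw [r1] at h1'
  rw [r2] at h2'
  push_cast at h2'
  have hn : (n : ℤ) = δ := by linarith
  rw [← hn] at h1'
  linarith

end Genus

section Reduction

open AlgebraicCurve IntermediateField

/-- A polynomial over a field dividing a power of `X` is a monomial. -/
theorem eq_monomial_of_dvd_X_pow {K : Type*} [Field K] {p : K[X]} {N : ℕ} (hp : p ∣ X ^ N) :
    ∃ (d : ℕ) (u : K), u ≠ 0 ∧ p = monomial d u := by
  obtain ⟨d, -, hd⟩ := (dvd_prime_pow prime_X N).mp hp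
  obtain ⟨w, hw⟩ := hd.symm
  obtain ⟨r, hr, hrw⟩ := Polynomial.isUnit_iff.mp w.isUnit
  refine ⟨d, r, hr.ne_zero, ?_⟩
  rw [← hw, ← hrw, ← C_mul_X_pow_eq_monomial, mul_comm]

/-- **Genus is preserved under good reduction (two charts).**  One pair of transition matrices
`M`, `M'` over `A[X]` serving, through `φ : A → L` (injective) and `π : A → k`, both the
generic and the special fibre. -/
theorem genusFF_eq_of_good_reduction {L k A : Type*} [Field L] [Field k] [CommRing A]
    (φ : A →+* L) (π : A →+* k) (hφ : Function.Injective φ)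
    {FL Fk : Type*} [Field FL] [Field Fk] [Algebra L FL] [Algebra k Fk] {x : FL} {y : Fk}
    (hL : IsFF1 L FL x) (hk : IsFF1 k Fk y) {n : ℕ}
    (b b' : Fin n → FL) (c c' : Fin n → Fk)
    (hb : LinearIndependent L⟮x⟯ b) (hc : LinearIndependent k⟮y⟯ c)
    (hR : ∀ f : FL, (∀ v : Place L FL, 0 ≤ v.ord x → 0 ≤ v.ord f) ↔
      ∃ p : Fin n → L[X], f = ∑ j, aeval x (p j) * b j)
    (hR' : ∀ f : FL, (∀ v : Place L FL, v.ord x ≤ 0 → 0 ≤ v.ord f) ↔
      ∃ p : Fin n → L[X], f = ∑ i, aeval x⁻¹ (p i) * b' i)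
    (hS : ∀ f : Fk, (∀ v : Place k Fk, 0 ≤ v.ord y → 0 ≤ v.ord f) ↔
      ∃ p : Fin n → k[X], f = ∑ j, aeval y (p j) * c j)
    (hS' : ∀ f : Fk, (∀ v : Place k Fk, v.ord y ≤ 0 → 0 ≤ v.ord f) ↔
      ∃ p : Fin n → k[X], f = ∑ i, aeval y⁻¹ (p i) * c' i)
    (e : ℕ) (M M' : Matrix (Fin n) (Fin n) A[X])
    (hM : ∀ i, x⁻¹ ^ e * b' i = ∑ j, aeval x⁻¹ ((M i j).map φ) * b j)
    (hM' : ∀ j, x⁻¹ ^ e * b j = ∑ i, aeval x⁻¹ ((M' j i).map φ) * b' i)
    (hN : ∀ i, y⁻¹ ^ e * c' i = ∑ j, aeval y⁻¹ ((M i j).map π) * c j)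
    (hN' : ∀ j, y⁻¹ ^ e * c j = ∑ i, aeval y⁻¹ ((M' j i).map π) * c' i) :
    genusFF L FL = genusFF k Fk := by
  classical
  set ML : Matrix (Fin n) (Fin n) L[X] := M.map (Polynomial.map φ) with hML
  set ML' : Matrix (Fin n) (Fin n) L[X] := M'.map (Polynomial.map φ) with hML'
  set Mk : Matrix (Fin n) (Fin n) k[X] := M.map (Polynomial.map π) with hMk
  set Mk' : Matrix (Fin n) (Fin n) k[X] := M'.map (Polynomial.map π) with hMk'
  have gL := genusFF_eq_of_charts hL b b' hb hR hR' e ML ML' hM hM'
  have gk := genusFF_eq_of_charts hk c c' hc hS hS' e Mk Mk' hN hN'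
  have hmulL := mul_eq_of_charts hL.transcendental hb (M := ML) (M' := ML') hM hM'
  have hmulk := mul_eq_of_charts hk.transcendental hc (M := Mk) (M' := Mk') hN hN'
  have hdetL : ML.det = (M.det).map φ := by
    rw [hML]
    exact (RingHom.map_det (Polynomial.mapRingHom φ) M).symm
  have hdetk : Mk.det = (M.det).map π := by
    rw [hMk]
    exact (RingHom.map_det (Polynomial.mapRingHom π) M).symm
  -- `det ML` is a monomial
  have hdvd : ML.det ∣ X ^ (2 * e * n) := by
    have h1 := congrArg Matrix.det hmulL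
    rw [Matrix.det_mul, Matrix.det_smul, Matrix.det_one, mul_one, Fintype.card_fin,
      ← pow_mul] at h1
    exact ⟨ML'.det, by rw [← h1, mul_comm]⟩
  obtain ⟨d, u, hu, hmon⟩ := eq_monomial_of_dvd_X_pow hdvd
  have hD : M.det = monomial d (M.det.coeff d) := by
    ext i
    rw [coeff_monomial]
    split_ifs with hi
    · rw [hi]
    · apply hφ
      rw [map_zero, ← coeff_map, ← hdetL, hmon, coeff_monomial, if_neg hi]
  have hdk : Mk.det = monomial d (π (M.det.coeff d)) := by
    rw [hdetk, hD, map_monomial, coeff_monomial, if_pos rfl]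
  have hπ : π (M.det.coeff d) ≠ 0 := by
    intro h0
    rw [h0, monomial_zero_right] at hdk
    exact det_ne_zero_of_mul hmulk hdk
  have e1 : ML.det.natDegree = d := by rw [hmon, natDegree_monomial_eq d hu]
  have e2 : Mk.det.natDegree = d := by rw [hdk, natDegree_monomial_eq d hπ]
  rw [e1] at gL
  rw [e2] at gk
  exact_mod_cast gL.trans gk.symm

end Reduction

end Fermat.Agent.Lib.FF.Cech
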