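import Mathlib
import Fermat.Agent.Lib.FF.BasePoint

/-!
# General position (char-free, `IsFF1` form)

* `L_eq_bot_of_degree_neg`, `finrank_L_le_one_of_degree_zero`
* `exists_general_position` : for finitely many divisors `X i` of degree `0` there are `g`
  distinct places `T` (outside any given finite set) such that every `X i + ∑ T` is non-special
  with `dim L = 1`  (so the effective divisor linearly equivalent to it is unique).
-/

set_option autoImplicit false

noncomputable section

namespace Fermat.Agent.Lib.FF.GenPos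

open AlgebraicCurve WithZero Module
open Fermat.Agent.Lib.FF.BasePoint

variable {K F : Type*} [Field K] [Field F] [Algebra K F] {x : F}

theorem degree_nonneg (h : IsFF1 K F x) {E : Divisor K F} (hE : ∀ v, 0 ≤ E v) :
    0 ≤ Divisor.degree E := by
  rw [h.degree_eq_sum]
  exact Finset.sum_nonneg fun v _ => hE v

/-- `L(D) = 0` for divisors of negative degree. -/
theorem L_eq_bot_of_degree_neg (h : IsFF1 K F x) {D : Divisor K F}
    (hD : Divisor.degree D < 0) : riemannRochSpace D = ⊥ := by
  have := h.hasPrincipalDivisors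
  rw [eq_bot_iff]
  intro f hf
  rw [Submodule.mem_bot]
  by_contra hf0
  obtain ⟨Df, hDf, hdeg⟩ := HasPrincipalDivisors.exists_divisor (K := K) f hf0
  have hnn : ∀ v, 0 ≤ (D + Df) v := by
    intro v
    have h1 := hf v
    rw [v.adicValuation_eq_exp_neg_ord hf0, exp_le_exp] at h1
    rw [Finsupp.add_apply, hDf v]
    linarith
  have := degree_nonneg h hnn
  rw [map_add, hdeg, add_zero] at this
  linarith

/-- `dim L(D) ≤ 1` for divisors of degree `0`. -/
theorem finrank_L_le_one_of_degree_zero (h : IsFF1 K F x) {D : Divisor K F}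
    (hD : Divisor.degree D = 0) : finrank K (riemannRochSpace D) ≤ 1 := by
  obtain ⟨P⟩ := h.exists_place
  set D' : Divisor K F := D - Finsupp.single P (1 : ℤ) with hD'
  have hdeg' : Divisor.degree D' = -1 := by
    rw [hD', degree_sub_single h, hD]
    ring
  have hbot := L_eq_bot_of_degree_neg h (D := D') (by rw [hdeg']; norm_num)
  have hmono := cD_mono h (D := D') (D' := D) (by
    rw [← addPl_sub_single D P]
    exact RR.le_addPl D' P)
  unfold RR.cD at hmono
  rw [hbot, finrank_bot, hdeg', hD] at hmono
  have : (finrank K (riemannRochSpace D) : ℤ) ≤ 1 := by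
    push_cast at hmono
    linarith
  exact_mod_cast this

/-- Adding a place outside the jump set raises `deg - dim L` by one. -/
theorem cD_addPl_of_notMem_jumpSet (h : IsFF1 K F x) {E : Divisor K F} {Q : Place K F}
    (hQ : Q ∉ RR.jumpSet E) : RR.cD (RR.addPl E Q) = RR.cD E + 1 := by
  unfold RR.cD
  rw [RR.L_addPl_eq_of_notMem_jumpSet hQ, RR.degree_addPl h.resK]
  ring

/-- **General position.**  Given finitely many divisors `X i` (`i ∈ s`) of degree `0` and a
finite set `S` of places, there is a set `T` of `g` places, disjoint from `S`, such that every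
`X i + ∑_{Q ∈ T} Q` has `H¹ = 0` and `dim L = 1`. -/
theorem exists_general_position [Infinite K] (h : IsFF1 K F x) (S : Finset (Place K F))
    {ι : Type*} (s : Finset ι) (X : ι → Divisor K F)
    (hX : ∀ i ∈ s, Divisor.degree (X i) = 0) :
    ∃ T : Finset (Place K F), T.card = genusFF K F ∧ Disjoint T S ∧
      ∀ i ∈ s, RR.MD (X i + RR.sumPl T) = ⊤ ∧
        finrank K (riemannRochSpace (X i + RR.sumPl T)) = 1 := by
  classical
  have := h.infinite_place
  have key : ∀ n : ℕ, n ≤ genusFF K F → ∃ T : Finset (Place K F), T.card = n ∧ Disjoint T S ∧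
      ∀ i ∈ s, (n : ℤ) - 1 ≤ RR.cD (X i + RR.sumPl T) := by
    intro n
    induction n with
    | zero =>
      intro _
      refine ⟨∅, rfl, Finset.disjoint_empty_left S, fun i hi => ?_⟩
      rw [RR.sumPl_empty, add_zero]
      unfold RR.cD
      rw [hX i hi]
      have h1 := finrank_L_le_one_of_degree_zero h (hX i hi)
      have h2 : (finrank K (riemannRochSpace (X i)) : ℤ) ≤ 1 := by exact_mod_cast h1
      push_cast
      linarith
    | succ n ih =>
      intro hn
      obtain ⟨T, hTcard, hTS, hT⟩ := ih (Nat.le_of_succ_le hn)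
      -- the places to avoid
      have hfin : ∀ i : ι, RR.MD (X i + RR.sumPl T) ≠ ⊤ →
          (RR.jumpSet (X i + RR.sumPl T)).Finite := fun i hi => h.finite_jumpSet _ hi
      let J : ι → Finset (Place K F) := fun i =>
        if hi : RR.MD (X i + RR.sumPl T) = ⊤ then ∅ else (hfin i hi).toFinset
      obtain ⟨Q, hQ⟩ := Infinite.exists_notMem_finset (S ∪ T ∪ s.biUnion J)
      simp only [Finset.mem_union, Finset.mem_biUnion, not_or, not_exists, not_and] at hQ
      obtain ⟨⟨hQS, hQT⟩, hQJ⟩ := hQ
      refine ⟨insert Q T, ?_, ?_, fun i hi => ?_⟩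
      · rw [Finset.card_insert_of_notMem hQT, hTcard]
      · rw [Finset.disjoint_insert_left]
        exact ⟨hQS, hTS⟩
      · have heq : X i + RR.sumPl (insert Q T) = RR.addPl (X i + RR.sumPl T) Q := by
          rw [RR.sumPl_insert hQT, RR.addPl, RR.addPl, add_assoc]
        rw [heq]
        by_cases hMD : RR.MD (X i + RR.sumPl T) = ⊤
        · have h1 := (MD_eq_top_iff h _).1 hMD
          have h2 := cD_mono h (RR.le_addPl (X i + RR.sumPl T) Q)
          have h3 : ((n + 1 : ℕ) : ℤ) ≤ (genusFF K F : ℤ) := by exact_mod_cast hn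
          push_cast at h3 ⊢
          linarith
        · have hQi : Q ∉ RR.jumpSet (X i + RR.sumPl T) := by
            have := hQJ i hi
            simp only [J, dif_neg hMD, Set.Finite.mem_toFinset] at this
            exact this
          rw [cD_addPl_of_notMem_jumpSet h hQi]
          have := hT i hi
          push_cast
          linarith
  obtain ⟨T, hTcard, hTS, hT⟩ := key (genusFF K F) le_rfl
  refine ⟨T, hTcard, hTS, fun i hi => ?_⟩
  have h1 := hT i hi
  have h2 := cD_le h (X i + RR.sumPl T)
  have hMD : RR.MD (X i + RR.sumPl T) = ⊤ := (MD_eq_top_iff h _).2 (le_antisymm h2 h1)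
  refine ⟨hMD, ?_⟩
  have h3 := finrank_L_of_MD h hMD
  rw [map_add, hX i hi, RR.degree_sumPl h.resK, hTcard] at h3
  have : (finrank K (riemannRochSpace (X i + RR.sumPl T)) : ℤ) = 1 := by linarith
  exact_mod_cast this

end Fermat.Agent.Lib.FF.GenPos
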