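/-
`Fermat.Agent.Lib.FF.KMLemmas` (helper5, PADIC): the characteristic-free function-field lemmas
behind Khuri-Makdisi's linear-algebra addition on divisor classes.

Everything is stated for the Prelude objects `AlgebraicCurve.Place`, `Divisor`,
`riemannRochSpace` and uses only the valuation axioms (no Riemann–Roch): numerical input
(dimensions of `L(·)`) and base-point freeness enter as hypotheses.

* `IsBPF D`                : `L(D)` is base-point free.
* `mul_mem_L`, `L_mul_le`  : `L(A) * L(B) ≤ L(A + B)`.
* `L_inf`                  : `L(X ⊓ Y) = L(X) ⊓ L(Y)`.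
* `L_div`                  : DIVISION, `L(C) / L(G) = L(C - G)` if `L(G)` is base-point free.
* `mul_mem_L_iff`, `map_mulLeft_L` : `u * L(X) = L(X - div u)`.
* `pencil_kernel`          : the base-point-free pencil trick.
* `exists_pencil`          : a base-point-free `L(D)` contains a pencil without base points
                             (infinite constant field).
* `L_mul_eq`               : `L(D) * L(D₂) = L(D + D₂)` from the pencil trick and a dimension count.
* `km_line`, `km_Wprime`, `km_W3` : the three division steps of the KM addition.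
-/
import Mathlib
import Fermat.Prelude.Def_AlgebraicCurve_Repartitions

set_option autoImplicit false

noncomputable section

namespace Fermat.Agent.Lib.FF.KMLemmas

open AlgebraicCurve WithZero Module

variable {K F : Type*} [Field K] [Field F] [Algebra K F]

theorem mem_L_iff {D : Divisor K F} {f : F} :
    f ∈ riemannRochSpace D ↔ ∀ v : Place K F, v.adicValuation f ≤ exp (D v) :=
  Iff.rfl

/-- `L(D)` is base-point free: at every place some section has exact order `-D P`. -/
def IsBPF (D : Divisor K F) : Prop :=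
  ∀ P : Place K F, ∃ f ∈ riemannRochSpace D, P.adicValuation f = exp (D P)

theorem isBPF_iff_ord {D : Divisor K F} :
    IsBPF D ↔ ∀ P : Place K F, ∃ f ∈ riemannRochSpace D, f ≠ 0 ∧ P.ord f = -D P := by
  refine forall_congr' fun P => ?_
  constructor
  · rintro ⟨f, hf, hval⟩
    have hf0 : f ≠ 0 := by
      rintro rfl
      rw [map_zero] at hval
      exact exp_ne_zero hval.symm
    refine ⟨f, hf, hf0, ?_⟩
    rw [P.adicValuation_eq_exp_neg_ord hf0, exp_inj] at hval
    omega
  · rintro ⟨f, hf, hf0, hord⟩
    refine ⟨f, hf, ?_⟩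
    rw [P.adicValuation_eq_exp_neg_ord hf0, hord, neg_neg]

theorem mul_mem_L {A B : Divisor K F} {f g : F} (hf : f ∈ riemannRochSpace A)
    (hg : g ∈ riemannRochSpace B) : f * g ∈ riemannRochSpace (A + B) := by
  intro v
  rw [map_mul, Finsupp.add_apply, exp_add]
  exact mul_le_mul' (hf v) (hg v)

theorem L_mul_le (A B : Divisor K F) :
    riemannRochSpace A * riemannRochSpace B ≤ riemannRochSpace (A + B) :=
  Submodule.mul_le.2 fun _ hf _ hg => mul_mem_L hf hg

theorem L_mono {D D' : Divisor K F} (h : D ≤ D') : riemannRochSpace D ≤ riemannRochSpace D' :=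
  fun _ hf v => (hf v).trans (exp_le_exp.mpr (Finsupp.le_def.mp h v))

theorem L_inf (X Y : Divisor K F) :
    riemannRochSpace (X ⊓ Y) = riemannRochSpace X ⊓ riemannRochSpace Y := by
  ext f
  rw [Submodule.mem_inf, mem_L_iff, mem_L_iff, mem_L_iff, ← forall_and]
  refine forall_congr' fun v => ?_
  rw [Finsupp.inf_apply]
  constructor
  · intro h
    exact ⟨h.trans (exp_le_exp.mpr inf_le_left), h.trans (exp_le_exp.mpr inf_le_right)⟩
  · rintro ⟨h1, h2⟩
    rcases le_total (X v) (Y v) with hle | hle
    · rwa [inf_eq_left.mpr hle]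
    · rwa [inf_eq_right.mpr hle]

/-- **Division lemma.**  If `L(G)` is base-point free and `θ · L(G) ⊆ L(C)` then
`θ ∈ L(C - G)`. -/
theorem mem_L_sub_of_forall_mul_mem {G C : Divisor K F} (hG : IsBPF G) {θ : F}
    (h : ∀ f ∈ riemannRochSpace G, θ * f ∈ riemannRochSpace C) :
    θ ∈ riemannRochSpace (C - G) := by
  intro v
  obtain ⟨f, hf, hval⟩ := hG v
  have h1 := h f hf v
  rw [map_mul, hval] at h1
  rw [Finsupp.sub_apply, exp_sub, le_div_iff₀ (zero_lt_iff.mpr exp_ne_zero)]
  exact h1

/-- **Division lemma, submodule form**: `L(C) / L(G) = L(C - G)` for base-point free `L(G)`. -/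
theorem L_div {G : Divisor K F} (hG : IsBPF G) (C : Divisor K F) :
    riemannRochSpace C / riemannRochSpace G = riemannRochSpace (C - G) := by
  ext θ
  rw [Submodule.mem_div_iff_forall_mul_mem]
  constructor
  · exact mem_L_sub_of_forall_mul_mem hG
  · intro hθ y hy
    have := mul_mem_L hθ hy
    rwa [sub_add_cancel] at this

/-- Transporter form: `{f ∈ L(X) | f · L(G) ⊆ L(C)} = L(X ⊓ (C - G))`. -/
theorem L_inf_div {G : Divisor K F} (hG : IsBPF G) (X C : Divisor K F) :
    riemannRochSpace X ⊓ (riemannRochSpace C / riemannRochSpace G) =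
      riemannRochSpace (X ⊓ (C - G)) := by
  rw [L_div hG, L_inf]

/-- Multiplication by a function `u` with divisor `Du` shifts `L`: `u * h ∈ L(X) ↔ h ∈ L(X + Du)`. -/
theorem mul_mem_L_iff {u : F} (hu : u ≠ 0) {Du : Divisor K F}
    (hDu : ∀ v : Place K F, Du v = v.ord u) {h : F} {X : Divisor K F} :
    u * h ∈ riemannRochSpace X ↔ h ∈ riemannRochSpace (X + Du) := by
  refine forall_congr' fun v => ?_
  rw [map_mul, v.adicValuation_eq_exp_neg_ord hu, ← hDu v, Finsupp.add_apply, exp_add, exp_neg,
    inv_mul_le_iff₀ (zero_lt_iff.mpr exp_ne_zero), mul_comm]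

/-- `u · L(X) = L(X - div u)`. -/
theorem map_mulLeft_L {u : F} (hu : u ≠ 0) {Du : Divisor K F}
    (hDu : ∀ v : Place K F, Du v = v.ord u) (X : Divisor K F) :
    (riemannRochSpace X).map (LinearMap.mulLeft K u) = riemannRochSpace (X - Du) := by
  ext f
  rw [Submodule.mem_map]
  constructor
  · rintro ⟨h, hh, rfl⟩
    rw [LinearMap.mulLeft_apply, mul_mem_L_iff hu hDu, sub_add_cancel]
    exact hh
  · intro hf
    refine ⟨u⁻¹ * f, ?_, ?_⟩
    · have : u * (u⁻¹ * f) ∈ riemannRochSpace (X - Du) := by
        rwa [← mul_assoc, mul_inv_cancel₀ hu, one_mul]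
      rw [mul_mem_L_iff hu hDu, sub_add_cancel] at this
      exact this
    · rw [LinearMap.mulLeft_apply, ← mul_assoc, mul_inv_cancel₀ hu, one_mul]

/-! ### The base-point-free pencil trick -/

/-- **Pencil trick (kernel).**  If `s, t` have no common base point relative to `D`
(`max |s|_P |t|_P = exp (D P)` everywhere) and `s f + t g = 0` with `f, g ∈ L(D₂)`, then
`(f, g) = (t h, - s h)` for some `h ∈ L(D₂ - D)`. -/
theorem pencil_kernel {s t : F} (ht : t ≠ 0) {D D₂ : Divisor K F}
    (hst : ∀ P : Place K F, max (P.adicValuation s) (P.adicValuation t) = exp (D P))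
    {f g : F} (hf : f ∈ riemannRochSpace D₂) (hg : g ∈ riemannRochSpace D₂)
    (h0 : s * f + t * g = 0) :
    ∃ h ∈ riemannRochSpace (D₂ - D), f = t * h ∧ g = -(s * h) := by
  have hft : f = t * (f / t) := by field_simp
  have hgs : g = -(s * (f / t)) := by
    have : t * g = -(s * f) := eq_neg_of_add_eq_zero_right h0
    field_simp
    linear_combination this
  refine ⟨f / t, ?_, hft, hgs⟩
  intro P
  have h1 : P.adicValuation t * P.adicValuation (f / t) ≤ exp (D₂ P) := by
    rw [← map_mul, ← hft]; exact hf P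
  have h2 : P.adicValuation s * P.adicValuation (f / t) ≤ exp (D₂ P) := by
    have := hg P
    rwa [hgs, Valuation.map_neg, map_mul] at this
  rw [Finsupp.sub_apply, exp_sub, le_div_iff₀ (zero_lt_iff.mpr exp_ne_zero), ← hst P, mul_comm]
  rcases le_total (P.adicValuation s) (P.adicValuation t) with hle | hle
  · rw [max_eq_right hle]; exact h1
  · rw [max_eq_left hle]; exact h2

/-- The sections of `L(D)` vanishing at `P` to higher order than required. -/
def vanishAt (D : Divisor K F) (P : Place K F) : Submodule K (riemannRochSpace D) where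
  carrier := {x | P.adicValuation (x : F) < exp (D P)}
  zero_mem' := by
    show P.adicValuation ((0 : riemannRochSpace D) : F) < exp (D P)
    rw [ZeroMemClass.coe_zero, map_zero]
    exact zero_lt_iff.mpr exp_ne_zero
  add_mem' := by
    intro x y hx hy
    have hx' : P.adicValuation (x : F) < exp (D P) := hx
    have hy' : P.adicValuation (y : F) < exp (D P) := hy
    show P.adicValuation ((x + y : riemannRochSpace D) : F) < exp (D P)
    rw [Submodule.coe_add]
    exact lt_of_le_of_lt (Valuation.map_add _ _ _) (max_lt hx' hy')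
  smul_mem' := by
    intro c x hx
    have hx' : P.adicValuation (x : F) < exp (D P) := hx
    show P.adicValuation ((c • x : riemannRochSpace D) : F) < exp (D P)
    rw [Submodule.coe_smul, Algebra.smul_def, map_mul]
    exact lt_of_le_of_lt (mul_le_of_le_one_left' (P.adicValuation_algebraMap_le_one c)) hx'

/-- **Existence of a pencil without base points** in a base-point-free `L(D)`, over an infinite
constant field. -/
theorem exists_pencil [Infinite K] [HasPrincipalDivisors K F] {D : Divisor K F} (hD : IsBPF D) :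
    ∃ s ∈ riemannRochSpace D, ∃ t ∈ riemannRochSpace D, s ≠ 0 ∧ t ≠ 0 ∧
      ∀ P : Place K F, max (P.adicValuation s) (P.adicValuation t) = exp (D P) := by
  classical
  rcases isEmpty_or_nonempty (Place K F) with hemp | ⟨⟨P₀⟩⟩
  · exact ⟨1, fun v => (hemp.false v).elim, 1, fun v => (hemp.false v).elim, one_ne_zero,
      one_ne_zero, fun v => (hemp.false v).elim⟩
  obtain ⟨s, hs, hsval⟩ := hD P₀
  have hs0 : s ≠ 0 := by
    rintro rfl
    rw [map_zero] at hsval
    exact exp_ne_zero hsval.symm
  obtain ⟨Ds, hDs, -⟩ := HasPrincipalDivisors.exists_divisor (K := K) s hs0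
  -- the finitely many places where `s` has a base point
  have hZfin : {P : Place K F | P.adicValuation s ≠ exp (D P)}.Finite := by
    refine ((D.support ∪ Ds.support).finite_toSet).subset fun P hP => ?_
    rw [Finset.mem_coe, Finset.mem_union, Finsupp.mem_support_iff, Finsupp.mem_support_iff]
    by_contra hcon
    push Not at hcon
    apply hP
    rw [P.adicValuation_eq_exp_neg_ord hs0, ← hDs P, hcon.1, hcon.2]
    simp
  let Z := hZfin.toFinset
  let p : Option Z → Submodule K (riemannRochSpace D) := fun o =>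
    match o with
    | none => ⊥
    | some P => vanishAt D P.1
  have hp : ∀ o, p o ≠ ⊤ := by
    intro o
    match o with
    | none =>
      intro htop
      have hmem : (⟨s, hs⟩ : riemannRochSpace D) ∈ (⊥ : Submodule K (riemannRochSpace D)) := by
        have : (⟨s, hs⟩ : riemannRochSpace D) ∈ p none := by rw [htop]; exact Submodule.mem_top
        exact this
      rw [Submodule.mem_bot] at hmem
      exact hs0 (congrArg Subtype.val hmem)
    | some P =>
      intro htop
      obtain ⟨f, hf, hfval⟩ := hD P.1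
      have hmem : (⟨f, hf⟩ : riemannRochSpace D) ∈ vanishAt D P.1 := by
        have : (⟨f, hf⟩ : riemannRochSpace D) ∈ p (some P) := by rw [htop]; exact Submodule.mem_top
        exact this
      have hlt : P.1.adicValuation f < exp (D P.1) := hmem
      rw [hfval] at hlt
      exact lt_irrefl _ hlt
  obtain ⟨x, hx⟩ := Submodule.exists_forall_notMem_of_forall_ne_top p hp
  have hx0 : (x : F) ≠ 0 := by
    intro h0
    apply hx none
    show x ∈ (⊥ : Submodule K (riemannRochSpace D))
    rw [Submodule.mem_bot]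
    exact Subtype.ext h0
  refine ⟨s, hs, x.1, x.2, hs0, hx0, fun P => ?_⟩
  by_cases hP : P.adicValuation s = exp (D P)
  · rw [hP]
    exact max_eq_left (x.2 P)
  · have hPZ : P ∈ Z := by
      rw [Set.Finite.mem_toFinset]; exact hP
    have hnot : ¬ (P.adicValuation (x : F) < exp (D P)) := fun hlt => hx (some ⟨P, hPZ⟩) hlt
    have heq : P.adicValuation (x : F) = exp (D P) := le_antisymm (x.2 P) (not_lt.mp hnot)
    rw [heq]
    exact max_eq_right (hs P)

/-- **Pencil trick (surjectivity).**  With a pencil `s, t ∈ L(D)` without base points and the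
dimension count `l(D + D₂) + l(D₂ - D) ≤ 2 l(D₂)`, every element of `L(D + D₂)` is
`s f + t g` with `f, g ∈ L(D₂)`. -/
theorem pencil_surjective {s t : F} {D D₂ : Divisor K F} (hs : s ∈ riemannRochSpace D)
    (ht : t ∈ riemannRochSpace D) (ht0 : t ≠ 0)
    (hst : ∀ P : Place K F, max (P.adicValuation s) (P.adicValuation t) = exp (D P))
    [Module.Finite K (riemannRochSpace D₂)] [Module.Finite K (riemannRochSpace (D + D₂))]
    (hnum : finrank K (riemannRochSpace (D + D₂)) + finrank K (riemannRochSpace (D₂ - D)) ≤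
      2 * finrank K (riemannRochSpace D₂))
    {u : F} (hu : u ∈ riemannRochSpace (D + D₂)) :
    ∃ f ∈ riemannRochSpace D₂, ∃ g ∈ riemannRochSpace D₂, u = s * f + t * g := by
  classical
  -- the multiplication map `(f, g) ↦ s f + t g`
  let μ : (riemannRochSpace D₂ × riemannRochSpace D₂) →ₗ[K] riemannRochSpace (D + D₂) :=
    { toFun := fun x => ⟨s * x.1.1 + t * x.2.1,
        Submodule.add_mem _ (mul_mem_L hs x.1.2) (mul_mem_L ht x.2.2)⟩
      map_add' := by
        intro x y
        apply Subtype.ext
        simp only [Prod.fst_add, Prod.snd_add, Submodule.coe_add]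
        ring
      map_smul' := by
        intro c x
        apply Subtype.ext
        simp only [Prod.smul_fst, Prod.smul_snd, Submodule.coe_smul, RingHom.id_apply,
          smul_add, mul_smul_comm] }
  -- the kernel parametrisation `h ↦ (t h, - s h)`
  have hmemt : ∀ h ∈ riemannRochSpace (D₂ - D), t * h ∈ riemannRochSpace D₂ := by
    intro h hh
    have := mul_mem_L ht hh
    rwa [add_sub_cancel] at this
  have hmems : ∀ h ∈ riemannRochSpace (D₂ - D), -(s * h) ∈ riemannRochSpace D₂ := by
    intro h hh
    have := mul_mem_L hs hh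
    rw [add_sub_cancel] at this
    exact Submodule.neg_mem _ this
  let φ : riemannRochSpace (D₂ - D) →ₗ[K] (riemannRochSpace D₂ × riemannRochSpace D₂) :=
    { toFun := fun h => (⟨t * h.1, hmemt h.1 h.2⟩, ⟨-(s * h.1), hmems h.1 h.2⟩)
      map_add' := by
        intro x y
        apply Prod.ext
        · apply Subtype.ext
          simp only [Submodule.coe_add, Prod.fst_add]
          ring
        · apply Subtype.ext
          simp only [Submodule.coe_add, Prod.snd_add]
          ring
      map_smul' := by
        intro c x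
        apply Prod.ext
        · apply Subtype.ext
          simp only [Submodule.coe_smul, RingHom.id_apply, Prod.smul_fst, mul_smul_comm]
        · apply Subtype.ext
          simp only [Submodule.coe_smul, RingHom.id_apply, Prod.smul_snd, mul_smul_comm,
            smul_neg] }
  have hφinj : Function.Injective φ := by
    intro x y hxy
    have h1 := congrArg (fun z => (z.1 : F)) hxy
    simp only [φ, LinearMap.coe_mk, AddHom.coe_mk] at h1
    exact Subtype.ext (mul_left_cancel₀ ht0 h1)
  have hrange : LinearMap.range φ = LinearMap.ker μ := by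
    ext x
    rw [LinearMap.mem_range, LinearMap.mem_ker]
    constructor
    · rintro ⟨h, rfl⟩
      apply Subtype.ext
      simp only [μ, φ, LinearMap.coe_mk, AddHom.coe_mk, ZeroMemClass.coe_zero]
      ring
    · intro hx
      have hx' : s * x.1.1 + t * x.2.1 = 0 := congrArg Subtype.val hx
      obtain ⟨h, hh, h1, h2⟩ := pencil_kernel ht0 hst x.1.2 x.2.2 hx'
      refine ⟨⟨h, hh⟩, ?_⟩
      apply Prod.ext
      · exact Subtype.ext h1.symm
      · exact Subtype.ext h2.symm
  have hker : finrank K (LinearMap.ker μ) = finrank K (riemannRochSpace (D₂ - D)) := by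
    rw [← hrange, LinearMap.finrank_range_of_inj hφinj]
  have hrn := LinearMap.finrank_range_add_finrank_ker μ
  rw [hker, Module.finrank_prod] at hrn
  have hle : finrank K (LinearMap.range μ) ≤ finrank K (riemannRochSpace (D + D₂)) :=
    Submodule.finrank_le _
  have htop : LinearMap.range μ = ⊤ := by
    apply Submodule.eq_top_of_finrank_eq
    omega
  have hmem : (⟨u, hu⟩ : riemannRochSpace (D + D₂)) ∈ LinearMap.range μ := by
    rw [htop]; exact Submodule.mem_top
  obtain ⟨x, hx⟩ := hmem
  exact ⟨x.1.1, x.1.2, x.2.1, x.2.2, (congrArg Subtype.val hx).symm⟩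

/-- **Multiplication is onto** (pencil-trick form): if `L(D)` is base-point free, `K` is
infinite and `l(D + D₂) + l(D₂ - D) ≤ 2 l(D₂)`, then `L(D) * L(D₂) = L(D + D₂)`. -/
theorem L_mul_eq [Infinite K] [HasPrincipalDivisors K F] {D D₂ : Divisor K F} (hD : IsBPF D)
    [Module.Finite K (riemannRochSpace D₂)] [Module.Finite K (riemannRochSpace (D + D₂))]
    (hnum : finrank K (riemannRochSpace (D + D₂)) + finrank K (riemannRochSpace (D₂ - D)) ≤
      2 * finrank K (riemannRochSpace D₂)) :
    riemannRochSpace D * riemannRochSpace D₂ = riemannRochSpace (D + D₂) := by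
  refine le_antisymm (L_mul_le D D₂) fun u hu => ?_
  obtain ⟨s, hs, t, ht, -, ht0, hst⟩ := exists_pencil hD
  obtain ⟨f, hf, g, hg, rfl⟩ := pencil_surjective hs ht ht0 hst hnum hu
  exact Submodule.add_mem _ (Submodule.mul_mem_mul hs hf) (Submodule.mul_mem_mul ht hg)

/-! ### Further closure properties and the three division steps of the KM addition -/

/-- Sum of base-point-free divisors is base-point free (product of sections). -/
theorem IsBPF.add {A B : Divisor K F} (hA : IsBPF A) (hB : IsBPF B) : IsBPF (A + B) := by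
  intro P
  obtain ⟨f, hf, hfv⟩ := hA P
  obtain ⟨g, hg, hgv⟩ := hB P
  exact ⟨f * g, mul_mem_L hf hg, by rw [map_mul, hfv, hgv, Finsupp.add_apply, exp_add]⟩

/-- A nonzero function with divisor `Df` lies in `L(X)` iff `X + Df ≥ 0`. -/
theorem mem_L_iff_nonneg {f : F} (hf : f ≠ 0) {Df : Divisor K F}
    (hDf : ∀ v : Place K F, Df v = v.ord f) {X : Divisor K F} :
    f ∈ riemannRochSpace X ↔ 0 ≤ X + Df := by
  rw [mem_L_iff, Finsupp.le_def]
  refine forall_congr' fun v => ?_
  rw [v.adicValuation_eq_exp_neg_ord hf, exp_le_exp, Finsupp.add_apply, hDf v]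
  simp only [Finsupp.coe_zero, Pi.zero_apply]
  omega

/-- A base-point-free `L(D)` is nonzero as soon as there is a place. -/
theorem IsBPF.exists_ne_zero {D : Divisor K F} (hD : IsBPF D) (P : Place K F) :
    ∃ f ∈ riemannRochSpace D, f ≠ 0 := by
  obtain ⟨f, hf, hfv⟩ := hD P
  refine ⟨f, hf, ?_⟩
  rintro rfl
  rw [map_zero] at hfv
  exact exp_ne_zero hfv.symm

/-- **KM step "line".**  For `u₀ ≠ 0` and base-point-free `L(G)`:
`v · L(G) ⊆ u₀ · L(Y)` iff `v ∈ u₀ · L(Y - G)`. -/
theorem km_line {G Y : Divisor K F} (hG : IsBPF G) {u₀ : F} (hu₀ : u₀ ≠ 0) (v : F) :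
    (∀ u ∈ riemannRochSpace G, ∃ y ∈ riemannRochSpace Y, v * u = u₀ * y) ↔
      ∃ h ∈ riemannRochSpace (Y - G), v = u₀ * h := by
  constructor
  · intro hv
    refine ⟨u₀⁻¹ * v, ?_, by rw [← mul_assoc, mul_inv_cancel₀ hu₀, one_mul]⟩
    apply mem_L_sub_of_forall_mul_mem hG
    intro u hu
    obtain ⟨y, hy, hvy⟩ := hv u hu
    have : u₀⁻¹ * v * u = y := by
      rw [mul_assoc, hvy, ← mul_assoc, inv_mul_cancel₀ hu₀, one_mul]
    rw [this]
    exact hy
  · rintro ⟨h, hh, rfl⟩ u hu
    refine ⟨h * u, ?_, by ring⟩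
    have := mul_mem_L hh hu
    rwa [sub_add_cancel] at this

/-- **KM step `W'`.**  For `u₀, s₀ ≠ 0`, `Ds = div s₀`:
`f · u₀ ∈ (u₀ s₀) · L(G)` iff `f ∈ L(G - Ds)`. -/
theorem km_Wprime {G : Divisor K F} {u₀ s₀ : F} (hu₀ : u₀ ≠ 0) (hs₀ : s₀ ≠ 0)
    {Ds : Divisor K F} (hDs : ∀ v : Place K F, Ds v = v.ord s₀) (f : F) :
    (∃ u ∈ riemannRochSpace G, f * u₀ = u₀ * s₀ * u) ↔ f ∈ riemannRochSpace (G - Ds) := by
  constructor
  · rintro ⟨u, hu, hfu⟩
    have hf : f = s₀ * u := by
      have h1 : u₀ * f = u₀ * (s₀ * u) := by rw [mul_comm u₀ f, hfu]; ring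
      exact mul_left_cancel₀ hu₀ h1
    rw [hf, mul_mem_L_iff hs₀ hDs, sub_add_cancel]
    exact hu
  · intro hf
    refine ⟨s₀⁻¹ * f, ?_, ?_⟩
    · have h1 : s₀ * (s₀⁻¹ * f) ∈ riemannRochSpace (G - Ds) := by
        rwa [← mul_assoc, mul_inv_cancel₀ hs₀, one_mul]
      rw [mul_mem_L_iff hs₀ hDs, sub_add_cancel] at h1
      exact h1
    · field_simp

/-- **KM step `W₃`.**  For base-point-free `L(E' - B)` and effective `D₃`:
`f ∈ L(E)` and `f · L(E' - B) ⊆ L(E + E' - B - D₃)` iff `f ∈ L(E - D₃)`. -/
theorem km_W3 {E E' B D₃ : Divisor K F} (hbpf : IsBPF (E' - B)) (hD₃ : 0 ≤ D₃) (f : F) :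
    (f ∈ riemannRochSpace E ∧
        ∀ y ∈ riemannRochSpace (E' - B), f * y ∈ riemannRochSpace (E + E' - B - D₃)) ↔
      f ∈ riemannRochSpace (E - D₃) := by
  have hdiv : E + E' - B - D₃ - (E' - B) = E - D₃ := by abel
  constructor
  · rintro ⟨-, h⟩
    have := mem_L_sub_of_forall_mul_mem hbpf h
    rwa [hdiv] at this
  · intro hf
    refine ⟨L_mono (sub_le_self E hD₃) hf, fun y hy => ?_⟩
    have := mul_mem_L hf hy
    rwa [← hdiv, sub_add_cancel] at this

end Fermat.Agent.Lib.FF.KMLemmas
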