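import Fermat.Agent.Lib.FF.TateResidue

/-!
# Abstract residues, part 2: stronger rules and the pairing with Kähler differentials

* `rho_eq_zero_of_map_le'` : Tate's (R2) in its strong form.
* `rho_idem_inv_self` : (R4) cut down by an idempotent.
* `Pairing.pair` : for a commutative `K`-algebra `𝒜` acting on `V` (all of `𝒜` in `E(A)`) and a
  `K`-algebra map `ι : R → 𝒜`, the pairing `𝒜 × Ω[R⁄K] → K`, `(β, f dg) ↦ res_A (β f dg)`.
-/

set_option autoImplicit false
set_option linter.style.haveILetI false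

namespace Fermat.Agent.Lib.FF.Res

open Module LinearMap Submodule

variable {K V : Type*} [Field K] [AddCommGroup V] [Module K V]

section strong

variable {A : Submodule K V} {φ φ' ψ e : Module.End K V}

/-- (R2), strong form: `res_A (φ dψ) = 0` if `φ A + φ ψ A + φ ψ² A ⊆ A`. -/
theorem rho_eq_zero_of_map_le' (hc : Commute φ ψ) (hψ : InE A ψ) (h1 : A.map φ ≤ A)
    (h2 : A.map (φ * ψ) ≤ A) (h3 : A.map (φ * ψ * ψ) ≤ A) : rho A φ ψ = 0 := by
  have hφ : InE A φ := NMB.of_le h1
  rw [rho_eq_ftrace_nearProj (isNearProj_proj A) hφ hψ hc]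
  refine ftrace_eq_zero_of_pow_eq_zero 2 ?_
  set π := proj A
  have hcomm : ∀ v, ψ (φ v) = φ (ψ v) := fun v => by
    have := LinearMap.congr_fun hc.eq v
    simpa [Module.End.mul_apply] using this.symm
  have hA : ∀ a ∈ A, ((π * φ) * ψ - ψ * (π * φ)) a = 0 := by
    intro a ha
    have e1 : φ (ψ a) ∈ A := h2 ⟨a, ha, rfl⟩
    have e2 : φ a ∈ A := h1 ⟨a, ha, rfl⟩
    simp only [LinearMap.sub_apply, Module.End.mul_apply]
    rw [proj_of_mem A e1, proj_of_mem A e2, hcomm, sub_self]
  have hψA : ∀ a ∈ A, ((π * φ) * ψ - ψ * (π * φ)) (ψ a) = 0 := by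
    intro a ha
    have e1 : φ (ψ (ψ a)) ∈ A := h3 ⟨a, ha, rfl⟩
    have e2 : φ (ψ a) ∈ A := h2 ⟨a, ha, rfl⟩
    simp only [LinearMap.sub_apply, Module.End.mul_apply]
    rw [proj_of_mem A e1, proj_of_mem A e2, hcomm, sub_self]
  ext v
  rw [pow_two, Module.End.mul_apply]
  have hv : ((π * φ) * ψ - ψ * (π * φ)) v = π (φ (ψ v)) - ψ (π (φ v)) := by
    simp only [LinearMap.sub_apply, Module.End.mul_apply]
  rw [hv, map_sub, hA _ (proj_mem A _), hψA _ (proj_mem A _), sub_self]
  rfl

/-- the trace of `π - φ π φ⁻¹` for a projection `π` onto `A` with `φ A ⊆ A` is `dim A / φ A` -/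
theorem ftrace_proj_sub_conj {π : Module.End K V} (hπ1 : ∀ v, π v ∈ A) (hπ2 : ∀ a ∈ A, π a = a)
    (h2 : φ' * φ = 1) (L : Submodule K V) [FiniteDimensional K L]
    (hdisj : Disjoint (A.map φ) L) (hsup : A.map φ ⊔ L = A) :
    ftrace (π - φ * π * φ') = (Module.finrank K L : K) := by
  have hA : A.map φ ≤ A := le_sup_left.trans hsup.le
  have hL : L ≤ A := le_sup_right.trans hsup.le
  set p := φ * π * φ' with hp
  set θ := π - p with hθdef
  have hφ'φ : ∀ v, φ' (φ v) = v := fun v => by
    have := LinearMap.congr_fun h2 v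
    simpa [Module.End.mul_apply] using this
  have hp_mem : ∀ v, p v ∈ A.map φ := fun v => by
    rw [hp]
    simp only [Module.End.mul_apply]
    exact mem_map_of_mem (hπ1 _)
  have hp_fix : ∀ y ∈ A.map φ, p y = y := by
    rintro _ ⟨a, ha, rfl⟩
    rw [hp]
    simp only [Module.End.mul_apply]
    rw [hφ'φ, hπ2 a ha]
  have hθA : ∀ a ∈ A, θ a = a - p a := fun a ha => by
    rw [hθdef, LinearMap.sub_apply, hπ2 a ha]
  have hθmem : ∀ v, θ v ∈ A := fun v => by
    rw [hθdef, LinearMap.sub_apply]
    exact A.sub_mem (hπ1 v) (hA (hp_mem v))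
  have hθidem : ∀ a ∈ A, θ (θ a) = θ a := fun a ha => by
    rw [hθA _ (hθmem a), hθA a ha, map_sub, hp_fix _ (hp_mem a)]
    abel
  have hθφA : ∀ y ∈ A.map φ, θ y = 0 := fun y hy => by
    rw [hθA y (hA hy), hp_fix y hy, sub_self]
  set C := L.map θ with hC
  have hAC : A.map θ ≤ C := by
    rintro _ ⟨a, ha, rfl⟩
    obtain ⟨y, hy, l, hl, rfl⟩ := Submodule.mem_sup.1 (hsup.ge ha)
    rw [map_add, hθφA y hy, zero_add]
    exact mem_map_of_mem hl
  have hCinv : ∀ x ∈ C, θ x ∈ C := by
    rintro _ ⟨l, hl, rfl⟩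
    rw [hθidem l (hL hl)]
    exact mem_map_of_mem hl
  have hr : LinearMap.range (θ ^ 2) ≤ C := by
    rintro _ ⟨v, rfl⟩
    rw [pow_two, Module.End.mul_apply]
    exact hAC (mem_map_of_mem (hθmem v))
  rw [ftrace_eq_trOn C hCinv 2 hr, trOn_eq hCinv]
  have hid : θ.restrict hCinv = LinearMap.id := by
    ext ⟨x, hx⟩
    obtain ⟨l, hl, rfl⟩ := hx
    simp only [LinearMap.coe_restrict_apply, LinearMap.id_coe, id_eq]
    exact hθidem l (hL hl)
  rw [hid, LinearMap.trace_id]
  congr 1
  have hinj : Function.Injective (θ ∘ₗ L.subtype) := by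
    rw [← LinearMap.ker_eq_bot, LinearMap.ker_eq_bot']
    intro l hl0
    have hl0' : θ (l : V) = 0 := hl0
    rw [hθA _ (hL l.2), sub_eq_zero] at hl0'
    have hmem : (l : V) ∈ A.map φ := by rw [hl0']; exact hp_mem _
    have : (l : V) ∈ A.map φ ⊓ L := ⟨hmem, l.2⟩
    rw [hdisj.eq_bot, Submodule.mem_bot] at this
    exact Subtype.ext this
  have hrange : LinearMap.range (θ ∘ₗ L.subtype) = C := by
    rw [LinearMap.range_comp, Submodule.range_subtype]
  rw [← hrange, LinearMap.finrank_range_of_inj hinj]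

/-- (R4) cut down by an idempotent `e` commuting with `φ`, `φ⁻¹` and preserving `A`:
`res_A (e φ⁻¹ dφ) = dim eA / φ eA`. -/
theorem rho_idem_inv_self (he : e * e = e) (heφ : Commute e φ)
    (h1 : φ * φ' = 1) (h2 : φ' * φ = 1) (hφ : InE A φ) (hφ' : InE A φ') (heA : A.map e ≤ A)
    (L : Submodule K V) [FiniteDimensional K L] (hdisj : Disjoint ((A.map e).map φ) L)
    (hsup : (A.map e).map φ ⊔ L = A.map e) :
    rho A (e * φ') φ = (Module.finrank K L : K) := by
  have heE : InE A e := NMB.of_le heA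
  have hc : Commute (e * φ') φ := by
    have e1 : e * φ' * φ = e := by rw [mul_assoc, h2, mul_one]
    have e2 : φ * (e * φ') = e := by rw [← mul_assoc, ← heφ.eq, mul_assoc, h1, mul_one]
    rw [Commute, SemiconjBy, e1, e2]
  set π := proj A with hπ
  set P := e * π * e + (1 - e) * π * (1 - e) with hP
  have hee : ∀ v, e (e v) = e v := fun v => by
    have := LinearMap.congr_fun he v
    simpa [Module.End.mul_apply] using this
  have heAmem : ∀ a ∈ A, e a ∈ A := fun a ha => heA ⟨a, ha, rfl⟩
  have hPmem : ∀ v, P v ∈ A := fun v => by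
    rw [hP]
    simp only [LinearMap.add_apply, Module.End.mul_apply, LinearMap.sub_apply,
      Module.End.one_apply]
    refine A.add_mem (heAmem _ (proj_mem A _)) ?_
    exact A.sub_mem (proj_mem A _) (heAmem _ (proj_mem A _))
  have hPfix : ∀ a ∈ A, P a = a := fun a ha => by
    rw [hP]
    simp only [LinearMap.add_apply, Module.End.mul_apply, LinearMap.sub_apply,
      Module.End.one_apply]
    rw [proj_of_mem A (heAmem a ha), proj_of_mem A (A.sub_mem ha (heAmem a ha)), hee, map_sub,
      hee]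
    abel
  have nP : IsNearProj A P := isNearProj_of A P hPmem hPfix
  rw [rho_eq_ftrace_nearProj nP (heE.mul hφ') hφ hc]
  have hPe : P * e = e * π * e := by
    rw [hP, add_mul]
    have e0 : (1 - e) * e = 0 := by rw [sub_mul, one_mul, he, sub_self]
    have e1 : (1 - e) * π * (1 - e) * e = 0 := by
      rw [mul_assoc ((1 - e) * π), e0, mul_zero]
    rw [e1, add_zero, mul_assoc (e * π), he]
  have hθ : P * (e * φ') * φ - φ * (P * (e * φ')) = e * π * e - φ * (e * π * e) * φ' := by
    rw [← mul_assoc P, hPe, mul_assoc (e * π * e), h2, mul_one, mul_assoc φ]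
  rw [hθ]
  refine ftrace_proj_sub_conj (A := A.map e) (π := e * π * e) ?_ ?_ h2 L hdisj hsup
  · intro v
    simp only [Module.End.mul_apply]
    exact ⟨_, proj_mem A _, rfl⟩
  · rintro _ ⟨a, ha, rfl⟩
    simp only [Module.End.mul_apply]
    rw [hee, proj_of_mem A (heAmem a ha), hee]

end strong

/-! ## The pairing with Kähler differentials -/

namespace Pairing

variable {𝒜 : Type*} [CommRing 𝒜] [Algebra K 𝒜] {R : Type*} [CommRing R] [Algebra K R]

/-- `𝒜 →ₗ[K] K`, with `R` acting through `ι : R →ₐ[K] 𝒜` by precomposition with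
multiplication. -/
def PreDual (_ι : R →ₐ[K] 𝒜) : Type _ := 𝒜 →ₗ[K] K

variable (ι : R →ₐ[K] 𝒜)

instance : AddCommGroup (PreDual ι) := inferInstanceAs (AddCommGroup (𝒜 →ₗ[K] K))

instance : Module K (PreDual ι) := inferInstanceAs (Module K (𝒜 →ₗ[K] K))

/-- the underlying linear functional -/
def PreDual.toFun' (l : PreDual ι) : 𝒜 →ₗ[K] K := l

/-- constructor -/
def PreDual.mk' (l : 𝒜 →ₗ[K] K) : PreDual ι := l

instance : SMul R (PreDual ι) where
  smul r l := PreDual.mk' ι ((PreDual.toFun' ι l) ∘ₗ (LinearMap.mulLeft K (ι r)))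

theorem PreDual.smul_apply (r : R) (l : PreDual ι) (β : 𝒜) :
    PreDual.toFun' ι (r • l) β = PreDual.toFun' ι l (ι r * β) := rfl

theorem PreDual.add_apply (l l' : PreDual ι) (β : 𝒜) :
    PreDual.toFun' ι (l + l') β = PreDual.toFun' ι l β + PreDual.toFun' ι l' β := rfl

theorem PreDual.ksmul_apply (c : K) (l : PreDual ι) (β : 𝒜) :
    PreDual.toFun' ι (c • l) β = c * PreDual.toFun' ι l β := rfl

theorem PreDual.zero_apply (β : 𝒜) : PreDual.toFun' ι (0 : PreDual ι) β = 0 := rfl

@[ext]
theorem PreDual.ext {l l' : PreDual ι} (h : ∀ β, PreDual.toFun' ι l β = PreDual.toFun' ι l' β) :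
    l = l' := LinearMap.ext h

instance : Module R (PreDual ι) where
  one_smul l := by ext β; rw [PreDual.smul_apply, map_one, one_mul]
  mul_smul r s l := by
    ext β
    rw [PreDual.smul_apply, PreDual.smul_apply, PreDual.smul_apply]
    congr 1
    rw [map_mul ι]
    ring
  smul_zero r := by ext β; rw [PreDual.smul_apply, PreDual.zero_apply, PreDual.zero_apply]
  smul_add r l l' := by
    ext β; rw [PreDual.smul_apply, PreDual.add_apply, PreDual.add_apply, PreDual.smul_apply,
      PreDual.smul_apply]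
  add_smul r s l := by
    ext β
    rw [PreDual.smul_apply, PreDual.add_apply, PreDual.smul_apply, PreDual.smul_apply, map_add,
      add_mul, map_add]
  zero_smul l := by
    ext β; rw [PreDual.smul_apply, map_zero, zero_mul, map_zero, PreDual.zero_apply]

instance : IsScalarTower K R (PreDual ι) where
  smul_assoc c r l := by
    ext β
    rw [PreDual.smul_apply, PreDual.ksmul_apply, PreDual.smul_apply]
    have e1 : ι (c • r) * β = c • (ι r * β) := by rw [map_smul, smul_mul_assoc]
    rw [e1, map_smul, smul_eq_mul]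

variable (m : 𝒜 →ₐ[K] Module.End K V) (A : Submodule K V)

/-- the standing hypothesis: every element of `𝒜` acts by an element of `E(A)` -/
def AllInE : Prop := ∀ β : 𝒜, InE A (m β)

variable {m A}

theorem commute_m (β γ : 𝒜) : Commute (m β) (m γ) := (Commute.all β γ).map m

/-- the linear functional `β ↦ res_A (β dg)` -/
noncomputable def dFun (hE : AllInE m A) (g : R) : PreDual ι :=
  PreDual.mk' ι
    { toFun := fun β => rho A (m β) (m (ι g))
      map_add' := fun β γ => by
        rw [map_add]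
        exact rho_add_left (hE β) (hE γ) (hE _) (commute_m _ _) (commute_m _ _)
      map_smul' := fun c β => by
        rw [map_smul, rho_smul_left]
        rfl }

theorem dFun_apply (hE : AllInE m A) (g : R) (β : 𝒜) :
    PreDual.toFun' ι (dFun ι hE g) β = rho A (m β) (m (ι g)) := rfl

/-- `g ↦ (β ↦ res_A (β dg))` as a derivation. -/
noncomputable def deriv (hE : AllInE m A) : Derivation K R (PreDual ι) where
  toFun := dFun ι hE
  map_add' g h := by
    ext β
    rw [PreDual.add_apply, dFun_apply, dFun_apply, dFun_apply, map_add, map_add]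
    exact rho_add_right (hE β) (hE _) (hE _) (commute_m _ _) (commute_m _ _)
  map_smul' c g := by
    ext β
    rw [RingHom.id_apply, PreDual.ksmul_apply, dFun_apply, dFun_apply, map_smul, map_smul,
      rho_smul_right]
  map_one_eq_zero' := by
    ext β
    show PreDual.toFun' ι (dFun ι hE 1) β = _
    rw [dFun_apply, PreDual.zero_apply, map_one, map_one]
    exact rho_one_right (hE β)
  leibniz' g h := by
    ext β
    show PreDual.toFun' ι (dFun ι hE (g * h)) β =
      PreDual.toFun' ι (g • dFun ι hE h + h • dFun ι hE g) β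
    rw [PreDual.add_apply, PreDual.smul_apply, PreDual.smul_apply, dFun_apply, dFun_apply,
      dFun_apply, map_mul, map_mul, map_mul, map_mul]
    rw [rho_mul_right (hE β) (hE _) (hE _) (commute_m _ _) (commute_m _ _) (commute_m _ _)]
    rw [(commute_m (m := m) β (ι g)).eq, (commute_m (m := m) β (ι h)).eq]

/-- The residue pairing `𝒜 × Ω[R⁄K] → K`, `(β, f dg) ↦ res_A (β f dg)`. -/
noncomputable def pair (hE : AllInE m A) (β : 𝒜) (ω : Ω[R⁄K]) : K :=
  PreDual.toFun' ι ((deriv ι hE).liftKaehlerDifferential ω) β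

variable (hE : AllInE m A)

theorem pair_D (β : 𝒜) (g : R) :
    pair ι hE β (KaehlerDifferential.D K R g) = rho A (m β) (m (ι g)) := by
  unfold pair
  rw [Derivation.liftKaehlerDifferential_comp_D]
  rfl

theorem pair_add_right (β : 𝒜) (ω ω' : Ω[R⁄K]) :
    pair ι hE β (ω + ω') = pair ι hE β ω + pair ι hE β ω' := by
  unfold pair
  rw [map_add, PreDual.add_apply]

theorem pair_smul_right (β : 𝒜) (r : R) (ω : Ω[R⁄K]) :
    pair ι hE β (r • ω) = pair ι hE (ι r * β) ω := by
  unfold pair
  rw [map_smul, PreDual.smul_apply]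

theorem pair_zero_right (β : 𝒜) : pair ι hE β (0 : Ω[R⁄K]) = 0 := by
  unfold pair
  rw [map_zero, PreDual.zero_apply]

theorem pair_add_left (β γ : 𝒜) (ω : Ω[R⁄K]) :
    pair ι hE (β + γ) ω = pair ι hE β ω + pair ι hE γ ω := by
  unfold pair
  rw [map_add]

theorem pair_ksmul_left (c : K) (β : 𝒜) (ω : Ω[R⁄K]) :
    pair ι hE (c • β) ω = c * pair ι hE β ω := by
  unfold pair
  rw [map_smul, smul_eq_mul]

theorem pair_zero_left (ω : Ω[R⁄K]) : pair ι hE 0 ω = 0 := by
  unfold pair
  rw [map_zero]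

theorem pair_neg_left (β : 𝒜) (ω : Ω[R⁄K]) : pair ι hE (-β) ω = -pair ι hE β ω := by
  unfold pair
  rw [map_neg]

theorem pair_sub_left (β γ : 𝒜) (ω : Ω[R⁄K]) :
    pair ι hE (β - γ) ω = pair ι hE β ω - pair ι hE γ ω := by
  unfold pair
  rw [map_sub]

theorem pair_smul_D (β : 𝒜) (r g : R) :
    pair ι hE β (r • KaehlerDifferential.D K R g) = rho A (m (ι r * β)) (m (ι g)) := by
  rw [pair_smul_right, pair_D]

/-- induction principle: a property of `ω` holding for all `r • D g` and stable under sums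
holds for all `ω`. -/
theorem kaehler_induction {P : Ω[R⁄K] → Prop} (h0 : P 0)
    (hadd : ∀ ω ω', P ω → P ω' → P (ω + ω'))
    (hsmul : ∀ r g : R, P (r • KaehlerDifferential.D K R g)) (ω : Ω[R⁄K]) : P ω := by
  have hω : ω ∈ Submodule.span R (Set.range (KaehlerDifferential.D K R)) := by
    rw [KaehlerDifferential.span_range_derivation]; exact Submodule.mem_top
  have key : ∀ r : R, P (r • ω) := by
    induction hω using Submodule.span_induction with
    | mem x hx =>
      obtain ⟨g, rfl⟩ := hx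
      exact fun r => hsmul r g
    | zero => intro r; rw [smul_zero]; exact h0
    | add x y _ _ hx hy => intro r; rw [smul_add]; exact hadd _ _ (hx r) (hy r)
    | smul s x _ ihx => intro r; rw [smul_smul]; exact ihx (r * s)
  have := key 1
  rwa [one_smul] at this

end Pairing

end Fermat.Agent.Lib.FF.Res
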