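import Fermat.Agent.Lib.FF.TateTrace

/-!
# Abstract residues (Tate, *Residues of differentials on curves*, §1–2)

For a `K`-subspace `A` of `V` and commuting endomorphisms `φ ψ` of `V` with `φ A ≺ A`, `ψ A ≺ A`
(`≺` = "not much bigger": contained up to a finite-dimensional subspace) we define the abstract
residue `rho A φ ψ` ("`res_A (φ dψ)`") and prove Tate's rules (R1)–(R5) at the level of pairs of
endomorphisms.
-/

set_option autoImplicit false
set_option linter.style.haveILetI false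

namespace Fermat.Agent.Lib.FF.Res

open Module LinearMap Submodule

variable {K V : Type*} [Field K] [AddCommGroup V] [Module K V]

/-! ## "Not much bigger" -/

/-- `X ≺ Y`: `X` is contained in `Y` up to a finite-dimensional subspace. -/
def NMB (X Y : Submodule K V) : Prop :=
  ∃ C : Submodule K V, FiniteDimensional K C ∧ X ≤ Y ⊔ C

theorem NMB.of_le {X Y : Submodule K V} (h : X ≤ Y) : NMB X Y :=
  ⟨⊥, inferInstance, by simpa using h⟩

theorem NMB.refl (X : Submodule K V) : NMB X X := NMB.of_le le_rfl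

theorem NMB.trans {X Y Z : Submodule K V} (h1 : NMB X Y) (h2 : NMB Y Z) : NMB X Z := by
  obtain ⟨C, hC, h1⟩ := h1
  obtain ⟨D, hD, h2⟩ := h2
  refine ⟨D ⊔ C, inferInstance, h1.trans ?_⟩
  rw [← sup_assoc]
  exact sup_le_sup_right h2 C

theorem NMB.mono_left {X' X Y : Submodule K V} (h : X' ≤ X) (h1 : NMB X Y) : NMB X' Y :=
  (NMB.of_le h).trans h1

theorem NMB.mono_right {X Y Y' : Submodule K V} (h1 : NMB X Y) (h : Y ≤ Y') : NMB X Y' :=
  h1.trans (NMB.of_le h)

theorem NMB.map {X Y : Submodule K V} (θ : Module.End K V) (h : NMB X Y) :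
    NMB (X.map θ) (Y.map θ) := by
  obtain ⟨C, hC, h⟩ := h
  refine ⟨C.map θ, inferInstance, ?_⟩
  rw [← Submodule.map_sup]
  exact Submodule.map_mono h

theorem NMB.sup {X₁ X₂ Y₁ Y₂ : Submodule K V} (h1 : NMB X₁ Y₁) (h2 : NMB X₂ Y₂) :
    NMB (X₁ ⊔ X₂) (Y₁ ⊔ Y₂) := by
  obtain ⟨C, hC, h1⟩ := h1
  obtain ⟨D, hD, h2⟩ := h2
  refine ⟨C ⊔ D, inferInstance, ?_⟩
  refine sup_le (h1.trans ?_) (h2.trans ?_)
  · exact sup_le_sup le_sup_left le_sup_left
  · exact sup_le_sup le_sup_right le_sup_right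

theorem NMB.of_finiteDimensional (X Y : Submodule K V) [FiniteDimensional K X] : NMB X Y :=
  ⟨X, inferInstance, le_sup_right⟩

theorem nmb_bot_iff {X : Submodule K V} : NMB X ⊥ ↔ FiniteDimensional K X := by
  constructor
  · rintro ⟨C, hC, h⟩
    rw [bot_sup_eq] at h
    exact Submodule.finiteDimensional_of_le h
  · intro h
    exact NMB.of_finiteDimensional X ⊥

theorem NMB.sup_left {X₁ X₂ Y : Submodule K V} (h1 : NMB X₁ Y) (h2 : NMB X₂ Y) :
    NMB (X₁ ⊔ X₂) Y := by
  have := h1.sup h2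
  rwa [sup_idem] at this

/-- a linear map with finite-dimensional range has a finite-dimensional complement to its kernel -/
theorem exists_fin_sup_ker {X W : Type*} [AddCommGroup X] [Module K X] [AddCommGroup W]
    [Module K W] (g : X →ₗ[K] W) [FiniteDimensional K (LinearMap.range g)] :
    ∃ D : Submodule K X, FiniteDimensional K D ∧ ∀ x : X, ∃ d ∈ D, x - d ∈ LinearMap.ker g := by
  obtain ⟨s, hs⟩ := g.rangeRestrict.exists_rightInverse_of_surjective
    (LinearMap.range_rangeRestrict g)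
  refine ⟨LinearMap.range s, inferInstance, fun x => ⟨s (g.rangeRestrict x), ⟨_, rfl⟩, ?_⟩⟩
  rw [LinearMap.mem_ker, map_sub, sub_eq_zero]
  have h1 := LinearMap.congr_fun hs (g.rangeRestrict x)
  have h2 := congrArg Subtype.val h1
  simpa using h2.symm

theorem NMB.inf {X A B : Submodule K V} (h1 : NMB X A) (h2 : NMB X B) : NMB X (A ⊓ B) := by
  obtain ⟨C₁, hC₁, h1⟩ := h1
  obtain ⟨C₂, hC₂, h2⟩ := h2
  let g : X →ₗ[K] (V ⧸ A) × (V ⧸ B) := (A.mkQ.prod B.mkQ) ∘ₗ X.subtype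
  let hmap : (C₁ × C₂) →ₗ[K] (V ⧸ A) × (V ⧸ B) :=
    LinearMap.prodMap (A.mkQ ∘ₗ C₁.subtype) (B.mkQ ∘ₗ C₂.subtype)
  have hrange : LinearMap.range g ≤ LinearMap.range hmap := by
    rintro _ ⟨x, rfl⟩
    obtain ⟨a, ha, c, hc, hx⟩ := Submodule.mem_sup.1 (h1 x.2)
    obtain ⟨b, hb, c', hc', hx'⟩ := Submodule.mem_sup.1 (h2 x.2)
    refine ⟨(⟨c, hc⟩, ⟨c', hc'⟩), ?_⟩
    have ha0 : A.mkQ a = 0 := by
      rw [Submodule.mkQ_apply]; exact (Submodule.Quotient.mk_eq_zero A).2 ha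
    have hb0 : B.mkQ b = 0 := by
      rw [Submodule.mkQ_apply]; exact (Submodule.Quotient.mk_eq_zero B).2 hb
    have e1 : A.mkQ c = A.mkQ (x : V) := by rw [← hx, map_add, ha0, zero_add]
    have e2 : B.mkQ c' = B.mkQ (x : V) := by rw [← hx', map_add, hb0, zero_add]
    exact Prod.ext e1 e2
  haveI : FiniteDimensional K (LinearMap.range g) := Submodule.finiteDimensional_of_le hrange
  obtain ⟨D, hD, hDx⟩ := exists_fin_sup_ker g
  refine ⟨D.map X.subtype, inferInstance, ?_⟩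
  intro x hx
  obtain ⟨d, hd, hker⟩ := hDx ⟨x, hx⟩
  have hk : ((⟨x, hx⟩ : X) - d : X) ∈ LinearMap.ker g := hker
  rw [LinearMap.mem_ker] at hk
  have hk1 : A.mkQ ((x : V) - (d : V)) = 0 := congrArg Prod.fst hk
  have hk2 : B.mkQ ((x : V) - (d : V)) = 0 := congrArg Prod.snd hk
  have hxd : x - (d : V) ∈ A ⊓ B :=
    ⟨(Submodule.Quotient.mk_eq_zero A).1 hk1, (Submodule.Quotient.mk_eq_zero B).1 hk2⟩
  have : x = (x - (d : V)) + (d : V) := by abel
  rw [this]
  exact Submodule.add_mem _ (Submodule.mem_sup_left hxd)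
    (Submodule.mem_sup_right (Submodule.mem_map_of_mem hd))

/-! ## The classes `E`, `E₁`, `E₂` -/

/-- `θ A ≺ A` -/
def InE (A : Submodule K V) (θ : Module.End K V) : Prop := NMB (A.map θ) A

/-- `θ V ≺ A` -/
def InE1 (A : Submodule K V) (θ : Module.End K V) : Prop := NMB (LinearMap.range θ) A

/-- `θ A` is finite-dimensional -/
def InE2 (A : Submodule K V) (θ : Module.End K V) : Prop := FiniteDimensional K (A.map θ)

section classes

variable {A : Submodule K V} {θ θ' : Module.End K V}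

theorem InE1.inE (h : InE1 A θ) : InE A θ :=
  NMB.mono_left (by rintro _ ⟨x, -, rfl⟩; exact ⟨x, rfl⟩) h

theorem InE2.inE (h : InE2 A θ) : InE A θ :=
  haveI : FiniteDimensional K (A.map θ) := h
  NMB.of_finiteDimensional _ _

theorem InE.one : InE A (1 : Module.End K V) := by
  unfold InE
  rw [Module.End.one_eq_id, Submodule.map_id]
  exact NMB.refl A

theorem InE.zero : InE A (0 : Module.End K V) := by
  refine NMB.of_le ?_
  rintro _ ⟨x, -, rfl⟩
  simp

theorem map_add_le (X : Submodule K V) (θ θ' : Module.End K V) :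
    X.map (θ + θ') ≤ X.map θ ⊔ X.map θ' := by
  rintro _ ⟨x, hx, rfl⟩
  rw [LinearMap.add_apply]
  exact Submodule.add_mem _ (Submodule.mem_sup_left (mem_map_of_mem hx))
    (Submodule.mem_sup_right (mem_map_of_mem hx))

theorem map_smul_le (X : Submodule K V) (c : K) (θ : Module.End K V) :
    X.map (c • θ) ≤ X.map θ := by
  rintro _ ⟨x, hx, rfl⟩
  rw [LinearMap.smul_apply]
  exact Submodule.smul_mem _ c (mem_map_of_mem hx)

theorem map_neg_le (X : Submodule K V) (θ : Module.End K V) :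
    X.map (-θ) ≤ X.map θ := by
  rintro _ ⟨x, hx, rfl⟩
  rw [LinearMap.neg_apply]
  exact Submodule.neg_mem _ (mem_map_of_mem hx)

theorem map_mul_eq (X : Submodule K V) (θ θ' : Module.End K V) :
    X.map (θ * θ') = (X.map θ').map θ := by
  rw [Module.End.mul_eq_comp, Submodule.map_comp]

theorem InE.add (h : InE A θ) (h' : InE A θ') : InE A (θ + θ') :=
  NMB.mono_left (map_add_le A θ θ') (h.sup_left h')

theorem InE.smul (c : K) (h : InE A θ) : InE A (c • θ) :=
  NMB.mono_left (map_smul_le A c θ) h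

theorem InE.neg (h : InE A θ) : InE A (-θ) :=
  NMB.mono_left (map_neg_le A θ) h

theorem InE.sub (h : InE A θ) (h' : InE A θ') : InE A (θ - θ') := by
  rw [sub_eq_add_neg]; exact h.add h'.neg

theorem InE.mul (h : InE A θ) (h' : InE A θ') : InE A (θ * θ') := by
  unfold InE
  rw [map_mul_eq]
  exact (NMB.map θ h').trans h

theorem InE1.add (h : InE1 A θ) (h' : InE1 A θ') : InE1 A (θ + θ') := by
  unfold InE1 at *
  rw [← Submodule.map_top] at *
  exact NMB.mono_left (map_add_le ⊤ θ θ') (h.sup_left h')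

theorem InE1.smul (c : K) (h : InE1 A θ) : InE1 A (c • θ) := by
  unfold InE1 at *
  rw [← Submodule.map_top] at *
  exact NMB.mono_left (map_smul_le ⊤ c θ) h

theorem InE1.neg (h : InE1 A θ) : InE1 A (-θ) := by
  unfold InE1 at *
  rw [← Submodule.map_top] at *
  exact NMB.mono_left (map_neg_le ⊤ θ) h

theorem InE1.sub (h : InE1 A θ) (h' : InE1 A θ') : InE1 A (θ - θ') := by
  rw [sub_eq_add_neg]; exact h.add h'.neg

/-- `E₁` is a right ideal (no condition on the right factor) -/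
theorem InE1.mul_right (h : InE1 A θ) (θ' : Module.End K V) : InE1 A (θ * θ') := by
  refine NMB.mono_left ?_ h
  rintro _ ⟨x, rfl⟩
  exact ⟨θ' x, rfl⟩

/-- `E₁` is a left ideal of `E` -/
theorem InE1.mul_left (h : InE1 A θ) (h' : InE A θ') : InE1 A (θ' * θ) := by
  unfold InE1 at *
  rw [← Submodule.map_top] at *
  rw [map_mul_eq]
  exact (NMB.map θ' h).trans h'

theorem InE2.add (h : InE2 A θ) (h' : InE2 A θ') : InE2 A (θ + θ') := by
  unfold InE2 at *
  exact Submodule.finiteDimensional_of_le (map_add_le A θ θ')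

theorem InE2.smul (c : K) (h : InE2 A θ) : InE2 A (c • θ) := by
  unfold InE2 at *
  exact Submodule.finiteDimensional_of_le (map_smul_le A c θ)

theorem InE2.neg (h : InE2 A θ) : InE2 A (-θ) := by
  unfold InE2 at *
  exact Submodule.finiteDimensional_of_le (map_neg_le A θ)

theorem InE2.sub (h : InE2 A θ) (h' : InE2 A θ') : InE2 A (θ - θ') := by
  rw [sub_eq_add_neg]; exact h.add h'.neg

/-- `E₂` is a left ideal (no condition on the left factor) -/
theorem InE2.mul_left (h : InE2 A θ) (θ' : Module.End K V) : InE2 A (θ' * θ) := by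
  unfold InE2 at *
  rw [map_mul_eq]
  infer_instance

/-- `E₂` is a right ideal of `E` -/
theorem InE2.mul_right (h : InE2 A θ) (h' : InE A θ') : InE2 A (θ * θ') := by
  unfold InE2 at *
  rw [map_mul_eq]
  exact nmb_bot_iff.1 (((NMB.map θ h').trans (nmb_bot_iff.2 h)))

theorem InE2.zero : InE2 A (0 : Module.End K V) := by
  unfold InE2
  have : A.map (0 : Module.End K V) ≤ ⊥ := by
    rintro _ ⟨x, -, rfl⟩
    simp
  exact Submodule.finiteDimensional_of_le this

theorem InE1.zero : InE1 A (0 : Module.End K V) := by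
  refine NMB.of_le ?_
  rintro _ ⟨x, rfl⟩
  simp

end classes

/-! ## Additivity of the trace on finite-potent classes -/

/-- iterated images of `⊤` under the pair `θ, θ'` -/
def iterImg (θ θ' : Module.End K V) : ℕ → Submodule K V
  | 0 => ⊤
  | (j + 1) => (iterImg θ θ' j).map θ ⊔ (iterImg θ θ' j).map θ'

theorem iterImg_succ_le (θ θ' : Module.End K V) (j : ℕ) :
    iterImg θ θ' (j + 1) ≤ iterImg θ θ' j := by
  induction j with
  | zero => exact le_top
  | succ j ih =>
    show (iterImg θ θ' (j + 1)).map θ ⊔ (iterImg θ θ' (j + 1)).map θ' ≤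
      (iterImg θ θ' j).map θ ⊔ (iterImg θ θ' j).map θ'
    exact sup_le_sup (Submodule.map_mono ih) (Submodule.map_mono ih)

theorem range_pow_le_iterImg (θ θ' ψ : Module.End K V)
    (hψ : ∀ j, (iterImg θ θ' j).map ψ ≤ iterImg θ θ' (j + 1)) (k : ℕ) :
    LinearMap.range (ψ ^ k) ≤ iterImg θ θ' k := by
  induction k with
  | zero => exact le_top
  | succ k ih =>
    rintro _ ⟨x, rfl⟩
    rw [pow_succ', Module.End.mul_apply]
    exact hψ k (mem_map_of_mem (ih ⟨x, rfl⟩))

theorem ftrace_add_of_iterImg (θ θ' : Module.End K V) (k : ℕ)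
    [FiniteDimensional K (iterImg θ θ' k)] :
    ftrace (θ + θ') = ftrace θ + ftrace θ' := by
  have h1 : ∀ j, (iterImg θ θ' j).map θ ≤ iterImg θ θ' (j + 1) := fun j => le_sup_left
  have h2 : ∀ j, (iterImg θ θ' j).map θ' ≤ iterImg θ θ' (j + 1) := fun j => le_sup_right
  have h3 : ∀ j, (iterImg θ θ' j).map (θ + θ') ≤ iterImg θ θ' (j + 1) := fun j =>
    map_add_le _ θ θ'
  refine ftrace_add_of_common (iterImg θ θ' k) ?_ ?_ k (range_pow_le_iterImg θ θ' θ h1 k)
    (range_pow_le_iterImg θ θ' θ' h2 k) (range_pow_le_iterImg θ θ' (θ + θ') h3 k)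
  · intro x hx
    exact iterImg_succ_le θ θ' k (h1 k (mem_map_of_mem hx))
  · intro x hx
    exact iterImg_succ_le θ θ' k (h2 k (mem_map_of_mem hx))

/-- `θ` maps `W j` into `W (j+1)` up to finite dimension, for `j < k` -/
def InChain (W : ℕ → Submodule K V) (k : ℕ) (θ : Module.End K V) : Prop :=
  ∀ j < k, NMB ((W j).map θ) (W (j + 1))

section chain

variable {W : ℕ → Submodule K V} {k : ℕ} {θ θ' : Module.End K V}

theorem InChain.add (h : InChain W k θ) (h' : InChain W k θ') : InChain W k (θ + θ') :=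
  fun j hj => NMB.mono_left (map_add_le _ θ θ') ((h j hj).sup_left (h' j hj))

theorem InChain.neg (h : InChain W k θ) : InChain W k (-θ) :=
  fun j hj => NMB.mono_left (map_neg_le _ θ) (h j hj)

theorem InChain.sub (h : InChain W k θ) (h' : InChain W k θ') : InChain W k (θ - θ') := by
  rw [sub_eq_add_neg]; exact h.add h'.neg

theorem nmb_iterImg (h0 : W 0 = ⊤) (h : InChain W k θ) (h' : InChain W k θ') :
    ∀ j ≤ k, NMB (iterImg θ θ' j) (W j) := by
  intro j
  induction j with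
  | zero => intro _; rw [h0]; exact NMB.of_le le_top
  | succ j ih =>
    intro hj
    have ihj := ih (Nat.le_of_succ_le hj)
    exact ((NMB.map θ ihj).trans (h j hj)).sup_left ((NMB.map θ' ihj).trans (h' j hj))

/-- (T4) the trace is additive on a finite-potent class given by a chain. -/
theorem ftrace_add_of_inChain (h0 : W 0 = ⊤) (hk : W k = ⊥) (h : InChain W k θ)
    (h' : InChain W k θ') : ftrace (θ + θ') = ftrace θ + ftrace θ' := by
  have := nmb_iterImg h0 h h' k le_rfl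
  rw [hk] at this
  haveI := nmb_bot_iff.1 this
  exact ftrace_add_of_iterImg θ θ' k

theorem ftrace_sub_of_inChain (h0 : W 0 = ⊤) (hk : W k = ⊥) (h : InChain W k θ)
    (h' : InChain W k θ') : ftrace (θ - θ') = ftrace θ - ftrace θ' := by
  rw [sub_eq_add_neg, ftrace_add_of_inChain h0 hk h h'.neg, ftrace_neg, ← sub_eq_add_neg]

theorem InChain.isFinitePotent (h0 : W 0 = ⊤) (hk : W k = ⊥) (h : InChain W k θ) :
    IsFinitePotent θ := by
  have := nmb_iterImg h0 h h k le_rfl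
  rw [hk] at this
  haveI := nmb_bot_iff.1 this
  refine ⟨k, Submodule.finiteDimensional_of_le
    (range_pow_le_iterImg θ θ θ (fun j => le_sup_left) k)⟩

end chain

/-! ## The class `E₀` and the projection -/

/-- the chain `⊤, A, ⊥` -/
def chain2 (A : Submodule K V) : ℕ → Submodule K V :=
  fun j => if j = 0 then ⊤ else if j = 1 then A else ⊥

/-- `E₀ = E₁ ∩ E₂` -/
def InE0 (A : Submodule K V) (θ : Module.End K V) : Prop := InE1 A θ ∧ InE2 A θ

section E0

variable {A : Submodule K V} {θ θ' : Module.End K V}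

theorem InE0.inChain (h : InE0 A θ) : InChain (chain2 A) 2 θ := by
  intro j hj
  interval_cases j
  · have e0 : chain2 A 0 = ⊤ := by simp [chain2]
    have e1 : chain2 A (0 + 1) = A := by simp [chain2]
    rw [e0, e1, Submodule.map_top]
    exact h.1
  · have e1 : chain2 A 1 = A := by simp [chain2]
    have e2 : chain2 A (1 + 1) = ⊥ := by simp [chain2]
    rw [e1, e2]
    exact nmb_bot_iff.2 h.2

theorem chain2_zero (A : Submodule K V) : chain2 A 0 = ⊤ := by simp [chain2]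
theorem chain2_two (A : Submodule K V) : chain2 A 2 = ⊥ := by simp [chain2]

theorem ftrace_add_of_inE0 (h : InE0 A θ) (h' : InE0 A θ') :
    ftrace (θ + θ') = ftrace θ + ftrace θ' :=
  ftrace_add_of_inChain (chain2_zero A) (chain2_two A) h.inChain h'.inChain

theorem ftrace_sub_of_inE0 (h : InE0 A θ) (h' : InE0 A θ') :
    ftrace (θ - θ') = ftrace θ - ftrace θ' :=
  ftrace_sub_of_inChain (chain2_zero A) (chain2_two A) h.inChain h'.inChain

theorem InE0.isFinitePotent (h : InE0 A θ) : IsFinitePotent θ :=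
  InChain.isFinitePotent (chain2_zero A) (chain2_two A) h.inChain

theorem InE0.add (h : InE0 A θ) (h' : InE0 A θ') : InE0 A (θ + θ') := ⟨h.1.add h'.1, h.2.add h'.2⟩
theorem InE0.sub (h : InE0 A θ) (h' : InE0 A θ') : InE0 A (θ - θ') := ⟨h.1.sub h'.1, h.2.sub h'.2⟩
theorem InE0.neg (h : InE0 A θ) : InE0 A (-θ) := ⟨h.1.neg, h.2.neg⟩
theorem InE0.mul_left (h : InE0 A θ) (h' : InE A θ') : InE0 A (θ' * θ) :=
  ⟨h.1.mul_left h', h.2.mul_left θ'⟩
theorem InE0.mul_right (h : InE0 A θ) (h' : InE A θ') : InE0 A (θ * θ') :=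
  ⟨h.1.mul_right θ', h.2.mul_right h'⟩
theorem inE0_mul_of_inE1_inE2 (h : InE1 A θ) (h' : InE2 A θ') : InE0 A (θ * θ') :=
  ⟨h.mul_right θ', h'.mul_left θ⟩
theorem inE0_mul_of_inE2_inE1 (h : InE2 A θ) (h' : InE1 A θ') : InE0 A (θ * θ') :=
  ⟨h'.mul_left h.inE, h.mul_right h'.inE⟩

/-- the trace of a commutator of elements whose products lie in `E₀` vanishes -/
theorem ftrace_comm_eq_zero {a b : Module.End K V} (hab : InE0 A (a * b)) (hba : InE0 A (b * a)) :
    ftrace (a * b - b * a) = 0 := by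
  rw [ftrace_sub_of_inE0 hab hba, ftrace_mul_comm hab.isFinitePotent, sub_self]

/-- congruence of commutators modulo `E₂` -/
theorem comm_sub_comm_inE2 {a b a' b' : Module.End K V} (ha : InE2 A (a' - a))
    (hb : InE2 A (b' - b)) (hEa' : InE A a') (hEb' : InE A b') :
    InE2 A ((a' * b' - b' * a') - (a * b - b * a)) := by
  have e : (a' * b' - b' * a') - (a * b - b * a) =
      (a' - a) * b' + a * (b' - b) - (b' - b) * a' - b * (a' - a) := by noncomm_ring
  rw [e]
  exact (((ha.mul_right hEb').add (hb.mul_left a)).sub (hb.mul_right hEa')).sub (ha.mul_left b)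

theorem comm_inE2_of_commute {a b a' b' : Module.End K V} (hc : Commute a b)
    (ha : InE2 A (a' - a)) (hb : InE2 A (b' - b)) (hEa' : InE A a') (hEb' : InE A b') :
    InE2 A (a' * b' - b' * a') := by
  have h := comm_sub_comm_inE2 ha hb hEa' hEb'
  have e : a * b - b * a = 0 := by rw [hc.eq, sub_self]
  rwa [e, sub_zero] at h

theorem InE.of_sub_inE2 {a a' : Module.End K V} (ha : InE A a) (h : InE2 A (a' - a)) :
    InE A a' := by
  have : a' = a + (a' - a) := by abel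
  rw [this]
  exact ha.add h.inE

end E0

theorem exists_proj (A : Submodule K V) :
    ∃ π : Module.End K V, (∀ v, π v ∈ A) ∧ ∀ a ∈ A, π a = a := by
  obtain ⟨g, hg⟩ := A.subtype.exists_leftInverse_of_injective (Submodule.ker_subtype A)
  refine ⟨A.subtype ∘ₗ g, fun v => (g v).2, fun a ha => ?_⟩
  have := LinearMap.congr_fun hg ⟨a, ha⟩
  simp only [LinearMap.coe_comp, Function.comp_apply, Submodule.coe_subtype, LinearMap.id_coe,
    id_eq] at this ⊢
  rw [this]

/-- a chosen projection of `V` onto `A` -/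
noncomputable def proj (A : Submodule K V) : Module.End K V := (exists_proj A).choose

theorem proj_mem (A : Submodule K V) (v : V) : proj A v ∈ A := (exists_proj A).choose_spec.1 v

theorem proj_of_mem (A : Submodule K V) {a : V} (ha : a ∈ A) : proj A a = a :=
  (exists_proj A).choose_spec.2 a ha

/-- `P` is a projection onto `A` up to finite rank: `P V ≺ A` and `(1 - P) A` finite-dimensional. -/
def IsNearProj (A : Submodule K V) (P : Module.End K V) : Prop := InE1 A P ∧ InE2 A (1 - P)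

theorem isNearProj_of (A : Submodule K V) (P : Module.End K V) (h1 : ∀ v, P v ∈ A)
    (h2 : ∀ a ∈ A, P a = a) : IsNearProj A P := by
  refine ⟨NMB.of_le ?_, ?_⟩
  · rintro _ ⟨x, rfl⟩; exact h1 x
  · have : A.map (1 - P) ≤ ⊥ := by
      rintro _ ⟨a, ha, rfl⟩
      simp [h2 a ha]
    exact Submodule.finiteDimensional_of_le this

theorem isNearProj_proj (A : Submodule K V) : IsNearProj A (proj A) :=
  isNearProj_of A _ (proj_mem A) (fun _ ha => proj_of_mem A ha)

section nearproj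

variable {A : Submodule K V} {P φ : Module.End K V}

theorem IsNearProj.mul_inE1 (hP : IsNearProj A P) (φ : Module.End K V) : InE1 A (P * φ) :=
  hP.1.mul_right φ

theorem IsNearProj.mul_sub_inE2 (hP : IsNearProj A P) (hφ : InE A φ) : InE2 A (P * φ - φ) := by
  have e : P * φ - φ = -((1 - P) * φ) := by noncomm_ring
  rw [e]
  exact (hP.2.mul_right hφ).neg

end nearproj

/-! ## The residue of a pair -/

/-- Tate's abstract residue "`res_A (φ dψ)`" of a pair of endomorphisms. -/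
noncomputable def rho (A : Submodule K V) (φ ψ : Module.End K V) : K :=
  ftrace ((proj A * φ) * (proj A * ψ) - (proj A * ψ) * (proj A * φ))

section rho

variable {A : Submodule K V} {φ ψ : Module.End K V}

theorem inE0_comm_nearProj {P : Module.End K V} (hP : IsNearProj A P) (hφ : InE A φ)
    (hψ : InE A ψ) (hc : Commute φ ψ) :
    InE0 A ((P * φ) * (P * ψ) - (P * ψ) * (P * φ)) := by
  refine ⟨((hP.mul_inE1 φ).mul_right _).sub ((hP.mul_inE1 ψ).mul_right _), ?_⟩
  exact comm_inE2_of_commute hc (hP.mul_sub_inE2 hφ) (hP.mul_sub_inE2 hψ) (hP.mul_inE1 φ).inE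
    (hP.mul_inE1 ψ).inE

/-- **Tate's Theorem 1** (independence of the choices): the trace of the commutator of any
admissible pair computes the residue. -/
theorem ftrace_comm_eq_rho {φ₁ ψ₁ : Module.End K V} (hφ : InE A φ) (hψ : InE A ψ)
    (hc : Commute φ ψ) (h1 : InE2 A (φ₁ - φ)) (h2 : InE2 A (ψ₁ - ψ))
    (h : InE1 A φ₁ ∨ InE1 A ψ₁) :
    ftrace (φ₁ * ψ₁ - ψ₁ * φ₁) = rho A φ ψ := by
  have hP := isNearProj_proj A
  set π := proj A with hπ
  set φ₀ := π * φ with hφ₀
  set ψ₀ := π * ψ with hψ₀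
  have hφ₀1 : InE1 A φ₀ := hP.mul_inE1 φ
  have hψ₀1 : InE1 A ψ₀ := hP.mul_inE1 ψ
  have hφ₀2 : InE2 A (φ₀ - φ) := hP.mul_sub_inE2 hφ
  have hψ₀2 : InE2 A (ψ₀ - ψ) := hP.mul_sub_inE2 hψ
  have hφ₁E : InE A φ₁ := hφ.of_sub_inE2 h1
  have hψ₁E : InE A ψ₁ := hψ.of_sub_inE2 h2
  have he : InE2 A (φ₁ - φ₀) := by
    have : φ₁ - φ₀ = (φ₁ - φ) - (φ₀ - φ) := by abel
    rw [this]; exact h1.sub hφ₀2
  have he' : InE2 A (ψ₁ - ψ₀) := by
    have : ψ₁ - ψ₀ = (ψ₁ - ψ) - (ψ₀ - ψ) := by abel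
    rw [this]; exact h2.sub hψ₀2
  have hT0 : InE0 A (φ₀ * ψ₀ - ψ₀ * φ₀) := inE0_comm_nearProj hP hφ hψ hc
  have hT1a : InE0 A (φ₀ * (ψ₁ - ψ₀)) := inE0_mul_of_inE1_inE2 hφ₀1 he'
  have hT1b : InE0 A ((ψ₁ - ψ₀) * φ₀) := inE0_mul_of_inE2_inE1 he' hφ₀1
  have hT2 : InE0 A ((φ₁ - φ₀) * ψ₁) ∧ InE0 A (ψ₁ * (φ₁ - φ₀)) := by
    rcases h with h | h
    · have he0 : InE0 A (φ₁ - φ₀) := ⟨h.sub hφ₀1, he⟩
      exact ⟨he0.mul_right hψ₁E, he0.mul_left hψ₁E⟩
    · exact ⟨inE0_mul_of_inE2_inE1 he h, inE0_mul_of_inE1_inE2 h he⟩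
  have key : φ₁ * ψ₁ - ψ₁ * φ₁ = (φ₀ * ψ₀ - ψ₀ * φ₀) +
      (φ₀ * (ψ₁ - ψ₀) - (ψ₁ - ψ₀) * φ₀) + ((φ₁ - φ₀) * ψ₁ - ψ₁ * (φ₁ - φ₀)) := by
    noncomm_ring
  rw [key, ftrace_add_of_inE0 (hT0.add (hT1a.sub hT1b)) (hT2.1.sub hT2.2),
    ftrace_add_of_inE0 hT0 (hT1a.sub hT1b), ftrace_comm_eq_zero hT1a hT1b,
    ftrace_comm_eq_zero hT2.1 hT2.2, add_zero, add_zero]
  rfl

/-- the residue computed with an arbitrary near-projection, in the one-sided form -/
theorem rho_eq_ftrace_nearProj {P : Module.End K V} (hP : IsNearProj A P) (hφ : InE A φ)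
    (hψ : InE A ψ) (hc : Commute φ ψ) :
    rho A φ ψ = ftrace ((P * φ) * ψ - ψ * (P * φ)) := by
  refine (ftrace_comm_eq_rho hφ hψ hc (hP.mul_sub_inE2 hφ) ?_ (Or.inl (hP.mul_inE1 φ))).symm
  rw [sub_self]; exact InE2.zero

/-- the residue computed with an arbitrary near-projection, in the symmetric form -/
theorem rho_eq_ftrace_nearProj' {P : Module.End K V} (hP : IsNearProj A P) (hφ : InE A φ)
    (hψ : InE A ψ) (hc : Commute φ ψ) :
    rho A φ ψ = ftrace ((P * φ) * (P * ψ) - (P * ψ) * (P * φ)) :=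
  (ftrace_comm_eq_rho hφ hψ hc (hP.mul_sub_inE2 hφ) (hP.mul_sub_inE2 hψ)
    (Or.inl (hP.mul_inE1 φ))).symm

/-- (R2) `res_A (φ dψ) = 0` if `φ A ⊆ A` and `ψ A ⊆ A`. -/
theorem rho_eq_zero_of_map_le (hc : Commute φ ψ) (hφA : A.map φ ≤ A) (hψA : A.map ψ ≤ A) :
    rho A φ ψ = 0 := by
  have hφ : InE A φ := NMB.of_le hφA
  have hψ : InE A ψ := NMB.of_le hψA
  rw [rho_eq_ftrace_nearProj (isNearProj_proj A) hφ hψ hc]
  refine ftrace_eq_zero_of_pow_eq_zero 2 ?_
  set π := proj A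
  have hA : ∀ a ∈ A, ((π * φ) * ψ - ψ * (π * φ)) a = 0 := by
    intro a ha
    have h1 : φ (ψ a) ∈ A := hφA (mem_map_of_mem (hψA (mem_map_of_mem ha)))
    have h2 : φ a ∈ A := hφA (mem_map_of_mem ha)
    have h3 : ψ (φ a) = φ (ψ a) := by
      have := LinearMap.congr_fun hc.eq a
      simpa [Module.End.mul_apply] using this.symm
    simp only [LinearMap.sub_apply, Module.End.mul_apply]
    rw [proj_of_mem A h1, proj_of_mem A h2, h3, sub_self]
  have hV : ∀ v, ((π * φ) * ψ - ψ * (π * φ)) v ∈ A := by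
    intro v
    simp only [LinearMap.sub_apply, Module.End.mul_apply]
    exact A.sub_mem (proj_mem A _) (hψA (mem_map_of_mem (proj_mem A _)))
  ext v
  rw [pow_two, Module.End.mul_apply, hA _ (hV v)]
  rfl

/-- (R3) `res_A (φⁿ dφ) = 0` for `n ≥ 0`. -/
theorem rho_pow_self (hφ : InE A φ) (n : ℕ) : rho A (φ ^ n) φ = 0 := by
  have hP := isNearProj_proj A
  set π := proj A
  have hpow : ∀ m : ℕ, InE A (φ ^ m) := by
    intro m
    induction m with
    | zero => rw [pow_zero]; exact InE.one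
    | succ m ih => rw [pow_succ]; exact ih.mul hφ
  have hcong : ∀ m : ℕ, InE2 A ((π * φ) ^ m - φ ^ m) := by
    intro m
    induction m with
    | zero => rw [pow_zero, pow_zero, sub_self]; exact InE2.zero
    | succ m ih =>
      have e : (π * φ) ^ (m + 1) - φ ^ (m + 1) =
          (π * φ) ^ m * (π * φ - φ) + ((π * φ) ^ m - φ ^ m) * φ := by
        rw [pow_succ, pow_succ]; noncomm_ring
      rw [e]
      exact ((hP.mul_sub_inE2 hφ).mul_left _).add (ih.mul_right hφ)
  have h := ftrace_comm_eq_rho (A := A) (φ := φ ^ n) (ψ := φ) (φ₁ := (π * φ) ^ n)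
    (ψ₁ := π * φ) (hpow n) hφ ((Commute.refl φ).pow_left n) (hcong n) (hP.mul_sub_inE2 hφ)
    (Or.inr (hP.mul_inE1 φ))
  rw [← h]
  have e : (π * φ) ^ n * (π * φ) - π * φ * (π * φ) ^ n = 0 := by
    rw [← pow_succ, ← pow_succ', sub_self]
  rw [e, ftrace_zero]

/-- `res_A (1 · dψ) = 0` -/
theorem rho_one_left (hψ : InE A ψ) : rho A 1 ψ = 0 := by
  have hP := isNearProj_proj A
  have h := ftrace_comm_eq_rho (A := A) (φ := 1) (ψ := ψ) (φ₁ := 1)
    (ψ₁ := proj A * ψ) InE.one hψ (Commute.one_left ψ) (by rw [sub_self]; exact InE2.zero)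
    (hP.mul_sub_inE2 hψ) (Or.inr (hP.mul_inE1 ψ))
  rw [← h, one_mul, mul_one, sub_self, ftrace_zero]

/-- `res_A (φ d1) = 0` -/
theorem rho_one_right (hφ : InE A φ) : rho A φ 1 = 0 := by
  have hP := isNearProj_proj A
  have h := ftrace_comm_eq_rho (A := A) (φ := φ) (ψ := 1) (φ₁ := proj A * φ)
    (ψ₁ := 1) hφ InE.one (Commute.one_right φ) (hP.mul_sub_inE2 hφ)
    (by rw [sub_self]; exact InE2.zero) (Or.inl (hP.mul_inE1 φ))
  rw [← h, one_mul, mul_one, sub_self, ftrace_zero]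

end rho

section rho2

variable {A : Submodule K V} {φ φ' ψ ψ' χ : Module.End K V}

theorem rho_add_left (hφ : InE A φ) (hφ' : InE A φ') (hψ : InE A ψ) (hc : Commute φ ψ)
    (hc' : Commute φ' ψ) : rho A (φ + φ') ψ = rho A φ ψ + rho A φ' ψ := by
  have hP := isNearProj_proj A
  unfold rho
  rw [← ftrace_add_of_inE0 (inE0_comm_nearProj hP hφ hψ hc) (inE0_comm_nearProj hP hφ' hψ hc')]
  congr 1
  noncomm_ring

theorem rho_add_right (hφ : InE A φ) (hψ : InE A ψ) (hψ' : InE A ψ') (hc : Commute φ ψ)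
    (hc' : Commute φ ψ') : rho A φ (ψ + ψ') = rho A φ ψ + rho A φ ψ' := by
  have hP := isNearProj_proj A
  unfold rho
  rw [← ftrace_add_of_inE0 (inE0_comm_nearProj hP hφ hψ hc) (inE0_comm_nearProj hP hφ hψ' hc')]
  congr 1
  noncomm_ring

theorem rho_smul_left (c : K) (φ ψ : Module.End K V) : rho A (c • φ) ψ = c * rho A φ ψ := by
  unfold rho
  rw [← ftrace_smul]
  congr 1
  rw [mul_smul_comm, smul_mul_assoc, mul_smul_comm, smul_sub]

theorem rho_smul_right (c : K) (φ ψ : Module.End K V) : rho A φ (c • ψ) = c * rho A φ ψ := by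
  unfold rho
  rw [← ftrace_smul]
  congr 1
  rw [mul_smul_comm, smul_mul_assoc, mul_smul_comm, smul_sub]

theorem mul_sub_mul_inE2 {a b a' b' : Module.End K V} (ha : InE2 A (a' - a))
    (hb : InE2 A (b' - b)) (hEb' : InE A b') : InE2 A (a' * b' - a * b) := by
  have e : a' * b' - a * b = (a' - a) * b' + a * (b' - b) := by noncomm_ring
  rw [e]
  exact (ha.mul_right hEb').add (hb.mul_left a)

/-- **Leibniz rule**: `res (φ d(ψχ)) = res (φψ dχ) + res (φχ dψ)`. -/
theorem rho_mul_right (hφ : InE A φ) (hψ : InE A ψ) (hχ : InE A χ) (h1 : Commute φ ψ)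
    (h2 : Commute φ χ) (h3 : Commute ψ χ) :
    rho A φ (ψ * χ) = rho A (φ * ψ) χ + rho A (φ * χ) ψ := by
  have hP := isNearProj_proj A
  set π := proj A
  set φ₀ := π * φ with hφ₀
  set ψ₀ := π * ψ with hψ₀
  set χ₀ := π * χ with hχ₀
  have hφ₀1 : InE1 A φ₀ := hP.mul_inE1 φ
  have hψ₀1 : InE1 A ψ₀ := hP.mul_inE1 ψ
  have hχ₀1 : InE1 A χ₀ := hP.mul_inE1 χ
  have hφ₀2 : InE2 A (φ₀ - φ) := hP.mul_sub_inE2 hφ
  have hψ₀2 : InE2 A (ψ₀ - ψ) := hP.mul_sub_inE2 hψ
  have hχ₀2 : InE2 A (χ₀ - χ) := hP.mul_sub_inE2 hχ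
  have eL := ftrace_comm_eq_rho (A := A) (φ := φ) (ψ := ψ * χ) (φ₁ := φ₀) (ψ₁ := ψ₀ * χ₀)
    hφ (hψ.mul hχ) (h1.mul_right h2) hφ₀2 (mul_sub_mul_inE2 hψ₀2 hχ₀2 hχ₀1.inE) (Or.inl hφ₀1)
  have eR1 := ftrace_comm_eq_rho (A := A) (φ := φ * ψ) (ψ := χ) (φ₁ := φ₀ * ψ₀) (ψ₁ := χ₀)
    (hφ.mul hψ) hχ (h2.mul_left h3) (mul_sub_mul_inE2 hφ₀2 hψ₀2 hψ₀1.inE) hχ₀2 (Or.inr hχ₀1)
  have hφχ : φ * χ = χ * φ := h2.eq
  have eR2 := ftrace_comm_eq_rho (A := A) (φ := φ * χ) (ψ := ψ) (φ₁ := χ₀ * φ₀) (ψ₁ := ψ₀)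
    (hφ.mul hχ) hψ (h1.mul_left h3.symm)
    (by rw [hφχ]; exact mul_sub_mul_inE2 hχ₀2 hφ₀2 hφ₀1.inE) hψ₀2 (Or.inr hψ₀1)
  rw [← eL, ← eR1, ← eR2]
  have hE1 : InE0 A (φ₀ * ψ₀ * χ₀ - χ₀ * (φ₀ * ψ₀)) := by
    refine ⟨((hφ₀1.mul_right ψ₀).mul_right χ₀).sub (hχ₀1.mul_right _), ?_⟩
    exact comm_inE2_of_commute (h2.mul_left h3) (mul_sub_mul_inE2 hφ₀2 hψ₀2 hψ₀1.inE) hχ₀2
      (hφ₀1.mul_right ψ₀).inE hχ₀1.inE
  have hE2 : InE0 A (χ₀ * φ₀ * ψ₀ - ψ₀ * (χ₀ * φ₀)) := by
    refine ⟨((hχ₀1.mul_right φ₀).mul_right ψ₀).sub (hψ₀1.mul_right _), ?_⟩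
    have hcomm : Commute (χ * φ) ψ := by rw [← hφχ]; exact h1.mul_left h3.symm
    exact comm_inE2_of_commute hcomm (mul_sub_mul_inE2 hχ₀2 hφ₀2 hφ₀1.inE) hψ₀2
      (hχ₀1.mul_right φ₀).inE hψ₀1.inE
  rw [← ftrace_add_of_inE0 hE1 hE2]
  congr 1
  noncomm_ring

theorem InE1.congr {A A' : Submodule K V} {θ : Module.End K V} (h : NMB A A') (hθ : InE1 A θ) :
    InE1 A' θ := NMB.trans hθ h

theorem InE2.congr {A A' : Submodule K V} {θ : Module.End K V} (h : NMB A' A) (hθ : InE2 A θ) :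
    InE2 A' θ := by
  unfold InE2 at *
  exact nmb_bot_iff.1 ((NMB.map θ h).trans (nmb_bot_iff.2 hθ))

theorem InE.congr {A A' : Submodule K V} {θ : Module.End K V} (h : NMB A A') (h' : NMB A' A)
    (hθ : InE A θ) : InE A' θ := by
  unfold InE at *
  exact ((NMB.map θ h').trans hθ).trans h

/-- (R1) the residue only depends on the commensurability class of `A`. -/
theorem rho_congr {A A' : Submodule K V} (h : NMB A A') (h' : NMB A' A) (hφ : InE A φ)
    (hψ : InE A ψ) (hc : Commute φ ψ) : rho A' φ ψ = rho A φ ψ := by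
  have hP' := isNearProj_proj A'
  have hP : IsNearProj A (proj A') := ⟨hP'.1.congr h', hP'.2.congr h⟩
  rw [rho_eq_ftrace_nearProj' hP hφ hψ hc]
  rfl

/-- the residue vanishes for `A = ⊥` -/
theorem rho_bot (hc : Commute φ ψ) : rho (⊥ : Submodule K V) φ ψ = 0 :=
  rho_eq_zero_of_map_le hc (by simp) (by simp)

/-- the residue vanishes for `A = ⊤` -/
theorem rho_top (hc : Commute φ ψ) : rho (⊤ : Submodule K V) φ ψ = 0 :=
  rho_eq_zero_of_map_le hc le_top le_top

/-- the residue vanishes for finite-dimensional `A` -/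
theorem rho_eq_zero_of_finiteDimensional [FiniteDimensional K A] (hc : Commute φ ψ) :
    rho A φ ψ = 0 := by
  have h1 : NMB (⊥ : Submodule K V) A := NMB.of_le bot_le
  have h2 : NMB A (⊥ : Submodule K V) := NMB.of_finiteDimensional A ⊥
  rw [rho_congr h1 h2 (NMB.of_le (by simp)) (NMB.of_le (by simp)) hc, rho_bot hc]

/-- the residue vanishes if `A` has finite codimension -/
theorem rho_eq_zero_of_nmb_top (h : NMB (⊤ : Submodule K V) A) (hc : Commute φ ψ) :
    rho A φ ψ = 0 := by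
  have h2 : NMB A (⊤ : Submodule K V) := NMB.of_le le_top
  rw [rho_congr h h2 (NMB.of_le le_top) (NMB.of_le le_top) hc, rho_top hc]

/-- (R4) `res_A (φ⁻¹ dφ) = dim A / φ A` if `φ A ⊆ A`. -/
theorem rho_inv_self (h1 : φ * φ' = 1) (h2 : φ' * φ = 1) (hφ : InE A φ) (hφ' : InE A φ')
    (L : Submodule K V) [FiniteDimensional K L] (hdisj : Disjoint (A.map φ) L)
    (hsup : A.map φ ⊔ L = A) : rho A φ' φ = (Module.finrank K L : K) := by
  have hA : A.map φ ≤ A := le_sup_left.trans hsup.le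
  have hL : L ≤ A := le_sup_right.trans hsup.le
  have hc : Commute φ' φ := by rw [Commute, SemiconjBy, h1, h2]
  rw [rho_eq_ftrace_nearProj (isNearProj_proj A) hφ' hφ hc]
  set π := proj A with hπ
  set p := φ * π * φ' with hp
  have hθ : π * φ' * φ - φ * (π * φ') = π - p := by
    rw [mul_assoc π, h2, mul_one, hp, mul_assoc]
  rw [hθ]
  set θ := π - p with hθdef
  have hφ'φ : ∀ v, φ' (φ v) = v := fun v => by
    have := LinearMap.congr_fun h2 v
    simpa [Module.End.mul_apply] using this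
  have hp_mem : ∀ v, p v ∈ A.map φ := fun v => by
    rw [hp]
    simp only [Module.End.mul_apply]
    exact mem_map_of_mem (proj_mem A _)
  have hp_fix : ∀ y ∈ A.map φ, p y = y := by
    rintro _ ⟨a, ha, rfl⟩
    rw [hp]
    simp only [Module.End.mul_apply]
    rw [hφ'φ, proj_of_mem A ha]
  have hθA : ∀ a ∈ A, θ a = a - p a := fun a ha => by
    rw [hθdef, LinearMap.sub_apply, proj_of_mem A ha]
  have hθmem : ∀ v, θ v ∈ A := fun v => by
    rw [hθdef, LinearMap.sub_apply]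
    exact A.sub_mem (proj_mem A v) (hA (hp_mem v))
  have hθidem : ∀ a ∈ A, θ (θ a) = θ a := fun a ha => by
    rw [hθA _ (hθmem a), hθA a ha, map_sub, hp_fix _ (hp_mem a)]
    abel
  have hθφA : ∀ y ∈ A.map φ, θ y = 0 := fun y hy => by
    rw [hθA y (hA hy), hp_fix y hy, sub_self]
  set C := L.map θ with hC
  have hAC : A.map θ ≤ C := by
    rintro _ ⟨a, ha, rfl⟩
    obtain ⟨y, hy, l, hl, rfl⟩ := Submodule.mem_sup.1 (hsup.ge ha)
    rw [map_add, hθφA y hy, zero_add]
    exact mem_map_of_mem hl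
  have hCinv : ∀ x ∈ C, θ x ∈ C := by
    rintro _ ⟨l, hl, rfl⟩
    rw [hθidem l (hL hl)]
    exact mem_map_of_mem hl
  have hr : LinearMap.range (θ ^ 2) ≤ C := by
    rintro _ ⟨v, rfl⟩
    rw [pow_two, Module.End.mul_apply]
    exact hAC (mem_map_of_mem (hθmem v))
  rw [ftrace_eq_trOn C hCinv 2 hr, trOn_eq hCinv]
  have hid : θ.restrict hCinv = LinearMap.id := by
    ext ⟨x, hx⟩
    obtain ⟨l, hl, rfl⟩ := hx
    simp only [LinearMap.coe_restrict_apply, LinearMap.id_coe, id_eq]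
    exact hθidem l (hL hl)
  rw [hid, LinearMap.trace_id]
  congr 1
  -- `θ : L → C` is an isomorphism
  have hinj : Function.Injective (θ ∘ₗ L.subtype) := by
    rw [← LinearMap.ker_eq_bot, LinearMap.ker_eq_bot']
    intro l hl0
    have hl0' : θ (l : V) = 0 := hl0
    rw [hθA _ (hL l.2), sub_eq_zero] at hl0'
    have hmem : (l : V) ∈ A.map φ := by rw [hl0']; exact hp_mem _
    have : (l : V) ∈ A.map φ ⊓ L := ⟨hmem, l.2⟩
    rw [hdisj.eq_bot, Submodule.mem_bot] at this
    exact Subtype.ext this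
  have hrange : LinearMap.range (θ ∘ₗ L.subtype) = C := by
    rw [LinearMap.range_comp, Submodule.range_subtype]
  rw [← hrange, LinearMap.finrank_range_of_inj hinj]

end rho2

/-! ## (R5): `res_A + res_B = res_{A+B} + res_{A∩B}` -/

/-- the chain `⊤, S, I, ⊥` -/
def chain3 (S I : Submodule K V) : ℕ → Submodule K V :=
  fun j => if j = 0 then ⊤ else if j = 1 then S else if j = 2 then I else ⊥

theorem chain3_zero (S I : Submodule K V) : chain3 S I 0 = ⊤ := by simp [chain3]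
theorem chain3_three (S I : Submodule K V) : chain3 S I 3 = ⊥ := by simp [chain3]

theorem inChain3_of {S I X Y : Submodule K V} {θ : Module.End K V} (hIX : I ≤ X) (hXS : X ≤ S)
    (hS : S ≤ X ⊔ Y) (h1 : InE1 X θ) (h2 : InE2 X θ) (h3 : NMB (Y.map θ) I) :
    InChain (chain3 S I) 3 θ := by
  intro j hj
  interval_cases j
  · have e0 : chain3 S I 0 = ⊤ := by simp [chain3]
    have e1 : chain3 S I (0 + 1) = S := by simp [chain3]
    rw [e0, e1, Submodule.map_top]
    exact h1.mono_right hXS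
  · have e1 : chain3 S I 1 = S := by simp [chain3]
    have e2 : chain3 S I (1 + 1) = I := by simp [chain3]
    rw [e1, e2]
    refine NMB.mono_left (Submodule.map_mono hS) ?_
    rw [Submodule.map_sup]
    haveI : FiniteDimensional K (X.map θ) := h2
    exact (NMB.of_finiteDimensional _ _).sup_left h3
  · have e2 : chain3 S I 2 = I := by simp [chain3]
    have e3 : chain3 S I (2 + 1) = ⊥ := by simp [chain3]
    rw [e2, e3]
    haveI : FiniteDimensional K (X.map θ) := h2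
    haveI : FiniteDimensional K (I.map θ) :=
      Submodule.finiteDimensional_of_le (Submodule.map_mono hIX)
    exact NMB.of_finiteDimensional _ _

/-- the one-sided commutator attached to a near-projection lies in the class of `chain3` -/
theorem inChain3_comm {S I X Y : Submodule K V} {P φ ψ : Module.End K V} (hIX : I ≤ X)
    (hXS : X ≤ S) (hS : S ≤ X ⊔ Y) (hP : IsNearProj X P) (hPY : Y.map P ≤ I)
    (hφX : InE X φ) (hψX : InE X ψ) (hφY : InE Y φ) (hψY : InE Y ψ) (hψI : InE I ψ)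
    (hc : Commute φ ψ) : InChain (chain3 S I) 3 ((P * φ) * ψ - ψ * (P * φ)) := by
  refine inChain3_of hIX hXS hS ?_ ?_ ?_
  · exact ((hP.mul_inE1 φ).mul_right ψ).sub ((hP.mul_inE1 φ).mul_left hψX)
  · exact comm_inE2_of_commute hc (hP.mul_sub_inE2 hφX) (by rw [sub_self]; exact InE2.zero)
      (hP.mul_inE1 φ).inE hψX
  · have e : P * φ * ψ - ψ * (P * φ) = P * (φ * ψ) + -(ψ * (P * φ)) := by noncomm_ring
    rw [e]
    refine NMB.mono_left (map_add_le Y _ _) (NMB.sup_left ?_ ?_)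
    · -- `P φ ψ Y ≺ I`
      have h1 : NMB (Y.map (φ * ψ)) Y := hφY.mul hψY
      have h2 := NMB.map P h1
      have e1 : Y.map (P * (φ * ψ)) = (Y.map (φ * ψ)).map P := map_mul_eq Y P (φ * ψ)
      rw [e1]
      exact h2.mono_right hPY
    · -- `ψ P φ Y ≺ I`
      refine NMB.mono_left (map_neg_le Y _) ?_
      have h1 : NMB (Y.map φ) Y := hφY
      have h2 := (NMB.map P h1).mono_right hPY
      have h3 := (NMB.map ψ h2).trans hψI
      have e1 : Y.map (ψ * (P * φ)) = ((Y.map φ).map P).map ψ := by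
        rw [map_mul_eq, map_mul_eq]
      rw [e1]
      exact h3

theorem InE.sup {A B : Submodule K V} {θ : Module.End K V} (hA : InE A θ) (hB : InE B θ) :
    InE (A ⊔ B) θ := by
  unfold InE at *
  rw [Submodule.map_sup]
  exact hA.sup hB

theorem InE.inf {A B : Submodule K V} {θ : Module.End K V} (hA : InE A θ) (hB : InE B θ) :
    InE (A ⊓ B) θ := by
  unfold InE at *
  exact NMB.inf (NMB.mono_left (Submodule.map_mono inf_le_left) hA)
    (NMB.mono_left (Submodule.map_mono inf_le_right) hB)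

/-- existence of a projection onto `A` mapping `B` into `A ⊓ B` -/
theorem exists_proj_compat (A B : Submodule K V) :
    ∃ p : Module.End K V, (∀ v, p v ∈ A) ∧ (∀ a ∈ A, p a = a) ∧ ∀ b ∈ B, p b ∈ A ⊓ B := by
  obtain ⟨B', hdisj, hsup⟩ := IsModularLattice.exists_disjoint_and_sup_eq
    (inf_le_right : A ⊓ B ≤ B)
  have hB'B : B' ≤ B := le_sup_right.trans hsup.le
  have hdisj' : Disjoint B' A := by
    rw [disjoint_iff]
    have h1 : B' ⊓ A ≤ (A ⊓ B) ⊓ B' := le_inf (le_inf inf_le_right (inf_le_left.trans hB'B))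
      inf_le_left
    rw [hdisj.eq_bot] at h1
    exact le_bot_iff.1 h1
  obtain ⟨C, hB'C, hCA⟩ := hdisj'.exists_isCompl
  let q := Submodule.projectionOnto A C hCA.symm
  refine ⟨A.subtype ∘ₗ q, fun v => (q v).2, fun a ha => ?_, fun b hb => ?_⟩
  · have h1 : q a = ⟨a, ha⟩ := Submodule.projectionOnto_apply_of_mem_left hCA.symm ha
    show ((q a : A) : V) = a
    rw [h1]
  · obtain ⟨i, hi, b', hb', rfl⟩ := Submodule.mem_sup.1 (hsup.ge hb)
    have h1 : q i = ⟨i, hi.1⟩ := Submodule.projectionOnto_apply_of_mem_left hCA.symm hi.1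
    have h2 : q b' = 0 :=
      (Submodule.projectionOnto_apply_eq_zero_iff hCA.symm).2 (hB'C hb')
    show ((q (i + b') : A) : V) ∈ A ⊓ B
    rw [map_add, h1, h2, add_zero]
    exact hi

/-- **(R5)** `res_A + res_B = res_{A+B} + res_{A∩B}`. -/
theorem rho_add_rho {A B : Submodule K V} {φ ψ : Module.End K V} (hφA : InE A φ)
    (hψA : InE A ψ) (hφB : InE B φ) (hψB : InE B ψ) (hc : Commute φ ψ) :
    rho A φ ψ + rho B φ ψ = rho (A ⊔ B) φ ψ + rho (A ⊓ B) φ ψ := by
  set S := A ⊔ B with hS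
  set I := A ⊓ B with hI
  have hφS : InE S φ := hφA.sup hφB
  have hψS : InE S ψ := hψA.sup hψB
  have hφI : InE I φ := hφA.inf hφB
  have hψI : InE I ψ := hψA.inf hψB
  obtain ⟨pA, hpA1, hpA2, hpA3⟩ := exists_proj_compat A B
  set πS := proj S with hπS
  set πI := proj I with hπI
  have hAS : A ≤ S := le_sup_left
  have hBS : B ≤ S := le_sup_right
  have hIA : I ≤ A := inf_le_left
  have hIB : I ≤ B := inf_le_right
  -- the four projections
  set PA := pA * πS with hPA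
  set PI := πI * pA * πS with hPI
  set PB := πS + PI - PA with hPB
  have hPA_mem : ∀ v, PA v ∈ A := fun v => hpA1 _
  have hPA_fix : ∀ a ∈ A, PA a = a := fun a ha => by
    rw [hPA, Module.End.mul_apply, proj_of_mem S (hAS ha), hpA2 a ha]
  have hPI_mem : ∀ v, PI v ∈ I := fun v => by
    rw [hPI, Module.End.mul_apply, Module.End.mul_apply]; exact proj_mem I _
  have hPI_fix : ∀ i ∈ I, PI i = i := fun i hi => by
    rw [hPI, Module.End.mul_apply, Module.End.mul_apply, proj_of_mem S (hAS (hIA hi)),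
      hpA2 i (hIA hi), proj_of_mem I hi]
  have hPB_apply : ∀ v, PB v = πS v + πI (pA (πS v)) - pA (πS v) := fun v => by
    rw [hPB, hPI, hPA]
    simp only [LinearMap.sub_apply, LinearMap.add_apply, Module.End.mul_apply]
  have hPB_mem : ∀ v, PB v ∈ B := fun v => by
    rw [hPB_apply]
    obtain ⟨a, ha, b, hb, hab⟩ := Submodule.mem_sup.1 (proj_mem S v)
    rw [← hab, map_add, hpA2 a ha]
    have h1 : pA b ∈ B := hIB (hpA3 b hb)
    have h2 : πI (a + pA b) ∈ B := hIB (proj_mem I _)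
    have e : a + b + πI (a + pA b) - (a + pA b) = b + πI (a + pA b) - pA b := by abel
    rw [e]
    exact B.sub_mem (B.add_mem hb h2) h1
  have hPB_fix : ∀ b ∈ B, PB b = b := fun b hb => by
    rw [hPB_apply, proj_of_mem S (hBS hb), proj_of_mem I (hpA3 b hb)]
    abel
  have hPA_B : B.map PA ≤ I := by
    rintro _ ⟨b, hb, rfl⟩
    rw [hPA, Module.End.mul_apply, proj_of_mem S (hBS hb)]
    exact hpA3 b hb
  have hPB_A : A.map PB ≤ I := by
    rintro _ ⟨a, ha, rfl⟩
    rw [hPB_apply, proj_of_mem S (hAS ha), hpA2 a ha]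
    have e : a + πI a - a = πI a := by abel
    rw [e]
    exact proj_mem I _
  have nA : IsNearProj A PA := isNearProj_of A PA hPA_mem hPA_fix
  have nB : IsNearProj B PB := isNearProj_of B PB hPB_mem hPB_fix
  have nS : IsNearProj S πS := isNearProj_proj S
  have nI : IsNearProj I PI := isNearProj_of I PI hPI_mem hPI_fix
  rw [rho_eq_ftrace_nearProj nA hφA hψA hc, rho_eq_ftrace_nearProj nB hφB hψB hc,
    rho_eq_ftrace_nearProj nS hφS hψS hc, rho_eq_ftrace_nearProj nI hφI hψI hc]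
  have cA : InChain (chain3 S I) 3 ((PA * φ) * ψ - ψ * (PA * φ)) :=
    inChain3_comm hIA hAS le_rfl nA hPA_B hφA hψA hφB hψB hψI hc
  have cB : InChain (chain3 S I) 3 ((PB * φ) * ψ - ψ * (PB * φ)) :=
    inChain3_comm hIB hBS (by rw [hS, sup_comm]) nB hPB_A hφB hψB hφA hψA hψI hc
  have cS : InChain (chain3 S I) 3 ((πS * φ) * ψ - ψ * (πS * φ)) :=
    inChain3_comm (Y := ⊥) (hIA.trans hAS) le_rfl (by simp) nS (by simp) hφS hψS
      (NMB.of_le (by simp)) (NMB.of_le (by simp)) hψI hc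
  have cI : InChain (chain3 S I) 3 ((PI * φ) * ψ - ψ * (PI * φ)) :=
    inChain3_comm (Y := S) le_rfl (hIA.trans hAS) le_sup_right nI
      (by rintro _ ⟨s, -, rfl⟩; exact hPI_mem s) hφI hψI hφS hψS hψI hc
  rw [← ftrace_add_of_inChain (chain3_zero S I) (chain3_three S I) cA cB,
    ← ftrace_add_of_inChain (chain3_zero S I) (chain3_three S I) cS cI]
  congr 1
  rw [hPB]
  noncomm_ring

end Fermat.Agent.Lib.FF.Res
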