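import Mathlib

/-!
# Traces of finite-potent endomorphisms (Tate, *Residues of differentials on curves*, §1)

`θ : Module.End K V` is *finite-potent* if `θ ^ n` has finite-dimensional range for some `n`.
For such `θ` the trace `ftrace θ` is the ordinary trace of `θ` on any finite-dimensional invariant
subspace containing the range of some power of `θ`.
-/

set_option autoImplicit false
set_option linter.style.haveILetI false

namespace Fermat.Agent.Lib.FF.Res

open Module LinearMap Submodule

variable {K V : Type*} [Field K] [AddCommGroup V] [Module K V]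

/-- Trace of `θ` on an invariant subspace `W` (junk value `0` if `W` is not invariant). -/
noncomputable def trOn (θ : Module.End K V) (W : Submodule K V) : K :=
  open Classical in
  if h : ∀ x ∈ W, θ x ∈ W then LinearMap.trace K W (θ.restrict h) else 0

theorem trOn_eq {θ : Module.End K V} {W : Submodule K V} (h : ∀ x ∈ W, θ x ∈ W) :
    trOn θ W = LinearMap.trace K W (θ.restrict h) := by
  classical
  rw [trOn, dif_pos h]

/-- If `θ` maps `W₂` into the smaller subspace `W₁`, the traces on `W₁` and `W₂` agree. -/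
theorem trOn_eq_of_map_le {θ : Module.End K V} {W₁ W₂ : Submodule K V} [FiniteDimensional K W₂]
    (h12 : W₁ ≤ W₂) (hθ : W₂.map θ ≤ W₁) : trOn θ W₂ = trOn θ W₁ := by
  haveI : FiniteDimensional K W₁ := Submodule.finiteDimensional_of_le h12
  have h2 : ∀ x ∈ W₂, θ x ∈ W₂ := fun x hx => h12 (hθ (mem_map_of_mem hx))
  have h1 : ∀ x ∈ W₁, θ x ∈ W₁ := fun x hx => hθ (mem_map_of_mem (h12 hx))
  have h21 : ∀ x ∈ W₂, θ x ∈ W₁ := fun x hx => hθ (mem_map_of_mem hx)
  rw [trOn_eq h2, trOn_eq h1]
  have e2 : θ.restrict h2 = (Submodule.inclusion h12) ∘ₗ (θ.restrict h21) := by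
    ext x; rfl
  have e1 : θ.restrict h1 = (θ.restrict h21) ∘ₗ (Submodule.inclusion h12) := by
    ext x; rfl
  rw [e2, e1, LinearMap.trace_comp_comm']

/-- Key invariance: if `W ≤ W'` are finite-dimensional invariant subspaces and some power of `θ`
maps `W'` into `W`, the traces agree. -/
theorem trOn_eq_of_pow_map_le {θ : Module.End K V} (n : ℕ) :
    ∀ {W W' : Submodule K V} [FiniteDimensional K W'], W ≤ W' → (∀ x ∈ W, θ x ∈ W) →
      (∀ x ∈ W', θ x ∈ W') → W'.map (θ ^ n) ≤ W → trOn θ W' = trOn θ W := by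
  induction n with
  | zero =>
    intro W W' _ h12 _ _ hn
    have : W' ≤ W := by
      intro x hx
      exact hn (mem_map_of_mem (f := θ ^ 0) hx)
    rw [le_antisymm h12 this]
  | succ n ih =>
    intro W W' _ h12 hW hW' hn
    set W'' : Submodule K V := W ⊔ W'.map θ with hW''
    have h1 : W ≤ W'' := le_sup_left
    have h2 : W'' ≤ W' := by
      refine sup_le h12 ?_
      rintro _ ⟨x, hx, rfl⟩
      exact hW' x hx
    haveI : FiniteDimensional K W'' := Submodule.finiteDimensional_of_le h2
    have h3 : W'.map θ ≤ W'' := le_sup_right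
    have hW''inv : ∀ x ∈ W'', θ x ∈ W'' := fun x hx => h3 (mem_map_of_mem (h2 hx))
    have h4 : W''.map (θ ^ n) ≤ W := by
      rw [hW'', Submodule.map_sup]
      refine sup_le ?_ ?_
      · rintro _ ⟨x, hx, rfl⟩
        have : ∀ k : ℕ, (θ ^ k) x ∈ W := by
          intro k
          induction k with
          | zero => simpa using hx
          | succ k ihk =>
            rw [pow_succ', Module.End.mul_apply]
            exact hW _ ihk
        exact this n
      · rintro _ ⟨_, ⟨x, hx, rfl⟩, rfl⟩
        have : (θ ^ n) (θ x) = (θ ^ (n + 1)) x := by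
          rw [pow_succ, Module.End.mul_apply]
        rw [this]
        exact hn (mem_map_of_mem hx)
    rw [trOn_eq_of_map_le h2 h3]
    exact ih h1 hW hW''inv h4

/-- `θ` is finite-potent: some power has finite-dimensional range. -/
def IsFinitePotent (θ : Module.End K V) : Prop :=
  ∃ n : ℕ, FiniteDimensional K (LinearMap.range (θ ^ n))

theorem range_pow_invariant (θ : Module.End K V) (n : ℕ) :
    ∀ x ∈ LinearMap.range (θ ^ n), θ x ∈ LinearMap.range (θ ^ n) := by
  rintro _ ⟨y, rfl⟩
  refine ⟨θ y, ?_⟩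
  rw [← Module.End.mul_apply, ← Module.End.mul_apply, ← pow_succ, ← pow_succ']

/-- The trace of a finite-potent endomorphism (`0` if `θ` is not finite-potent). -/
noncomputable def ftrace (θ : Module.End K V) : K :=
  open Classical in
  if h : IsFinitePotent θ then trOn θ (LinearMap.range (θ ^ Nat.find h)) else 0

/-- Characterisation: the trace can be computed on any finite-dimensional invariant subspace
containing the range of a power of `θ`. -/
theorem ftrace_eq_trOn {θ : Module.End K V} (W : Submodule K V) [FiniteDimensional K W]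
    (hW : ∀ x ∈ W, θ x ∈ W) (n : ℕ) (hn : LinearMap.range (θ ^ n) ≤ W) :
    ftrace θ = trOn θ W := by
  classical
  have hfp : IsFinitePotent θ := ⟨n, Submodule.finiteDimensional_of_le hn⟩
  rw [ftrace, dif_pos hfp]
  set m := Nat.find hfp with hm
  haveI hfin : FiniteDimensional K (LinearMap.range (θ ^ m)) := Nat.find_spec hfp
  set R := LinearMap.range (θ ^ m) with hR
  have hRinv := range_pow_invariant θ m
  set W' : Submodule K V := W ⊔ R with hW'
  haveI : FiniteDimensional K W' := by rw [hW']; infer_instance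
  have hW'inv : ∀ x ∈ W', θ x ∈ W' := by
    intro x hx
    obtain ⟨y, hy, z, hz, rfl⟩ := Submodule.mem_sup.1 hx
    rw [map_add]
    exact Submodule.add_mem _ (le_sup_left (a := W) (b := R) (hW y hy))
      (le_sup_right (a := W) (b := R) (hRinv z hz))
  have e1 : trOn θ W' = trOn θ W := by
    refine trOn_eq_of_pow_map_le n le_sup_left hW hW'inv ?_
    rintro _ ⟨x, -, rfl⟩
    exact hn ⟨x, rfl⟩
  have e2 : trOn θ W' = trOn θ R := by
    refine trOn_eq_of_pow_map_le m le_sup_right hRinv hW'inv ?_
    rintro _ ⟨x, -, rfl⟩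
    exact ⟨x, rfl⟩
  rw [← e2, e1]

theorem trOn_bot (θ : Module.End K V) : trOn θ (⊥ : Submodule K V) = 0 := by
  classical
  rw [trOn]
  split_ifs with h
  · have : θ.restrict h = 0 := Subsingleton.elim _ _
    rw [this, map_zero]
  · rfl

theorem ftrace_zero : ftrace (0 : Module.End K V) = 0 := by
  have h := ftrace_eq_trOn (θ := (0 : Module.End K V)) (⊥ : Submodule K V)
    (by intro x hx; simp) 1 (by simp)
  rw [h, trOn_bot]

/-- (T3) A nilpotent endomorphism has trace `0`. -/
theorem ftrace_eq_zero_of_pow_eq_zero {θ : Module.End K V} (n : ℕ) (h : θ ^ n = 0) :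
    ftrace θ = 0 := by
  have h1 := ftrace_eq_trOn (θ := θ) (⊥ : Submodule K V)
    (by intro x hx; rw [Submodule.mem_bot] at hx; simp [hx]) n (by rw [h]; simp)
  rw [h1, trOn_bot]

/-- (T4), basic form: additivity on a common finite-dimensional invariant subspace. -/
theorem ftrace_add_of_common {θ θ' : Module.End K V} (W : Submodule K V) [FiniteDimensional K W]
    (hθ : ∀ x ∈ W, θ x ∈ W) (hθ' : ∀ x ∈ W, θ' x ∈ W) (n : ℕ)
    (h1 : LinearMap.range (θ ^ n) ≤ W) (h2 : LinearMap.range (θ' ^ n) ≤ W)
    (h3 : LinearMap.range ((θ + θ') ^ n) ≤ W) :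
    ftrace (θ + θ') = ftrace θ + ftrace θ' := by
  have hs : ∀ x ∈ W, (θ + θ') x ∈ W := fun x hx => by
    rw [LinearMap.add_apply]; exact W.add_mem (hθ x hx) (hθ' x hx)
  rw [ftrace_eq_trOn W hs n h3, ftrace_eq_trOn W hθ n h1, ftrace_eq_trOn W hθ' n h2,
    trOn_eq hs, trOn_eq hθ, trOn_eq hθ', ← map_add]
  congr 1

theorem ftrace_smul (c : K) (θ : Module.End K V) : ftrace (c • θ) = c * ftrace θ := by
  classical
  by_cases hfp : IsFinitePotent θ
  · obtain ⟨n, hn⟩ := hfp
    set W := LinearMap.range (θ ^ n) with hWdef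
    have hW := range_pow_invariant θ n
    have hcW : ∀ x ∈ W, (c • θ) x ∈ W := fun x hx => by
      rw [LinearMap.smul_apply]; exact W.smul_mem c (hW x hx)
    have hr : LinearMap.range ((c • θ) ^ n) ≤ W := by
      rintro _ ⟨x, rfl⟩
      rw [smul_pow, LinearMap.smul_apply]
      exact W.smul_mem _ ⟨x, rfl⟩
    rw [ftrace_eq_trOn W hcW n hr, ftrace_eq_trOn W hW n le_rfl, trOn_eq hcW, trOn_eq hW,
      ← smul_eq_mul, ← map_smul]
    congr 1
  · by_cases hc : c = 0
    · subst hc; simp [ftrace_zero]
    · have hfp' : ¬ IsFinitePotent (c • θ) := by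
        rintro ⟨n, hn⟩
        apply hfp
        refine ⟨n, ?_⟩
        have : LinearMap.range (θ ^ n) ≤ LinearMap.range ((c • θ) ^ n) := by
          rintro _ ⟨x, rfl⟩
          refine ⟨(c ^ n)⁻¹ • x, ?_⟩
          rw [smul_pow, LinearMap.smul_apply, map_smul, smul_smul, mul_inv_cancel₀ (pow_ne_zero n hc),
            one_smul]
        exact Submodule.finiteDimensional_of_le this
      rw [ftrace, dif_neg hfp', ftrace, dif_neg hfp, mul_zero]

theorem ftrace_neg (θ : Module.End K V) : ftrace (-θ) = -ftrace θ := by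
  have := ftrace_smul (-1 : K) θ
  simpa using this

/-- (T5) `Tr(f g) = Tr(g f)` whenever `f g` is finite-potent. -/
theorem ftrace_mul_comm {f g : Module.End K V} (h : IsFinitePotent (f * g)) :
    ftrace (f * g) = ftrace (g * f) := by
  obtain ⟨n, hn⟩ := h
  set W := LinearMap.range ((f * g) ^ n) with hWdef
  have hW := range_pow_invariant (f * g) n
  set W' := W.map g with hW'def
  haveI : FiniteDimensional K W' := by rw [hW'def]; infer_instance
  have hgW : ∀ x ∈ W, g x ∈ W' := fun x hx => mem_map_of_mem hx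
  have hfW' : ∀ y ∈ W', f y ∈ W := by
    rintro _ ⟨x, hx, rfl⟩
    exact hW x hx
  have hW' : ∀ y ∈ W', (g * f) y ∈ W' := fun y hy => hgW _ (hfW' y hy)
  have hr : LinearMap.range ((g * f) ^ (n + 1)) ≤ W' := by
    rintro _ ⟨x, rfl⟩
    have key : ∀ k : ℕ, (g * f) ^ (k + 1) = g * (f * g) ^ k * f := by
      intro k
      induction k with
      | zero => simp
      | succ k ih =>
        rw [pow_succ, ih, pow_succ]
        simp only [mul_assoc]
    rw [key, Module.End.mul_apply, Module.End.mul_apply]
    exact mem_map_of_mem ⟨f x, rfl⟩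
  rw [ftrace_eq_trOn W hW n le_rfl, ftrace_eq_trOn W' hW' (n + 1) hr, trOn_eq hW, trOn_eq hW']
  have e1 : (f * g).restrict hW = (f.restrict hfW') ∘ₗ (g.restrict hgW) := by
    ext x; rfl
  have e2 : (g * f).restrict hW' = (g.restrict hgW) ∘ₗ (f.restrict hfW') := by
    ext x; rfl
  rw [e1, e2, LinearMap.trace_comp_comm']

theorem isFinitePotent_mul_comm {f g : Module.End K V} (h : IsFinitePotent (f * g)) :
    IsFinitePotent (g * f) := by
  obtain ⟨n, hn⟩ := h
  refine ⟨n + 1, ?_⟩
  have key : ∀ k : ℕ, (g * f) ^ (k + 1) = g * (f * g) ^ k * f := by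
    intro k
    induction k with
    | zero => simp
    | succ k ih =>
      rw [pow_succ, ih, pow_succ]
      simp only [mul_assoc]
  have : LinearMap.range ((g * f) ^ (n + 1)) ≤ (LinearMap.range ((f * g) ^ n)).map g := by
    rintro _ ⟨x, rfl⟩
    rw [key, Module.End.mul_apply, Module.End.mul_apply]
    exact mem_map_of_mem ⟨f x, rfl⟩
  exact Submodule.finiteDimensional_of_le this

end Fermat.Agent.Lib.FF.Res
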