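import Mathlib
import Fermat.Agent.Lib.FF.Canonical
import Fermat.Agent.Lib.FF.RRFF1
import Fermat.Agent.Lib.FF.BasePoint
import Fermat.Agent.Lib.FF.MultMap

/-!
# The canonical divisor from Weil differentials, in any characteristic (`IsFF1` form)

No Kähler differentials and no separability hypothesis are used: a canonical divisor is produced
as the divisor of a nonzero Weil differential (a functional on the repartitions vanishing on
`Λ(D) + F`), whose existence only needs Riemann–Roch in `H¹`-form.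

* `exists_max` : a nonzero Weil differential has a divisor (a largest `W` with `λ ∈ Ω(W)`).
* `exists_canonical` : `∃ W, deg W = 2g - 2 ∧ ∀ D, dim H¹(D) = dim L(W - D)`.
* `ns_sharp` : `NS K F (2g - 1)`, i.e. `H¹(D) = 0` as soon as `deg D ≥ 2g - 1`.
* `finrank_L_of_degree`, `bpf_of_two_genus`, `mul_eq_sharp` : the sharp forms of the
  consequences in `Lib/FF/BasePoint.lean`, `Lib/FF/MultMap.lean`.
-/

set_option autoImplicit false

noncomputable section

namespace Fermat.Agent.Lib.FF.WeilCanonical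

open AlgebraicCurve WithZero Module
open Fermat.Agent.Lib.FF Fermat.Agent.Lib.FF.Res Fermat.Agent.Lib.FF.BasePoint

variable {K F : Type*} [Field K] [Field F] [Algebra K F] {x : F}

/-! ### `Λ(D₁ ⊔ D₂) = Λ(D₁) + Λ(D₂)` -/

theorem exists_add_of_mem_sup {D₁ D₂ : Divisor K F} {α : ↥(repartitions K F)}
    (hα : α ∈ repartitionsOf (D₁ ⊔ D₂)) :
    ∃ α₁ ∈ repartitionsOf D₁, ∃ α₂ ∈ repartitionsOf D₂, α = α₁ + α₂ := by
  classical
  set a₁ : Place K F → F := fun v => if D₂ v ≤ D₁ v then (α : Place K F → F) v else 0 with ha₁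
  set a₂ : Place K F → F := fun v => if D₂ v ≤ D₁ v then 0 else (α : Place K F → F) v with ha₂
  have h1 : ∀ v : Place K F, v.adicValuation (a₁ v) ≤ exp (D₁ v) := by
    intro v
    by_cases hv : D₂ v ≤ D₁ v
    · have := hα v
      rw [Finsupp.sup_apply, sup_eq_left.2 hv] at this
      simpa [ha₁, hv] using this
    · simp [ha₁, hv]
  have h2 : ∀ v : Place K F, v.adicValuation (a₂ v) ≤ exp (D₂ v) := by
    intro v
    by_cases hv : D₂ v ≤ D₁ v
    · simp [ha₂, hv]
    · have := hα v
      rw [Finsupp.sup_apply, sup_eq_right.2 (not_le.1 hv).le] at this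
      simpa [ha₂, hv] using this
  refine ⟨⟨a₁, mem_repartitions_of_forall_le_exp D₁ a₁ h1⟩, h1,
    ⟨a₂, mem_repartitions_of_forall_le_exp D₂ a₂ h2⟩, h2, ?_⟩
  apply Subtype.ext
  funext v
  show (α : Place K F → F) v = a₁ v + a₂ v
  by_cases hv : D₂ v ≤ D₁ v <;> simp [ha₁, ha₂, hv]

/-- The divisors on whose repartitions a functional vanishes are closed under `⊔`. -/
theorem vanish_sup {lam : Module.Dual K ↥(repartitions K F)} {D₁ D₂ : Divisor K F}
    (h1 : ∀ α ∈ repartitionsOf D₁, lam α = 0) (h2 : ∀ α ∈ repartitionsOf D₂, lam α = 0) :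
    ∀ α ∈ repartitionsOf (D₁ ⊔ D₂), lam α = 0 := by
  intro α hα
  obtain ⟨α₁, hα₁, α₂, hα₂, rfl⟩ := exists_add_of_mem_sup hα
  rw [map_add, h1 α₁ hα₁, h2 α₂ hα₂, add_zero]

/-- A nonzero functional does not vanish on `Λ(D) + F` when `H¹(D) = 0`. -/
theorem MD_ne_top_of_mem_Om {lam : Module.Dual K ↥(repartitions K F)} {D : Divisor K F}
    (hlam : lam ∈ Weil.Om D) (hne : lam ≠ 0) : RR.MD D ≠ ⊤ := by
  intro htop
  apply hne
  ext α
  have : α ∈ RR.MD D := by rw [htop]; exact Submodule.mem_top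
  exact (Submodule.mem_dualAnnihilator lam).1 hlam α this

/-- an effective divisor of degree `≤ 0` is zero -/
theorem eq_zero_of_nonneg_of_degree_le (h : IsFF1 K F x) {E : Divisor K F} (h0 : 0 ≤ E)
    (hd : Divisor.degree E ≤ 0) : E = 0 := by
  have h0' : ∀ v, 0 ≤ E v := fun v => by simpa using Finsupp.le_def.1 h0 v
  rw [h.degree_eq_sum] at hd
  have hsum : ∑ v ∈ E.support, E v = 0 :=
    le_antisymm hd (Finset.sum_nonneg fun v _ => h0' v)
  have hz := (Finset.sum_eq_zero_iff_of_nonneg (fun v _ => h0' v)).1 hsum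
  ext v
  by_cases hv : v ∈ E.support
  · exact hz v hv
  · simpa using hv

/-- **The divisor of a nonzero Weil differential**: the largest `W` with `λ ∈ Ω(W)`. -/
theorem exists_max (h : IsFF1 K F x) {lam : Module.Dual K ↥(repartitions K F)}
    {D₀ : Divisor K F} (hlam : lam ∈ Weil.Om D₀) (hne : lam ≠ 0) :
    ∃ W : Divisor K F, lam ∈ Weil.Om W ∧
      ∀ D : Divisor K F, (∀ α ∈ repartitionsOf D, lam α = 0) → D ≤ W := by
  obtain ⟨c, hc⟩ := exists_NS h
  have hprin := (Weil.mem_Om.1 hlam).2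
  have hbound : ∀ D : Divisor K F, (∀ α ∈ repartitionsOf D, lam α = 0) →
      Divisor.degree D ≤ c := by
    intro D hD
    by_contra hlt
    exact MD_ne_top_of_mem_Om (Weil.mem_Om.2 ⟨hD, hprin⟩) hne (hc D (not_le.1 hlt).le)
  -- a divisor of maximal degree
  obtain ⟨d, ⟨W, hW, hWd⟩, hdmax⟩ :=
    Int.exists_greatest_of_bdd
      (P := fun d => ∃ D : Divisor K F, (∀ α ∈ repartitionsOf D, lam α = 0) ∧
        Divisor.degree D = d)
      ⟨c, fun d ⟨D, hD, hDd⟩ => hDd ▸ hbound D hD⟩
      ⟨_, D₀, (Weil.mem_Om.1 hlam).1, rfl⟩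
  refine ⟨W, Weil.mem_Om.2 ⟨hW, hprin⟩, fun D hD => ?_⟩
  have hsup := vanish_sup hW hD
  have hle : Divisor.degree (W ⊔ D) ≤ d := hdmax _ ⟨W ⊔ D, hsup, rfl⟩
  have hE : (W ⊔ D) - W = 0 := by
    refine eq_zero_of_nonneg_of_degree_le h (sub_nonneg.2 le_sup_left) ?_
    rw [map_sub, hWd]
    linarith
  have : W ⊔ D = W := sub_eq_zero.1 hE
  exact this ▸ le_sup_right

/-- A nonzero Weil differential with its divisor exists when `g > 0`. -/
theorem exists_weil (h : IsFF1 K F x) (hg : 0 < genusFF K F) :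
    ∃ (lam : Module.Dual K ↥(repartitions K F)) (W : Divisor K F), lam ∈ Weil.Om W ∧ lam ≠ 0 ∧
      ∀ D : Divisor K F, (∀ α ∈ repartitionsOf D, lam α = 0) → D ≤ W := by
  have hfin : Module.Finite K (H1 (0 : Divisor K F)) := h.finite_H1 0
  have hOm : FiniteDimensional K ↥(Weil.Om (0 : Divisor K F)) := Weil.finite_Om 0
  have hpos : 0 < finrank K ↥(Weil.Om (0 : Divisor K F)) := by
    rw [Weil.finrank_Om]
    exact hg
  have hbot : Weil.Om (0 : Divisor K F) ≠ ⊥ := by
    intro hb
    rw [hb, finrank_bot] at hpos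
    exact lt_irrefl _ hpos
  obtain ⟨lam, hlam, hne'⟩ := Submodule.exists_mem_ne_zero_of_ne_bot hbot
  obtain ⟨W, hW, hmax⟩ := exists_max h hlam hne'
  exact ⟨lam, W, hW, hne', hmax⟩

/-! ### the sharp non-speciality bound -/

/-- genus zero: `H¹(D) = 0` for `deg D ≥ -1`. -/
theorem ns_of_genus_zero (h : IsFF1 K F x) (hg : genusFF K F = 0) : NS K F (-1) := by
  classical
  have := h.hasPrincipalDivisors
  obtain ⟨P₀⟩ := h.exists_place
  intro D hD
  set n : ℤ := Divisor.degree D + 1 with hn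
  set D₀ : Divisor K F := D - Finsupp.single P₀ n with hD₀
  have hdeg : Divisor.degree D₀ = -1 := by
    rw [hD₀, map_sub, Divisor.degree_single, h.deg_eq_one P₀, hn]
    simp
  have hle : D₀ ≤ D := by
    rw [hD₀, sub_le_self_iff]
    refine Finsupp.le_def.2 fun v => ?_
    rw [Finsupp.zero_apply, Finsupp.single_apply]
    split_ifs
    · rw [hn]; linarith
    · exact le_rfl
  have hL : riemannRochSpace D₀ = ⊥ := Weil.L_eq_bot_of_degree_neg (by rw [hdeg]; norm_num)
  have htop : RR.MD D₀ = ⊤ := by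
    rw [MD_eq_top_iff h]
    unfold RR.cD
    rw [hL, finrank_bot, hdeg, hg]
    simp
  exact top_le_iff.1 (htop ▸ RR.MD_mono hle)

/-- **Existence of a canonical divisor with Serre duality** (any characteristic, from Weil
differentials): `deg W = 2g - 2` and `dim H¹(D) = dim L(W - D)` for all `D`. -/
theorem exists_canonical (h : IsFF1 K F x) :
    ∃ W : Divisor K F, Divisor.degree W = 2 * (genusFF K F : ℤ) - 2 ∧
      ∀ D : Divisor K F, finrank K (H1 D) = finrank K (riemannRochSpace (W - D)) := by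
  have := h.hasPrincipalDivisors
  obtain ⟨P₀⟩ := h.exists_place
  rcases Nat.eq_zero_or_pos (genusFF K F) with hg | hg
  · -- genus zero: `W = -2 P₀`
    have hns := ns_of_genus_zero h hg
    set W : Divisor K F := Finsupp.single P₀ (-2 : ℤ) with hW
    have hWdeg : Divisor.degree W = -2 := by
      rw [hW, Divisor.degree_single, h.deg_eq_one P₀]
      simp
    refine ⟨W, by rw [hWdeg, hg]; simp, fun D => ?_⟩
    have hrr := (h.riemannRoch D).2.2
    rw [hg] at hrr
    have hdegWD : Divisor.degree (W - D) = -2 - Divisor.degree D := by rw [map_sub, hWdeg]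
    rcases le_or_gt (-1) (Divisor.degree D) with hD | hD
    · have h1 : RR.MD D = ⊤ := hns D hD
      have h2 := finrank_L_of_MD h h1
      rw [hg] at h2
      have h3 : riemannRochSpace (W - D) = ⊥ :=
        Weil.L_eq_bot_of_degree_neg (by rw [hdegWD]; linarith)
      rw [h3, finrank_bot]
      have : (finrank K (H1 D) : ℤ) = 0 := by linarith
      exact_mod_cast this
    · have h1 : riemannRochSpace D = ⊥ := Weil.L_eq_bot_of_degree_neg (by linarith)
      rw [h1, finrank_bot] at hrr
      have h2 := hns.finrank_L h (D := W - D) (by rw [hdegWD]; linarith)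
      rw [hg, hdegWD] at h2
      have : (finrank K (H1 D) : ℤ) = (finrank K (riemannRochSpace (W - D)) : ℤ) := by
        push_cast at hrr h2 ⊢
        linarith
      exact_mod_cast this
  · obtain ⟨lam, W, hlam, hne, hmax⟩ := exists_weil h hg
    exact ⟨W, Weil.degree_eq h.resK P₀ h.riemannRoch hlam hne hmax h.finrank_L_zero,
      Weil.finrank_H1_eq h.resK P₀ h.riemannRoch hlam hne hmax⟩

/-- **`H¹(D) = 0` for `deg D ≥ 2g - 1`** (any characteristic). -/
theorem ns_sharp (h : IsFF1 K F x) : NS K F (2 * (genusFF K F : ℤ) - 1) := by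
  have := h.hasPrincipalDivisors
  obtain ⟨W, hWdeg, hdual⟩ := exists_canonical h
  intro D hD
  have h3 : riemannRochSpace (W - D) = ⊥ :=
    Weil.L_eq_bot_of_degree_neg (by rw [map_sub, hWdeg]; linarith)
  have h4 : finrank K (H1 D) = 0 := by rw [hdual D, h3, finrank_bot]
  have hfin : Module.Finite K (H1 D) := h.finite_H1 D
  have hsub : Subsingleton (H1 D) := Module.finrank_zero_iff.1 h4
  exact Submodule.Quotient.subsingleton_iff.1 hsub

/-- **`dim L(D) = deg D + 1 - g` for `deg D ≥ 2g - 1`**. -/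
theorem finrank_L_of_degree (h : IsFF1 K F x) {D : Divisor K F}
    (hD : 2 * (genusFF K F : ℤ) - 1 ≤ Divisor.degree D) :
    (finrank K (riemannRochSpace D) : ℤ) = Divisor.degree D + 1 - genusFF K F :=
  (ns_sharp h).finrank_L h hD

/-- **`L(D)` is base-point free for `deg D ≥ 2g`**. -/
theorem bpf_of_two_genus (h : IsFF1 K F x) {D : Divisor K F}
    (hD : 2 * (genusFF K F : ℤ) ≤ Divisor.degree D) : Bpf D :=
  bpf_of_degree h (ns_sharp h) (by linarith)

/-- **Multiplication is onto**: `L(A) · L(B) = L(A + B)` for `deg A ≥ 4g`, `deg B ≥ 2g + 1`. -/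
theorem mul_eq_sharp [Infinite K] (h : IsFF1 K F x) (A : Divisor K F)
    (hA : 4 * (genusFF K F : ℤ) ≤ Divisor.degree A) (B : Divisor K F)
    (hB : 2 * (genusFF K F : ℤ) + 1 ≤ Divisor.degree B) :
    riemannRochSpace A * riemannRochSpace B = riemannRochSpace (A + B) :=
  MultMap.mul_eq h (ns_sharp h) A (by linarith) B (by linarith)

end Fermat.Agent.Lib.FF.WeilCanonical
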